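/-
GATE-C / C5 LOCDATA-Q (helper19): the concrete local family of `(G_ℚ, levelS S)`.

* `HlcLevelEquiv` : two level systems on the same group which are mutually cofinal
  (the identity is continuous both ways) have the same level-constant cohomology, compatibly with
  restriction from a third group (`HlcRes_comp_HlcLevel`).
* LEVEL-BRIDGE: on `G_{ℚ_q}` the level system `C0.levelOf r` (`r = localGaloisToGlobal q`,
  preimages of the open subgroups of `G_ℚ`; used by C0's `HlcLoc` / `ShaLc`) and
  `Places.levelQ q` (all open subgroups of `G_{ℚ_q}`; used by Places and by the local theory) are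
  mutually cofinal (Krasner: `KR.exists_le_localLevel`).
* `locDataQ S : Cone.LocalData (levelS S)`, index set `↥S`, local groups `G_{ℚ_q}` with `levelQ q`.
* `ShaLc_eq_ker_locRes : C0.ShaLc S M n = ker (Cone.locRes (locDataQ S) M n)`.
-/
import Mathlib
import Fermat.Agent.GC.Places.Levels
import Fermat.Agent.GC.Prof.ConeLC
import Fermat.Agent.GC.C0.Sha2

set_option autoImplicit false

open CategoryTheory

noncomputable section

namespace Fermat.Agent.GC.PT.LocDataQ

open Fermat.Agent.GC.Prof Fermat.Agent.GC.Prof.Cone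

/-! ### Change of level system -/

section Abstract

universe u

variable {k G : Type u} [CommRing k] [Group G] {𝒰 𝒰' : LevelSystem G}

/-- If the identity is continuous both ways between two level systems, the pull-backs along the
identity are mutually inverse on `Hlc`. -/
theorem HlcPull_id_comp (h : IsContHom 𝒰 𝒰' (MonoidHom.id G))
    (h' : IsContHom 𝒰' 𝒰 (MonoidHom.id G)) (A : Rep.{u} k G) [IsDiscrete 𝒰 A] [IsDiscrete 𝒰' A]
    (n : ℕ) :
    HlcPull h' (A := A) (B := A) (𝟙 A) n ≫ HlcPull h (A := A) (B := A) (𝟙 A) n = 𝟙 _ := by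
  have e := HlcPull_comp h' h (A := A) (B := A) (C := A) (𝟙 A) (𝟙 A) n
  rw [← e, ← HlcPull_id (𝒰 := 𝒰) (A := A) n]
  exact HlcPull_congr _ _ rfl rfl n

/-- Mutually cofinal level systems have the same level-constant cohomology. -/
def HlcLevelEquiv (h : IsContHom 𝒰 𝒰' (MonoidHom.id G)) (h' : IsContHom 𝒰' 𝒰 (MonoidHom.id G))
    (A : Rep.{u} k G) [IsDiscrete 𝒰 A] [IsDiscrete 𝒰' A] (n : ℕ) :
    Hlc 𝒰' A n ≃ₗ[k] Hlc 𝒰 A n where
  toFun := (HlcPull h (A := A) (B := A) (𝟙 A) n).hom
  map_add' := map_add _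
  map_smul' := map_smul _
  invFun := (HlcPull h' (A := A) (B := A) (𝟙 A) n).hom
  left_inv x := by
    have := congrArg (fun φ => φ.hom x) (HlcPull_id_comp h' h A n)
    simpa using this
  right_inv x := by
    have := congrArg (fun φ => φ.hom x) (HlcPull_id_comp h h' A n)
    simpa using this

lemma HlcLevelEquiv_apply (h : IsContHom 𝒰 𝒰' (MonoidHom.id G))
    (h' : IsContHom 𝒰' 𝒰 (MonoidHom.id G)) (A : Rep.{u} k G) [IsDiscrete 𝒰 A] [IsDiscrete 𝒰' A]
    (n : ℕ) (x : Hlc 𝒰' A n) :
    HlcLevelEquiv h h' A n x = (HlcPull h (A := A) (B := A) (𝟙 A) n).hom x := rfl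

/-- Restriction from a third group is compatible with the change of level system. -/
theorem HlcRes_comp_HlcLevel {D : Type u} [Group D] {𝒲 : LevelSystem D} {r : G →* D}
    (hr : IsContHom 𝒰 𝒲 r) (hr' : IsContHom 𝒰' 𝒲 r) (h : IsContHom 𝒰 𝒰' (MonoidHom.id G))
    (A : Rep.{u} k D) [IsDiscrete 𝒲 A] [IsDiscrete 𝒰 (Rep.res r A)] [IsDiscrete 𝒰' (Rep.res r A)]
    (n : ℕ) :
    HlcRes hr' A n ≫ HlcPull h (A := Rep.res r A) (B := Rep.res r A) (𝟙 _) n = HlcRes hr A n := by
  unfold HlcRes
  have e := HlcPull_comp hr' h (A := A) (B := Rep.res r A) (C := Rep.res r A) (𝟙 _) (𝟙 _) n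
  rw [← e]
  exact HlcPull_congr _ _ rfl rfl n

end Abstract

/-! ### The two local level systems at `q` -/

open Fermat.Agent.GC.Places Fermat.Agent.GC.Local.KR Fermat.Agent.GC.C0

section Bridge

variable (q : ℕ) [Fact q.Prime]

/-- Every member of `levelOf r` contains an open subgroup of `G_{ℚ_q}`. -/
theorem isContHom_levelQ_levelOf :
    IsContHom (levelQ q) (levelOf (localGaloisToGlobal q)) (MonoidHom.id (Gq q)) := by
  rintro _ ⟨_, ⟨F, hF, rfl⟩, rfl⟩
  have := hF
  refine ⟨(localLevel q F).fixingSubgroup,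
    Fermat.Agent.GC.Local.Abs.fixingSubgroup_mem_galLevels _, fun τ hτ => ?_⟩
  exact (mem_fixingSubgroup_localLevel_iff q F τ).mpr hτ

/-- (Krasner) Every open subgroup of `G_{ℚ_q}` contains a member of `levelOf r`. -/
theorem isContHom_levelOf_levelQ :
    IsContHom (levelOf (localGaloisToGlobal q)) (levelQ q) (MonoidHom.id (Gq q)) := by
  rintro _ ⟨E, hE, rfl⟩
  have := hE
  obtain ⟨L, hL, -, hle⟩ := exists_le_localLevel q E
  refine ⟨L.fixingSubgroup.comap (localGaloisToGlobal q), ⟨_, ⟨L, hL, rfl⟩, rfl⟩, fun τ hτ => ?_⟩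
  have h1 : τ ∈ (localLevel q L).fixingSubgroup :=
    (mem_fixingSubgroup_localLevel_iff q L τ).mp hτ
  exact IntermediateField.fixingSubgroup_antitone hle h1

end Bridge

/-! ### The concrete local family -/

/-- The residue characteristic of a member of `S` is prime. -/
local instance factPrimeOfPrimes (q : Nat.Primes) : Fact ((q : ℕ).Prime) := ⟨q.2⟩

variable (S : Finset Nat.Primes)

/-- The local family of `(G_ℚ, levelS S)`: the groups `G_{ℚ_q}`, `q ∈ S`, with all their open
subgroups as levels, mapping to `G_ℚ` by `localGaloisToGlobal q`. -/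
def locDataQ : LocalData (levelS S) where
  ι := ↥S
  Gv q := Gq ((q : Nat.Primes) : ℕ)
  𝒰v q := levelQ ((q : Nat.Primes) : ℕ)
  r q := localGaloisToGlobal ((q : Nat.Primes) : ℕ)
  cont q := isContHom_localGaloisToGlobal S ((q : Nat.Primes) : ℕ)

instance : Fintype (locDataQ S).ι := inferInstanceAs (Fintype ↥S)

instance : DecidableEq (locDataQ S).ι := inferInstanceAs (DecidableEq ↥S)

theorem nonempty_locDataQ (hS : S.Nonempty) : Nonempty (locDataQ S).ι :=
  hS.to_subtype

@[simp] lemma locDataQ_r (q : ↥S) :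
    (locDataQ S).r q = localGaloisToGlobal ((q : Nat.Primes) : ℕ) := rfl

@[simp] lemma locDataQ_𝒰v (q : ↥S) : (locDataQ S).𝒰v q = levelQ ((q : Nat.Primes) : ℕ) := rfl

/-! ### `ShaLc` is the kernel of the localisation map of `locDataQ` -/

section Sha

variable {k : Type} [CommRing k] (M : Rep k GQ) [IsDiscrete (levelS S) M]

/-- The localisation at `q` used by C0 (levels `levelOf r`) vanishes on a class iff the
localisation with all open subgroups of `G_{ℚ_q}` as levels does. -/
theorem HlcLocRes_eq_zero_iff (q : ↥S) (n : ℕ) (x : Hlc (levelS S) M n) :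
    (HlcLocRes S M q.1 n).hom x = 0 ↔ locRes (locDataQ S) M n x q = 0 := by
  have h1 : IsDiscrete (levelOf (localGaloisToGlobal ((q : Nat.Primes) : ℕ)))
      (Rep.res (localGaloisToGlobal ((q : Nat.Primes) : ℕ)) M) :=
    isDiscrete_res_levelOf S M (localGaloisToGlobal ((q : Nat.Primes) : ℕ))
  have h2 : IsDiscrete (levelQ ((q : Nat.Primes) : ℕ))
      (Rep.res (localGaloisToGlobal ((q : Nat.Primes) : ℕ)) M) :=
    isDiscrete_res_localGaloisToGlobal S ((q : Nat.Primes) : ℕ) M
  have key := HlcRes_comp_HlcLevel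
    (isContHom_localGaloisToGlobal S ((q : Nat.Primes) : ℕ))
    (isContHom_levelOf (localGaloisToGlobal ((q : Nat.Primes) : ℕ)) S)
    (isContHom_levelQ_levelOf ((q : Nat.Primes) : ℕ)) M n
  have key' := congrArg (fun φ => φ.hom x) key
  simp only [ModuleCat.hom_comp, LinearMap.comp_apply] at key'
  rw [locRes_apply]
  constructor
  · intro h
    have h' : (HlcRes (isContHom_levelOf (localGaloisToGlobal ((q : Nat.Primes) : ℕ)) S) M n).hom x
        = 0 := h
    rw [h', map_zero] at key'
    exact key'.symm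
  · intro h
    have hx : (HlcLevelEquiv (isContHom_levelQ_levelOf ((q : Nat.Primes) : ℕ))
        (isContHom_levelOf_levelQ ((q : Nat.Primes) : ℕ))
        (Rep.res (localGaloisToGlobal ((q : Nat.Primes) : ℕ)) M) n)
        ((HlcRes (isContHom_levelOf (localGaloisToGlobal ((q : Nat.Primes) : ℕ)) S) M n).hom x)
        = 0 := by
      rw [HlcLevelEquiv_apply]
      exact key'.trans h
    exact (LinearEquiv.map_eq_zero_iff _).1 hx

/-- **`Ш^n` of C0 is the kernel of the localisation map of the cone framework.** -/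
theorem ShaLc_eq_ker_locRes (n : ℕ) :
    ShaLc S M n = LinearMap.ker (locRes (locDataQ S) M n) := by
  ext x
  rw [mem_ShaLc_iff, LinearMap.mem_ker]
  constructor
  · intro h
    funext q
    exact (HlcLocRes_eq_zero_iff S M q n x).1 (h q)
  · intro h q
    exact (HlcLocRes_eq_zero_iff S M q n x).2 (congrFun h q)

end Sha

end Fermat.Agent.GC.PT.LocDataQ
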