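/-
GATE-C / C5 BASE-INST easy fields (helper10): degree `0`.
* `HlcRes_zero_injective` : restriction is injective on `Hlc⁰` (invariants of `G` sit inside the
  invariants of any `G_v`);
* `injective_locRes_zero`  : the `hr0` field of `BaseInputs` for ANY coefficient module, as soon as
  there is at least one place;
* `finrank_Hlc_zero_coind_trivial` : the `hH0` field, `dim Hlc⁰(G, coind_H^G 1) = 1`.
-/
import Fermat.Agent.GC.Prof.ConeLC
import Fermat.Agent.GC.Prof.Low

set_option autoImplicit false

open CategoryTheory Module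

noncomputable section

namespace Fermat.Agent.GC.PT.BaseH0

open Fermat.Agent.GC.Prof Fermat.Agent.GC.Prof.Cone

universe u

section Res

variable {k G H : Type u} [CommRing k] [Group G] [Group H]
  {𝒰 : LevelSystem G} {𝒱 : LevelSystem H} {f : G →* H} (hf : IsContHom 𝒰 𝒱 f)

/-- Restriction is injective in degree `0`. -/
theorem HlcRes_zero_injective (A : Rep.{u} k H) [IsDiscrete 𝒱 A] [IsDiscrete 𝒰 (Rep.res f A)] :
    Function.Injective (HlcRes hf A 0) := by
  rw [injective_iff_map_eq_zero]
  intro x hx
  obtain ⟨z, hz, rfl⟩ := Hlc_exists_mk 𝒱 A x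
  rw [HlcRes_mk, HlcMk_zero_eq_zero_iff] at hx
  rw [HlcMk_zero_eq_zero_iff]
  apply Subtype.ext
  funext g
  have h1 := congrArg (fun y : lcSub 𝒰 (Rep.res f A) 0 => (y : (Fin 0 → G) → A) default) hx
  simp only [lcPullLin_coe] at h1
  have hg : g = f ∘ (default : Fin 0 → G) := Subsingleton.elim _ _
  rw [hg]
  simpa using h1

end Res

section Loc

variable {k G : Type u} [CommRing k] [Group G] {𝒰 : LevelSystem G} (L : LocalData 𝒰)

/-- `loc⁰ : Hlc⁰(G, M) → ∏_v Hlc⁰(G_v, M)` is injective as soon as there is one place. -/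
theorem injective_locRes_zero [Nonempty L.ι] (M : Rep.{u} k G) [IsDiscrete 𝒰 M] :
    Function.Injective (locRes L M 0) := by
  intro x y hxy
  obtain ⟨v⟩ := ‹Nonempty L.ι›
  have h := congrFun hxy v
  rw [locRes_apply, locRes_apply] at h
  exact HlcRes_zero_injective (L.cont v) M h

end Loc

section Coind

variable {k G : Type u} [Field k] [Group G] (𝒰 : LevelSystem G)

/-- The invariants of `coind_H^G (trivial)` are the constant functions: evaluation at `1`. -/
def coindTrivialInvariantsEquiv (H : Subgroup G) :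
    (Rep.coind H.subtype (Rep.trivial k H k)).ρ.invariants ≃ₗ[k] k where
  toFun F := (F.1.1 : G → k) 1
  map_add' F F' := rfl
  map_smul' c F := rfl
  invFun c := ⟨⟨fun _ => c, fun h g => by simp⟩, fun g => by
    apply Subtype.ext
    funext x
    rfl⟩
  left_inv F := by
    apply Subtype.ext
    apply Subtype.ext
    funext x
    have h := congrArg (fun W : (Rep.coind H.subtype (Rep.trivial k H k)) => (W.1 : G → k) 1)
      (F.2 x)
    simpa using h.symm
  right_inv c := rfl

/-- `dim Hlc⁰(G, coind_H^G 1) = 1`. -/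
theorem finrank_Hlc_zero_coind_trivial (H : Subgroup G)
    [IsDiscrete 𝒰 (Rep.coind H.subtype (Rep.trivial k H k))] :
    finrank k (Hlc 𝒰 (Rep.coind H.subtype (Rep.trivial k H k)) 0) = 1 := by
  rw [((Hlc0Equiv 𝒰 (Rep.coind H.subtype (Rep.trivial k H k))).trans
    (coindTrivialInvariantsEquiv H)).finrank_eq]
  exact finrank_self k

end Coind

end Fermat.Agent.GC.PT.BaseH0
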