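/-
GATE-C / C5 BASE-INST part I (helper19): the linear algebra used to transport the hypotheses of
`BaseFilt.good_of_euler` from `K`-language (cohomology of `G_K` and of the `G_{K_w}`) to the
coefficient module `W = coind_{G_K}^{G_ℚ}(1)` over `G_ℚ`.  Mathlib only.

* `compl₁₂_injective / _surjective / _bijective` : a bilinear form `B (μ x) (ν y)` is
  non-degenerate on the left as soon as `B` is and `μ`, `ν` are bijective;
* `piPairing Q` : the orthogonal sum `(x, y) ↦ ∑ w, Q w (x w) (y w)` of a finite family of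
  bilinear forms, and `piPairing_bijective`;
* `bijective_of_sum_decomp` : a form `P` with `P x y = ∑ w, c w * Q w (μ w x) (ν w y)`,
  `x ↦ (μ w x)_w` and `y ↦ (ν w y)_w` bijective, `c w ≠ 0`, is bijective if every `Q w` is
  (= local duality over `ℚ_q` with coefficients `W` from local duality over the `K_w`, `w ∣ q`);
* `finrank_range_eq_of_square`, `finrank_ker_eq_of_square`, `injective_iff_of_square`,
  `finrank_le_range_add_of_square` : invariants of a linear map transported along an isomorphism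
  of arrows (= `loc_W ≅ loc_K` through Shapiro / Mackey).
-/
import Mathlib

set_option autoImplicit false

open Module

namespace Fermat.Agent.GC.PT.BaseInstLA

variable {k : Type*} [Field k]

/-! ### Pull-back of a bilinear form along two linear maps -/

section Compl

variable {X Y X' Y' : Type*} [AddCommGroup X] [Module k X] [AddCommGroup Y] [Module k Y]
  [AddCommGroup X'] [Module k X'] [AddCommGroup Y'] [Module k Y']

theorem compl₁₂_injective (B : X' →ₗ[k] Y' →ₗ[k] k) (μ : X →ₗ[k] X') (ν : Y →ₗ[k] Y')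
    (hB : Function.Injective B) (hμ : Function.Injective μ) (hν : Function.Surjective ν) :
    Function.Injective (B.compl₁₂ μ ν) := by
  rw [injective_iff_map_eq_zero]
  intro x hx
  apply hμ
  rw [map_zero]
  apply hB
  rw [map_zero]
  ext y'
  obtain ⟨y, rfl⟩ := hν y'
  have := congrArg (fun f : Y →ₗ[k] k => f y) hx
  simpa using this

theorem compl₁₂_surjective (B : X' →ₗ[k] Y' →ₗ[k] k) (μ : X →ₗ[k] X') (ν : Y →ₗ[k] Y')
    (hB : Function.Surjective B) (hμ : Function.Surjective μ) (hν : Function.Injective ν) :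
    Function.Surjective (B.compl₁₂ μ ν) := by
  intro f
  obtain ⟨g, hg⟩ := LinearMap.exists_leftInverse_of_injective ν (LinearMap.ker_eq_bot.2 hν)
  obtain ⟨x', hx'⟩ := hB (f ∘ₗ g)
  obtain ⟨x, rfl⟩ := hμ x'
  refine ⟨x, ?_⟩
  ext y
  rw [LinearMap.compl₁₂_apply, hx', LinearMap.comp_apply]
  have := congrArg (fun h : Y →ₗ[k] Y => h y) hg
  simp only [LinearMap.comp_apply, LinearMap.id_apply] at this
  rw [this]

theorem compl₁₂_bijective (B : X' →ₗ[k] Y' →ₗ[k] k) (μ : X →ₗ[k] X') (ν : Y →ₗ[k] Y')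
    (hB : Function.Bijective B) (hμ : Function.Bijective μ) (hν : Function.Bijective ν) :
    Function.Bijective (B.compl₁₂ μ ν) :=
  ⟨compl₁₂_injective B μ ν hB.1 hμ.1 hν.2, compl₁₂_surjective B μ ν hB.2 hμ.2 hν.1⟩

end Compl

/-! ### Orthogonal sums of bilinear forms -/

section Pi

variable {ι : Type*} [Fintype ι]
  {Xw Yw : ι → Type*} [∀ w, AddCommGroup (Xw w)] [∀ w, Module k (Xw w)]
  [∀ w, AddCommGroup (Yw w)] [∀ w, Module k (Yw w)]

/-- The orthogonal sum of a finite family of bilinear forms. -/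
def piPairing (Q : ∀ w, Xw w →ₗ[k] Yw w →ₗ[k] k) :
    (∀ w, Xw w) →ₗ[k] (∀ w, Yw w) →ₗ[k] k :=
  ∑ w, (Q w).compl₁₂ (LinearMap.proj w) (LinearMap.proj w)

@[simp]
theorem piPairing_apply (Q : ∀ w, Xw w →ₗ[k] Yw w →ₗ[k] k) (x : ∀ w, Xw w) (y : ∀ w, Yw w) :
    piPairing Q x y = ∑ w, Q w (x w) (y w) := by
  unfold piPairing
  rw [LinearMap.sum_apply, LinearMap.sum_apply]
  rfl

variable [DecidableEq ι]

theorem piPairing_single (Q : ∀ w, Xw w →ₗ[k] Yw w →ₗ[k] k) (x : ∀ w, Xw w) (w : ι)
    (y : Yw w) : piPairing Q x (Pi.single w y) = Q w (x w) y := by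
  rw [piPairing_apply, Finset.sum_eq_single w]
  · rw [Pi.single_eq_same]
  · intro w' _ hw'
    rw [Pi.single_eq_of_ne hw', map_zero]
  · intro h
    exact absurd (Finset.mem_univ w) h

theorem piPairing_injective (Q : ∀ w, Xw w →ₗ[k] Yw w →ₗ[k] k)
    (hQ : ∀ w, Function.Injective (Q w)) : Function.Injective (piPairing Q) := by
  rw [injective_iff_map_eq_zero]
  intro x hx
  funext w
  have h0 : Q w (x w) = 0 := by
    ext y
    rw [← piPairing_single Q x w y, hx]
    rfl
  exact hQ w (h0.trans (map_zero _).symm)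

theorem piPairing_surjective (Q : ∀ w, Xw w →ₗ[k] Yw w →ₗ[k] k)
    (hQ : ∀ w, Function.Surjective (Q w)) : Function.Surjective (piPairing Q) := by
  intro f
  choose x hx using fun w => hQ w (f ∘ₗ LinearMap.single k Yw w)
  refine ⟨x, LinearMap.ext fun y => ?_⟩
  rw [piPairing_apply]
  conv_rhs => rw [← Finset.univ_sum_single y, map_sum]
  refine Finset.sum_congr rfl fun w _ => ?_
  rw [hx w]
  rfl

theorem piPairing_bijective (Q : ∀ w, Xw w →ₗ[k] Yw w →ₗ[k] k)
    (hQ : ∀ w, Function.Bijective (Q w)) : Function.Bijective (piPairing Q) :=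
  ⟨piPairing_injective Q fun w => (hQ w).1, piPairing_surjective Q fun w => (hQ w).2⟩

variable {X Y : Type*} [AddCommGroup X] [Module k X] [AddCommGroup Y] [Module k Y]

/-- **Perfectness of a sum of pairings over a product decomposition.**
If `P x y = ∑ w, c w * Q w (μ w x) (ν w y)` with `c w ≠ 0`, `x ↦ (μ w x)_w` and `y ↦ (ν w y)_w`
bijective and every `Q w` bijective (as a map to the dual), then `P` is bijective. -/
theorem bijective_of_sum_decomp (P : X →ₗ[k] Y →ₗ[k] k)
    (Q : ∀ w, Xw w →ₗ[k] Yw w →ₗ[k] k) (μ : ∀ w, X →ₗ[k] Xw w) (ν : ∀ w, Y →ₗ[k] Yw w)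
    (c : ι → k) (hc : ∀ w, c w ≠ 0)
    (hP : ∀ x y, P x y = ∑ w, c w * Q w (μ w x) (ν w y))
    (hμ : Function.Bijective (LinearMap.pi μ)) (hν : Function.Bijective (LinearMap.pi ν))
    (hQ : ∀ w, Function.Bijective (Q w)) : Function.Bijective P := by
  have hQ' : ∀ w, Function.Bijective (c w • Q w) := by
    intro w
    constructor
    · intro a b hab
      have h2 : c w • Q w a = c w • Q w b := hab
      exact (hQ w).1 (smul_right_injective _ (hc w) h2)
    · intro f
      obtain ⟨a, ha⟩ := (hQ w).2 ((c w)⁻¹ • f)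
      refine ⟨a, ?_⟩
      show c w • Q w a = f
      rw [ha, smul_smul, mul_inv_cancel₀ (hc w), one_smul]
  have hPeq : P = (piPairing fun w => c w • Q w).compl₁₂ (LinearMap.pi μ) (LinearMap.pi ν) := by
    ext x y
    rw [hP, LinearMap.compl₁₂_apply, piPairing_apply]
    rfl
  rw [hPeq]
  exact compl₁₂_bijective _ _ _ (piPairing_bijective _ hQ') hμ hν

/-- The same for the flipped form. -/
theorem flip_bijective_of_sum_decomp (P : X →ₗ[k] Y →ₗ[k] k)
    (Q : ∀ w, Xw w →ₗ[k] Yw w →ₗ[k] k) (μ : ∀ w, X →ₗ[k] Xw w) (ν : ∀ w, Y →ₗ[k] Yw w)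
    (c : ι → k) (hc : ∀ w, c w ≠ 0)
    (hP : ∀ x y, P x y = ∑ w, c w * Q w (μ w x) (ν w y))
    (hμ : Function.Bijective (LinearMap.pi μ)) (hν : Function.Bijective (LinearMap.pi ν))
    (hQ : ∀ w, Function.Bijective (Q w).flip) : Function.Bijective P.flip :=
  bijective_of_sum_decomp P.flip (fun w => (Q w).flip) ν μ c hc
    (fun y x => by rw [LinearMap.flip_apply, hP]; rfl) hν hμ hQ

end Pi

/-! ### Isomorphic arrows -/

section Square

variable {X Y X' Y' : Type*} [AddCommGroup X] [Module k X] [AddCommGroup Y] [Module k Y]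
  [AddCommGroup X'] [Module k X'] [AddCommGroup Y'] [Module k Y']
  (e : X ≃ₗ[k] X') (f : Y ≃ₗ[k] Y') (l : X →ₗ[k] Y) (l' : X' →ₗ[k] Y')

theorem range_eq_map_of_square (h : ∀ x, f (l x) = l' (e x)) :
    LinearMap.range l' = (LinearMap.range l).map f.toLinearMap := by
  ext y'
  constructor
  · rintro ⟨x', rfl⟩
    refine ⟨l (e.symm x'), ⟨_, rfl⟩, ?_⟩
    show f (l (e.symm x')) = l' x'
    rw [h, LinearEquiv.apply_symm_apply]
  · rintro ⟨_, ⟨x, rfl⟩, rfl⟩
    exact ⟨e x, (h x).symm⟩

theorem ker_eq_map_of_square (h : ∀ x, f (l x) = l' (e x)) :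
    LinearMap.ker l' = (LinearMap.ker l).map e.toLinearMap := by
  ext x'
  constructor
  · intro hx'
    refine ⟨e.symm x', ?_, e.apply_symm_apply x'⟩
    rw [SetLike.mem_coe, LinearMap.mem_ker]
    apply f.injective
    rw [h, LinearEquiv.apply_symm_apply, map_zero]
    exact hx'
  · rintro ⟨x, hx, rfl⟩
    rw [LinearMap.mem_ker]
    show l' (e x) = 0
    rw [← h, (LinearMap.mem_ker.1 hx), map_zero]

theorem finrank_range_eq_of_square (h : ∀ x, f (l x) = l' (e x)) :
    finrank k (LinearMap.range l') = finrank k (LinearMap.range l) := by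
  rw [range_eq_map_of_square e f l l' h]
  exact (f.submoduleMap (LinearMap.range l)).finrank_eq.symm

theorem finrank_ker_eq_of_square (h : ∀ x, f (l x) = l' (e x)) :
    finrank k (LinearMap.ker l') = finrank k (LinearMap.ker l) := by
  rw [ker_eq_map_of_square e f l l' h]
  exact (e.submoduleMap (LinearMap.ker l)).finrank_eq.symm

theorem injective_iff_of_square (h : ∀ x, f (l x) = l' (e x)) :
    Function.Injective l' ↔ Function.Injective l := by
  have h1 : l' = f.toLinearMap ∘ₗ l ∘ₗ e.symm.toLinearMap := by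
    ext x'
    show l' x' = f (l (e.symm x'))
    rw [h, LinearEquiv.apply_symm_apply]
  constructor
  · intro hl' x y hxy
    apply e.injective
    apply hl'
    rw [← h, ← h, hxy]
  · intro hl
    rw [h1]
    exact f.injective.comp (hl.comp e.symm.injective)

/-- `dim coker ≤ c` transported along an isomorphism of arrows (in the additive form used by
`BaseFilt.good_of_euler`). -/
theorem finrank_le_range_add_of_square (h : ∀ x, f (l x) = l' (e x)) (c : ℕ)
    (hK : finrank k Y' ≤ finrank k (LinearMap.range l') + c) :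
    finrank k Y ≤ finrank k (LinearMap.range l) + c := by
  rw [f.finrank_eq, ← finrank_range_eq_of_square e f l l' h]
  exact hK

/-- The kernel of `l` is finite-dimensional iff the kernel of `l'` is. -/
theorem finiteDimensional_ker_of_square (h : ∀ x, f (l x) = l' (e x))
    [FiniteDimensional k (LinearMap.ker l')] : FiniteDimensional k (LinearMap.ker l) := by
  have h2 : LinearMap.ker l = (LinearMap.ker l').map e.symm.toLinearMap := by
    refine ker_eq_map_of_square e.symm f.symm l' l fun x' => ?_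
    apply f.injective
    rw [LinearEquiv.apply_symm_apply, h, LinearEquiv.apply_symm_apply]
  rw [h2]
  exact (e.symm.submoduleMap (LinearMap.ker l')).finiteDimensional

end Square

/-! ### Products -/

section PiFin

variable {ι : Type*} [Fintype ι] {Xw : ι → Type*} [∀ w, AddCommGroup (Xw w)]
  [∀ w, Module k (Xw w)]

theorem finrank_pi_eq_sum [∀ w, FiniteDimensional k (Xw w)] :
    finrank k (∀ w, Xw w) = ∑ w, finrank k (Xw w) :=
  Module.finrank_pi_fintype k

end PiFin

end Fermat.Agent.GC.PT.BaseInstLA
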