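/-
GATE-C / C5 BASE-INST part III (helper19): the `K`-language ↔ `W`-language dictionary over
`(G_ℚ, levelS S, locDataQ S)`.

`K ⊆ ℚ̄` finite, unramified outside `S`; `A` a discrete `G_K`-module; `W = coind_{G_K}^{G_ℚ} A`.
* `shK n : Hlcⁿ(G_ℚ, W) ≃ Hlcⁿ(G_K, A)` (Shapiro, helper20);
* `mackK n : ∏_{q ∈ S} Hlcⁿ(G_q, W) ≃ ∏_{q ∈ S} ∏_{w ∣ q} Hlcⁿ(G_{K_w}, A)` (Mackey, helper69 PM2);
* `locK n : Hlcⁿ(G_K, A) → ∏_q ∏_{w ∣ q} Hlcⁿ(G_{K_w}, A)`, the localisation map of `K`;
* `mackK_locRes : mackK (locRes (locDataQ S) W n X) = locK (shK X)` (PM3);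
* transports: finite-dimensionality, dimensions, vanishing, `dim coker loc ≤ c`, injectivity of
  `loc`, the Euler identity — the hypotheses of `ConeBdryData.good_of_inputs` for `M = N = W` that
  do not involve pairings.
-/
import Mathlib
import Fermat.Agent.GC.Places.MackeyPi
import Fermat.Agent.GC.PT.LocDataQ
import Fermat.Agent.GC.PT.BaseInstLA

set_option autoImplicit false

open CategoryTheory Module

noncomputable section

namespace Fermat.Agent.GC.PT.BaseInstQ

open Fermat.Agent.GC.Prof Fermat.Agent.GC.Prof.Cone Fermat.Agent.GC.Places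
open Fermat.Agent.GC.Local.KR Fermat.Agent.GC.C0 Fermat.Agent.GC.PT.LocDataQ
open Fermat.Agent.GC.PT.BaseInstLA

local notation "Qb" => AlgebraicClosure ℚ

/-- The residue characteristic of a member of `S` is prime. -/
local instance factPrimeOfPrimesQ (q : Nat.Primes) : Fact ((q : ℕ).Prime) := ⟨q.2⟩

variable (S : Finset Nat.Primes) (K : IntermediateField ℚ Qb)
variable {k : Type} [Field k] (A : Rep k K.fixingSubgroup)

/-- The coinduced module `W = coind_{G_K}^{G_ℚ} A`. -/
abbrev coindK : Rep k GQ := Rep.coind K.fixingSubgroup.subtype A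

/-! ### Discreteness instances (all follow from `hK` and discreteness of `A`) -/

/-- The bundle of discreteness facts used below; `instDisc_of` produces it from
`K.IsUnramifiedOutside S` and `IsDiscrete (levelK S K) A`. -/
class InstDisc : Prop where
  dA : IsDiscrete (levelK S K) A
  dA' : IsDiscrete ((levelS S).comap K.fixingSubgroup.subtype) A
  dW : IsDiscrete (levelS S) (coindK K A)
  dWq : ∀ q : ↥S, IsDiscrete (levelQ ((q : Nat.Primes) : ℕ)) (resCoind ((q : Nat.Primes) : ℕ) K A)
  dLoc : ∀ (q : ↥S) (s : GQ), IsDiscrete (levelLoc ((q : Nat.Primes) : ℕ) K s)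
    (locCoeff ((q : Nat.Primes) : ℕ) K A s)
  dLoc' : ∀ (q : ↥S) (s : GQ),
    IsDiscrete ((levelQ ((q : Nat.Primes) : ℕ)).comap (locGroup ((q : Nat.Primes) : ℕ) K s).subtype)
      (locCoeff ((q : Nat.Primes) : ℕ) K A s)
  dFac : ∀ (q : ↥S) (s : GQ), IsDiscrete (levelQ ((q : Nat.Primes) : ℕ))
    (locFactor ((q : Nat.Primes) : ℕ) K A s)

theorem instDisc_of (hK : K.IsUnramifiedOutside S) [IsDiscrete (levelK S K) A] :
    InstDisc S K A := by
  have hfd : FiniteDimensional ℚ K := hK.1
  refine ⟨inferInstance, ‹IsDiscrete (levelK S K) A›, isDiscrete_coind_levelS S K A hK,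
    fun q => isDiscrete_resCoind S ((q : Nat.Primes) : ℕ) K A hK,
    fun q s => isDiscrete_res_locHom S ((q : Nat.Primes) : ℕ) K s A,
    fun q s => isDiscrete_res_locHom S ((q : Nat.Primes) : ℕ) K s A,
    fun q s => isDiscrete_locFactor S ((q : Nat.Primes) : ℕ) K A s⟩

attribute [instance] InstDisc.dA InstDisc.dA' InstDisc.dW InstDisc.dWq InstDisc.dLoc
  InstDisc.dLoc' InstDisc.dFac

variable [hI : InstDisc S K A]

/-- The local cohomology of `K` at the place `w ∣ q`. -/
abbrev HlcKw (q : ↥S) (w : placeIdx ((q : Nat.Primes) : ℕ) K) (n : ℕ) : ModuleCat k :=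
  Hlc (levelLoc ((q : Nat.Primes) : ℕ) K (placeRep ((q : Nat.Primes) : ℕ) K w))
    (locCoeff ((q : Nat.Primes) : ℕ) K A (placeRep ((q : Nat.Primes) : ℕ) K w)) n

/-- The localisation map of `K`: `Hlcⁿ(G_K, A) → ∏_{q ∈ S} ∏_{w ∣ q} Hlcⁿ(G_{K_w}, A)`. -/
def locK (n : ℕ) : Hlc (levelK S K) A n →ₗ[k] ∀ (q : ↥S) (w : placeIdx ((q : Nat.Primes) : ℕ) K),
    HlcKw S K A q w n :=
  LinearMap.pi fun q => LinearMap.pi fun w =>
    (HlcRes (isContHom_locHom S ((q : Nat.Primes) : ℕ) K
      (placeRep ((q : Nat.Primes) : ℕ) K w)) A n).hom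

lemma locK_apply (n : ℕ) (x : Hlc (levelK S K) A n) (q : ↥S)
    (w : placeIdx ((q : Nat.Primes) : ℕ) K) :
    locK S K A n x q w = HlcRes (isContHom_locHom S ((q : Nat.Primes) : ℕ) K
      (placeRep ((q : Nat.Primes) : ℕ) K w)) A n x := rfl

/-- Global Shapiro: `Hlcⁿ(G_ℚ, W) ≃ Hlcⁿ(G_K, A)`. -/
def shK (hK : K.IsUnramifiedOutside S) (n : ℕ) :
    Hlc (levelS S) (coindK K A) n ≃ₗ[k] Hlc (levelK S K) A n :=
  HlcShapiroEquiv (isOpenSub_fixingSubgroup S K hK) n A

lemma shK_apply (hK : K.IsUnramifiedOutside S) (n : ℕ) (x : Hlc (levelS S) (coindK K A) n) :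
    shK S K A hK n x = HlcShapiro (levelS S) K.fixingSubgroup A n x := rfl

/-- The family of local cohomology groups of `W` at the places of `ℚ` in `S`. -/
abbrev LocW (n : ℕ) : Type :=
  ∀ v : (locDataQ S).ι, @Hlc k ((locDataQ S).Gv v) _ _ ((locDataQ S).𝒰v v)
    (Rep.res ((locDataQ S).r v) (coindK K A)) ((locDataQ S).isDiscrete_res v (coindK K A)) n

/-- The family of local cohomology groups of `A` at the places of `K` above `S`. -/
abbrev LocKw (n : ℕ) : Type :=
  ∀ (q : ↥S) (w : placeIdx ((q : Nat.Primes) : ℕ) K), HlcKw S K A q w n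

variable [FiniteDimensional ℚ K]

/-- Local Mackey–Shapiro at all `q ∈ S`:
`∏_q Hlcⁿ(G_q, W) ≃ ∏_q ∏_{w ∣ q} Hlcⁿ(G_{K_w}, A)`. -/
def mackK (n : ℕ) : LocW S K A n ≃ₗ[k] LocKw S K A n :=
  LinearEquiv.piCongrRight fun q : ↥S => HlcMackey ((q : Nat.Primes) : ℕ) K A n

lemma mackK_apply (n : ℕ) (b : LocW S K A n) (q : ↥S) (w : placeIdx ((q : Nat.Primes) : ℕ) K) :
    mackK S K A n b q w =
      HlcMackeyComp ((q : Nat.Primes) : ℕ) K A (placeRep ((q : Nat.Primes) : ℕ) K w) n (b q) :=
  HlcMackey_apply ((q : Nat.Primes) : ℕ) K A n (b q) w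

/-- **The localisation square** (PM3): under Shapiro and Mackey the localisation map of `W` over
`ℚ` is the localisation map of `A` over `K`. -/
theorem mackK_locRes (hK : K.IsUnramifiedOutside S) (n : ℕ)
    (X : Hlc (levelS S) (coindK K A) n) :
    mackK S K A n (locRes (locDataQ S) (coindK K A) n X) = locK S K A n (shK S K A hK n X) := by
  funext q w
  exact HlcMackey_HlcRes S ((q : Nat.Primes) : ℕ) K A n X w

/-! ### Transports along the dictionary -/

section Transport

variable (hK : K.IsUnramifiedOutside S)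

omit [FiniteDimensional ℚ K] in
include hK in
theorem finiteDimensional_Hlc_coindK (n : ℕ) [FiniteDimensional k (Hlc (levelK S K) A n)] :
    FiniteDimensional k (Hlc (levelS S) (coindK K A) n) :=
  (shK S K A hK n).symm.finiteDimensional

omit [FiniteDimensional ℚ K] in
include hK in
theorem finrank_Hlc_coindK (n : ℕ) :
    finrank k (Hlc (levelS S) (coindK K A) n) = finrank k (Hlc (levelK S K) A n) :=
  (shK S K A hK n).finrank_eq

omit [FiniteDimensional ℚ K] in
include hK in
theorem isZero_Hlc_coindK (n : ℕ) (h : Limits.IsZero (Hlc (levelK S K) A n)) :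
    Limits.IsZero (Hlc (levelS S) (coindK K A) n) := by
  rw [ModuleCat.isZero_iff_subsingleton] at h ⊢
  exact (shK S K A hK n).toEquiv.subsingleton

theorem finiteDimensional_LocW (n : ℕ) [FiniteDimensional k (LocKw S K A n)] :
    FiniteDimensional k (LocW S K A n) :=
  (mackK S K A n).symm.finiteDimensional

theorem finrank_LocW (n : ℕ) : finrank k (LocW S K A n) = finrank k (LocKw S K A n) :=
  (mackK S K A n).finrank_eq

/-- `LocKw` is finite-dimensional if every local group of `K` has finite-dimensional `Hlcⁿ`. -/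
theorem finiteDimensional_LocKw (n : ℕ)
    [∀ (q : ↥S) (w : placeIdx ((q : Nat.Primes) : ℕ) K), FiniteDimensional k (HlcKw S K A q w n)] :
    FiniteDimensional k (LocKw S K A n) := by
  have : ∀ q : ↥S, FiniteDimensional k
      (∀ w : placeIdx ((q : Nat.Primes) : ℕ) K, HlcKw S K A q w n) := fun q => Module.Finite.pi
  exact Module.Finite.pi

include hK in
/-- The range of the localisation map of `W` has the dimension of the range of the localisation
map of `K`. -/
theorem finrank_range_locRes (n : ℕ) :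
    finrank k (LinearMap.range (locRes (locDataQ S) (coindK K A) n)) =
      finrank k (LinearMap.range (locK S K A n)) :=
  (finrank_range_eq_of_square (shK S K A hK n) (mackK S K A n)
    (locRes (locDataQ S) (coindK K A) n) (locK S K A n) (mackK_locRes S K A hK n)).symm

include hK in
/-- The kernel (`Ш`) of the localisation map of `W` has the dimension of that of `K`. -/
theorem finrank_ker_locRes (n : ℕ) :
    finrank k (LinearMap.ker (locRes (locDataQ S) (coindK K A) n)) =
      finrank k (LinearMap.ker (locK S K A n)) :=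
  (finrank_ker_eq_of_square (shK S K A hK n) (mackK S K A n)
    (locRes (locDataQ S) (coindK K A) n) (locK S K A n) (mackK_locRes S K A hK n)).symm

include hK in
/-- **`dim coker loc ≤ c`** transported from `K` to `W` (for `n = 2`, `c = 1` this is the
hypothesis `hcok` of `good_of_inputs`, i.e. (N-a)). -/
theorem finrank_LocW_le (n c : ℕ)
    (h : finrank k (LocKw S K A n) ≤ finrank k (LinearMap.range (locK S K A n)) + c) :
    finrank k (LocW S K A n) ≤
      finrank k (LinearMap.range (locRes (locDataQ S) (coindK K A) n)) + c :=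
  finrank_le_range_add_of_square (shK S K A hK n) (mackK S K A n)
    (locRes (locDataQ S) (coindK K A) n) (locK S K A n) (mackK_locRes S K A hK n) c h

include hK in
theorem locRes_injective_iff (n : ℕ) :
    Function.Injective (locRes (locDataQ S) (coindK K A) n) ↔
      Function.Injective (locK S K A n) :=
  (injective_iff_of_square (shK S K A hK n) (mackK S K A n)
    (locRes (locDataQ S) (coindK K A) n) (locK S K A n) (mackK_locRes S K A hK n)).symm

end Transport

/-! ### `loc⁰` is injective (any local family with at least one place) -/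

section LocZero

universe u

variable {k' G : Type u} [CommRing k'] [Group G] {𝒰 : LevelSystem G} (L : LocalData 𝒰)
  [Nonempty L.ι] (M : Rep.{u} k' G) [IsDiscrete 𝒰 M]

/-- `H⁰(G, M) → ∏_v H⁰(G_v, M)` is injective as soon as there is one place. -/
theorem locRes_zero_injective : Function.Injective (locRes L M 0) := by
  rw [injective_iff_map_eq_zero]
  intro x hx
  obtain ⟨y, rfl⟩ := (exact_HlcCToH_locRes L M 0 x).1 hx
  have := HlcC_zero_subsingleton L M
  rw [Subsingleton.elim y 0, map_zero]

end LocZero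

end Fermat.Agent.GC.PT.BaseInstQ
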