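/-
GATE-C / C5 BASE-INST (helper19): every open subgroup of `(G_ℚ, levelS S)` is `Gal(ℚ̄/K)` for a
finite extension `K/ℚ` unramified outside `S`.  This turns the hypothesis `base` of
`ConePairingData.sha_duality` (quantified over subgroups `H ≤ G_ℚ` containing a level) into a
statement about number fields `K ⊆ ℚ_S`.
-/
import Mathlib
import Fermat.Agent.GC.C0.Level
import Fermat.Agent.GC.Local.KrasnerDec

set_option autoImplicit false

namespace Fermat.Agent.GC.PT.OpenGK

open Fermat.Agent.GC.Prof Fermat.Agent.GC.C0

/-- An open subgroup of `(G_ℚ, levelS S)` is the absolute Galois group of a finite extension of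
`ℚ` unramified outside `S` (its fixed field). -/
theorem exists_field_eq_fixingSubgroup (S : Finset Nat.Primes) (H : Subgroup GQ)
    (hH : ∃ V ∈ (levelS S).sets, V ≤ H) :
    ∃ K : IntermediateField ℚ Qbar, K.IsUnramifiedOutside S ∧ H = K.fixingSubgroup := by
  have : IsGalois ℚ Qbar := Fermat.Agent.GC.Local.KR.isGalois_Qb
  obtain ⟨V, ⟨F, hF, rfl⟩, hVH⟩ := hH
  have hfd : FiniteDimensional ℚ F := hF.1
  -- `H` is open, hence closed
  have hopen : IsOpen (H : Set GQ) :=
    Subgroup.isOpen_mono hVH (IntermediateField.fixingSubgroup_isOpen F)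
  have hclosed : IsClosed (H : Set GQ) := Subgroup.isClosed_of_isOpen H hopen
  refine ⟨IntermediateField.fixedField H, ?_, ?_⟩
  · refine IntermediateField.IsUnramifiedOutside.of_le ?_ hF
    have h1 := IntermediateField.fixedField_antitone hVH
    rwa [InfiniteGalois.fixedField_fixingSubgroup F] at h1
  · exact (InfiniteGalois.fixingSubgroup_fixedField (⟨H, hclosed⟩ : ClosedSubgroup GQ)).symm

end Fermat.Agent.GC.PT.OpenGK
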