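/-
GATE-C / C5 BASE-INST part IV (helper19): the `BaseInputs` of `BaseFinal.lean` for the permutation
modules `W = coind_{G_K}^{G_ℚ}(1)` over `(G_ℚ, levelS S, locDataQ S)`, from hypotheses in
`K`-language (`BaseInputsK`): finiteness and vanishing of `Hlc(G_K, k)`, local duality over the
completions `K_w`, `dim coker loc² ≤ 1` and the counting inequality (C1) over `K`.
-/
import Mathlib
import Fermat.Agent.GC.PT.BaseInstQ
import Fermat.Agent.GC.PT.BaseH0
import Fermat.Agent.GC.PT.MainFinal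
import Fermat.Agent.GC.PT.OpenGK
import Fermat.Agent.GC.Prof.CoindTrivDualSymm
import Fermat.Agent.GC.Prof.MackeyCup

set_option autoImplicit false
set_option linter.unusedSectionVars false

open CategoryTheory Module

noncomputable section

namespace Fermat.Agent.GC.PT.BaseInputsQ

open Fermat.Agent.GC.Prof Fermat.Agent.GC.Prof.Cone Fermat.Agent.GC.Places
open Fermat.Agent.GC.Local.KR Fermat.Agent.GC.C0 Fermat.Agent.GC.PT.LocDataQ
open Fermat.Agent.GC.PT.BaseInstLA Fermat.Agent.GC.PT.BaseInstQ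
open Fermat.Agent.GC.Prof.Cup (Equivariant)

local notation "Qb" => AlgebraicClosure ℚ

/-- The trivial `G_K`-module `k`. -/
abbrev trivK (k : Type) [Field k] (K : IntermediateField ℚ Qb) : Rep k K.fixingSubgroup :=
  Rep.trivial k K.fixingSubgroup k

/-- `G_K` has finite index in `G_ℚ`. -/
theorem finiteIndex_fixingSubgroup (K : IntermediateField ℚ Qb) [FiniteDimensional ℚ K] :
    K.fixingSubgroup.FiniteIndex := by
  have : IsGalois ℚ Qb := isGalois_Qb
  refine ⟨?_⟩
  rw [← IntermediateField.finrank_eq_fixingSubgroup_index]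
  exact Module.finrank_pos.ne'

/-! ### One prime `q`: the Mackey decomposition of the local pairing -/

section OnePrime

variable (q : ℕ) [Fact q.Prime] (K : IntermediateField ℚ Qb) [FiniteDimensional ℚ K]
variable {k : Type} [Field k] (χ : GQ →* kˣ)

/-- `k(χ)` as a module over `G_{ℚ_q}`. -/
abbrev chiQ : Rep k (Gq q) := Rep.res (localGaloisToGlobal q) (chiRep χ)

/-- `k(χ)` as a module over the local group of `K` at the place `ι ∘ s`. -/
abbrev chiW (s : GQ) : Rep k (locGroup q K s) := Rep.res (locGroup q K s).subtype (chiQ q χ)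

attribute [local instance] finiteIndex_fixingSubgroup

/-- The local groups of `K` have finite index in `G_{ℚ_q}`. -/
local instance finiteIndex_locGroup (s : GQ) : (locGroup q K s).FiniteIndex :=
  (isOpenSub_locGroup q K s).finiteIndex

variable (hχK : ∀ s : K.fixingSubgroup, χ (s : GQ) = 1)

variable
  [IsDiscrete (levelQ q) (resCoind q K (trivK k K))]
  [∀ w : placeIdx q K, IsDiscrete (levelLoc q K (placeRep q K w))
    (locCoeff q K (trivK k K) (placeRep q K w))]
  [∀ w : placeIdx q K, IsDiscrete ((levelQ q).comap (locGroup q K (placeRep q K w)).subtype)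
    (locCoeff q K (trivK k K) (placeRep q K w))]
  [∀ w : placeIdx q K, IsDiscrete (levelQ q) (locFactor q K (trivK k K) (placeRep q K w))]
  [IsDiscrete (levelQ q) (chiQ q χ)]
  [∀ w : placeIdx q K, IsDiscrete (levelLoc q K (placeRep q K w)) (chiW q K χ (placeRep q K w))]
  [∀ w : placeIdx q K, IsDiscrete ((levelQ q).comap (locGroup q K (placeRep q K w)).subtype)
    (chiW q K χ (placeRep q K w))]
  [∀ w : placeIdx q K, IsDiscrete (levelQ q)
    (Rep.coind (locGroup q K (placeRep q K w)).subtype (chiW q K χ (placeRep q K w)))]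

/-- The multiplication pairing `k × k → k(χ)` over the local group of `K` at `w` (twisted by
`χ(s_w)`, as it comes out of the Mackey decomposition). -/
abbrev mulW (w : placeIdx q K) :
    locCoeff q K (trivK k K) (placeRep q K w) →ₗ[k]
      locCoeff q K (trivK k K) (placeRep q K w) →ₗ[k] chiW q K χ (placeRep q K w) :=
  mackeyB (r := localGaloisToGlobal q) (mulS K.fixingSubgroup χ) (placeRep q K w)⁻¹
    (locGroup q K (placeRep q K w)) (locHom q K (placeRep q K w))

include hχK in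
theorem mulW_equivariant (w : placeIdx q K) :
    Equivariant (locCoeff q K (trivK k K) (placeRep q K w)).ρ
      (locCoeff q K (trivK k K) (placeRep q K w)).ρ (chiW q K χ (placeRep q K w)).ρ
      (mulW q K χ w) :=
  mackeyB_equivariant (mulS K.fixingSubgroup χ) (mulS_equivariant K.fixingSubgroup χ hχK)
    (locHom_mul_inv q K (placeRep q K w))

/-- **The local pairing over `K_w`**:
`(β, γ) ↦ τ_q (cor_{K_w/ℚ_q} (β ∪ γ))` on `Hlcⁱ(G_{K_w}, k) × Hlcʲ(G_{K_w}, k)`. -/
def QK (w : placeIdx q K) {i j : ℕ} (h : i + j = 2)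
    (τq : Hlc (levelQ q) (chiQ q χ) 2 →ₗ[k] k) :
    Hlc (levelLoc q K (placeRep q K w)) (locCoeff q K (trivK k K) (placeRep q K w)) i →ₗ[k]
      Hlc (levelLoc q K (placeRep q K w)) (locCoeff q K (trivK k K) (placeRep q K w)) j →ₗ[k] k :=
  (HlcCup (levelLoc q K (placeRep q K w)) (mulW q K χ w) (mulW_equivariant q K χ hχK w) h).compr₂
    (τq ∘ₗ (HlcCor (chiQ q χ) (isOpenSub_locGroup q K (placeRep q K w)) 2).hom)

lemma QK_apply (w : placeIdx q K) {i j : ℕ} (h : i + j = 2)
    (τq : Hlc (levelQ q) (chiQ q χ) 2 →ₗ[k] k)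
    (β : Hlc (levelLoc q K (placeRep q K w)) (locCoeff q K (trivK k K) (placeRep q K w)) i)
    (γ : Hlc (levelLoc q K (placeRep q K w)) (locCoeff q K (trivK k K) (placeRep q K w)) j) :
    QK q K χ hχK w h τq β γ =
      τq (HlcCor (chiQ q χ) (isOpenSub_locGroup q K (placeRep q K w)) 2
        (HlcCup (levelLoc q K (placeRep q K w)) (mulW q K χ w) (mulW_equivariant q K χ hχK w) h
          β γ)) := rfl

/-- The trace pairing `W × W → k(χ)` of the multiplication, `W = coind_{G_K}^{G_ℚ}(1)`. -/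
abbrev trB : Rep.coind K.fixingSubgroup.subtype (trivK k K) →ₗ[k]
    Rep.coind K.fixingSubgroup.subtype (trivK k K) →ₗ[k] chiRep χ :=
  coindTr K.fixingSubgroup (P := chiRep χ) (mulS K.fixingSubgroup χ)
    (mulS_equivariant K.fixingSubgroup χ hχK)

/-- **MACKEY-CUP at `q`** (helper20's `HlcCup_mackey` at helper69's places), after applying a
functional `τ_q` on `Hlc²(G_{ℚ_q}, k(χ))`:
`τ_q (X ∪ Y) = ∑_{w ∣ q} Q_w (X_w, Y_w)`. -/
theorem tau_HlcCup_eq_sum [Fintype (placeIdx q K)] {i j : ℕ} (h : i + j = 2)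
    (τq : Hlc (levelQ q) (chiQ q χ) 2 →ₗ[k] k)
    (X : Hlc (levelQ q) (resCoind q K (trivK k K)) i)
    (Y : Hlc (levelQ q) (resCoind q K (trivK k K)) j) :
    τq (HlcCup (levelQ q) (M := resCoind q K (trivK k K)) (N := resCoind q K (trivK k K))
        (P := chiQ q χ) (trB K χ hχK)
        (Equivariant_res (f := localGaloisToGlobal q)
          (coindTr_equivariant K.fixingSubgroup (mulS K.fixingSubgroup χ)
            (mulS_equivariant K.fixingSubgroup χ hχK))) h X Y) =
      ∑ w, 1 * QK q K χ hχK w h τq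
        (HlcMackeyComp q K (trivK k K) (placeRep q K w) i X)
        (HlcMackeyComp q K (trivK k K) (placeRep q K w) j Y) := by
  have hfull : ∀ (w : placeIdx q K) (d : Gq q),
      (placeRep q K w)⁻¹ * localGaloisToGlobal q d * ((placeRep q K w)⁻¹)⁻¹ ∈ K.fixingSubgroup →
        d ∈ locGroup q K (placeRep q K w) := by
    intro w d hd
    rw [inv_inv] at hd
    exact (mem_locGroup_iff q K (placeRep q K w) d).2 hd
  have hcov : ∀ g : GQ, ∃ w : placeIdx q K, ∃ h ∈ K.fixingSubgroup, ∃ d : Gq q,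
      g = h * (placeRep q K w)⁻¹ * localGaloisToGlobal q d := by
    intro g
    obtain ⟨w, h, d, e⟩ := exists_eq_mul_inv_placeRep_mul q K g
    exact ⟨w, h, h.2, d, e⟩
  have hdisj : ∀ (w w' : placeIdx q K), ∀ h ∈ K.fixingSubgroup, ∀ d : Gq q,
      h * (placeRep q K w)⁻¹ * localGaloisToGlobal q d = (placeRep q K w')⁻¹ → w = w' := by
    intro w w' h hh d e
    refine eq_of_mul_inv_placeRep_mul_eq q K (h := ⟨h, hh⟩) (h' := 1) (d := d) (d' := 1) ?_
    rw [e]
    simp
  have hM := HlcCup_mackey (r := localGaloisToGlobal q) (H := K.fixingSubgroup)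
    (N := trivK k K) (N' := trivK k K) (P := chiRep χ)
    (mulS K.fixingSubgroup χ) (mulS_equivariant K.fixingSubgroup χ hχK)
    (fun w : placeIdx q K => (placeRep q K w)⁻¹)
    (fun w => locGroup q K (placeRep q K w))
    (fun w => locHom q K (placeRep q K w))
    (fun w => locHom_mul_inv q K (placeRep q K w))
    (levelQ q)
    (fun w => isOpenSub_locGroup q K (placeRep q K w))
    hfull hcov hdisj h X Y
  rw [hM, map_sum]
  refine Finset.sum_congr rfl fun w _ => ?_
  rw [one_mul, QK_apply, HlcMackeyComp_eq_mackeyμ, HlcMackeyComp_eq_mackeyμ]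
  rfl

/-- The local pairing at `q` for `W = coind_{G_K}^{G_ℚ}(1)`: `(X, Y) ↦ τ_q (X ∪ Y)`. -/
def lamQ {i j : ℕ} (h : i + j = 2) (τq : Hlc (levelQ q) (chiQ q χ) 2 →ₗ[k] k) :
    Hlc (levelQ q) (resCoind q K (trivK k K)) i →ₗ[k]
      Hlc (levelQ q) (resCoind q K (trivK k K)) j →ₗ[k] k :=
  (HlcCup (levelQ q) (M := resCoind q K (trivK k K)) (N := resCoind q K (trivK k K))
    (P := chiQ q χ) (trB K χ hχK)
    (Equivariant_res (f := localGaloisToGlobal q)
      (coindTr_equivariant K.fixingSubgroup (mulS K.fixingSubgroup χ)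
        (mulS_equivariant K.fixingSubgroup χ hχK))) h).compr₂ τq

lemma pi_HlcMackeyComp_bijective (n : ℕ) :
    Function.Bijective (LinearMap.pi fun w : placeIdx q K =>
      (HlcMackeyComp q K (trivK k K) (placeRep q K w) n).hom) := by
  have e : (LinearMap.pi fun w : placeIdx q K =>
      (HlcMackeyComp q K (trivK k K) (placeRep q K w) n).hom) =
      (HlcMackey q K (trivK k K) n).toLinearMap := by
    refine LinearMap.ext fun X => funext fun w => ?_
    exact (HlcMackey_apply q K (trivK k K) n X w).symm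
  rw [e]
  exact (HlcMackey q K (trivK k K) n).bijective

/-- **Local duality at `q` for `W`** from local duality over the completions `K_w`, `w ∣ q`. -/
theorem lamQ_bijective {i j : ℕ} (h : i + j = 2) (τq : Hlc (levelQ q) (chiQ q χ) 2 →ₗ[k] k)
    (hQ : ∀ w, Function.Bijective (QK q K χ hχK w h τq)) :
    Function.Bijective (lamQ q K χ hχK h τq) := by
  letI : Fintype (placeIdx q K) := Fintype.ofFinite _
  letI : DecidableEq (placeIdx q K) := Classical.decEq _
  exact bijective_of_sum_decomp (lamQ q K χ hχK h τq) (fun w => QK q K χ hχK w h τq)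
    (fun w => (HlcMackeyComp q K (trivK k K) (placeRep q K w) i).hom)
    (fun w => (HlcMackeyComp q K (trivK k K) (placeRep q K w) j).hom)
    (fun _ => 1) (fun _ => one_ne_zero) (fun X Y => tau_HlcCup_eq_sum q K χ hχK h τq X Y)
    (pi_HlcMackeyComp_bijective q K i) (pi_HlcMackeyComp_bijective q K j) hQ

end OnePrime

/-! ### All primes of `S`: the `BaseInputs` of `W = coind_{G_K}^{G_ℚ}(1)` -/

section Assembly

open Fermat.Agent.GC.PT.Triples Fermat.Agent.GC.PT.MainInst

/-- The residue characteristic of a member of `S` is prime. -/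
local instance factPrimeOfPrimesI (q : Nat.Primes) : Fact ((q : ℕ).Prime) := ⟨q.2⟩

attribute [local instance] finiteIndex_fixingSubgroup

variable (S : Finset Nat.Primes) (K : IntermediateField ℚ Qb)
variable {k : Type} [Field k] (χ : GQ →* kˣ)

/-- The discreteness facts about `k(χ)` at the places of `K` above `S`; `chiDisc_of` produces them
from `IsDiscrete (levelS S) (chiRep χ)`. -/
class ChiDisc : Prop where
  dG : IsDiscrete (levelS S) (chiRep χ)
  dQ : ∀ q : ↥S, IsDiscrete (levelQ ((q : Nat.Primes) : ℕ)) (chiQ ((q : Nat.Primes) : ℕ) χ)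
  dW : ∀ (q : ↥S) (s : GQ), IsDiscrete (levelLoc ((q : Nat.Primes) : ℕ) K s)
    (chiW ((q : Nat.Primes) : ℕ) K χ s)
  dW' : ∀ (q : ↥S) (s : GQ),
    IsDiscrete ((levelQ ((q : Nat.Primes) : ℕ)).comap (locGroup ((q : Nat.Primes) : ℕ) K s).subtype)
      (chiW ((q : Nat.Primes) : ℕ) K χ s)
  dC : ∀ (q : ↥S) (s : GQ), IsDiscrete (levelQ ((q : Nat.Primes) : ℕ))
    (Rep.coind (locGroup ((q : Nat.Primes) : ℕ) K s).subtype (chiW ((q : Nat.Primes) : ℕ) K χ s))

theorem chiDisc_of [FiniteDimensional ℚ K] [IsDiscrete (levelS S) (chiRep χ)] :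
    ChiDisc S K χ := by
  have hQ : ∀ q : ↥S, IsDiscrete (levelQ ((q : Nat.Primes) : ℕ))
      (chiQ ((q : Nat.Primes) : ℕ) χ) :=
    fun q => isDiscrete_res_localGaloisToGlobal S ((q : Nat.Primes) : ℕ) (chiRep χ)
  have hW : ∀ (q : ↥S) (s : GQ), IsDiscrete (levelLoc ((q : Nat.Primes) : ℕ) K s)
      (chiW ((q : Nat.Primes) : ℕ) K χ s) := fun q s =>
    haveI := hQ q
    IsDiscrete.res (isContHom_subtype_levelLoc ((q : Nat.Primes) : ℕ) K s) _
  refine ⟨inferInstance, hQ, hW, hW, fun q s => ?_⟩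
  haveI : IsDiscrete ((levelQ ((q : Nat.Primes) : ℕ)).comap
      (locGroup ((q : Nat.Primes) : ℕ) K s).subtype) (chiW ((q : Nat.Primes) : ℕ) K χ s) := hW q s
  exact isDiscrete_coind (isOpenSub_locGroup ((q : Nat.Primes) : ℕ) K s) _

attribute [instance] ChiDisc.dG ChiDisc.dQ ChiDisc.dW ChiDisc.dW' ChiDisc.dC

variable [FiniteDimensional ℚ K] [hI : InstDisc S K (trivK k K)] [hC : ChiDisc S K χ]
  (hχK : ∀ s : K.fixingSubgroup, χ (s : GQ) = 1)

/-! Instance search does not see through `InstDisc` for the concrete coefficient module `trivK k K`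
(the discrimination tree unfolds `Rep.coind`/`Rep.res` of a concrete module further than the
pattern); restate the instances for it. -/

omit [FiniteDimensional ℚ K] in
local instance instTrivA : IsDiscrete (levelK S K) (trivK k K) := hI.dA

omit [FiniteDimensional ℚ K] in
local instance instTrivA' :
    IsDiscrete ((levelS S).comap K.fixingSubgroup.subtype) (trivK k K) := hI.dA'

omit [FiniteDimensional ℚ K] in
local instance instTrivW : IsDiscrete (levelS S) (coindK K (trivK k K)) := hI.dW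

omit [FiniteDimensional ℚ K] in
local instance instTrivWq (q : ↥S) : IsDiscrete (levelQ ((q : Nat.Primes) : ℕ))
    (resCoind ((q : Nat.Primes) : ℕ) K (trivK k K)) := hI.dWq q

omit [FiniteDimensional ℚ K] in
local instance instTrivLoc (q : ↥S) (s : GQ) : IsDiscrete (levelLoc ((q : Nat.Primes) : ℕ) K s)
    (locCoeff ((q : Nat.Primes) : ℕ) K (trivK k K) s) := hI.dLoc q s

omit [FiniteDimensional ℚ K] in
local instance instTrivLoc' (q : ↥S) (s : GQ) :
    IsDiscrete ((levelQ ((q : Nat.Primes) : ℕ)).comap (locGroup ((q : Nat.Primes) : ℕ) K s).subtype)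
      (locCoeff ((q : Nat.Primes) : ℕ) K (trivK k K) s) := hI.dLoc' q s

omit [FiniteDimensional ℚ K] in
local instance instTrivFac (q : ↥S) (s : GQ) : IsDiscrete (levelQ ((q : Nat.Primes) : ℕ))
    (locFactor ((q : Nat.Primes) : ℕ) K (trivK k K) s) := hI.dFac q s

/-- A functional on `∏_{q ∈ S} Hlc²(G_{ℚ_q}, k(χ))`, restricted to the factor at `q`. -/
def tauAt (τ : (∀ v, Hlc ((locDataQ S).𝒰v v) (Rep.res ((locDataQ S).r v) (chiRep χ)) 2) →ₗ[k] k)
    (q : ↥S) : Hlc (levelQ ((q : Nat.Primes) : ℕ)) (chiQ ((q : Nat.Primes) : ℕ) χ) 2 →ₗ[k] k :=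
  τ ∘ₗ LinearMap.single k
    (fun v : (locDataQ S).ι => Hlc ((locDataQ S).𝒰v v) (Rep.res ((locDataQ S).r v) (chiRep χ)) 2) q

omit [FiniteDimensional ℚ K] hI in
lemma tau_eq_sum
    (τ : (∀ v, Hlc ((locDataQ S).𝒰v v) (Rep.res ((locDataQ S).r v) (chiRep χ)) 2) →ₗ[k] k)
    (e : ∀ v, Hlc ((locDataQ S).𝒰v v) (Rep.res ((locDataQ S).r v) (chiRep χ)) 2) :
    τ e = ∑ q : ↥S, tauAt S K χ τ q (e q) := by
  conv_lhs => rw [← Finset.univ_sum_single e, map_sum]
  rfl

/-- **The `K`-language inputs of BASE** for one field `K ⊆ ℚ_S` with `χ|_{G_K} = 1`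
(coefficients `A = k` trivial, `τ` the reciprocity functional over `ℚ`). -/
structure BaseInputsK
    (τ : (∀ v, Hlc ((locDataQ S).𝒰v v) (Rep.res ((locDataQ S).r v) (chiRep χ)) 2) →ₗ[k] k) :
    Prop where
  fin1 : FiniteDimensional k (Hlc (levelK S K) (trivK k K) 1)
  fin2 : FiniteDimensional k (Hlc (levelK S K) (trivK k K) 2)
  h3 : Limits.IsZero (Hlc (levelK S K) (trivK k K) 3)
  finLoc1 : ∀ (q : ↥S) (w : placeIdx ((q : Nat.Primes) : ℕ) K),
    FiniteDimensional k (HlcKw S K (trivK k K) q w 1)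
  finLoc2 : ∀ (q : ↥S) (w : placeIdx ((q : Nat.Primes) : ℕ) K),
    FiniteDimensional k (HlcKw S K (trivK k K) q w 2)
  dual02 : ∀ (q : ↥S) (w : placeIdx ((q : Nat.Primes) : ℕ) K), Function.Bijective
    (QK ((q : Nat.Primes) : ℕ) K χ hχK w (show 0 + 2 = 2 from rfl) (tauAt S K χ τ q))
  dual11 : ∀ (q : ↥S) (w : placeIdx ((q : Nat.Primes) : ℕ) K), Function.Bijective
    (QK ((q : Nat.Primes) : ℕ) K χ hχK w (show 1 + 1 = 2 from rfl) (tauAt S K χ τ q))
  dual20 : ∀ (q : ↥S) (w : placeIdx ((q : Nat.Primes) : ℕ) K), Function.Bijective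
    (QK ((q : Nat.Primes) : ℕ) K χ hχK w (show 2 + 0 = 2 from rfl) (tauAt S K χ τ q))
  cokK : finrank k (LocKw S K (trivK k K) 2) ≤
    finrank k (LinearMap.range (locK S K (trivK k K) 2)) + 1
  c1K : finrank k (LocKw S K (trivK k K) 1) +
      2 * finrank k (LinearMap.ker (locK S K (trivK k K) 2)) ≤
    2 * finrank k (Hlc (levelK S K) (trivK k K) 1)

/-- The trace pairing, `k`-valued. -/
def trBk : coindK K (trivK k K) →ₗ[k] coindK K (trivK k K) →ₗ[k] k := trB K χ hχK

omit hI hC in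
theorem isChiPairing_trBk : IsChiPairing χ (trBk K χ hχK) := fun g m n =>
  coindTr_equivariant K.fixingSubgroup (mulS K.fixingSubgroup χ)
    (mulS_equivariant K.fixingSubgroup χ hχK) g m n

omit hI hC in
theorem trBk_flip : (trBk K χ hχK).flip = trBk K χ hχK :=
  coindTr_mulS_flip K.fixingSubgroup χ hχK

omit hI hC in
theorem evB_coindTrivDualIso (m n : coindK K (trivK k K)) :
    evB χ (coindK K (trivK k K)) m ((coindTrivDualIso K.fixingSubgroup χ hχK).hom.hom n) =
      trBk K χ hχK m n :=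
  evPair_coindTrivDualIso K.fixingSubgroup χ hχK m n

omit [FiniteDimensional ℚ K] in
local instance instTrivRes (v : (locDataQ S).ι) : IsDiscrete ((locDataQ S).𝒰v v)
    (Rep.res ((locDataQ S).r v) (coindK K (trivK k K))) :=
  (locDataQ S).isDiscrete_res v _

/-- **Local perfectness for `W`**: a pairing on `∏_{q ∈ S} Hlc(G_{ℚ_q}, W)` given by
`(b, c) ↦ τ ((b_q ∪ c_q)_q)` is perfect as soon as the local pairings over all completions `K_w`,
`w ∣ q ∈ S`, are. -/
theorem bijective_of_lamFormula {i j : ℕ} (h : i + j = 2)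
    (τ : (∀ v, Hlc ((locDataQ S).𝒰v v) (Rep.res ((locDataQ S).r v) (chiRep χ)) 2) →ₗ[k] k)
    (lam : LocW S K (trivK k K) i →ₗ[k] LocW S K (trivK k K) j →ₗ[k] k)
    (hlam : ∀ b c, lam b c = τ fun v => HlcCup ((locDataQ S).𝒰v v)
      (locB (locDataQ S) (toChi χ (trBk K χ hχK)) v)
      (equivariant_locB (locDataQ S) (equivariant_toChi (isChiPairing_trBk K χ hχK)) v) h
      (b v) (c v))
    (hQ : ∀ (q : ↥S) (w : placeIdx ((q : Nat.Primes) : ℕ) K), Function.Bijective
      (QK ((q : Nat.Primes) : ℕ) K χ hχK w h (tauAt S K χ τ q))) :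
    Function.Bijective lam := by
  have e : lam = piPairing (fun q : ↥S =>
      lamQ ((q : Nat.Primes) : ℕ) K χ hχK h (tauAt S K χ τ q)) := by
    refine LinearMap.ext fun b => LinearMap.ext fun c => ?_
    rw [hlam, tau_eq_sum S K χ τ]
    exact (piPairing_apply (fun q : ↥S =>
      lamQ ((q : Nat.Primes) : ℕ) K χ hχK h (tauAt S K χ τ q)) b c).symm
  rw [e]
  exact piPairing_bijective _ fun q =>
    lamQ_bijective ((q : Nat.Primes) : ℕ) K χ hχK h (tauAt S K χ τ q) (hQ q)

/-- **BASE-INST**: the `BaseInputs` of `W = coind_{G_K}^{G_ℚ}(1)` from the `K`-language inputs. -/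
theorem nonempty_baseInputs (hK : K.IsUnramifiedOutside S) [Nonempty (locDataQ S).ι]
    (τ : (∀ v, Hlc ((locDataQ S).𝒰v v) (Rep.res ((locDataQ S).r v) (chiRep χ)) 2) →ₗ[k] k)
    {D : ConePairingData (locDataQ S) χ} (E : ConeBdryData D) (hE : LamFormulas τ E)
    (I : BaseInputsK S K χ hχK τ) :
    Nonempty (BaseInputs E (coindK K (trivK k K))) := by
  have := I.fin1
  have := I.fin2
  have := I.finLoc1
  have := I.finLoc2
  have fLK1 := finiteDimensional_LocKw S K (trivK k K) 1
  have fLK2 := finiteDimensional_LocKw S K (trivK k K) 2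
  refine ⟨{
    B := trBk K χ hχK
    hB := isChiPairing_trBk K χ hχK
    symm := trBk_flip K χ hχK
    ψ := coindTrivDualIso K.fixingSubgroup χ hχK
    hψ := evB_coindTrivDualIso K χ hχK
    fin_H1 := finiteDimensional_Hlc_coindK S K _ hK 1
    fin_L1 := finiteDimensional_LocW S K _ 1
    fin_H2 := finiteDimensional_Hlc_coindK S K _ hK 2
    fin_L2 := finiteDimensional_LocW S K _ 2
    h3 := isZero_Hlc_coindK S K _ hK 3 I.h3
    hH0 := BaseH0.finrank_Hlc_zero_coind_trivial (levelS S) K.fixingSubgroup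
    hr0 := BaseH0.injective_locRes_zero (locDataQ S) _
    hlam02 := bijective_of_lamFormula S K χ hχK rfl τ _ (hE.1 _ _ _ _) I.dual02
    hlam11 := bijective_of_lamFormula S K χ hχK rfl τ _ (hE.2.1 _ _ _ _) I.dual11
    hlam20 := bijective_of_lamFormula S K χ hχK rfl τ _ (hE.2.2 _ _ _ _) I.dual20
    hcok := finrank_LocW_le S K _ hK 2 1 I.cokK
    hC1 := ?_ }⟩
  have h1 := finrank_LocW S K (trivK k K) 1
  have h2 := finrank_ker_locRes S K (trivK k K) hK 2
  have h3 := finrank_Hlc_coindK S K (trivK k K) hK 1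
  have h4 := I.c1K
  show finrank k (LocW S K (trivK k K) 1) +
      2 * finrank k (LinearMap.ker (locRes (locDataQ S) (coindK K (trivK k K)) 2)) ≤
    2 * finrank k (Hlc (levelS S) (coindK K (trivK k K)) 1)
  rw [h1, h2, h3]
  exact h4

end Assembly

/-! ### The `inputs` argument of `MainInst.sha_duality_of_inputs` -/

section Final

open Fermat.Agent.GC.PT.Triples Fermat.Agent.GC.PT.MainInst

variable (S : Finset Nat.Primes) {k : Type} [Field k] (χ : GQ →* kˣ)
  [IsDiscrete (levelS S) (chiRep χ)]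

/-- The `K`-language inputs of BASE at every finite `K ⊆ ℚ_S` with `χ|_{G_K} = 1`. -/
def InputsK
    (τ : (∀ v, Hlc ((locDataQ S).𝒰v v) (Rep.res ((locDataQ S).r v) (chiRep χ)) 2) →ₗ[k] k) :
    Prop :=
  ∀ (K : IntermediateField ℚ Qb) [FiniteDimensional ℚ K] [InstDisc S K (trivK k K)]
    [ChiDisc S K χ], K.IsUnramifiedOutside S → ∀ hχK : (∀ s : K.fixingSubgroup, χ (s : GQ) = 1),
      BaseInputsK S K χ hχK τ

variable [Nonempty (locDataQ S).ι]

theorem nonempty_inputs_of_K
    (τ : (∀ v, Hlc ((locDataQ S).𝒰v v) (Rep.res ((locDataQ S).r v) (chiRep χ)) 2) →ₗ[k] k)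
    (IK : InputsK S χ τ) {D : ConePairingData (locDataQ S) χ} (E : ConeBdryData D)
    (hE : LamFormulas τ E) (H : Subgroup GQ) (hH : IsOpenSub (levelS S) H)
    (hχH : ∀ g ∈ H, χ g = 1)
    [hd : IsDiscrete (levelS S) (Rep.coind H.subtype (Rep.trivial k H k))] :
    Nonempty (BaseInputs E (Rep.coind H.subtype (Rep.trivial k H k))) := by
  obtain ⟨K, hK, hHK⟩ := OpenGK.exists_field_eq_fixingSubgroup S H hH
  revert hd
  subst hHK
  intro hd
  have hfd : FiniteDimensional ℚ K := hK.1
  have hχK : ∀ s : K.fixingSubgroup, χ (s : GQ) = 1 := fun s => hχH s s.2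
  haveI : IsDiscrete (levelK S K) (trivK k K) := Kill.isDiscrete_trivial k (levelK S K)
  haveI := instDisc_of S K (trivK k K) hK
  haveI := chiDisc_of S K χ
  exact nonempty_baseInputs S K χ hχK hK τ E hE (IK K hK hχK)

/-- **The `inputs` of `sha_duality_of_inputs` over `(G_ℚ, levelS S, locDataQ S)`** from the
`K`-language inputs. -/
def inputs_of_K
    (τ : (∀ v, Hlc ((locDataQ S).𝒰v v) (Rep.res ((locDataQ S).r v) (chiRep χ)) 2) →ₗ[k] k)
    (IK : InputsK S χ τ) (D : ConePairingData (locDataQ S) χ) (E : ConeBdryData D)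
    (hE : LamFormulas τ E) (H : Subgroup GQ) (hH : IsOpenSub (levelS S) H)
    (hχH : ∀ g ∈ H, χ g = 1)
    [IsDiscrete (levelS S) (Rep.coind H.subtype (Rep.trivial k H k))] :
    BaseInputs E (Rep.coind H.subtype (Rep.trivial k H k)) :=
  Classical.choice (nonempty_inputs_of_K S χ τ IK E hE H hH hχH)

/-- **C5 over `ℚ`, final hypothesis form**: SWAP + a reciprocity functional `τ` + the
`K`-language inputs of BASE imply `dim Ш²(M) = dim Ш¹(M*)` for every finite-dimensional discrete
`G_{ℚ,S}`-module `M`. -/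
theorem sha_duality_of_inputsK (hχ : ∃ U ∈ (levelS S).sets, ∀ g ∈ U, χ g = 1)
    (p : ℕ) [Fact p.Prime] [CharP k p] (hswap : SwapHyp (locDataQ S) χ)
    (τ : (∀ v, Hlc ((locDataQ S).𝒰v v) (Rep.res ((locDataQ S).r v) (chiRep χ)) 2) →ₗ[k] k)
    (hτ : ∀ x : Hlc (levelS S) (chiRep χ) 2, τ (locRes (locDataQ S) (chiRep χ) 2 x) = 0)
    (IK : InputsK S χ τ)
    (M : Rep k GQ) [FiniteDimensional k M] [IsDiscrete (levelS S) M]
    [IsDiscrete (levelS S) (M.dualTwist χ)] :
    FiniteDimensional k (LinearMap.ker (locRes (locDataQ S) M 2)) ∧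
      FiniteDimensional k (LinearMap.ker (locRes (locDataQ S) (M.dualTwist χ) 1)) ∧
      finrank k (LinearMap.ker (locRes (locDataQ S) M 2)) =
        finrank k (LinearMap.ker (locRes (locDataQ S) (M.dualTwist χ) 1)) :=
  sha_duality_of_inputs hχ p hswap τ hτ
    (fun D E hE H hH hχH _ => inputs_of_K S χ τ IK D E hE H hH hχH) M

end Final

end Fermat.Agent.GC.PT.BaseInputsQ
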