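/-
GATE-C / C5 BASE-INST part II (helper19): the local pairings `lamPi` of (E8) place by place.

For `L : LocalData 𝒰` with finitely many places, discrete `M N P`, equivariant `B : M × N → P`
and a trace `tr` on `(coneC L P)³` killing coboundaries (helper10's `ConeE8LC.lean`):
* (`ConeE8.locTrAt L htr v : Hlc²(G_v, P) →ₗ k`, the component at `v` of the local trace `locTr`,
  is helper10's, `ConeE8Sum.lean`);
* `lamAt L hB htr h v : Hlcⁱ(G_v, M) × Hlcʲ(G_v, N) → k`, `(b, c) ↦ locTrAt v (b ∪ c)`;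
* `lamPi_eq_piPairing : lamPi L hB htr h = piPairing (lamAt L hB htr h)`;
* `lamPi_bijective` / `lamPi_flip_bijective` : `lamPi` is perfect as soon as every `lamAt v` is.
* `lamAt_bijective_of_decomp` : at one place `v`, if `x ↦ (μ w x)_w`, `y ↦ (ν w y)_w` are
  bijective onto products (Mackey + Shapiro), and
  `locTrAt v (x ∪ y) = ∑ w, c w * Q w (μ w x) (ν w y)` (helper20's MACKEY-CUP + `inv ∘ cor`),
  with `Q w` perfect (local duality over `K_w`), then `lamAt v` is perfect.
-/
import Fermat.Agent.GC.PT.ConeE8Sum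
import Fermat.Agent.GC.PT.BaseInstLA

set_option autoImplicit false

open CategoryTheory

noncomputable section

namespace Fermat.Agent.GC.PT.BaseInst

open Fermat.Agent.GC.Prof Fermat.Agent.GC.Prof.Cone Fermat.Agent.GC.PT.ConeE8
open Fermat.Agent.GC.PT.BaseInstLA
open Fermat.Agent.GC.Prof.Cup (Equivariant)

universe u

variable {k : Type u} [Field k] {G : Type u} [Group G] {𝒰 : LevelSystem G} (L : LocalData 𝒰)
variable {M N P : Rep.{u} k G} [IsDiscrete 𝒰 M] [IsDiscrete 𝒰 N] [IsDiscrete 𝒰 P]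
variable {B : M →ₗ[k] N →ₗ[k] P} (hB : Equivariant M.ρ N.ρ P.ρ B)
variable {tr : (coneC L P).X 3 →ₗ[k] k}
  (htr : ∀ e : (coneC L P).X 2, tr (((coneC L P).d 2 3).hom e) = 0)

section Places

variable [Fintype L.ι] [DecidableEq L.ι]

/-- The local pairing at the place `v`: `(b, c) ↦ locTrAt v (b ∪ c)`. -/
def lamAt {i j : ℕ} (h : i + j = 2) (v : L.ι) :
    Hlc (L.𝒰v v) (Rep.res (L.r v) M) i →ₗ[k] Hlc (L.𝒰v v) (Rep.res (L.r v) N) j →ₗ[k] k :=
  (HlcCup (L.𝒰v v) (locB L B v) (equivariant_locB L hB v) h).compr₂ (locTrAt L htr v)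

omit [Fintype L.ι] in
lemma lamAt_apply {i j : ℕ} (h : i + j = 2) (v : L.ι)
    (b : Hlc (L.𝒰v v) (Rep.res (L.r v) M) i) (c : Hlc (L.𝒰v v) (Rep.res (L.r v) N) j) :
    lamAt L hB htr h v b c =
      locTrAt L htr v (HlcCup (L.𝒰v v) (locB L B v) (equivariant_locB L hB v) h b c) := rfl

/-- `lamPi` is the orthogonal sum of the local pairings. -/
theorem lamPi_eq_piPairing {i j : ℕ} (h : i + j = 2) :
    lamPi L hB htr h = piPairing (lamAt L hB htr h) := by
  refine LinearMap.ext fun b => LinearMap.ext fun c => ?_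
  rw [lamPi_eq_sum, piPairing_apply]
  rfl

/-- **Local perfectness, assembled over the places.** -/
theorem lamPi_bijective {i j : ℕ} (h : i + j = 2)
    (hv : ∀ v, Function.Bijective (lamAt L hB htr h v)) :
    Function.Bijective (lamPi L hB htr h) := by
  rw [lamPi_eq_piPairing]
  exact piPairing_bijective _ hv

theorem lamPi_injective {i j : ℕ} (h : i + j = 2)
    (hv : ∀ v, Function.Injective (lamAt L hB htr h v)) :
    Function.Injective (lamPi L hB htr h) := by
  rw [lamPi_eq_piPairing]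
  exact piPairing_injective _ hv

theorem lamPi_surjective {i j : ℕ} (h : i + j = 2)
    (hv : ∀ v, Function.Surjective (lamAt L hB htr h v)) :
    Function.Surjective (lamPi L hB htr h) := by
  rw [lamPi_eq_piPairing]
  exact piPairing_surjective _ hv

end Places

/-! ### One place: perfectness from a product decomposition -/

section OnePlace

variable [Fintype L.ι] [DecidableEq L.ι]
variable {ι : Type*} [Fintype ι] [DecidableEq ι]
  {Xw Yw : ι → Type*} [∀ w, AddCommGroup (Xw w)] [∀ w, Module k (Xw w)]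
  [∀ w, AddCommGroup (Yw w)] [∀ w, Module k (Yw w)]

/-- At one place `v`: the local pairing with coefficients `M`, `N` is perfect if, after a
product decomposition of `Hlcⁱ(G_v, M)` and `Hlcʲ(G_v, N)` (Mackey + Shapiro), it is a weighted
orthogonal sum of perfect pairings. -/
theorem lamAt_bijective_of_decomp {i j : ℕ} (h : i + j = 2) (v : L.ι)
    (Q : ∀ w, Xw w →ₗ[k] Yw w →ₗ[k] k)
    (μ : ∀ w, Hlc (L.𝒰v v) (Rep.res (L.r v) M) i →ₗ[k] Xw w)
    (ν : ∀ w, Hlc (L.𝒰v v) (Rep.res (L.r v) N) j →ₗ[k] Yw w)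
    (c : ι → k) (hc : ∀ w, c w ≠ 0)
    (hcup : ∀ x y, locTrAt L htr v
        (HlcCup (L.𝒰v v) (locB L B v) (equivariant_locB L hB v) h x y) =
      ∑ w, c w * Q w (μ w x) (ν w y))
    (hμ : Function.Bijective (LinearMap.pi μ)) (hν : Function.Bijective (LinearMap.pi ν))
    (hQ : ∀ w, Function.Bijective (Q w)) :
    Function.Bijective (lamAt L hB htr h v) :=
  bijective_of_sum_decomp (lamAt L hB htr h v) Q μ ν c hc
    (fun x y => (lamAt_apply L hB htr h v x y).trans (hcup x y)) hμ hν hQ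

end OnePlace

end Fermat.Agent.GC.PT.BaseInst
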