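/-
GATE-C / C5 BASE-INST part V (helper19): the purely LOCAL fields of `BaseInputsK` are theorems.

For `k = ZMod p`, `χ = cycloChar p`, `K ⊆ ℚ_S` finite with `χ|_{G_K} = 1` (so `ζ_p ∈ K`), and a
functional `τ` on `∏_{q ∈ S} Hlc²(G_{ℚ_q}, k(χ))` injective on every factor ((I) of
`TraceOfNC`), the fields `finLoc1`, `finLoc2` (helper41 `LocalNumPlaces`) and `dual02`, `dual11`,
`dual20` (helper61 `DualK`: HILBERT + helper21 COR-INJ) of `BaseInputsK` hold.  What remains is the
global package `KummerK` = (`fin1`, `fin2`, `h3`, `cokK`, `c1K`).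
-/
import Mathlib
import Fermat.Agent.GC.PT.BaseInputsQ
import Fermat.Agent.GC.Places.DualK
import Fermat.Agent.GC.Places.LocalNumPlaces
import Fermat.Agent.GC.Places.MackeyCupBase
import Fermat.Agent.GC.C0.ZetaMem

set_option autoImplicit false
set_option linter.unusedSectionVars false

open CategoryTheory Module

noncomputable section

namespace Fermat.Agent.GC.PT.BaseInputsQ

open Fermat.Agent.GC.Prof Fermat.Agent.GC.Prof.Cone Fermat.Agent.GC.Places
open Fermat.Agent.GC.Local.KR Fermat.Agent.GC.C0 Fermat.Agent.GC.PT.LocDataQ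
open Fermat.Agent.GC.PT.BaseInstLA Fermat.Agent.GC.PT.BaseInstQ
open Fermat.Agent.GC.Prof.Cup (Equivariant)
open ExtCitation

local notation "Qb" => AlgebraicClosure ℚ

/-- The residue characteristic of a member of `S` is prime. -/
local instance factPrimeOfPrimesK (q : Nat.Primes) : Fact ((q : ℕ).Prime) := ⟨q.2⟩

attribute [local instance] instTrivA instTrivA' instTrivW instTrivWq instTrivLoc instTrivLoc'
  instTrivFac instTrivRes

variable (S : Finset Nat.Primes) (K : IntermediateField ℚ Qb) [FiniteDimensional ℚ K]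
  (p : ℕ) [Fact p.Prime]
  [hI : InstDisc S K (trivK (ZMod p) K)] [hC : ChiDisc S K (cycloChar p)]
  (hχK : ∀ s : K.fixingSubgroup, cycloChar p (s : GQ) = 1)

/-- **The global (`K`-language) inputs of BASE**: the fields of `BaseInputsK` that are not
local. -/
structure KummerK : Prop where
  fin1 : FiniteDimensional (ZMod p) (Hlc (levelK S K) (trivK (ZMod p) K) 1)
  fin2 : FiniteDimensional (ZMod p) (Hlc (levelK S K) (trivK (ZMod p) K) 2)
  h3 : Limits.IsZero (Hlc (levelK S K) (trivK (ZMod p) K) 3)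
  cokK : finrank (ZMod p) (LocKw S K (trivK (ZMod p) K) 2) ≤
    finrank (ZMod p) (LinearMap.range (locK S K (trivK (ZMod p) K) 2)) + 1
  c1K : finrank (ZMod p) (LocKw S K (trivK (ZMod p) K) 1) +
      2 * finrank (ZMod p) (LinearMap.ker (locK S K (trivK (ZMod p) K) 2)) ≤
    2 * finrank (ZMod p) (Hlc (levelK S K) (trivK (ZMod p) K) 1)

include hχK in
/-- `χ|_{G_K} = 1` puts a primitive `p`-th root of unity in `K`. -/
theorem exists_zeta_mem : ∃ ζ : Qb, IsPrimitiveRoot ζ p ∧ ζ ∈ K := by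
  obtain ⟨ζ, hζ⟩ := Fermat.Agent.GJ.CycChar.exists_primitiveRoot (p := p)
  exact ⟨ζ, hζ, primitiveRoot_mem_of_cycloChar_eq_one K (fun g hg => hχK ⟨g, hg⟩) hζ⟩

/-! ### The local fields -/

include hχK in
/-- `finLoc`: `Hlcⁱ(G_{K_w}, k)` is finite-dimensional for `i ≤ 2` (helper41 LOCAL-NUM). -/
theorem finiteDimensional_HlcKw (q : ↥S) (w : placeIdx ((q : Nat.Primes) : ℕ) K) (i : ℕ)
    (hi : i ≤ 2) : FiniteDimensional (ZMod p) (HlcKw S K (trivK (ZMod p) K) q w i) := by
  obtain ⟨ζ, hζ, hζK⟩ := exists_zeta_mem K p hχK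
  exact LocalNum.finiteDimensional_HlcW S K p (trivK (ZMod p) K) (fun _ _ => rfl)
    (AddEquiv.refl _) hζ hζK ((q : Nat.Primes) : ℕ)
    (placeRep ((q : Nat.Primes) : ℕ) K w) i hi

include hχK in
/-- `Hlc²(G_{K_w}, k(χ))` is a line (helper41 LOCAL-NUM). -/
theorem finrank_Hlc_two_chiW (q : ↥S) (s : GQ) :
    finrank (ZMod p) (Hlc (levelLoc ((q : Nat.Primes) : ℕ) K s)
      (chiW ((q : Nat.Primes) : ℕ) K (cycloChar p) s) 2) = 1 := by
  obtain ⟨ζ, hζ, hζK⟩ := exists_zeta_mem K p hχK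
  exact LocalNum.finrank_Hlc_loc_two ((q : Nat.Primes) : ℕ) K p s hζ hζK
    (chiW ((q : Nat.Primes) : ℕ) K (cycloChar p) s)
    (fun g b => locTarget_chiRep_trivial K (cycloChar p) hχK ((q : Nat.Primes) : ℕ) s g b)
    (AddEquiv.refl _)

/-! ### Local duality over the completions of `K` -/

section Dual

variable
  (τ : (∀ v, Hlc ((locDataQ S).𝒰v v) (Rep.res ((locDataQ S).r v) (chiRep (cycloChar p))) 2)
    →ₗ[ZMod p] ZMod p)
  (hτI : ∀ v, Function.Injective fun y :
    Hlc ((locDataQ S).𝒰v v) (Rep.res ((locDataQ S).r v) (chiRep (cycloChar p))) 2 =>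
      τ (Pi.single v y))

omit [FiniteDimensional ℚ K] hI in
include hτI in
theorem tauAt_injective (q : ↥S) : Function.Injective (tauAt S K (cycloChar p) τ q) := hτI q

include hχK hτI in
/-- `dual11` (helper61 HILBERT + helper21 COR-INJ + (I)). -/
theorem dual11_of_injective (q : ↥S) (w : placeIdx ((q : Nat.Primes) : ℕ) K) :
    Function.Bijective (QK ((q : Nat.Primes) : ℕ) K (cycloChar p) hχK w
      (show 1 + 1 = 2 from rfl) (tauAt S K (cycloChar p) τ q)) := by
  obtain ⟨ζ, hζ, hζK⟩ := exists_zeta_mem K p hχK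
  have := finiteDimensional_HlcKw S K p hχK q w 1 (by norm_num)
  exact DualK.cupW_bijective_one_one S K p hχK ((q : Nat.Primes) : ℕ)
    (placeRep ((q : Nat.Primes) : ℕ) K w) (tauAt S K (cycloChar p) τ q)
    (tauAt_injective S K p τ hτI q)
    (LocalNum.isPrimitiveRoot_locRoot ((q : Nat.Primes) : ℕ) K p
      (placeRep ((q : Nat.Primes) : ℕ) K w) hζ hζK) rfl

include hχK hτI in
/-- `dual02`. -/
theorem dual02_of_injective (q : ↥S) (w : placeIdx ((q : Nat.Primes) : ℕ) K) :
    Function.Bijective (QK ((q : Nat.Primes) : ℕ) K (cycloChar p) hχK w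
      (show 0 + 2 = 2 from rfl) (tauAt S K (cycloChar p) τ q)) :=
  DualK.cupW_bijective_zero_two S K p hχK ((q : Nat.Primes) : ℕ)
    (placeRep ((q : Nat.Primes) : ℕ) K w) (tauAt S K (cycloChar p) τ q)
    (tauAt_injective S K p τ hτI q)
    (finrank_Hlc_two_chiW S K p hχK q (placeRep ((q : Nat.Primes) : ℕ) K w)) rfl

include hχK hτI in
/-- `dual20`. -/
theorem dual20_of_injective (q : ↥S) (w : placeIdx ((q : Nat.Primes) : ℕ) K) :
    Function.Bijective (QK ((q : Nat.Primes) : ℕ) K (cycloChar p) hχK w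
      (show 2 + 0 = 2 from rfl) (tauAt S K (cycloChar p) τ q)) :=
  DualK.cupW_bijective_two_zero S K p hχK ((q : Nat.Primes) : ℕ)
    (placeRep ((q : Nat.Primes) : ℕ) K w) (tauAt S K (cycloChar p) τ q)
    (tauAt_injective S K p τ hτI q)
    (finrank_Hlc_two_chiW S K p hχK q (placeRep ((q : Nat.Primes) : ℕ) K w)) rfl

include hχK hτI in
/-- **`BaseInputsK` from the global package `KummerK` and (I).** -/
theorem baseInputsK_of_kummerK (KK : KummerK S K p) :
    BaseInputsK S K (cycloChar p) hχK τ where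
  fin1 := KK.fin1
  fin2 := KK.fin2
  h3 := KK.h3
  finLoc1 q w := finiteDimensional_HlcKw S K p hχK q w 1 (by norm_num)
  finLoc2 q w := finiteDimensional_HlcKw S K p hχK q w 2 le_rfl
  dual02 := dual02_of_injective S K p hχK τ hτI
  dual11 := dual11_of_injective S K p hχK τ hτI
  dual20 := dual20_of_injective S K p hχK τ hτI
  cokK := KK.cokK
  c1K := KK.c1K

end Dual

/-! ### All `K` at once -/

section AllK

variable (S : Finset Nat.Primes) (p : ℕ) [Fact p.Prime]
  [IsDiscrete (levelS S) (chiRep (cycloChar p))]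

/-- The global inputs of BASE at every finite `K ⊆ ℚ_S` with `χ_cyc|_{G_K} = 1`. -/
def KummerAll : Prop :=
  ∀ (K : IntermediateField ℚ Qb) [FiniteDimensional ℚ K] [InstDisc S K (trivK (ZMod p) K)]
    [ChiDisc S K (cycloChar p)], K.IsUnramifiedOutside S →
      (∀ s : K.fixingSubgroup, cycloChar p (s : GQ) = 1) → KummerK S K p

/-- **`InputsK` from the global packages `KummerK` and (I).** -/
theorem inputsK_of_kummerAll (h : KummerAll S p)
    (τ : (∀ v, Hlc ((locDataQ S).𝒰v v) (Rep.res ((locDataQ S).r v) (chiRep (cycloChar p))) 2)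
      →ₗ[ZMod p] ZMod p)
    (hτI : ∀ v, Function.Injective fun y :
      Hlc ((locDataQ S).𝒰v v) (Rep.res ((locDataQ S).r v) (chiRep (cycloChar p))) 2 =>
        τ (Pi.single v y)) :
    InputsK S (cycloChar p) τ := by
  intro K _ _ _ hK hχK
  exact baseInputsK_of_kummerK S K p hχK τ hτI (h K hK hχK)

end AllK

end Fermat.Agent.GC.PT.BaseInputsQ
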