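/-
GATE-C / C5 leaf (PT-D) FINAL (helper15): the rank identity `dim Sha²(M) = dim Sha¹(N)` from two
perfect compact-support pairings and the SWAP (adjointness) relation.  Statement copied verbatim
from `GC/PT/Skeleton.lean` (helper74).  Pure linear algebra, Mathlib only.
-/
import Mathlib

set_option autoImplicit false

open Module

noncomputable section

namespace Fermat.Agent.GC.PT.Final

section Final

variable {k : Type*} [Field k]
variable {Hc2M H2M L2M Hc1N H1N L1N L0N : Type*}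
  [AddCommGroup Hc2M] [Module k Hc2M] [AddCommGroup H2M] [Module k H2M]
  [AddCommGroup L2M] [Module k L2M] [AddCommGroup Hc1N] [Module k Hc1N]
  [AddCommGroup H1N] [Module k H1N] [AddCommGroup L1N] [Module k L1N]
  [AddCommGroup L0N] [Module k L0N]

/-- The kernel of `f₂` is the `B₁`-preimage of the annihilator of the range of `f₁`. -/
theorem ker_eq_comap_dualAnnihilator
    (f₂ : Hc2M →ₗ[k] H2M) (f₁ : Hc1N →ₗ[k] H1N)
    (B₁ : Hc2M →ₗ[k] H1N →ₗ[k] k)
    (B₂ : Hc1N →ₗ[k] H2M →ₗ[k] k) (hB₂ : Function.Surjective B₂)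
    (s : k) (hs : s ≠ 0) (swap : ∀ x x', B₁ x (f₁ x') = s * B₂ x' (f₂ x)) :
    LinearMap.ker f₂ = (LinearMap.range f₁).dualAnnihilator.comap B₁ := by
  ext x
  simp only [LinearMap.mem_ker, Submodule.mem_comap, Submodule.mem_dualAnnihilator,
    LinearMap.mem_range]
  constructor
  · intro hx w hw
    obtain ⟨x', rfl⟩ := hw
    rw [swap, hx]
    simp
  · intro h
    rw [← Module.forall_dual_apply_eq_zero_iff k]
    intro φ
    obtain ⟨x', rfl⟩ := hB₂ φ
    have h1 := h (f₁ x') ⟨x', rfl⟩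
    rw [swap] at h1
    exact (mul_eq_zero.1 h1).resolve_left hs

/-- `f₂ : H²_c(M) → H²(M)`, `ℓ₂ : H²(M) → ⊕_v H²(G_v,M)`; `e₀ : ⊕_v H⁰(G_v,N) → H¹_c(N)`,
`f₁ : H¹_c(N) → H¹(N)`, `ℓ₁ : H¹(N) → ⊕_v H¹(G_v,N)`; `B₁ = α²_c(M,N)`, `B₂ = α¹_c(N,M)`.
Conclusion: `Sha²(M) = ker ℓ₂` and `Sha¹(N) = ker ℓ₁` are finite-dimensional of the same rank. -/
theorem finrank_ker_eq_of_duality
    (f₂ : Hc2M →ₗ[k] H2M) (ℓ₂ : H2M →ₗ[k] L2M) (hex₂ : Function.Exact f₂ ℓ₂)
    (e₀ : L0N →ₗ[k] Hc1N) (f₁ : Hc1N →ₗ[k] H1N) (ℓ₁ : H1N →ₗ[k] L1N)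
    (hex₀ : Function.Exact e₀ f₁) (hex₁ : Function.Exact f₁ ℓ₁)
    [FiniteDimensional k L0N] [FiniteDimensional k H1N]
    (B₁ : Hc2M →ₗ[k] H1N →ₗ[k] k) (hB₁ : Function.Bijective B₁)
    (B₂ : Hc1N →ₗ[k] H2M →ₗ[k] k) (hB₂ : Function.Bijective B₂)
    (s : k) (hs : s ≠ 0) (swap : ∀ x x', B₁ x (f₁ x') = s * B₂ x' (f₂ x)) :
    FiniteDimensional k (LinearMap.ker ℓ₂) ∧ FiniteDimensional k (LinearMap.ker ℓ₁) ∧
      finrank k (LinearMap.ker ℓ₂) = finrank k (LinearMap.ker ℓ₁) := by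
  have _ := hex₀
  -- `B₁` as a linear equivalence onto the dual of `H¹(N)`
  let E₁ : Hc2M ≃ₗ[k] Module.Dual k H1N := LinearEquiv.ofBijective B₁ hB₁
  have hfd : FiniteDimensional k Hc2M := E₁.symm.finiteDimensional
  have hk2 : LinearMap.ker ℓ₂ = LinearMap.range f₂ := (LinearMap.exact_iff).1 hex₂
  have hk1 : LinearMap.ker ℓ₁ = LinearMap.range f₁ := (LinearMap.exact_iff).1 hex₁
  rw [hk2, hk1]
  refine ⟨inferInstance, inferInstance, ?_⟩
  -- rank-nullity for `f₂`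
  have hrn := LinearMap.finrank_range_add_finrank_ker f₂
  -- the kernel of `f₂`
  have hker := ker_eq_comap_dualAnnihilator f₂ f₁ B₁ B₂ hB₂.2 s hs swap
  have hker' : LinearMap.ker f₂ = (LinearMap.range f₁).dualAnnihilator.map E₁.symm.toLinearMap := by
    rw [hker]
    ext x
    simp only [Submodule.mem_comap, Submodule.mem_map, LinearEquiv.coe_coe]
    constructor
    · intro hx
      exact ⟨B₁ x, hx, E₁.symm_apply_apply x⟩
    · rintro ⟨φ, hφ, rfl⟩
      have : B₁ (E₁.symm φ) = φ := E₁.apply_symm_apply φ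
      rw [this]
      exact hφ
  have hfk : finrank k (LinearMap.ker f₂) = finrank k (LinearMap.range f₁).dualAnnihilator := by
    rw [hker']
    exact LinearEquiv.finrank_map_eq E₁.symm _
  have hann := Subspace.finrank_add_finrank_dualAnnihilator_eq (LinearMap.range f₁)
  have hdim : finrank k Hc2M = finrank k H1N := by
    rw [LinearEquiv.finrank_eq E₁, Subspace.dual_finrank_eq]
  omega

end Final

end Fermat.Agent.GC.PT.Final
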