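/-
GATE-C / C5-X (helper74): the abstract linear algebra of the compact-support devissage
(board 1271 + 1275).  Mathlib only.  Nothing here knows about Galois groups.

* `finrank_range_eq_of_adjoint` : two perfect pairings + adjointness of `f`, `g`
    ⇒ `finrank (range f) = finrank (range g)`   (this is `finrank Sha² M = finrank Sha¹ M*`).
* `PStep.concl` : the extension step `P M' → P M'' → P M` of the devissage, as a statement
    about two exact rows and nine vertical maps (no `H⁴`, no right exactness beyond `H³ = 0`).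
* `bijective_of_retract`, `injective_of_retract` : a natural transformation that is
    bijective/injective on `N` is so on every retract `M` of `N` (Shapiro + `[K:ℚ]` prime to `p`).
-/
import Mathlib

set_option autoImplicit false

namespace Fermat.Agent.GC.PT

open Module

section Adjoint

variable {k : Type*} [Field k]
variable {X Y X' Y' : Type*}
  [AddCommGroup X] [Module k X] [AddCommGroup Y] [Module k Y]
  [AddCommGroup X'] [Module k X'] [AddCommGroup Y'] [Module k Y']

/-- Half of the rank comparison: if `B₂` is injective in its first variable and `f`, `g` are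
adjoint for `B₁`, `B₂`, then `rank f ≤ rank g`. -/
theorem finrank_range_le_of_adjoint
    [FiniteDimensional k Y] [FiniteDimensional k Y']
    (f : X →ₗ[k] Y) (g : Y' →ₗ[k] X')
    (B₁ : X →ₗ[k] X' →ₗ[k] k) (B₂ : Y →ₗ[k] Y' →ₗ[k] k)
    (hB₂l : Function.Injective B₂)
    (adj : ∀ x y', B₂ (f x) y' = B₁ x (g y')) :
    finrank k (LinearMap.range f) ≤ finrank k (LinearMap.range g) := by
  classical
  have hker : ∀ y ∈ LinearMap.range f, ∀ y' ∈ LinearMap.ker g, B₂ y y' = 0 := by
    rintro _ ⟨x, rfl⟩ y' hy'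
    rw [adj, LinearMap.mem_ker.1 hy', map_zero]
  let e : (Y' ⧸ LinearMap.ker g) ≃ₗ[k] LinearMap.range g := g.quotKerEquivRange
  let ψ : LinearMap.range f →ₗ[k] Dual k (Y' ⧸ LinearMap.ker g) :=
    { toFun := fun y => (LinearMap.ker g).liftQ (B₂ y.1) (fun y' hy' => hker y.1 y.2 y' hy')
      map_add' := by
        intro a b
        apply LinearMap.ext
        intro q
        induction q using Submodule.Quotient.induction_on with
        | H y' =>
          simp only [Submodule.coe_add, map_add, LinearMap.add_apply]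
          rfl
      map_smul' := by
        intro c a
        apply LinearMap.ext
        intro q
        induction q using Submodule.Quotient.induction_on with
        | H y' =>
          simp only [Submodule.coe_smul_of_tower, map_smul, LinearMap.smul_apply, RingHom.id_apply]
          rfl }
  have hψ : Function.Injective ψ := by
    rw [← LinearMap.ker_eq_bot, LinearMap.ker_eq_bot']
    intro y hy
    apply Subtype.ext
    apply hB₂l
    apply LinearMap.ext
    intro y'
    have h1 : (ψ y) (Submodule.Quotient.mk y') = 0 := by rw [hy]; rfl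
    have h2 : (ψ y) (Submodule.Quotient.mk y') = B₂ y.1 y' := rfl
    rw [h2] at h1
    simp only [h1, ZeroMemClass.coe_zero, map_zero, LinearMap.zero_apply]
  calc finrank k (LinearMap.range f)
      ≤ finrank k (Dual k (Y' ⧸ LinearMap.ker g)) := LinearMap.finrank_le_finrank_of_injective hψ
    _ = finrank k (Y' ⧸ LinearMap.ker g) := Subspace.dual_finrank_eq
    _ = finrank k (LinearMap.range g) := LinearEquiv.finrank_eq e

/-- `X = H²_c(M)`, `Y = H²(M)`, `Y' = H¹_c(M*)`, `X' = H¹(M*)`; `f`, `g` the forgetful maps;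
`B₁ : H²_c(M) × H¹(M*) → k` and `B₂ : H²(M) × H¹_c(M*) → k` the two global pairings.
If `B₂` is injective in the first variable (`H²(M) ↪ H¹_c(M*)ᵛ`) and `B₁` is injective in the
second variable (`H¹(M*) ↪ H²_c(M)ᵛ`) and `f`, `g` are adjoint, then `rank f = rank g`, i.e.
`finrank Sha²(M) = finrank Sha¹(M*)`. -/
theorem finrank_range_eq_of_adjoint
    [FiniteDimensional k X] [FiniteDimensional k Y] [FiniteDimensional k X'] [FiniteDimensional k Y']
    (f : X →ₗ[k] Y) (g : Y' →ₗ[k] X')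
    (B₁ : X →ₗ[k] X' →ₗ[k] k) (B₂ : Y →ₗ[k] Y' →ₗ[k] k)
    (hB₁r : Function.Injective B₁.flip)
    (hB₂l : Function.Injective B₂)
    (adj : ∀ x y', B₂ (f x) y' = B₁ x (g y')) :
    finrank k (LinearMap.range f) = finrank k (LinearMap.range g) := by
  apply le_antisymm
  · exact finrank_range_le_of_adjoint f g B₁ B₂ hB₂l adj
  · refine finrank_range_le_of_adjoint g f B₂.flip B₁.flip hB₁r ?_
    intro y' x
    simp only [LinearMap.flip_apply]
    exact (adj x y').symm

end Adjoint

section ExtStep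

/-!
### The extension step

Rows (all `k`-linear, `k` any commutative ring):

```
0 → Hc1' -a₁→ Hc1 -a₂→ Hc1'' -a₃→ Hc2' -a₄→ Hc2 -a₅→ Hc2'' -a₆→ Hc3' -a₇→ Hc3 -a₈→ Hc3''
      |v1'     |v1      |v1''     |v2'     |v2      |v2''     |v3'     |v3      |v3''
0 → D2'  -b₁→ D2  -b₂→ D2''  -b₃→ D1'  -b₄→ D1  -b₅→ D1''  -b₆→ D0'  -b₇→ D0  -b₈→ D0''
```

Top row: the long exact sequence of `H^i_c` for `0 → M' → M → M'' → 0` (`a₁` injective because
`H⁰_c = 0`).  Bottom row: the `k`-dual of the long exact sequence of `H^j` for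
`0 → M''* → M* → M'* → 0`, `Dj(X) = (H^j(X*))ᵛ` (`b₁` injective because `H³(M''*) = 0`).
`v i` = the duality maps `α^i_c`.  Squares may commute only up to sign in practice: replace a
vertical map by its negative before applying the lemma (bijectivity/injectivity are unaffected).
-/

variable {k : Type*} [CommRing k]
variable {Hc1' Hc1 Hc1'' Hc2' Hc2 Hc2'' Hc3' Hc3 Hc3'' : Type*}
  [AddCommGroup Hc1'] [Module k Hc1'] [AddCommGroup Hc1] [Module k Hc1]
  [AddCommGroup Hc1''] [Module k Hc1''] [AddCommGroup Hc2'] [Module k Hc2']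
  [AddCommGroup Hc2] [Module k Hc2] [AddCommGroup Hc2''] [Module k Hc2'']
  [AddCommGroup Hc3'] [Module k Hc3'] [AddCommGroup Hc3] [Module k Hc3]
  [AddCommGroup Hc3''] [Module k Hc3'']
variable {D2' D2 D2'' D1' D1 D1'' D0' D0 D0'' : Type*}
  [AddCommGroup D2'] [Module k D2'] [AddCommGroup D2] [Module k D2]
  [AddCommGroup D2''] [Module k D2''] [AddCommGroup D1'] [Module k D1']
  [AddCommGroup D1] [Module k D1] [AddCommGroup D1''] [Module k D1'']
  [AddCommGroup D0'] [Module k D0'] [AddCommGroup D0] [Module k D0]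
  [AddCommGroup D0''] [Module k D0'']

/-- Extension step of the devissage: `P(M')` and `P(M'')` imply `P(M)`, where
`P(X) = [α¹_c(X), α²_c(X) bijective, α³_c(X) injective]`.  The vanishing `H³(M) = 0` (also part
of `P`) is immediate from the long exact sequence and is not repeated here; it enters through
`hb₁ : Injective b₁`. -/
theorem ext_step
    (a₁ : Hc1' →ₗ[k] Hc1) (a₂ : Hc1 →ₗ[k] Hc1'') (a₃ : Hc1'' →ₗ[k] Hc2') (a₄ : Hc2' →ₗ[k] Hc2)
    (a₅ : Hc2 →ₗ[k] Hc2'') (a₆ : Hc2'' →ₗ[k] Hc3') (a₇ : Hc3' →ₗ[k] Hc3) (a₈ : Hc3 →ₗ[k] Hc3'')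
    (b₁ : D2' →ₗ[k] D2) (b₂ : D2 →ₗ[k] D2'') (b₃ : D2'' →ₗ[k] D1') (b₄ : D1' →ₗ[k] D1)
    (b₅ : D1 →ₗ[k] D1'') (b₆ : D1'' →ₗ[k] D0') (b₇ : D0' →ₗ[k] D0) (b₈ : D0 →ₗ[k] D0'')
    (v1' : Hc1' →ₗ[k] D2') (v1 : Hc1 →ₗ[k] D2) (v1'' : Hc1'' →ₗ[k] D2'')
    (v2' : Hc2' →ₗ[k] D1') (v2 : Hc2 →ₗ[k] D1) (v2'' : Hc2'' →ₗ[k] D1'')
    (v3' : Hc3' →ₗ[k] D0') (v3 : Hc3 →ₗ[k] D0) (v3'' : Hc3'' →ₗ[k] D0'')
    -- exactness of the rows
    (ha₁ : Function.Injective a₁)
    (ha₁₂ : Function.Exact a₁ a₂) (ha₂₃ : Function.Exact a₂ a₃) (ha₃₄ : Function.Exact a₃ a₄)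
    (ha₄₅ : Function.Exact a₄ a₅) (ha₅₆ : Function.Exact a₅ a₆) (ha₆₇ : Function.Exact a₆ a₇)
    (ha₇₈ : Function.Exact a₇ a₈)
    (hb₁ : Function.Injective b₁)
    (hb₁₂ : Function.Exact b₁ b₂) (hb₂₃ : Function.Exact b₂ b₃) (hb₃₄ : Function.Exact b₃ b₄)
    (hb₄₅ : Function.Exact b₄ b₅) (hb₅₆ : Function.Exact b₅ b₆) (hb₆₇ : Function.Exact b₆ b₇)
    -- commutativity of the eight squares
    (c₁ : b₁.comp v1' = v1.comp a₁) (c₂ : b₂.comp v1 = v1''.comp a₂)
    (c₃ : b₃.comp v1'' = v2'.comp a₃) (c₄ : b₄.comp v2' = v2.comp a₄)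
    (c₅ : b₅.comp v2 = v2''.comp a₅) (c₆ : b₆.comp v2'' = v3'.comp a₆)
    (c₇ : b₇.comp v3' = v3.comp a₇) (c₈ : b₈.comp v3 = v3''.comp a₈)
    -- P(M') and P(M'')
    (h1' : Function.Bijective v1') (h1'' : Function.Bijective v1'')
    (h2' : Function.Bijective v2') (h2'' : Function.Bijective v2'')
    (h3' : Function.Injective v3') (h3'' : Function.Injective v3'') :
    Function.Bijective v1 ∧ Function.Bijective v2 ∧ Function.Injective v3 := by
  refine ⟨⟨?_, ?_⟩, ?_, ?_⟩
  · -- v1 injective: four lemma on 0 → Hc1' → Hc1 → Hc1''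
    exact LinearMap.injective_of_surjective_of_injective_of_injective
      (0 : PUnit →ₗ[k] Hc1') a₁ a₂ (0 : PUnit →ₗ[k] D2') b₁ b₂
      (0 : PUnit →ₗ[k] PUnit) v1' v1 v1'' (by ext; simp) c₁ c₂
      ((LinearMap.exact_zero_iff_injective PUnit a₁).2 ha₁) ha₁₂
      ((LinearMap.exact_zero_iff_injective PUnit b₁).2 hb₁)
      (fun _ => ⟨0, Subsingleton.elim _ _⟩) h1'.1 h1''.1
  · -- v1 surjective: four lemma on Hc1' → Hc1 → Hc1'' → Hc2'
    exact LinearMap.surjective_of_surjective_of_surjective_of_injective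
      a₁ a₂ a₃ b₁ b₂ b₃ v1' v1 v1'' v2' c₁ c₂ c₃ ha₂₃ hb₁₂ hb₂₃ h1'.2 h1''.2 h2'.1
  · -- v2 bijective: five lemma around Hc2
    exact LinearMap.bijective_of_surjective_of_bijective_of_bijective_of_injective
      a₃ a₄ a₅ a₆ b₃ b₄ b₅ b₆ v1'' v2' v2 v2'' v3' c₃ c₄ c₅ c₆
      ha₃₄ ha₄₅ ha₅₆ hb₃₄ hb₄₅ hb₅₆ h1''.2 h2' h2'' h3'
  · -- v3 injective: four lemma on Hc2'' → Hc3' → Hc3 → Hc3''
    exact LinearMap.injective_of_surjective_of_injective_of_injective
      a₆ a₇ a₈ b₆ b₇ b₈ v2'' v3' v3 v3'' c₆ c₇ c₈ ha₆₇ ha₇₈ hb₆₇ h2''.2 h3' h3''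

end ExtStep

section Retract

variable {k : Type*} [CommRing k]
variable {A B A' B' : Type*}
  [AddCommGroup A] [Module k A] [AddCommGroup B] [Module k B]
  [AddCommGroup A'] [Module k A'] [AddCommGroup B'] [Module k B']

/-- Naturality square for the inclusion `i` and the retraction `r` of a retract
`M --i→ N --r→ M`, `r ∘ i = id` (on the source side `sA`/`rA`, on the target side `sB`/`rB`):
if the component `αN` is injective so is `αM`. -/
theorem injective_of_retract
    (αM : A →ₗ[k] B) (αN : A' →ₗ[k] B') (sA : A →ₗ[k] A') (sB : B →ₗ[k] B')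
    (rA : A' →ₗ[k] A) (hrA : rA.comp sA = LinearMap.id)
    (nat_s : sB.comp αM = αN.comp sA) (hN : Function.Injective αN) :
    Function.Injective αM := by
  intro x y hxy
  have h1 : αN (sA x) = αN (sA y) := by
    have hx := LinearMap.congr_fun nat_s x
    have hy := LinearMap.congr_fun nat_s y
    simp only [LinearMap.comp_apply] at hx hy
    rw [← hx, ← hy, hxy]
  have h2 := hN h1
  have hx := LinearMap.congr_fun hrA x
  have hy := LinearMap.congr_fun hrA y
  simp only [LinearMap.comp_apply, LinearMap.id_apply] at hx hy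
  rw [← hx, ← hy, h2]

/-- If `αN` is surjective and the retraction is natural, `αM` is surjective. -/
theorem surjective_of_retract
    (αM : A →ₗ[k] B) (αN : A' →ₗ[k] B') (sB : B →ₗ[k] B')
    (rA : A' →ₗ[k] A) (rB : B' →ₗ[k] B) (hrB : rB.comp sB = LinearMap.id)
    (nat_r : rB.comp αN = αM.comp rA) (hN : Function.Surjective αN) :
    Function.Surjective αM := by
  intro b
  obtain ⟨a', ha'⟩ := hN (sB b)
  refine ⟨rA a', ?_⟩
  have h := LinearMap.congr_fun nat_r a'
  simp only [LinearMap.comp_apply] at h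
  rw [← h, ha']
  have hb := LinearMap.congr_fun hrB b
  simpa using hb

/-- Bijective version. -/
theorem bijective_of_retract
    (αM : A →ₗ[k] B) (αN : A' →ₗ[k] B') (sA : A →ₗ[k] A') (sB : B →ₗ[k] B')
    (rA : A' →ₗ[k] A) (rB : B' →ₗ[k] B)
    (hrA : rA.comp sA = LinearMap.id) (hrB : rB.comp sB = LinearMap.id)
    (nat_s : sB.comp αM = αN.comp sA) (nat_r : rB.comp αN = αM.comp rA)
    (hN : Function.Bijective αN) : Function.Bijective αM :=
  ⟨injective_of_retract αM αN sA sB rA hrA nat_s hN.1,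
    surjective_of_retract αM αN sB rA rB hrB nat_r hN.2⟩

end Retract

end Fermat.Agent.GC.PT
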