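/-
GATE-C / C5 (helper74): PAIRED COMPLEXES.  The abstract homological algebra behind the
compact-support devissage (board 1271/1382).  No groups, no representations.

`CPairing A B` : a pairing of degree `-3` between two cochain complexes of `k`-vector spaces,
  `pᵢⱼ : Aⁱ × Bʲ → k` for `(i,j) = (1,2), (2,1), (3,0)`, compatible with the differentials
  (think: `A = C_c(M)` the compact-support cone, `B = C(N)`, `pᵢⱼ(a,b) = tr(a ∪ b)`).
It induces `hᵢⱼ : Hⁱ(A) × Hʲ(B) → k`; `Good P` says `h₁₂`, `h₂₁` are perfect on the left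
(`Hⁱ(A) ≅ Hʲ(B)ᵛ`) and `h₃₀` is injective on the left.
Naturality (`Adjoint`) and stability of `Good` under retracts are proved here; the long exact
sequence ladder (extension step) is in `PairedLES.lean`.
-/
import Fermat.Agent.GC.Prof.HElt

set_option autoImplicit false

open CategoryTheory

noncomputable section

namespace Fermat.Agent.GC.PT

open Fermat.Agent.GC.Prof

universe u

section Descend

variable {k : Type*} [CommRing k]
variable {X X' Y Y' Z : Type*} [AddCommGroup X] [Module k X] [AddCommGroup X'] [Module k X']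
  [AddCommGroup Y] [Module k Y] [AddCommGroup Y'] [Module k Y'] [AddCommGroup Z] [Module k Z]

/-- Descend a linear map along a surjection killing its kernel. -/
def descend (π : X →ₗ[k] X') (hπ : Function.Surjective π) (f : X →ₗ[k] Z)
    (h : ∀ x, π x = 0 → f x = 0) : X' →ₗ[k] Z :=
  ((LinearMap.ker π).liftQ f (fun x hx => h x hx)).comp
    (π.quotKerEquivOfSurjective hπ).symm.toLinearMap

@[simp]
theorem descend_apply (π : X →ₗ[k] X') (hπ : Function.Surjective π) (f : X →ₗ[k] Z)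
    (h : ∀ x, π x = 0 → f x = 0) (x : X) : descend π hπ f h (π x) = f x := by
  have : (π.quotKerEquivOfSurjective hπ).symm (π x) = Submodule.Quotient.mk x := by
    rw [LinearEquiv.symm_apply_eq]
    rfl
  simp [descend, this]

/-- Descend a bilinear form along two surjections. -/
def descend₂ (πX : X →ₗ[k] X') (hX : Function.Surjective πX) (πY : Y →ₗ[k] Y')
    (hY : Function.Surjective πY) (β : X →ₗ[k] Y →ₗ[k] Z)
    (h1 : ∀ x, πX x = 0 → ∀ y, β x y = 0) (h2 : ∀ y, πY y = 0 → ∀ x, β x y = 0) :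
    X' →ₗ[k] Y' →ₗ[k] Z :=
  descend πX hX (descend πY hY β.flip (fun y hy => LinearMap.ext fun x => h2 y hy x)).flip
    (fun x hx => by
      apply LinearMap.ext
      intro y'
      obtain ⟨y, rfl⟩ := hY y'
      simp [h1 x hx y])

@[simp]
theorem descend₂_apply (πX : X →ₗ[k] X') (hX : Function.Surjective πX) (πY : Y →ₗ[k] Y')
    (hY : Function.Surjective πY) (β : X →ₗ[k] Y →ₗ[k] Z)
    (h1 : ∀ x, πX x = 0 → ∀ y, β x y = 0) (h2 : ∀ y, πY y = 0 → ∀ x, β x y = 0) (x : X) (y : Y) :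
    descend₂ πX hX πY hY β h1 h2 (πX x) (πY y) = β x y := by
  simp [descend₂]

end Descend

variable {k : Type u} [Field k]

/-- A pairing of degree `-3` between cochain complexes `A` and `B`, in the three bidegrees used by
the duality theorem.  Signs follow the Leibniz rule `d(a ∪ b) = da ∪ b + (-1)^{|a|} a ∪ db` and a
trace killing coboundaries; an instantiation may absorb other conventions into the `pᵢⱼ`. -/
structure CPairing (A B : CochainComplex (ModuleCat.{u} k) ℕ) where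
  p12 : A.X 1 →ₗ[k] B.X 2 →ₗ[k] k
  p21 : A.X 2 →ₗ[k] B.X 1 →ₗ[k] k
  p30 : A.X 3 →ₗ[k] B.X 0 →ₗ[k] k
  compat0 : ∀ (a : A.X 0) (y : B.X 2), B.d 2 3 y = 0 → p12 (A.d 0 1 a) y = 0
  compat1 : ∀ (a : A.X 1) (b : B.X 1), p21 (A.d 1 2 a) b = p12 a (B.d 1 2 b)
  compat2 : ∀ (a : A.X 2) (b : B.X 0), p30 (A.d 2 3 a) b = - p21 a (B.d 0 1 b)

namespace CPairing

variable {A B : CochainComplex (ModuleCat.{u} k) ℕ} (P : CPairing A B)

/-- `p₁₂` on cocycles. -/
def z12 : Elt.zSub A 1 →ₗ[k] Elt.zSub B 2 →ₗ[k] k :=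
  (P.p12.comp (Elt.zSub A 1).subtype).compl₂ (Elt.zSub B 2).subtype
/-- `p₂₁` on cocycles. -/
def z21 : Elt.zSub A 2 →ₗ[k] Elt.zSub B 1 →ₗ[k] k :=
  (P.p21.comp (Elt.zSub A 2).subtype).compl₂ (Elt.zSub B 1).subtype
/-- `p₃₀` on cocycles. -/
def z30 : Elt.zSub A 3 →ₗ[k] Elt.zSub B 0 →ₗ[k] k :=
  (P.p30.comp (Elt.zSub A 3).subtype).compl₂ (Elt.zSub B 0).subtype

@[simp] theorem z12_apply (x : Elt.zSub A 1) (y : Elt.zSub B 2) : P.z12 x y = P.p12 x.1 y.1 := rfl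
@[simp] theorem z21_apply (x : Elt.zSub A 2) (y : Elt.zSub B 1) : P.z21 x y = P.p21 x.1 y.1 := rfl
@[simp] theorem z30_apply (x : Elt.zSub A 3) (y : Elt.zSub B 0) : P.z30 x y = P.p30 x.1 y.1 := rfl

theorem z12_left (x : Elt.zSub A 1) (hx : Elt.hMk A 1 x = 0) (y : Elt.zSub B 2) :
    P.z12 x y = 0 := by
  obtain ⟨a, ha⟩ := (Elt.hMk_eq_zero_iff_succ A 0 x).1 hx
  rw [z12_apply, ← ha]
  exact P.compat0 a y.1 ((Elt.mem_zSub_iff B 2 y.1).1 y.2)

theorem z12_right (y : Elt.zSub B 2) (hy : Elt.hMk B 2 y = 0) (x : Elt.zSub A 1) :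
    P.z12 x y = 0 := by
  obtain ⟨b, hb⟩ := (Elt.hMk_eq_zero_iff_succ B 1 y).1 hy
  rw [z12_apply, ← hb, ← P.compat1, (Elt.mem_zSub_iff A 1 x.1).1 x.2]
  simp

theorem z21_left (x : Elt.zSub A 2) (hx : Elt.hMk A 2 x = 0) (y : Elt.zSub B 1) :
    P.z21 x y = 0 := by
  obtain ⟨a, ha⟩ := (Elt.hMk_eq_zero_iff_succ A 1 x).1 hx
  rw [z21_apply, ← ha, P.compat1, (Elt.mem_zSub_iff B 1 y.1).1 y.2]
  simp

theorem z21_right (y : Elt.zSub B 1) (hy : Elt.hMk B 1 y = 0) (x : Elt.zSub A 2) :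
    P.z21 x y = 0 := by
  obtain ⟨b, hb⟩ := (Elt.hMk_eq_zero_iff_succ B 0 y).1 hy
  have h := P.compat2 x.1 b
  rw [(Elt.mem_zSub_iff A 2 x.1).1 x.2] at h
  rw [z21_apply, ← hb]
  simpa using h.symm

theorem z30_left (x : Elt.zSub A 3) (hx : Elt.hMk A 3 x = 0) (y : Elt.zSub B 0) :
    P.z30 x y = 0 := by
  obtain ⟨a, ha⟩ := (Elt.hMk_eq_zero_iff_succ A 2 x).1 hx
  rw [z30_apply, ← ha, P.compat2, (Elt.mem_zSub_iff B 0 y.1).1 y.2]
  simp

theorem z30_right (y : Elt.zSub B 0) (hy : Elt.hMk B 0 y = 0) (x : Elt.zSub A 3) :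
    P.z30 x y = 0 := by
  rw [(Elt.hMk_eq_zero_iff_zero B y).1 hy]
  simp

/-- The induced pairing `H¹(A) × H²(B) → k`. -/
def h12 : A.homology 1 →ₗ[k] B.homology 2 →ₗ[k] k :=
  descend₂ (Elt.hMk A 1) (Elt.hMk_surjective A 1) (Elt.hMk B 2) (Elt.hMk_surjective B 2) P.z12
    (fun x hx y => P.z12_left x hx y) (fun y hy x => P.z12_right y hy x)

/-- The induced pairing `H²(A) × H¹(B) → k`. -/
def h21 : A.homology 2 →ₗ[k] B.homology 1 →ₗ[k] k :=
  descend₂ (Elt.hMk A 2) (Elt.hMk_surjective A 2) (Elt.hMk B 1) (Elt.hMk_surjective B 1) P.z21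
    (fun x hx y => P.z21_left x hx y) (fun y hy x => P.z21_right y hy x)

/-- The induced pairing `H³(A) × H⁰(B) → k`. -/
def h30 : A.homology 3 →ₗ[k] B.homology 0 →ₗ[k] k :=
  descend₂ (Elt.hMk A 3) (Elt.hMk_surjective A 3) (Elt.hMk B 0) (Elt.hMk_surjective B 0) P.z30
    (fun x hx y => P.z30_left x hx y) (fun y hy x => P.z30_right y hy x)

@[simp] theorem h12_mk (x : Elt.zSub A 1) (y : Elt.zSub B 2) :
    P.h12 (Elt.hMk A 1 x) (Elt.hMk B 2 y) = P.p12 x.1 y.1 := by simp [h12]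
@[simp] theorem h21_mk (x : Elt.zSub A 2) (y : Elt.zSub B 1) :
    P.h21 (Elt.hMk A 2 x) (Elt.hMk B 1 y) = P.p21 x.1 y.1 := by simp [h21]
@[simp] theorem h30_mk (x : Elt.zSub A 3) (y : Elt.zSub B 0) :
    P.h30 (Elt.hMk A 3 x) (Elt.hMk B 0 y) = P.p30 x.1 y.1 := by simp [h30]

/-- The duality property: `H¹(A) ≅ H²(B)ᵛ`, `H²(A) ≅ H¹(B)ᵛ`, `H³(A) ↪ H⁰(B)ᵛ`. -/
def Good : Prop :=
  Function.Bijective P.h12 ∧ Function.Bijective P.h21 ∧ Function.Injective P.h30

end CPairing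

/-- A morphism of paired complexes: `f : A ⟶ A₁` and `g : B₁ ⟶ B` adjoint for the pairings. -/
structure Adjoint {A B A₁ B₁ : CochainComplex (ModuleCat.{u} k) ℕ}
    (P : CPairing A B) (P₁ : CPairing A₁ B₁) (f : A ⟶ A₁) (g : B₁ ⟶ B) : Prop where
  a12 : ∀ (a : A.X 1) (b : B₁.X 2), P₁.p12 (f.f 1 a) b = P.p12 a (g.f 2 b)
  a21 : ∀ (a : A.X 2) (b : B₁.X 1), P₁.p21 (f.f 2 a) b = P.p21 a (g.f 1 b)
  a30 : ∀ (a : A.X 3) (b : B₁.X 0), P₁.p30 (f.f 3 a) b = P.p30 a (g.f 0 b)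

namespace Adjoint

variable {A B A₁ B₁ : CochainComplex (ModuleCat.{u} k) ℕ}
  {P : CPairing A B} {P₁ : CPairing A₁ B₁} {f : A ⟶ A₁} {g : B₁ ⟶ B}

theorem h12 (h : Adjoint P P₁ f g) (x : A.homology 1) (y : B₁.homology 2) :
    P₁.h12 (HomologicalComplex.homologyMap f 1 x) y =
      P.h12 x (HomologicalComplex.homologyMap g 2 y) := by
  obtain ⟨x, rfl⟩ := Elt.hMk_surjective A 1 x
  obtain ⟨y, rfl⟩ := Elt.hMk_surjective B₁ 2 y
  rw [Elt.homologyMap_hMk, Elt.homologyMap_hMk, CPairing.h12_mk, CPairing.h12_mk]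
  exact h.a12 x.1 y.1

theorem h21 (h : Adjoint P P₁ f g) (x : A.homology 2) (y : B₁.homology 1) :
    P₁.h21 (HomologicalComplex.homologyMap f 2 x) y =
      P.h21 x (HomologicalComplex.homologyMap g 1 y) := by
  obtain ⟨x, rfl⟩ := Elt.hMk_surjective A 2 x
  obtain ⟨y, rfl⟩ := Elt.hMk_surjective B₁ 1 y
  rw [Elt.homologyMap_hMk, Elt.homologyMap_hMk, CPairing.h21_mk, CPairing.h21_mk]
  exact h.a21 x.1 y.1

theorem h30 (h : Adjoint P P₁ f g) (x : A.homology 3) (y : B₁.homology 0) :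
    P₁.h30 (HomologicalComplex.homologyMap f 3 x) y =
      P.h30 x (HomologicalComplex.homologyMap g 0 y) := by
  obtain ⟨x, rfl⟩ := Elt.hMk_surjective A 3 x
  obtain ⟨y, rfl⟩ := Elt.hMk_surjective B₁ 0 y
  rw [Elt.homologyMap_hMk, Elt.homologyMap_hMk, CPairing.h30_mk, CPairing.h30_mk]
  exact h.a30 x.1 y.1

end Adjoint

section Retract

variable {X X₁ Y Y₁ : Type*} [AddCommGroup X] [Module k X] [AddCommGroup X₁] [Module k X₁]
  [AddCommGroup Y] [Module k Y] [AddCommGroup Y₁] [Module k Y₁]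

theorem injective_of_retract_pairing (β : X →ₗ[k] Y →ₗ[k] k) (β₁ : X₁ →ₗ[k] Y₁ →ₗ[k] k)
    (s : X →ₗ[k] X₁) (r : X₁ →ₗ[k] X) (hr : ∀ x, r (s x) = x) (t : Y₁ →ₗ[k] Y)
    (adj : ∀ x y₁, β₁ (s x) y₁ = β x (t y₁)) (h₁ : Function.Injective β₁) :
    Function.Injective β := by
  intro x x' hxx'
  have : s x = s x' := by
    apply h₁
    apply LinearMap.ext
    intro y₁
    rw [adj, adj, hxx']
  rw [← hr x, ← hr x', this]

theorem surjective_of_retract_pairing (β : X →ₗ[k] Y →ₗ[k] k) (β₁ : X₁ →ₗ[k] Y₁ →ₗ[k] k)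
    (r : X₁ →ₗ[k] X) (t : Y₁ →ₗ[k] Y) (t' : Y →ₗ[k] Y₁) (ht : ∀ y, t (t' y) = y)
    (adj' : ∀ x₁ y, β (r x₁) y = β₁ x₁ (t' y)) (h₁ : Function.Surjective β₁) :
    Function.Surjective β := by
  intro φ
  obtain ⟨x₁, hx₁⟩ := h₁ (φ.comp t)
  refine ⟨r x₁, ?_⟩
  apply LinearMap.ext
  intro y
  rw [adj', hx₁, LinearMap.comp_apply, ht]

end Retract

/-- `Good` passes to retracts: if `(A, B, P)` is a retract of `(A₁, B₁, P₁)` through adjoint pairs
`(f, g)` and `(f', g')` with `f ≫ f' = 𝟙` and `g' ≫ g = 𝟙`, then `Good P₁ → Good P`. -/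
theorem CPairing.Good.of_retract {A B A₁ B₁ : CochainComplex (ModuleCat.{u} k) ℕ}
    {P : CPairing A B} {P₁ : CPairing A₁ B₁} {f : A ⟶ A₁} {g : B₁ ⟶ B} {f' : A₁ ⟶ A} {g' : B ⟶ B₁}
    (h : Adjoint P P₁ f g) (h' : Adjoint P₁ P f' g') (hf : f ≫ f' = 𝟙 A) (hg : g' ≫ g = 𝟙 B)
    (hP₁ : P₁.Good) : P.Good := by
  have hfH : ∀ (i : ℕ) (x : A.homology i),
      (HomologicalComplex.homologyMap f' i).hom ((HomologicalComplex.homologyMap f i).hom x) = x := by
    intro i x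
    have := congr($(HomologicalComplex.homologyMap_comp f f' i) x)
    rw [hf, HomologicalComplex.homologyMap_id] at this
    simpa using this.symm
  have hgH : ∀ (j : ℕ) (y : B.homology j),
      (HomologicalComplex.homologyMap g j).hom ((HomologicalComplex.homologyMap g' j).hom y) = y := by
    intro j y
    have := congr($(HomologicalComplex.homologyMap_comp g' g j) y)
    rw [hg, HomologicalComplex.homologyMap_id] at this
    simpa using this.symm
  obtain ⟨⟨i12, s12⟩, ⟨i21, s21⟩, i30⟩ := hP₁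
  refine ⟨⟨?_, ?_⟩, ⟨?_, ?_⟩, ?_⟩
  · exact injective_of_retract_pairing P.h12 P₁.h12 (HomologicalComplex.homologyMap f 1).hom
      (HomologicalComplex.homologyMap f' 1).hom (hfH 1) (HomologicalComplex.homologyMap g 2).hom
      (fun x y₁ => h.h12 x y₁) i12
  · exact surjective_of_retract_pairing P.h12 P₁.h12 (HomologicalComplex.homologyMap f' 1).hom
      (HomologicalComplex.homologyMap g 2).hom (HomologicalComplex.homologyMap g' 2).hom (hgH 2)
      (fun x₁ y => h'.h12 x₁ y) s12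
  · exact injective_of_retract_pairing P.h21 P₁.h21 (HomologicalComplex.homologyMap f 2).hom
      (HomologicalComplex.homologyMap f' 2).hom (hfH 2) (HomologicalComplex.homologyMap g 1).hom
      (fun x y₁ => h.h21 x y₁) i21
  · exact surjective_of_retract_pairing P.h21 P₁.h21 (HomologicalComplex.homologyMap f' 2).hom
      (HomologicalComplex.homologyMap g 1).hom (HomologicalComplex.homologyMap g' 1).hom (hgH 1)
      (fun x₁ y => h'.h21 x₁ y) s21
  · exact injective_of_retract_pairing P.h30 P₁.h30 (HomologicalComplex.homologyMap f 3).hom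
      (HomologicalComplex.homologyMap f' 3).hom (hfH 3) (HomologicalComplex.homologyMap g 0).hom
      (fun x y₁ => h.h30 x y₁) i30

end Fermat.Agent.GC.PT
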