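/-
GATE-C / C5 (helper74): the long-exact-sequence ladder for paired complexes.

Given short exact sequences of complexes `0 → A' → A → A'' → 0`, `0 → B'' → B → B' → 0` and
compatible pairings `P : A × B`, `P' : A' × B'`, `P'' : A'' × B''`, the connecting homomorphisms are
adjoint (up to the Koszul sign), and `Good P'`, `Good P''` imply `Good P`
(provided `H⁰(A'') = 0` and `H³(B'') = 0`).
-/
import Fermat.Agent.GC.PT.Paired
import Fermat.Agent.GC.PT.Devissage

set_option autoImplicit false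

open CategoryTheory

noncomputable section

namespace Fermat.Agent.GC.PT

open Fermat.Agent.GC.Prof

universe u

variable {k : Type u} [Field k]

section Delta

variable {S : ShortComplex (CochainComplex (ModuleCat.{u} k) ℕ)} (hS : S.ShortExact)

include hS in
theorem degreewise_shortExact (i : ℕ) :
    (S.map (HomologicalComplex.eval (ModuleCat.{u} k) (ComplexShape.up ℕ) i)).ShortExact :=
  (HomologicalComplex.shortExact_iff_degreewise_shortExact S).1 hS i

include hS in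
theorem g_f_surjective (i : ℕ) : Function.Surjective (S.g.f i) :=
  (degreewise_shortExact hS i).moduleCat_surjective_g

include hS in
theorem f_f_injective (i : ℕ) : Function.Injective (S.f.f i) :=
  (degreewise_shortExact hS i).moduleCat_injective_f

include hS in
theorem exists_f_f_eq (i : ℕ) (x₂ : S.X₂.X i) (h : S.g.f i x₂ = 0) :
    ∃ x₁ : S.X₁.X i, S.f.f i x₁ = x₂ :=
  ((S.map (HomologicalComplex.eval (ModuleCat.{u} k) (ComplexShape.up ℕ) i)).moduleCat_exact_iff).1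
    (degreewise_shortExact hS i).exact x₂ h

theorem hMk_eq_homologyπ_cyclesMk (K : CochainComplex (ModuleCat.{u} k) ℕ) (n : ℕ)
    (x : Elt.zSub K n)
    (hx : ((forget₂ (ModuleCat k) Ab).map (K.d n (n + 1))) x.1 = 0) :
    Elt.hMk K n x = K.homologyπ n (K.cyclesMk x.1 (n + 1) (by simp) hx) := by
  rw [Elt.hMk_apply]
  congr 1
  apply Elt.iCycles_injective K n
  rw [Elt.iCycles_zMkHom]
  exact (K.i_cyclesMk (i := n) x.1 (n + 1) (by simp) hx).symm

/-- The connecting homomorphism on representatives: every cocycle `x₃` has a lift `x₂` and a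
cocycle `x₁` with `f x₁ = d x₂` and `δ [x₃] = [x₁]`. -/
theorem exists_δ_rep (i j : ℕ) (hij : i + 1 = j) (x₃ : Elt.zSub S.X₃ i) :
    ∃ (x₂ : S.X₂.X i) (x₁ : Elt.zSub S.X₁ j), S.g.f i x₂ = x₃.1 ∧
      S.f.f j x₁.1 = S.X₂.d i j x₂ ∧
      hS.δ i j hij (Elt.hMk S.X₃ i x₃) = Elt.hMk S.X₁ j x₁ := by
  subst hij
  obtain ⟨x₂, hx₂⟩ := g_f_surjective hS i x₃.1
  have hgd : S.g.f (i + 1) (S.X₂.d i (i + 1) x₂) = 0 := by
    have h := congr($(S.g.comm i (i + 1)) x₂)
    rw [ConcreteCategory.comp_apply, ConcreteCategory.comp_apply] at h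
    rw [← h, hx₂]
    exact (Elt.mem_zSub_iff S.X₃ i x₃.1).1 x₃.2
  obtain ⟨x₁, hx₁⟩ := exists_f_f_eq hS (i + 1) _ hgd
  have hx₁z : x₁ ∈ Elt.zSub S.X₁ (i + 1) := by
    rw [Elt.mem_zSub_iff]
    apply f_f_injective hS (i + 2)
    have h := congr($(S.f.comm (i + 1) (i + 2)) x₁)
    rw [ConcreteCategory.comp_apply, ConcreteCategory.comp_apply] at h
    rw [map_zero]
    refine h.symm.trans ?_
    rw [hx₁]
    exact congr($(S.X₂.d_comp_d i (i + 1) (i + 2)) x₂)
  refine ⟨x₂, ⟨x₁, hx₁z⟩, hx₂, hx₁, ?_⟩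
  have hx₃' : ((forget₂ (ModuleCat k) Ab).map (S.X₃.d i (i + 1))) x₃.1 = 0 :=
    (Elt.mem_zSub_iff S.X₃ i x₃.1).1 x₃.2
  have hx₁' : ((forget₂ (ModuleCat k) Ab).map (S.X₁.d (i + 1) (i + 2))) x₁ = 0 :=
    (Elt.mem_zSub_iff S.X₁ (i + 1) x₁).1 hx₁z
  rw [hMk_eq_homologyπ_cyclesMk S.X₃ i x₃ hx₃',
    hMk_eq_homologyπ_cyclesMk S.X₁ (i + 1) ⟨x₁, hx₁z⟩ hx₁']
  exact hS.δ_apply i (i + 1) rfl x₃.1 hx₃' x₂ hx₂ x₁ hx₁ (i + 2) (by simp)

end Delta

section Ladder

variable {SA SB : ShortComplex (CochainComplex (ModuleCat.{u} k) ℕ)}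
  (hA : SA.ShortExact) (hB : SB.ShortExact)
  {P : CPairing SA.X₂ SB.X₂} {P' : CPairing SA.X₁ SB.X₃} {P'' : CPairing SA.X₃ SB.X₁}
  (adj' : Adjoint P' P SA.f SB.g) (adj'' : Adjoint P P'' SA.g SB.f)

include adj' adj'' in
/-- The connecting homomorphisms `H¹(A'') → H²(A')` and `H¹(B') → H²(B'')` are adjoint. -/
theorem δ_adjoint₁ (x'' : SA.X₃.homology 1) (y' : SB.X₃.homology 1) :
    P'.h21 (hA.δ 1 2 rfl x'') y' = P''.h12 x'' (hB.δ 1 2 rfl y') := by
  obtain ⟨z, rfl⟩ := Elt.hMk_surjective SA.X₃ 1 x''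
  obtain ⟨w, rfl⟩ := Elt.hMk_surjective SB.X₃ 1 y'
  obtain ⟨a, a', ha, ha', hδa⟩ := exists_δ_rep hA 1 2 rfl z
  obtain ⟨b, b'', hb, hb'', hδb⟩ := exists_δ_rep hB 1 2 rfl w
  rw [hδa, hδb, CPairing.h21_mk, CPairing.h12_mk, ← hb, ← adj'.a21, ha', P.compat1, ← hb'',
    ← adj''.a12, ha]

include adj' adj'' in
/-- The connecting homomorphisms `H²(A'') → H³(A')` and `H⁰(B') → H¹(B'')` are adjoint up to the
sign `-1`. -/
theorem δ_adjoint₂ (x'' : SA.X₃.homology 2) (y' : SB.X₃.homology 0) :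
    P'.h30 (hA.δ 2 3 rfl x'') y' = - P''.h21 x'' (hB.δ 0 1 rfl y') := by
  obtain ⟨z, rfl⟩ := Elt.hMk_surjective SA.X₃ 2 x''
  obtain ⟨w, rfl⟩ := Elt.hMk_surjective SB.X₃ 0 y'
  obtain ⟨a, a', ha, ha', hδa⟩ := exists_δ_rep hA 2 3 rfl z
  obtain ⟨b, b'', hb, hb'', hδb⟩ := exists_δ_rep hB 0 1 rfl w
  rw [hδa, hδb, CPairing.h30_mk, CPairing.h21_mk, ← hb, ← adj'.a30, ha', P.compat2, ← hb'',
    ← adj''.a21, ha]

end Ladder

section DualExact

variable {X Y Z : Type*} [AddCommGroup X] [Module k X] [AddCommGroup Y] [Module k Y]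
  [AddCommGroup Z] [Module k Z]

theorem exact_dualMap (f : X →ₗ[k] Y) (g : Y →ₗ[k] Z) (h : Function.Exact f g) :
    Function.Exact g.dualMap f.dualMap := by
  rw [LinearMap.exact_iff] at h ⊢
  rw [LinearMap.ker_dualMap_eq_dualAnnihilator_range, LinearMap.range_dualMap_eq_dualAnnihilator_ker,
    h]

theorem exact_neg_left (f : X →ₗ[k] Y) (g : Y →ₗ[k] Z) (h : Function.Exact f g) :
    Function.Exact (-f) g := by
  rw [LinearMap.exact_iff] at h ⊢
  rw [h, LinearMap.range_neg]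

theorem exact_neg_right (f : X →ₗ[k] Y) (g : Y →ₗ[k] Z) (h : Function.Exact f g) :
    Function.Exact f (-g) := by
  rw [LinearMap.exact_iff] at h ⊢
  rw [← h, LinearMap.ker_neg]

end DualExact

section Main

variable {SA SB : ShortComplex (CochainComplex (ModuleCat.{u} k) ℕ)}
  (hA : SA.ShortExact) (hB : SB.ShortExact)
  {P : CPairing SA.X₂ SB.X₂} {P' : CPairing SA.X₁ SB.X₃} {P'' : CPairing SA.X₃ SB.X₁}
  (adj' : Adjoint P' P SA.f SB.g) (adj'' : Adjoint P P'' SA.g SB.f)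

theorem exact_of_sc {X₁ X₂ X₃ : ModuleCat.{u} k} (f : X₁ ⟶ X₂) (g : X₂ ⟶ X₃) (w : f ≫ g = 0)
    (h : (ShortComplex.mk f g w).Exact) : Function.Exact f.hom g.hom :=
  (ShortComplex.ShortExact.moduleCat_exact_iff_function_exact (ShortComplex.mk f g w)).1 h

include hA hB adj' adj'' in
/-- **Extension step.** `Good` for the outer terms of two paired short exact sequences of
complexes implies `Good` for the middle term. -/
theorem CPairing.Good.of_shortExact (h0 : Limits.IsZero (SA.X₃.homology 0))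
    (h3 : Limits.IsZero (SB.X₁.homology 3)) (hP' : P'.Good) (hP'' : P''.Good) : P.Good := by
  -- top row
  have ha₁ : Function.Injective (HomologicalComplex.homologyMap SA.f 1).hom := by
    have hex := exact_of_sc _ _ _ (hA.homology_exact₁ 0 1 rfl)
    rw [← LinearMap.ker_eq_bot, LinearMap.ker_eq_bot']
    intro x hx
    obtain ⟨y, rfl⟩ := (hex x).1 hx
    have : y = 0 := (ModuleCat.isZero_iff_subsingleton.1 h0).elim _ _
    rw [this, map_zero]
  have ha₁₂ := exact_of_sc _ _ _ (hA.homology_exact₂ 1)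
  have ha₂₃ := exact_of_sc _ _ _ (hA.homology_exact₃ 1 2 rfl)
  have ha₃₄ := exact_of_sc _ _ _ (hA.homology_exact₁ 1 2 rfl)
  have ha₄₅ := exact_of_sc _ _ _ (hA.homology_exact₂ 2)
  have ha₅₆ := exact_of_sc _ _ _ (hA.homology_exact₃ 2 3 rfl)
  have ha₆₇ := exact_of_sc _ _ _ (hA.homology_exact₁ 2 3 rfl)
  have ha₇₈ := exact_of_sc _ _ _ (hA.homology_exact₂ 3)
  -- bottom row
  have hb₁ : Function.Injective (HomologicalComplex.homologyMap SB.g 2).hom.dualMap := by
    apply LinearMap.dualMap_injective_of_surjective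
    have hex := exact_of_sc _ _ _ (hB.homology_exact₃ 2 3 rfl)
    intro y
    apply (hex y).1
    exact (ModuleCat.isZero_iff_subsingleton.1 h3).elim _ _
  have hb₁₂ := exact_dualMap _ _ (exact_of_sc _ _ _ (hB.homology_exact₂ 2))
  have hb₂₃ := exact_dualMap _ _ (exact_of_sc _ _ _ (hB.homology_exact₁ 1 2 rfl))
  have hb₃₄ := exact_dualMap _ _ (exact_of_sc _ _ _ (hB.homology_exact₃ 1 2 rfl))
  have hb₄₅ := exact_dualMap _ _ (exact_of_sc _ _ _ (hB.homology_exact₂ 1))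
  have hb₅₆ := exact_neg_right _ _ (exact_dualMap _ _ (exact_of_sc _ _ _ (hB.homology_exact₁ 0 1 rfl)))
  have hb₆₇ := exact_neg_left _ _ (exact_dualMap _ _ (exact_of_sc _ _ _ (hB.homology_exact₃ 0 1 rfl)))
  obtain ⟨h1', h2', h3'⟩ := hP'
  obtain ⟨h1'', h2'', h3''⟩ := hP''
  exact ext_step
    (HomologicalComplex.homologyMap SA.f 1).hom (HomologicalComplex.homologyMap SA.g 1).hom
    (hA.δ 1 2 rfl).hom
    (HomologicalComplex.homologyMap SA.f 2).hom (HomologicalComplex.homologyMap SA.g 2).hom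
    (hA.δ 2 3 rfl).hom
    (HomologicalComplex.homologyMap SA.f 3).hom (HomologicalComplex.homologyMap SA.g 3).hom
    (HomologicalComplex.homologyMap SB.g 2).hom.dualMap
    (HomologicalComplex.homologyMap SB.f 2).hom.dualMap
    (hB.δ 1 2 rfl).hom.dualMap
    (HomologicalComplex.homologyMap SB.g 1).hom.dualMap
    (HomologicalComplex.homologyMap SB.f 1).hom.dualMap
    (-(hB.δ 0 1 rfl).hom.dualMap)
    (HomologicalComplex.homologyMap SB.g 0).hom.dualMap
    (HomologicalComplex.homologyMap SB.f 0).hom.dualMap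
    P'.h12 P.h12 P''.h12 P'.h21 P.h21 P''.h21 P'.h30 P.h30 P''.h30
    ha₁ ha₁₂ ha₂₃ ha₃₄ ha₄₅ ha₅₆ ha₆₇ ha₇₈
    hb₁ hb₁₂ hb₂₃ hb₃₄ hb₄₅ hb₅₆ hb₆₇
    (by ext x y; exact (adj'.h12 x y).symm)
    (by ext x y; exact (adj''.h12 x y).symm)
    (by ext x y; exact (δ_adjoint₁ hA hB adj' adj'' x y).symm)
    (by ext x y; exact (adj'.h21 x y).symm)
    (by ext x y; exact (adj''.h21 x y).symm)
    (by
      ext x y
      have := δ_adjoint₂ hA hB adj' adj'' x y
      simp only [LinearMap.comp_apply, LinearMap.neg_apply, LinearMap.dualMap_apply]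
      rw [this])
    (by ext x y; exact (adj'.h30 x y).symm)
    (by ext x y; exact (adj''.h30 x y).symm)
    h1' h1'' h2' h2'' h3' h3''

end Main

end Fermat.Agent.GC.PT
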