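import Fermat.Agent.GC.Prof.Basic
import Fermat.Agent.GC.Tate.CorRes

/-!
# GATE-C / C5 (PT-C) : REP-DEVISSAGE

Finite-dimensional discrete `k[G]`-modules in characteristic `p` are generated, under extensions
and retracts, by the permutation modules `coind_H^G(1)`, `H` open with `χ|_H = 1`.
Statements `finiteDimensional_coind`, `isDiscrete_coind`, `rep_devissage` are verbatim those of
`GC/PT/Skeleton.lean` (helper74).  Proof: `V ∈ 𝒰` normal acting trivially on `M` with `χ|_V = 1`;
`P ⊇ V` the preimage of a Sylow `p`-subgroup of `G ⧸ V`; `M` is a retract of `coind_P res_P M`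
(unit / trace of `GC/Tate/Cor.lean`, `[G:P]` invertible in `k`); `res_P M` has a filtration with
trivial graded pieces (fixed vector lemma for `p`-groups in characteristic `p`), pushed through the
exact functor `coind_P^G` (`coind_shortExact`); `χ|_P = 1` since `kˣ` has no `p`-torsion.
-/

set_option autoImplicit false
set_option linter.style.haveILetI false

open CategoryTheory Module

noncomputable section

namespace Fermat.Agent.GC.PT.RepDevissage

open Fermat.Agent.GC.Prof Fermat.Agent.GC.Tate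

universe u

section Coind

variable {k G : Type u} [Field k] [Group G] (𝒰 : LevelSystem G)

/-- Values of a coinduced function at inverses of coset representatives. -/
def coindEvalOut (H : Subgroup G) (W : Rep.{u} k H) :
    (Rep.coind H.subtype W) →ₗ[k] ((G ⧸ H) → W) where
  toFun f q := f.1 (q.out)⁻¹
  map_add' _ _ := rfl
  map_smul' _ _ := rfl

lemma coindEvalOut_injective (H : Subgroup G) (W : Rep.{u} k H) :
    Function.Injective (coindEvalOut H W) := by
  rw [← LinearMap.ker_eq_bot, LinearMap.ker_eq_bot']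
  intro f hf
  apply Subtype.ext
  funext g
  -- `(g⁻¹H).out = g⁻¹ * h`, so `g = h * (g⁻¹H).out⁻¹`
  obtain ⟨h, hh⟩ := QuotientGroup.mk_out_eq_mul H g⁻¹
  have hg : g = (h : G) * ((QuotientGroup.mk g⁻¹ : G ⧸ H).out)⁻¹ := by
    rw [hh]; simp
  have h0 : f.1 ((QuotientGroup.mk g⁻¹ : G ⧸ H).out)⁻¹ = 0 := congrFun hf _
  have h1 := f.2 h ((QuotientGroup.mk g⁻¹ : G ⧸ H).out)⁻¹
  rw [hg]
  change f.1 (H.subtype h * _) = 0
  rw [h1, h0, map_zero]

theorem finiteDimensional_coind (H : Subgroup G) [H.FiniteIndex] (W : Rep.{u} k H)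
    [FiniteDimensional k W] : FiniteDimensional k (Rep.coind H.subtype W) := by
  have : Finite (G ⧸ H) := Subgroup.finite_quotient_of_finiteIndex
  exact FiniteDimensional.of_injective (coindEvalOut H W) (coindEvalOut_injective H W)

theorem isDiscrete_coind (H : Subgroup G) (W : Rep.{u} k H)
    (hW : ∃ V ∈ 𝒰.sets, V ≤ H ∧ ∀ (v : H), (v : G) ∈ V → W.ρ v = LinearMap.id) :
    IsDiscrete 𝒰 (Rep.coind H.subtype W) := by
  obtain ⟨V, hV, hVH, htriv⟩ := hW
  obtain ⟨V', hV', hle, hn, -⟩ := 𝒰.normal_below V hV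
  refine ⟨fun f => ⟨V', hV', fun s hs => ?_⟩⟩
  apply Subtype.ext
  funext g
  change f.1 (g * s) = f.1 g
  -- `g * s = (g s g⁻¹) * g` with `g s g⁻¹ ∈ V' ≤ V ≤ H` acting trivially
  have hc : g * s * g⁻¹ ∈ V' := hn.conj_mem s hs g
  have hcH : g * s * g⁻¹ ∈ H := hVH (hle hc)
  have h1 := f.2 ⟨g * s * g⁻¹, hcH⟩ g
  have h2 : W.ρ ⟨g * s * g⁻¹, hcH⟩ = LinearMap.id := htriv ⟨g * s * g⁻¹, hcH⟩ (hle hc)
  have h3 : H.subtype ⟨g * s * g⁻¹, hcH⟩ * g = g * s := by simp
  rw [h3, h2] at h1
  exact h1


end Coind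

/-- **Fixed vector lemma.** A group acting `k`-linearly (`char k = p`) on a nonzero space through
a finite image, every element acting with `p`-power order, has a nonzero fixed vector. -/
theorem exists_fixed_vector (p : ℕ) [Fact p.Prime] {k : Type u} [Field k] [CharP k p]
    {P : Type u} [Group P] (W : Rep.{u} k P) [Nontrivial W]
    (hfin : (Set.range W.ρ).Finite)
    (hp : ∀ g : P, ∃ n : ℕ, W.ρ (g ^ p ^ n) = 1) :
    ∃ w : W, w ≠ 0 ∧ ∀ g : P, W.ρ g w = w := by
  classical
  obtain ⟨w₀, hw₀⟩ := exists_ne (0 : W)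
  -- `W` as an `𝔽_p`-vector space
  letI : Algebra (ZMod p) k := ZMod.algebra k p
  letI : Module (ZMod p) W := Module.compHom W (algebraMap (ZMod p) k)
  have hsmul : ∀ (c : ZMod p) (w : W), c • w = (algebraMap (ZMod p) k c) • w := fun _ _ => rfl
  -- the orbit of `w₀` is finite
  let O : Set W := Set.range fun g : P => W.ρ g w₀
  have hO : O.Finite := by
    have : O = (fun φ : W →ₗ[k] W => φ w₀) '' Set.range W.ρ := by
      ext x
      simp [O]
    rw [this]
    exact hfin.image _
  -- the `𝔽_p`-span of the orbit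
  let X : Submodule (ZMod p) W := Submodule.span (ZMod p) O
  have hXfin : Finite X := by
    have : Module.Finite (ZMod p) X := Module.Finite.span_of_finite (ZMod p) hO
    exact Module.finite_of_finite (ZMod p)
  have hw₀X : w₀ ∈ X := Submodule.subset_span ⟨1, by simp⟩
  have hstab : ∀ (g : P) (x : W), x ∈ X → W.ρ g x ∈ X := by
    intro g x hx
    induction hx using Submodule.span_induction with
    | mem x hx =>
      obtain ⟨h, rfl⟩ := hx
      refine Submodule.subset_span ⟨g * h, ?_⟩
      simp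
    | zero => simp
    | add x y _ _ hx hy => rw [map_add]; exact X.add_mem hx hy
    | smul c x _ hx =>
      rw [hsmul, map_smul, ← hsmul]
      exact X.smul_mem c hx
  -- the action of `P` on the finite set `X`
  letI : MulAction P W :=
    { smul := fun g w => W.ρ g w
      one_smul := fun w => by change W.ρ 1 w = w; simp
      mul_smul := fun g h w => by change W.ρ (g * h) w = W.ρ g (W.ρ h w); simp }
  have hsm : ∀ (g : P) (w : W), g • w = W.ρ g w := fun _ _ => rfl
  let S : SubMulAction P W := ⟨X, fun g x hx => hstab g x hx⟩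
  have hSfin : Finite S := hXfin
  -- the image of `P` in `Perm S` is a `p`-group
  let Γ : Subgroup (Equiv.Perm S) := (MulAction.toPermHom P S).range
  have hΓ : IsPGroup p Γ := by
    rintro ⟨γ, g, rfl⟩
    obtain ⟨n, hn⟩ := hp g
    refine ⟨n, ?_⟩
    apply Subtype.ext
    change (MulAction.toPermHom P S g) ^ p ^ n = 1
    rw [← map_pow]
    ext x
    change ((g ^ p ^ n) • x : S).1 = x.1
    change W.ρ (g ^ p ^ n) x.1 = x.1
    rw [hn]
    rfl
  -- `p ∣ |X|`
  have hcard : p ∣ Nat.card S := by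
    have h1 : Nat.card S = Nat.card X := rfl
    have : Module.Finite (ZMod p) X := Module.Finite.span_of_finite (ZMod p) hO
    rw [h1, Module.natCard_eq_pow_finrank (K := ZMod p) (V := X), Nat.card_zmod]
    have hpos : 0 < finrank (ZMod p) X := by
      rw [Module.finrank_pos_iff_exists_ne_zero]
      exact ⟨⟨w₀, hw₀X⟩, fun h => hw₀ (congrArg Subtype.val h)⟩
    exact dvd_pow_self p hpos.ne'
  -- `0` is a fixed point
  have h0 : (⟨0, X.zero_mem⟩ : S) ∈ MulAction.fixedPoints Γ S := by
    rintro ⟨γ, g, rfl⟩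
    apply Subtype.ext
    change W.ρ g 0 = 0
    simp
  obtain ⟨b, hb, hne⟩ := hΓ.exists_fixed_point_of_prime_dvd_card_of_fixed_point S hcard h0
  refine ⟨b.1, fun h => hne (Subtype.ext h.symm), fun g => ?_⟩
  have := hb ⟨MulAction.toPermHom P S g, g, rfl⟩
  exact congrArg Subtype.val this


section Filtration

variable {k G : Type u} [Field k] [Group G]

/-- Concrete criterion for short exactness in `Rep k G`. -/
lemma shortExact_of_concrete_rep (S : ShortComplex (Rep.{u} k G))
    (hf : Function.Injective S.f.hom) (hg : Function.Surjective S.g.hom)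
    (hex : ∀ x : S.X₂, S.g.hom x = 0 → ∃ y : S.X₁, S.f.hom y = x) : S.ShortExact where
  exact := (forget₂ (Rep.{u} k G) (ModuleCat.{u} k)).reflects_exact_of_faithful _ <|
    (ShortComplex.moduleCat_exact_iff _).2 fun x hx => hex x hx
  mono_f := (Rep.mono_iff_injective _).2 hf
  epi_g := (Rep.epi_iff_surjective _).2 hg

/-- The line spanned by a fixed vector, as a morphism from the trivial representation. -/
def fixedLine (W : Rep.{u} k G) (w : W) (hw : ∀ g : G, W.ρ g w = w) :
    Rep.trivial k G k ⟶ W :=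
  Rep.ofHom ⟨LinearMap.toSpanSingleton k W w, fun g => by
    ext
    simp [hw g]⟩

lemma span_le_comap (W : Rep.{u} k G) (w : W) (hw : ∀ g : G, W.ρ g w = w) (g : G) :
    Submodule.span k {w} ≤ (Submodule.span k {w}).comap (W.ρ g) := by
  rw [Submodule.span_le]
  rintro x rfl
  change W.ρ g x ∈ Submodule.span k {x}
  rw [hw g]
  exact Submodule.mem_span_singleton_self x

/-- The short complex `k ⟶ W ⟶ W / k·w` of a fixed vector. -/
def fixedSeq (W : Rep.{u} k G) (w : W) (hw : ∀ g : G, W.ρ g w = w) :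
    ShortComplex (Rep.{u} k G) :=
  ShortComplex.mk (fixedLine W w hw)
    (Rep.mkQ W (Submodule.span k {w}) (span_le_comap W w hw)) (by
      ext
      simp [fixedLine])

lemma fixedSeq_shortExact (W : Rep.{u} k G) (w : W) (hw : ∀ g : G, W.ρ g w = w) (hw0 : w ≠ 0) :
    (fixedSeq W w hw).ShortExact := by
  apply shortExact_of_concrete_rep
  · intro (a : k) (b : k) hab
    have h1 : a • w = b • w := hab
    exact smul_left_injective k hw0 h1
  · intro (x : W ⧸ Submodule.span k {w})
    obtain ⟨y, rfl⟩ := Submodule.mkQ_surjective (Submodule.span k {w}) x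
    exact ⟨y, rfl⟩
  · intro (x : W) hx
    have hx' : (Submodule.span k {w}).mkQ x = 0 := hx
    rw [Submodule.mkQ_apply, Submodule.Quotient.mk_eq_zero, Submodule.mem_span_singleton] at hx'
    obtain ⟨c, rfl⟩ := hx'
    exact ⟨c, rfl⟩


end Filtration

section Main

variable {k G : Type u} [Field k] [Group G] (𝒰 : LevelSystem G)

/-- Any two morphisms into/out of a subsingleton representation agree. -/
lemma hom_eq_of_subsingleton {M N : Rep.{u} k G} [Subsingleton N] (f g : M ⟶ N) : f = g := by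
  ext x
  exact Subsingleton.elim _ _

/-- The image of `P` in `End W` is finite when a finite-index subgroup acts trivially. -/
lemma finite_range_ρ {P : Subgroup G} (V : Subgroup G) [V.FiniteIndex] (W : Rep.{u} k P)
    (htriv : ∀ v : P, (v : G) ∈ V → W.ρ v = LinearMap.id) : (Set.range W.ρ).Finite := by
  have : Finite (P ⧸ V.subgroupOf P) := Subgroup.finite_quotient_of_finiteIndex
  refine (Set.finite_range (fun q : P ⧸ V.subgroupOf P => W.ρ q.out)).subset ?_
  rintro _ ⟨g, rfl⟩
  refine ⟨QuotientGroup.mk g, ?_⟩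
  obtain ⟨n, hn⟩ := QuotientGroup.mk_out_eq_mul (V.subgroupOf P) g
  change W.ρ (QuotientGroup.mk g : P ⧸ V.subgroupOf P).out = W.ρ g
  rw [hn, map_mul, htriv n.1 (Subgroup.mem_subgroupOf.1 n.2)]
  rfl

/-- The unipotent filtration step: `Pr (coind_P W)` for every finite-dimensional `W` on which
`V` acts trivially, `P/V` being a `p`-group. -/
theorem pr_coind_of_unipotent (p : ℕ) [Fact p.Prime] [CharP k p]
    (Pr : Rep.{u} k G → Prop)
    (retr : ∀ (M M₁ : Rep.{u} k G) [FiniteDimensional k M] [FiniteDimensional k M₁]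
      [IsDiscrete 𝒰 M] [IsDiscrete 𝒰 M₁] (i : M ⟶ M₁) (r : M₁ ⟶ M), i ≫ r = 𝟙 M → Pr M₁ → Pr M)
    (ext : ∀ (X : ShortComplex (Rep.{u} k G)) [FiniteDimensional k X.X₁]
      [FiniteDimensional k X.X₂] [FiniteDimensional k X.X₃]
      [IsDiscrete 𝒰 X.X₁] [IsDiscrete 𝒰 X.X₂] [IsDiscrete 𝒰 X.X₃],
      X.ShortExact → Pr X.X₁ → Pr X.X₃ → Pr X.X₂)
    (P : Subgroup G) [P.FiniteIndex] (V : Subgroup G) (hV : V ∈ 𝒰.sets) [V.FiniteIndex]
    (hVP : V ≤ P) (hpP : ∀ g ∈ P, ∃ n : ℕ, g ^ p ^ n ∈ V)
    (hbase : Pr (Rep.coind P.subtype (Rep.trivial k P k))) :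
    ∀ (n : ℕ) (W : Rep.{u} k P) [FiniteDimensional k W], finrank k W = n →
      (∀ v : P, (v : G) ∈ V → W.ρ v = LinearMap.id) → Pr (Rep.coind P.subtype W) := by
  have hdisc : ∀ (W : Rep.{u} k P), (∀ v : P, (v : G) ∈ V → W.ρ v = LinearMap.id) →
      IsDiscrete 𝒰 (Rep.coind P.subtype W) := fun W hW =>
    isDiscrete_coind 𝒰 P W ⟨V, hV, hVP, hW⟩
  have htrivtriv : ∀ v : P, (v : G) ∈ V → (Rep.trivial k P k).ρ v = LinearMap.id :=
    fun v _ => rfl
  haveI := hdisc (Rep.trivial k P k) htrivtriv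
  haveI : FiniteDimensional k (Rep.coind P.subtype (Rep.trivial k P k)) :=
    finiteDimensional_coind P (Rep.trivial k P k)
  intro n
  induction n with
  | zero =>
    intro W _ hW htriv
    haveI : Subsingleton W := Module.finrank_zero_iff.1 hW
    haveI : Subsingleton (Rep.coind P.subtype W) :=
      ⟨fun f g => Subtype.ext (funext fun x => Subsingleton.elim _ _)⟩
    haveI := hdisc W htriv
    haveI : FiniteDimensional k (Rep.coind P.subtype W) := finiteDimensional_coind P W
    exact retr _ _ 0 0 (hom_eq_of_subsingleton _ _) hbase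
  | succ n ih =>
    intro W _ hW htriv
    haveI : Nontrivial W := Module.nontrivial_of_finrank_pos (R := k) (by omega)
    -- a nonzero fixed vector
    have hp : ∀ g : P, ∃ m : ℕ, W.ρ (g ^ p ^ m) = 1 := by
      intro g
      obtain ⟨m, hm⟩ := hpP g.1 g.2
      refine ⟨m, ?_⟩
      have : ((g ^ p ^ m : P) : G) ∈ V := by simpa using hm
      rw [htriv _ this]
      rfl
    obtain ⟨w, hw0, hw⟩ := exists_fixed_vector p W (finite_range_ρ V W htriv) hp
    -- the quotient
    set T : Submodule k W := Submodule.span k {w} with hT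
    set W' : Rep.{u} k P := Rep.quotient W T (span_le_comap W w hw) with hW'
    have hfr : finrank k W' = n := by
      have h1 := Submodule.finrank_quotient_add_finrank T
      have h2 : finrank k T = 1 := finrank_span_singleton hw0
      have h3 : finrank k (W ⧸ T) = finrank k W' := rfl
      omega
    have htriv' : ∀ v : P, (v : G) ∈ V → W'.ρ v = LinearMap.id := by
      intro v hv
      apply LinearMap.ext
      intro (x : W ⧸ T)
      obtain ⟨y, rfl⟩ := Submodule.mkQ_surjective T x
      change T.mkQ (W.ρ v y) = T.mkQ y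
      rw [htriv v hv]
      rfl
    haveI : FiniteDimensional k W' := inferInstanceAs (FiniteDimensional k (W ⧸ T))
    have ih' := ih W' hfr htriv'
    -- the coinduced short exact sequence
    have hX := fixedSeq_shortExact W w hw hw0
    have hcX := coind_shortExact P hX
    haveI := hdisc W htriv
    haveI := hdisc W' htriv'
    haveI : FiniteDimensional k (Rep.coind P.subtype W) := finiteDimensional_coind P W
    haveI : FiniteDimensional k (Rep.coind P.subtype W') := finiteDimensional_coind P W'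
    exact @ext ((fixedSeq W w hw).map (Rep.coindFunctor k P.subtype))
      (inferInstanceAs (FiniteDimensional k (Rep.coind P.subtype (Rep.trivial k P k))))
      (inferInstanceAs (FiniteDimensional k (Rep.coind P.subtype W)))
      (inferInstanceAs (FiniteDimensional k (Rep.coind P.subtype W')))
      (inferInstanceAs (IsDiscrete 𝒰 (Rep.coind P.subtype (Rep.trivial k P k))))
      (inferInstanceAs (IsDiscrete 𝒰 (Rep.coind P.subtype W)))
      (inferInstanceAs (IsDiscrete 𝒰 (Rep.coind P.subtype W')))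
      hcX hbase ih'

/-- `kˣ` has no `p`-power torsion in characteristic `p`. -/
lemma eq_one_of_pow_char_pow_eq_one (p : ℕ) [Fact p.Prime] [CharP k p] (x : kˣ) (n : ℕ)
    (h : x ^ p ^ n = 1) : x = 1 := by
  apply Units.ext
  have h1 : ((x : k) - 1) ^ p ^ n = 0 := by
    rw [sub_pow_char_pow, one_pow, sub_eq_zero]
    have := congrArg Units.val h
    simpa using this
  have := pow_eq_zero_iff (pow_ne_zero n (Fact.out : p.Prime).ne_zero) |>.1 h1
  simpa [sub_eq_zero] using this

theorem rep_devissage (p : ℕ) [Fact p.Prime] [CharP k p] (χ : G →* kˣ)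
    (hχ : ∃ U ∈ 𝒰.sets, ∀ g ∈ U, χ g = 1)
    (Pr : Rep.{u} k G → Prop)
    (retr : ∀ (M M₁ : Rep.{u} k G) [FiniteDimensional k M] [FiniteDimensional k M₁]
      [IsDiscrete 𝒰 M] [IsDiscrete 𝒰 M₁] (i : M ⟶ M₁) (r : M₁ ⟶ M), i ≫ r = 𝟙 M → Pr M₁ → Pr M)
    (ext : ∀ (X : ShortComplex (Rep.{u} k G)) [FiniteDimensional k X.X₁]
      [FiniteDimensional k X.X₂] [FiniteDimensional k X.X₃]
      [IsDiscrete 𝒰 X.X₁] [IsDiscrete 𝒰 X.X₂] [IsDiscrete 𝒰 X.X₃],
      X.ShortExact → Pr X.X₁ → Pr X.X₃ → Pr X.X₂)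
    (base : ∀ (H : Subgroup G), (∃ V ∈ 𝒰.sets, V ≤ H) → (∀ g ∈ H, χ g = 1) →
      Pr (Rep.coind H.subtype (Rep.trivial k H k)))
    (M : Rep.{u} k G) [FiniteDimensional k M] [IsDiscrete 𝒰 M] : Pr M := by
  classical
  -- Step 1: a normal level `V` acting trivially on `M`, with `χ|_V = 1`
  obtain ⟨Uχ, hUχ, hχU⟩ := hχ
  let b := Module.finBasis k M
  choose U hU hUfix using fun i => IsDiscrete.exists_fix (𝒰 := 𝒰) (b i)
  obtain ⟨V₀, hV₀, hV₀le, -, -⟩ :=
    𝒰.exists_normal_le_finite Set.univ Set.finite_univ U (fun i _ => hU i)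
  obtain ⟨V, hV, hVV₀, hVUχ, hVn, hVf⟩ := 𝒰.exists_normal_le_inf hV₀ hUχ
  have hVtriv : ∀ v ∈ V, M.ρ v = LinearMap.id := by
    intro v hv
    apply b.ext
    intro i
    exact hUfix i v (hV₀le i (Set.mem_univ i) (hVV₀ hv))
  have hχV : ∀ v ∈ V, χ v = 1 := fun v hv => hχU v (hVUχ hv)
  -- Step 2: the preimage `P` of a Sylow `p`-subgroup of `G ⧸ V`
  haveI := hVn
  haveI := hVf
  haveI : Finite (G ⧸ V) := Subgroup.finite_quotient_of_finiteIndex
  obtain ⟨S⟩ : Nonempty (Sylow p (G ⧸ V)) := inferInstance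
  set P : Subgroup G := (S : Subgroup (G ⧸ V)).comap (QuotientGroup.mk' V) with hP
  have hVP : V ≤ P := by
    intro v hv
    change QuotientGroup.mk' V v ∈ (S : Subgroup (G ⧸ V))
    have : QuotientGroup.mk' V v = 1 := (QuotientGroup.eq_one_iff v).2 hv
    rw [this]
    exact Subgroup.one_mem _
  have hpP : ∀ g ∈ P, ∃ n : ℕ, g ^ p ^ n ∈ V := by
    intro g hg
    obtain ⟨n, hn⟩ := S.isPGroup' ⟨QuotientGroup.mk' V g, hg⟩
    refine ⟨n, ?_⟩
    have h1 : (QuotientGroup.mk' V g) ^ p ^ n = 1 := by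
      have := congrArg Subtype.val hn
      simpa using this
    rw [← map_pow] at h1
    exact (QuotientGroup.eq_one_iff _).1 h1
  have hidx : P.index = (S : Subgroup (G ⧸ V)).index :=
    Subgroup.index_comap_of_surjective _ (QuotientGroup.mk'_surjective V)
  have hndvd : ¬ p ∣ P.index := by rw [hidx]; exact S.not_dvd_index
  haveI : P.FiniteIndex := ⟨fun h => hndvd (h ▸ dvd_zero p)⟩
  have hidxk : (P.index : k) ≠ 0 := by
    rw [Ne, CharP.cast_eq_zero_iff k p]
    exact hndvd
  -- Step 3: `χ|_P = 1`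
  have hχP : ∀ g ∈ P, χ g = 1 := by
    intro g hg
    obtain ⟨n, hn⟩ := hpP g hg
    apply eq_one_of_pow_char_pow_eq_one p (χ g) n
    rw [← map_pow]
    exact hχV _ hn
  -- Step 4: the base case and the unipotent filtration
  have hbase := base P ⟨V, hV, hVP⟩ hχP
  have htriv : ∀ v : P, (v : G) ∈ V → (Rep.res P.subtype M).ρ v = LinearMap.id :=
    fun v hv => hVtriv v.1 hv
  haveI : FiniteDimensional k (Rep.res P.subtype M) := inferInstanceAs (FiniteDimensional k M)
  have hPr := pr_coind_of_unipotent 𝒰 p Pr retr ext P V hV hVP hpP hbase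
    (finrank k (Rep.res P.subtype M)) (Rep.res P.subtype M) rfl htriv
  -- Step 5: `M` is a retract of `coind_P res_P M`
  haveI : FiniteDimensional k (Rep.coind P.subtype (Rep.res P.subtype M)) :=
    finiteDimensional_coind P _
  haveI : IsDiscrete 𝒰 (Rep.coind P.subtype (Rep.res P.subtype M)) :=
    isDiscrete_coind 𝒰 P _ ⟨V, hV, hVP, htriv⟩
  refine retr M _ (coindUnit P M) ((P.index : k)⁻¹ • coindTrace P M) ?_ hPr
  rw [Linear.comp_smul, coindUnit_comp_coindTrace, smul_smul, inv_mul_cancel₀ hidxk, one_smul]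

end Main

end Fermat.Agent.GC.PT.RepDevissage
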