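/-
GATE-C / C5 leaf (PT-F) TRIPLES (helper15): functoriality / exactness / biduality of
`M ↦ M.dualTwist χ` (prelude `Rep.dualTwist`).  Statements copied verbatim from
`GC/PT/Skeleton.lean` (helper74), namespace suffix `Triples`.
-/
import Fermat.Agent.GC.Prof.Basic
import Fermat.Prelude.Def_GroupCohomology_Selmer

set_option autoImplicit false

open CategoryTheory Module

noncomputable section

namespace Fermat.Agent.GC.PT.Triples

open Fermat.Agent.GC.Prof

universe u

section Triples

variable {k G : Type u} [Field k] [Group G] (𝒰 : LevelSystem G) (χ : G →* kˣ)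

/-- The transpose `φ* : M₁* → M*` of `φ : M → M₁`. -/
def dualTwistMap {M M₁ : Rep.{u} k G} (φ : M ⟶ M₁) : M₁.dualTwist χ ⟶ M.dualTwist χ :=
  Rep.ofHom
    { toLinearMap := Module.Dual.transpose (R := k) φ.hom.toLinearMap
      isIntertwining' := fun g => by
        apply LinearMap.ext
        intro f
        apply LinearMap.ext
        intro m
        change (χ g : k) • f (M₁.ρ g⁻¹ (φ.hom m)) = (χ g : k) • f (φ.hom (M.ρ g⁻¹ m))
        rw [Rep.hom_comm_apply] }

theorem dualTwistMap_apply {M M₁ : Rep.{u} k G} (φ : M ⟶ M₁) (f : M₁.dualTwist χ) (m : M) :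
    ((dualTwistMap χ φ).hom f : Module.Dual k M) m = (f : Module.Dual k M₁) (φ.hom m) := rfl

theorem dualTwistMap_id (M : Rep.{u} k G) : dualTwistMap χ (𝟙 M) = 𝟙 _ := by
  apply Rep.hom_ext
  apply Representation.IntertwiningMap.ext
  apply LinearMap.ext
  intro f
  apply LinearMap.ext
  intro m
  rfl

theorem dualTwistMap_comp {M M₁ M₂ : Rep.{u} k G} (φ : M ⟶ M₁) (ψ : M₁ ⟶ M₂) :
    dualTwistMap χ (φ ≫ ψ) = dualTwistMap χ ψ ≫ dualTwistMap χ φ := by
  apply Rep.hom_ext
  apply Representation.IntertwiningMap.ext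
  apply LinearMap.ext
  intro f
  apply LinearMap.ext
  intro m
  rfl

theorem dualTwistMap_zero {M M₁ : Rep.{u} k G} :
    dualTwistMap χ (0 : M ⟶ M₁) = 0 := by
  apply Rep.hom_ext
  apply Representation.IntertwiningMap.ext
  apply LinearMap.ext
  intro f
  apply LinearMap.ext
  intro m
  change (f : Module.Dual k M₁) ((0 : M ⟶ M₁).hom m) = 0
  have : (0 : M ⟶ M₁).hom m = 0 := rfl
  rw [this, map_zero]

/-- Elementwise criterion for short exactness in `Rep k G`. -/
theorem shortExact_of_elementwise (S : ShortComplex (Rep.{u} k G))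
    (hf : Function.Injective S.f.hom) (hg : Function.Surjective S.g.hom)
    (hex : ∀ y : S.X₂, S.g.hom y = 0 → ∃ x : S.X₁, S.f.hom x = y) : S.ShortExact := by
  refine { exact := ?_, mono_f := (Rep.mono_iff_injective S.f).2 hf,
           epi_g := (Rep.epi_iff_surjective S.g).2 hg }
  rw [← ShortComplex.exact_map_iff_of_faithful S (forget₂ (Rep.{u} k G) (ModuleCat.{u} k)),
    ShortComplex.moduleCat_exact_iff]
  intro y hy
  exact hex y hy

/-- Elementwise consequences of short exactness in `Rep k G`. -/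
theorem elementwise_of_shortExact {S : ShortComplex (Rep.{u} k G)} (hS : S.ShortExact) :
    Function.Injective S.f.hom ∧ Function.Surjective S.g.hom ∧
      ∀ y : S.X₂, S.g.hom y = 0 → ∃ x : S.X₁, S.f.hom x = y := by
  refine ⟨(Rep.mono_iff_injective S.f).1 hS.mono_f, (Rep.epi_iff_surjective S.g).1 hS.epi_g, ?_⟩
  have h := (ShortComplex.exact_map_iff_of_faithful S
    (forget₂ (Rep.{u} k G) (ModuleCat.{u} k))).2 hS.exact
  rw [ShortComplex.moduleCat_exact_iff] at h
  intro y hy
  exact h y hy

/-- `M ↦ M*` is exact (over a field). -/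
theorem dualTwist_shortExact (X : ShortComplex (Rep.{u} k G)) (hX : X.ShortExact) :
    (ShortComplex.mk (dualTwistMap χ X.g) (dualTwistMap χ X.f)
      (by rw [← dualTwistMap_comp, X.zero, dualTwistMap_zero])).ShortExact := by
  obtain ⟨hinj, hsurj, hex⟩ := elementwise_of_shortExact hX
  have hzero : ∀ x : X.X₁, X.g.hom (X.f.hom x) = 0 := by
    intro x
    have h := X.zero
    have : (X.f ≫ X.g).hom x = 0 := by rw [h]; rfl
    exact this
  apply shortExact_of_elementwise
  · -- transpose of a surjection is injective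
    intro f f' hff'
    apply LinearMap.ext
    intro y
    obtain ⟨x, rfl⟩ := hsurj y
    have := congrArg (fun F : Module.Dual k X.X₂ => F x) hff'
    exact this
  · -- transpose of an injection is surjective (field)
    intro f
    have hker : LinearMap.ker X.f.hom.toLinearMap = ⊥ := LinearMap.ker_eq_bot.2 hinj
    obtain ⟨r, hr⟩ := LinearMap.exists_leftInverse_of_injective X.f.hom.toLinearMap hker
    refine ⟨(f : Module.Dual k X.X₁).comp r, ?_⟩
    apply LinearMap.ext
    intro m
    change (f : Module.Dual k X.X₁) (r (X.f.hom m)) = (f : Module.Dual k X.X₁) m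
    have : r (X.f.hom m) = m := LinearMap.congr_fun hr m
    rw [this]
  · -- exactness in the middle
    intro h hh
    have hrange : LinearMap.range X.g.hom.toLinearMap = ⊤ := LinearMap.range_eq_top.2 hsurj
    obtain ⟨s, hs⟩ := LinearMap.exists_rightInverse_of_surjective X.g.hom.toLinearMap hrange
    refine ⟨(h : Module.Dual k X.X₂).comp s, ?_⟩
    apply LinearMap.ext
    intro y
    change (h : Module.Dual k X.X₂) (s (X.g.hom y)) = (h : Module.Dual k X.X₂) y
    have hgs : X.g.hom (s (X.g.hom y) - y) = 0 := by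
      have : X.g.hom (s (X.g.hom y)) = X.g.hom y := LinearMap.congr_fun hs (X.g.hom y)
      rw [map_sub, this, sub_self]
    obtain ⟨x, hx⟩ := hex _ hgs
    have hhx : (h : Module.Dual k X.X₂) (X.f.hom x) = 0 := by
      have := congrArg (fun F : Module.Dual k X.X₁ => F x) hh
      exact this
    rw [hx, map_sub, sub_eq_zero] at hhx
    exact hhx

/-- A finite-dimensional discrete representation is fixed pointwise by a member of `𝒰`. -/
theorem exists_level_fixing (M : Rep.{u} k G) [FiniteDimensional k M] [IsDiscrete 𝒰 M] :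
    ∃ W ∈ 𝒰.sets, ∀ g ∈ W, M.ρ g = LinearMap.id := by
  classical
  let b := Module.finBasis k M
  choose U hU hfix using fun i => IsDiscrete.exists_fix (𝒰 := 𝒰) (b i)
  obtain ⟨W, hW, hle, -, -⟩ := 𝒰.exists_normal_le_finite Set.univ Set.finite_univ U
    (fun i _ => hU i)
  refine ⟨W, hW, fun g hg => ?_⟩
  apply b.ext
  intro i
  exact hfix i g (hle i (Set.mem_univ i) hg)

/-- `M*` is discrete if `M` is finite-dimensional discrete and `χ` is trivial on a level. -/
theorem isDiscrete_dualTwist (hχ : ∃ U ∈ 𝒰.sets, ∀ g ∈ U, χ g = 1) (M : Rep.{u} k G)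
    [FiniteDimensional k M] [IsDiscrete 𝒰 M] : IsDiscrete 𝒰 (M.dualTwist χ) := by
  obtain ⟨U, hU, hχU⟩ := hχ
  obtain ⟨W, hW, hWfix⟩ := exists_level_fixing 𝒰 M
  obtain ⟨V, hV, hVle⟩ := 𝒰.directed U hU W hW
  refine ⟨fun f => ⟨V, hV, fun s hs => ?_⟩⟩
  have hsU : s ∈ U := (hVle.trans inf_le_left) hs
  have hsW : s⁻¹ ∈ W := W.inv_mem ((hVle.trans inf_le_right) hs)
  rw [Rep.dualTwist_ρ_apply, hχU s hsU, hWfix _ hsW]
  simp

/-- The evaluation pairing `M × M* → k(χ)`. -/
def evB (M : Rep.{u} k G) : M →ₗ[k] (M.dualTwist χ) →ₗ[k] k :=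
  (LinearMap.id : Module.Dual k M →ₗ[k] Module.Dual k M).flip

theorem evB_apply (M : Rep.{u} k G) (m : M) (f : M.dualTwist χ) :
    evB χ M m f = (f : Module.Dual k M) m := rfl

theorem evB_equivariant (M : Rep.{u} k G) (g : G) (m : M) (f : M.dualTwist χ) :
    evB χ M (M.ρ g m) ((M.dualTwist χ).ρ g f) = (χ g : k) * evB χ M m f := by
  rw [evB_apply, evB_apply, Rep.dualTwist_ρ_apply]
  change (χ g : k) • (f : Module.Dual k M) (M.ρ g⁻¹ (M.ρ g m)) = _
  have : M.ρ g⁻¹ (M.ρ g m) = m := by
    rw [← Module.End.mul_apply, ← map_mul, inv_mul_cancel, map_one, Module.End.one_apply]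
  rw [this, smul_eq_mul]

/-- Biduality `M ≅ M**` for finite-dimensional `M`, compatible with evaluation. -/
def ddIso (M : Rep.{u} k G) [FiniteDimensional k M] :
    M ≅ (M.dualTwist χ).dualTwist χ :=
  Rep.mkIso (ρ := M.ρ) (σ := ((M.dualTwist χ).dualTwist χ).ρ)
    (Representation.Equiv.mk (Module.evalEquiv k M) (fun g => by
      apply LinearMap.ext
      intro m
      apply LinearMap.ext
      intro f
      change (f : Module.Dual k M) (M.ρ g m) =
        (χ g : k) • ((χ g⁻¹ : k) • (f : Module.Dual k M) (M.ρ g⁻¹⁻¹ m))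
      rw [inv_inv, smul_smul, ← Units.val_mul, ← map_mul, mul_inv_cancel, map_one,
        Units.val_one, one_smul]))

theorem evB_ddIso (M : Rep.{u} k G) [FiniteDimensional k M] (m : M) (f : M.dualTwist χ) :
    evB χ (M.dualTwist χ) f ((ddIso χ M).hom.hom m) = evB χ M m f := rfl

end Triples

end Fermat.Agent.GC.PT.Triples
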