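/-
GATE-C / C5 (helper74): MAIN ASSEMBLY (PT-G).

Input: a group `G` with level system `𝒰`, local data `L`, a character `χ`, and a
`ConePairingData L χ` (= the cup/trace pairing on the compact-support cone, natural in the
coefficients, with the SWAP symmetry).  Output: if the duality property `Pr` holds for the
permutation modules `coind_H^G(1)` (`H` open, `χ|_H = 1`), then for every finite-dimensional
discrete `M`: `Sha²(M)` and `Sha¹(M*)` are finite-dimensional of the same dimension.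
-/
import Fermat.Agent.GC.Prof.ConeLC
import Fermat.Agent.GC.Prof.Low
import Fermat.Agent.GC.PT.PairedLES
import Fermat.Agent.GC.PT.Final
import Fermat.Agent.GC.PT.Triples
import Fermat.Agent.GC.PT.RepDevissage

set_option autoImplicit false

open CategoryTheory Module

noncomputable section

namespace Fermat.Agent.GC.PT

open Fermat.Agent.GC.Prof Fermat.Agent.GC.Prof.Cone Fermat.Agent.GC.PT.Triples

universe u

variable {k G : Type u} [Field k] [Group G] {𝒰 : LevelSystem G}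

/-- `B` is `χ`-equivariant: `B (g m) (g n) = χ(g) B(m,n)`. -/
def IsChiPairing (χ : G →* kˣ) {M N : Rep.{u} k G} (B : M →ₗ[k] N →ₗ[k] k) : Prop :=
  ∀ (g : G) (m : M) (n : N), B (M.ρ g m) (N.ρ g n) = (χ g : k) * B m n

theorem IsChiPairing.flip {χ : G →* kˣ} {M N : Rep.{u} k G} {B : M →ₗ[k] N →ₗ[k] k}
    (hB : IsChiPairing χ B) : IsChiPairing χ B.flip :=
  fun g n m => hB g m n

theorem isChiPairing_evB (χ : G →* kˣ) (M : Rep.{u} k G) : IsChiPairing χ (evB χ M) :=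
  fun g m f => evB_equivariant χ M g m f

/-- The cup/trace pairing on the compact-support cone, as abstract data. -/
structure ConePairingData (L : LocalData 𝒰) (χ : G →* kˣ) where
  /-- the pairing `C_c(M) × C(N) → k` of degree `-3` attached to a `χ`-equivariant form -/
  pair : ∀ (M N : Rep.{u} k G) [IsDiscrete 𝒰 M] [IsDiscrete 𝒰 N] (B : M →ₗ[k] N →ₗ[k] k),
    IsChiPairing χ B → CPairing (coneC L M) (lcCochains 𝒰 N)
  /-- naturality in the triple `(M, N, B)` -/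
  adjoint : ∀ (M N M₁ N₁ : Rep.{u} k G) [IsDiscrete 𝒰 M] [IsDiscrete 𝒰 N] [IsDiscrete 𝒰 M₁]
    [IsDiscrete 𝒰 N₁] (B : M →ₗ[k] N →ₗ[k] k) (hB : IsChiPairing χ B)
    (B₁ : M₁ →ₗ[k] N₁ →ₗ[k] k) (hB₁ : IsChiPairing χ B₁) (φ : M ⟶ M₁) (ψ : N₁ ⟶ N),
    (∀ (m : M) (n₁ : N₁), B₁ (φ.hom m) n₁ = B m (ψ.hom n₁)) →
      Adjoint (pair M N B hB) (pair M₁ N₁ B₁ hB₁) (coneCMap L φ) (lcMap 𝒰 ψ)
  /-- the sign in SWAP -/
  s : k
  s_ne : s ≠ 0
  /-- SWAP: graded commutativity on doubly compactly supported classes -/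
  swap : ∀ (M N : Rep.{u} k G) [IsDiscrete 𝒰 M] [IsDiscrete 𝒰 N] (B : M →ₗ[k] N →ₗ[k] k)
    (hB : IsChiPairing χ B) (x : HlcC L M 2) (x' : HlcC L N 1),
    (pair M N B hB).h21 x ((HlcCToH L N 1).hom x') =
      s * (pair N M B.flip hB.flip).h12 x' ((HlcCToH L M 2).hom x)

variable {L : LocalData 𝒰} {χ : G →* kˣ}

/-- The duality property of a coefficient module `M` (with `M* = M.dualTwist χ`):
`α¹_c, α²_c` bijective, `α³_c` injective, `H¹(M*)` finite-dimensional, `H³(M*) = 0`. -/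
def ConePairingData.Pr (D : ConePairingData L χ) (M : Rep.{u} k G) : Prop :=
  ∀ (_ : IsDiscrete 𝒰 M) (_ : IsDiscrete 𝒰 (M.dualTwist χ)),
    (D.pair M (M.dualTwist χ) (evB χ M) (isChiPairing_evB χ M)).Good ∧
      FiniteDimensional k (Hlc 𝒰 (M.dualTwist χ) 1) ∧
      Limits.IsZero (Hlc 𝒰 (M.dualTwist χ) 3)

section Exact

variable {X Y Z : Type*} [AddCommGroup X] [Module k X] [AddCommGroup Y] [Module k Y]
  [AddCommGroup Z] [Module k Z]

theorem finiteDimensional_of_exact (f : X →ₗ[k] Y) (g : Y →ₗ[k] Z) (h : Function.Exact f g)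
    [FiniteDimensional k X] [FiniteDimensional k Z] : FiniteDimensional k Y := by
  have h1 : FiniteDimensional k (LinearMap.ker g) := by
    rw [(LinearMap.exact_iff).1 h]
    infer_instance
  have h2 : FiniteDimensional k (Y ⧸ LinearMap.ker g) :=
    (g.quotKerEquivRange).symm.finiteDimensional
  exact Module.Finite.of_submodule_quotient (LinearMap.ker g)

end Exact

section Closure

variable (D : ConePairingData L χ) (hχ : ∃ U ∈ 𝒰.sets, ∀ g ∈ U, χ g = 1)

include hχ in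
/-- `Pr` passes to retracts. -/
theorem ConePairingData.pr_of_retract (M M₁ : Rep.{u} k G) [FiniteDimensional k M]
    [FiniteDimensional k M₁] [IsDiscrete 𝒰 M] [IsDiscrete 𝒰 M₁] (i : M ⟶ M₁) (r : M₁ ⟶ M)
    (hir : i ≫ r = 𝟙 M) (h₁ : D.Pr M₁) : D.Pr M := by
  intro _ hMd
  have : IsDiscrete 𝒰 (M₁.dualTwist χ) := isDiscrete_dualTwist 𝒰 χ hχ M₁
  obtain ⟨good₁, fin₁, zero₁⟩ := h₁ inferInstance inferInstance
  have hg : lcMap 𝒰 (dualTwistMap χ r) ≫ lcMap 𝒰 (dualTwistMap χ i) =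
      𝟙 (lcCochains 𝒰 (M.dualTwist χ)) := by
    rw [← lcMap_comp, ← dualTwistMap_comp, hir, dualTwistMap_id, lcMap_id]
  have hH : ∀ (n : ℕ) (x : Hlc 𝒰 (M.dualTwist χ) n),
      (HlcMap 𝒰 (dualTwistMap χ i) n).hom ((HlcMap 𝒰 (dualTwistMap χ r) n).hom x) = x := by
    intro n x
    have h := congr($(HlcMap_comp 𝒰 (dualTwistMap χ r) (dualTwistMap χ i) n) x)
    rw [← dualTwistMap_comp, hir, dualTwistMap_id, HlcMap_id] at h
    simpa using h.symm
  refine ⟨?_, ?_, ?_⟩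
  · refine CPairing.Good.of_retract
      (D.adjoint M (M.dualTwist χ) M₁ (M₁.dualTwist χ) (evB χ M) (isChiPairing_evB χ M)
        (evB χ M₁) (isChiPairing_evB χ M₁) i (dualTwistMap χ i) (fun m f => rfl))
      (D.adjoint M₁ (M₁.dualTwist χ) M (M.dualTwist χ) (evB χ M₁) (isChiPairing_evB χ M₁)
        (evB χ M) (isChiPairing_evB χ M) r (dualTwistMap χ r) (fun m f => rfl))
      ?_ hg good₁
    rw [← coneCMap_comp, hir, coneCMap_id]
  · have hinj : Function.Injective (HlcMap 𝒰 (dualTwistMap χ r) 1).hom := by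
      intro x y hxy
      rw [← hH 1 x, ← hH 1 y, hxy]
    exact Module.Finite.of_injective _ hinj
  · rw [ModuleCat.isZero_iff_subsingleton]
    have hz : Subsingleton (Hlc 𝒰 (M₁.dualTwist χ) 3) := ModuleCat.isZero_iff_subsingleton.1 zero₁
    refine ⟨fun x y => ?_⟩
    rw [← hH 3 x, ← hH 3 y, hz.elim ((HlcMap 𝒰 (dualTwistMap χ r) 3).hom x) _]

include hχ in
/-- `Pr` is closed under extensions. -/
theorem ConePairingData.pr_of_shortExact [Nonempty L.ι] (X : ShortComplex (Rep.{u} k G))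
    [FiniteDimensional k X.X₁] [FiniteDimensional k X.X₂] [FiniteDimensional k X.X₃]
    [IsDiscrete 𝒰 X.X₁] [IsDiscrete 𝒰 X.X₂] [IsDiscrete 𝒰 X.X₃] (hX : X.ShortExact)
    (h₁ : D.Pr X.X₁) (h₃ : D.Pr X.X₃) : D.Pr X.X₂ := by
  intro _ hMd
  have d₁ : IsDiscrete 𝒰 (X.X₁.dualTwist χ) := isDiscrete_dualTwist 𝒰 χ hχ X.X₁
  have d₃ : IsDiscrete 𝒰 (X.X₃.dualTwist χ) := isDiscrete_dualTwist 𝒰 χ hχ X.X₃
  obtain ⟨good₁, fin₁, zero₁⟩ := h₁ inferInstance d₁
  obtain ⟨good₃, fin₃, zero₃⟩ := h₃ inferInstance d₃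
  -- the dual short exact sequence `0 → X₃* → X₂* → X₁* → 0`
  have hXd := dualTwist_shortExact χ X hX
  set Xd : ShortComplex (Rep.{u} k G) := ShortComplex.mk (dualTwistMap χ X.g) (dualTwistMap χ X.f)
    (by rw [← dualTwistMap_comp, X.zero, dualTwistMap_zero]) with hXd_def
  have : IsDiscrete 𝒰 Xd.X₁ := d₃
  have : IsDiscrete 𝒰 Xd.X₂ := hMd
  have : IsDiscrete 𝒰 Xd.X₃ := d₁
  have hB := lcShortComplex_shortExact 𝒰 hXd
  have hA := coneCSC_shortExact L hX
  refine ⟨?_, ?_, ?_⟩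
  · exact CPairing.Good.of_shortExact (SA := coneCSC L X) (SB := lcShortComplex 𝒰 Xd) hA hB
      (P := D.pair X.X₂ (X.X₂.dualTwist χ) (evB χ X.X₂) (isChiPairing_evB χ X.X₂))
      (P' := D.pair X.X₁ (X.X₁.dualTwist χ) (evB χ X.X₁) (isChiPairing_evB χ X.X₁))
      (P'' := D.pair X.X₃ (X.X₃.dualTwist χ) (evB χ X.X₃) (isChiPairing_evB χ X.X₃))
      (D.adjoint X.X₁ (X.X₁.dualTwist χ) X.X₂ (X.X₂.dualTwist χ) (evB χ X.X₁)
        (isChiPairing_evB χ X.X₁) (evB χ X.X₂) (isChiPairing_evB χ X.X₂) X.f (dualTwistMap χ X.f)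
        (fun m f => rfl))
      (D.adjoint X.X₂ (X.X₂.dualTwist χ) X.X₃ (X.X₃.dualTwist χ) (evB χ X.X₂)
        (isChiPairing_evB χ X.X₂) (evB χ X.X₃) (isChiPairing_evB χ X.X₃) X.g (dualTwistMap χ X.g)
        (fun m f => rfl))
      (isZero_HlcC_zero L X.X₃) zero₃ good₁ good₃
  · have hex := exact_of_sc _ _ _ (Hlc_exact₂ 𝒰 hXd 1)
    have : FiniteDimensional k (Hlc 𝒰 Xd.X₁ 1) := fin₃
    have : FiniteDimensional k (Hlc 𝒰 Xd.X₃ 1) := fin₁
    exact finiteDimensional_of_exact _ _ hex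
  · have hex := exact_of_sc _ _ _ (Hlc_exact₂ 𝒰 hXd 3)
    rw [ModuleCat.isZero_iff_subsingleton]
    have hz₃ : Subsingleton (Hlc 𝒰 Xd.X₁ 3) := ModuleCat.isZero_iff_subsingleton.1 zero₃
    have hz₁ : Subsingleton (Hlc 𝒰 Xd.X₃ 3) := ModuleCat.isZero_iff_subsingleton.1 zero₁
    refine ⟨fun x y => ?_⟩
    have hx : ∀ z : Hlc 𝒰 Xd.X₂ 3, z = 0 := by
      intro z
      obtain ⟨w, rfl⟩ := (hex z).1 (hz₁.elim _ _)
      rw [hz₃.elim w 0, map_zero]
    rw [hx x, hx y]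

end Closure

section Main

variable (D : ConePairingData L χ) (hχ : ∃ U ∈ 𝒰.sets, ∀ g ∈ U, χ g = 1)

/-- `Hlc⁰` of a finite-dimensional module is finite-dimensional. -/
theorem finiteDimensional_Hlc_zero {H : Type u} [Group H] (𝒱 : LevelSystem H) (N : Rep.{u} k H)
    [FiniteDimensional k N] [IsDiscrete 𝒱 N] : FiniteDimensional k (Hlc 𝒱 N 0) :=
  (Hlc0Equiv 𝒱 N).symm.finiteDimensional

include hχ in
/-- Transfer of `Good` from `(M*, M**, ev)` to `(M*, M, ev.flip)` along biduality. -/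
theorem ConePairingData.good_flip (M : Rep.{u} k G) [FiniteDimensional k M] [IsDiscrete 𝒰 M]
    [IsDiscrete 𝒰 (M.dualTwist χ)] (h : D.Pr (M.dualTwist χ)) :
    (D.pair (M.dualTwist χ) M (evB χ M).flip (isChiPairing_evB χ M).flip).Good := by
  have dd : IsDiscrete 𝒰 ((M.dualTwist χ).dualTwist χ) :=
    isDiscrete_dualTwist 𝒰 χ hχ (M.dualTwist χ)
  obtain ⟨good, -, -⟩ := h inferInstance dd
  refine CPairing.Good.of_retract
    (f := coneCMap L (𝟙 (M.dualTwist χ))) (g := lcMap 𝒰 (ddIso χ M).inv)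
    (f' := coneCMap L (𝟙 (M.dualTwist χ))) (g' := lcMap 𝒰 (ddIso χ M).hom)
    (D.adjoint (M.dualTwist χ) M (M.dualTwist χ) ((M.dualTwist χ).dualTwist χ)
      (evB χ M).flip (isChiPairing_evB χ M).flip (evB χ (M.dualTwist χ))
      (isChiPairing_evB χ (M.dualTwist χ)) (𝟙 _) (ddIso χ M).inv ?_)
    (D.adjoint (M.dualTwist χ) ((M.dualTwist χ).dualTwist χ) (M.dualTwist χ) M
      (evB χ (M.dualTwist χ)) (isChiPairing_evB χ (M.dualTwist χ)) (evB χ M).flip
      (isChiPairing_evB χ M).flip (𝟙 _) (ddIso χ M).hom ?_)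
    ?_ ?_ good
  · intro f n₁
    have h1 : (ddIso χ M).hom.hom ((ddIso χ M).inv.hom n₁) = n₁ := by
      simp
    have h2 := evB_ddIso χ M ((ddIso χ M).inv.hom n₁) f
    rw [h1] at h2
    simpa using h2
  · intro f m
    have h2 := evB_ddIso χ M m f
    simpa using h2.symm
  · rw [coneCMap_id, Category.comp_id]
  · rw [← lcMap_comp, Iso.hom_inv_id, lcMap_id]

include hχ in
/-- **Main theorem of C5** (hypothesis form): if the duality property holds for all permutation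
modules `coind_H^G(1)` (`H` open, `χ|_H = 1`), then for every finite-dimensional discrete `M`
the groups `Sha²(M) = ker(H²(G,M) → ∏_v H²(G_v,M))` and
`Sha¹(M*) = ker(H¹(G,M*) → ∏_v H¹(G_v,M*))` are finite-dimensional of the same dimension. -/
theorem ConePairingData.sha_duality [Finite L.ι] [Nonempty L.ι] (p : ℕ) [Fact p.Prime]
    [CharP k p]
    (base : ∀ (H : Subgroup G), (∃ V ∈ 𝒰.sets, V ≤ H) → (∀ g ∈ H, χ g = 1) →
      D.Pr (Rep.coind H.subtype (Rep.trivial k H k)))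
    (M : Rep.{u} k G) [FiniteDimensional k M] [IsDiscrete 𝒰 M]
    [IsDiscrete 𝒰 (M.dualTwist χ)] :
    FiniteDimensional k (LinearMap.ker (locRes L M 2)) ∧
      FiniteDimensional k (LinearMap.ker (locRes L (M.dualTwist χ) 1)) ∧
      finrank k (LinearMap.ker (locRes L M 2)) =
        finrank k (LinearMap.ker (locRes L (M.dualTwist χ) 1)) := by
  have all : ∀ (N : Rep.{u} k G) [FiniteDimensional k N] [IsDiscrete 𝒰 N], D.Pr N :=
    fun N _ _ => RepDevissage.rep_devissage 𝒰 p χ hχ D.Pr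
      (fun M M₁ _ _ _ _ i r hir h₁ => D.pr_of_retract hχ M M₁ i r hir h₁)
      (fun X _ _ _ _ _ _ hX h₁ h₃ => D.pr_of_shortExact hχ X hX h₁ h₃) base N
  have : FiniteDimensional k (M.dualTwist χ) :=
    inferInstanceAs (FiniteDimensional k (Module.Dual k M))
  obtain ⟨good, fin, -⟩ := all M inferInstance inferInstance
  have goodf := D.good_flip hχ M (all (M.dualTwist χ))
  have : FiniteDimensional k (Hlc 𝒰 (M.dualTwist χ) 1) := fin
  have dv : ∀ v, IsDiscrete (L.𝒰v v) (Rep.res (L.r v) (M.dualTwist χ)) :=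
    fun v => L.isDiscrete_res v (M.dualTwist χ)
  have fv : ∀ v, FiniteDimensional k (Hlc (L.𝒰v v) (Rep.res (L.r v) (M.dualTwist χ)) 0) :=
    fun v => @finiteDimensional_Hlc_zero k _ (L.Gv v) _ (L.𝒰v v)
      (Rep.res (L.r v) (M.dualTwist χ))
      (inferInstanceAs (FiniteDimensional k (Module.Dual k M))) (dv v)
  have : Fintype L.ι := Fintype.ofFinite L.ι
  have : FiniteDimensional k (∀ v, Hlc (L.𝒰v v) (Rep.res (L.r v) (M.dualTwist χ)) 0) :=
    Module.Finite.pi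
  exact Final.finrank_ker_eq_of_duality
    (HlcCToH L M 2).hom (locRes L M 2) (exact_HlcCToH_locRes L M 2)
    (HlcCBdry L (M.dualTwist χ) 0) (HlcCToH L (M.dualTwist χ) 1).hom
    (locRes L (M.dualTwist χ) 1)
    (exact_HlcCBdry_HlcCToH L (M.dualTwist χ) 0) (exact_HlcCToH_locRes L (M.dualTwist χ) 1)
    (D.pair M (M.dualTwist χ) (evB χ M) (isChiPairing_evB χ M)).h21 good.2.1
    (D.pair (M.dualTwist χ) M (evB χ M).flip (isChiPairing_evB χ M).flip).h12 goodf.1
    D.s D.s_ne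
    (fun x x' => D.swap M (M.dualTwist χ) (evB χ M) (isChiPairing_evB χ M) x x')

end Main

end Fermat.Agent.GC.PT
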