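/-
GATE-C / C5 (helper74): BASE-TOP.

Abstract assembly of the duality property for ONE pair of coefficient modules `(M, N)` with a
`χ`-pairing `B : M × N → k` from cohomology-level inputs (local perfectness, the boundary formula
(E8), `dim coker loc² ≤ 1`, the Euler identity, injectivity of `α¹_c` [covering trick]):
an instance of `BaseFilt.good_of_euler` for the cone `coneC L ·`.
-/
import Fermat.Agent.GC.PT.Main
import Fermat.Agent.GC.PT.BaseFilt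

set_option autoImplicit false

open CategoryTheory Module

noncomputable section

namespace Fermat.Agent.GC.PT

open Fermat.Agent.GC.Prof Fermat.Agent.GC.Prof.Cone Fermat.Agent.GC.PT.Triples

universe u

variable {k G : Type u} [Field k] [Group G] {𝒰 : LevelSystem G}
variable {L : LocalData 𝒰} {χ : G →* kˣ}

/-- The local pairings `∏_v Hⁱ(G_v, M) × ∏_v H²⁻ⁱ(G_v, N) → k` together with the boundary
formula (E8): `h₍ᵢ₊₁,₂₋ᵢ₎ (∂ b) y = lamᵢ b (loc y)`. -/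
structure ConeBdryData (D : ConePairingData L χ) where
  lam02 : ∀ (M N : Rep.{u} k G) [IsDiscrete 𝒰 M] [IsDiscrete 𝒰 N] (B : M →ₗ[k] N →ₗ[k] k),
    IsChiPairing χ B → ((∀ v, Hlc (L.𝒰v v) (Rep.res (L.r v) M) 0) →ₗ[k]
      (∀ v, Hlc (L.𝒰v v) (Rep.res (L.r v) N) 2) →ₗ[k] k)
  lam11 : ∀ (M N : Rep.{u} k G) [IsDiscrete 𝒰 M] [IsDiscrete 𝒰 N] (B : M →ₗ[k] N →ₗ[k] k),
    IsChiPairing χ B → ((∀ v, Hlc (L.𝒰v v) (Rep.res (L.r v) M) 1) →ₗ[k]
      (∀ v, Hlc (L.𝒰v v) (Rep.res (L.r v) N) 1) →ₗ[k] k)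
  lam20 : ∀ (M N : Rep.{u} k G) [IsDiscrete 𝒰 M] [IsDiscrete 𝒰 N] (B : M →ₗ[k] N →ₗ[k] k),
    IsChiPairing χ B → ((∀ v, Hlc (L.𝒰v v) (Rep.res (L.r v) M) 2) →ₗ[k]
      (∀ v, Hlc (L.𝒰v v) (Rep.res (L.r v) N) 0) →ₗ[k] k)
  e12 : ∀ (M N : Rep.{u} k G) [IsDiscrete 𝒰 M] [IsDiscrete 𝒰 N] (B : M →ₗ[k] N →ₗ[k] k)
    (hB : IsChiPairing χ B) (b : ∀ v, Hlc (L.𝒰v v) (Rep.res (L.r v) M) 0) (y : Hlc 𝒰 N 2),
    (D.pair M N B hB).h12 (HlcCBdry L M 0 b) y = lam02 M N B hB b (locRes L N 2 y)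
  e21 : ∀ (M N : Rep.{u} k G) [IsDiscrete 𝒰 M] [IsDiscrete 𝒰 N] (B : M →ₗ[k] N →ₗ[k] k)
    (hB : IsChiPairing χ B) (b : ∀ v, Hlc (L.𝒰v v) (Rep.res (L.r v) M) 1) (y : Hlc 𝒰 N 1),
    (D.pair M N B hB).h21 (HlcCBdry L M 1 b) y = lam11 M N B hB b (locRes L N 1 y)
  e30 : ∀ (M N : Rep.{u} k G) [IsDiscrete 𝒰 M] [IsDiscrete 𝒰 N] (B : M →ₗ[k] N →ₗ[k] k)
    (hB : IsChiPairing χ B) (b : ∀ v, Hlc (L.𝒰v v) (Rep.res (L.r v) M) 2) (y : Hlc 𝒰 N 0),
    (D.pair M N B hB).h30 (HlcCBdry L M 2 b) y = lam20 M N B hB b (locRes L N 0 y)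

variable {D : ConePairingData L χ}

/-- `∂ : ∏_v H²(G_v, M) → H³_c(M)` is onto when `H³(G, M) = 0`. -/
theorem surjective_HlcCBdry_two (M : Rep.{u} k G) [IsDiscrete 𝒰 M]
    (h3 : Limits.IsZero (Hlc 𝒰 M 3)) : Function.Surjective (HlcCBdry L M 2) := by
  intro x
  have hz : Subsingleton (Hlc 𝒰 M 3) := ModuleCat.isZero_iff_subsingleton.1 h3
  exact (exact_HlcCBdry_HlcCToH L M 2 x).1 (hz.elim _ _)

/-- **BASE-TOP**: the two `Good` properties for `(M, N, B)` and `(N, M, B.flip)` from the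
cohomological inputs. -/
theorem ConeBdryData.good_of_inputs (E : ConeBdryData D) (M N : Rep.{u} k G)
    [IsDiscrete 𝒰 M] [IsDiscrete 𝒰 N] (B : M →ₗ[k] N →ₗ[k] k) (hB : IsChiPairing χ B)
    -- finiteness
    [FiniteDimensional k (∀ v, Hlc (L.𝒰v v) (Rep.res (L.r v) M) 0)]
    [FiniteDimensional k (Hlc 𝒰 M 1)]
    [FiniteDimensional k (∀ v, Hlc (L.𝒰v v) (Rep.res (L.r v) M) 1)]
    [FiniteDimensional k (Hlc 𝒰 M 2)]
    [FiniteDimensional k (∀ v, Hlc (L.𝒰v v) (Rep.res (L.r v) M) 2)]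
    [FiniteDimensional k (∀ v, Hlc (L.𝒰v v) (Rep.res (L.r v) N) 0)]
    [FiniteDimensional k (Hlc 𝒰 N 1)]
    [FiniteDimensional k (∀ v, Hlc (L.𝒰v v) (Rep.res (L.r v) N) 1)]
    [FiniteDimensional k (Hlc 𝒰 N 2)]
    [FiniteDimensional k (∀ v, Hlc (L.𝒰v v) (Rep.res (L.r v) N) 2)]
    -- `H³ = 0`
    (h3 : Limits.IsZero (Hlc 𝒰 M 3)) (h3' : Limits.IsZero (Hlc 𝒰 N 3))
    -- `H⁰ = k`, `loc⁰` injective
    (hH0 : finrank k (Hlc 𝒰 M 0) = 1) (hr0 : Function.Injective (locRes L M 0))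
    (hH0' : finrank k (Hlc 𝒰 N 0) = 1) (hr0' : Function.Injective (locRes L N 0))
    -- local perfectness
    (hlam02 : Function.Bijective (E.lam02 M N B hB))
    (hlam11 : Function.Bijective (E.lam11 M N B hB))
    (hlam20 : Function.Bijective (E.lam20 M N B hB))
    (hlam02' : Function.Bijective (E.lam02 N M B.flip hB.flip))
    (hlam11' : Function.Bijective (E.lam11 N M B.flip hB.flip))
    (hlam20' : Function.Bijective (E.lam20 N M B.flip hB.flip))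
    -- covering trick
    (hinj : Function.Injective (D.pair M N B hB).h12)
    (hinj' : Function.Injective (D.pair N M B.flip hB.flip).h12)
    -- `dim coker loc² ≤ 1`
    (hcok : finrank k (∀ v, Hlc (L.𝒰v v) (Rep.res (L.r v) M) 2) ≤
      finrank k (LinearMap.range (locRes L M 2)) + 1)
    (hcok' : finrank k (∀ v, Hlc (L.𝒰v v) (Rep.res (L.r v) N) 2) ≤
      finrank k (LinearMap.range (locRes L N 2)) + 1)
    -- EULER
    (hEuler : finrank k (Hlc 𝒰 M 1) + finrank k (Hlc 𝒰 N 1) +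
        finrank k (∀ v, Hlc (L.𝒰v v) (Rep.res (L.r v) M) 0) +
        finrank k (∀ v, Hlc (L.𝒰v v) (Rep.res (L.r v) M) 2) =
      finrank k (Hlc 𝒰 M 0) + finrank k (Hlc 𝒰 M 2) + finrank k (Hlc 𝒰 N 0) +
        finrank k (Hlc 𝒰 N 2) + finrank k (∀ v, Hlc (L.𝒰v v) (Rep.res (L.r v) M) 1)) :
    (D.pair M N B hB).Good ∧ (D.pair N M B.flip hB.flip).Good := by
  have hflip : (D.pair M N B.flip.flip hB.flip.flip) = D.pair M N B hB := rfl
  exact BaseFilt.good_of_euler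
    (locRes L M 0) (HlcCBdry L M 0) (HlcCToH L M 1).hom (locRes L M 1)
    (HlcCBdry L M 1) (HlcCToH L M 2).hom (locRes L M 2) (HlcCBdry L M 2)
    (exact_locRes_HlcCBdry L M 0) (exact_HlcCBdry_HlcCToH L M 0) (exact_HlcCToH_locRes L M 1)
    (exact_locRes_HlcCBdry L M 1) (exact_HlcCBdry_HlcCToH L M 1) (exact_HlcCToH_locRes L M 2)
    (exact_locRes_HlcCBdry L M 2) (surjective_HlcCBdry_two M h3)
    (locRes L N 0) (HlcCBdry L N 0) (HlcCToH L N 1).hom (locRes L N 1)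
    (HlcCBdry L N 1) (HlcCToH L N 2).hom (locRes L N 2) (HlcCBdry L N 2)
    (exact_locRes_HlcCBdry L N 0) (exact_HlcCBdry_HlcCToH L N 0) (exact_HlcCToH_locRes L N 1)
    (exact_locRes_HlcCBdry L N 1) (exact_HlcCBdry_HlcCToH L N 1) (exact_HlcCToH_locRes L N 2)
    (exact_locRes_HlcCBdry L N 2) (surjective_HlcCBdry_two N h3')
    hH0 hr0 hH0' hr0'
    (D.pair M N B hB).h12 (D.pair M N B hB).h21 (D.pair M N B hB).h30
    (E.lam02 M N B hB) (E.lam11 M N B hB) (E.lam20 M N B hB) hlam02 hlam11 hlam20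
    (E.e12 M N B hB) (E.e21 M N B hB) (E.e30 M N B hB)
    (D.pair N M B.flip hB.flip).h12 (D.pair N M B.flip hB.flip).h21
    (D.pair N M B.flip hB.flip).h30
    (E.lam02 N M B.flip hB.flip) (E.lam11 N M B.flip hB.flip) (E.lam20 N M B.flip hB.flip)
    hlam02' hlam11' hlam20'
    (E.e12 N M B.flip hB.flip) (E.e21 N M B.flip hB.flip) (E.e30 N M B.flip hB.flip)
    hinj hinj'
    D.s D.s_ne (fun x x' => D.swap M N B hB x x')
    D.s D.s_ne (fun x x' => by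
      have h := D.swap N M B.flip hB.flip x x'
      rw [hflip] at h
      exact h)
    hcok hcok' hEuler

/-- Transport of the duality property along an isomorphism of triples
`(M, N, B) ≅ (M, M*, ev)`: if `ψ : N ≅ M*` with `ev m (ψ n) = B m n`, then `Good` for `(M, N, B)`
plus finiteness of `H¹(N)` and vanishing of `H³(N)` give `Pr M`. -/
theorem ConePairingData.pr_of_good_iso (D : ConePairingData L χ) (M N : Rep.{u} k G)
    [IsDiscrete 𝒰 M] [IsDiscrete 𝒰 N] (B : M →ₗ[k] N →ₗ[k] k) (hB : IsChiPairing χ B)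
    (ψ : N ≅ M.dualTwist χ) (hψ : ∀ (m : M) (n : N), evB χ M m (ψ.hom.hom n) = B m n)
    (good : (D.pair M N B hB).Good) (fin : FiniteDimensional k (Hlc 𝒰 N 1))
    (zero : Limits.IsZero (Hlc 𝒰 N 3)) : D.Pr M := by
  intro _ hMd
  have hH : ∀ (n : ℕ) (x : Hlc 𝒰 (M.dualTwist χ) n),
      (HlcMap 𝒰 ψ.hom n).hom ((HlcMap 𝒰 ψ.inv n).hom x) = x := by
    intro n x
    have h := congr($(HlcMap_comp 𝒰 ψ.inv ψ.hom n) x)
    rw [Iso.inv_hom_id, HlcMap_id] at h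
    simpa using h.symm
  refine ⟨?_, ?_, ?_⟩
  · refine CPairing.Good.of_retract
      (f := coneCMap L (𝟙 M)) (g := lcMap 𝒰 ψ.hom)
      (f' := coneCMap L (𝟙 M)) (g' := lcMap 𝒰 ψ.inv)
      (D.adjoint M (M.dualTwist χ) M N (evB χ M) (isChiPairing_evB χ M) B hB (𝟙 _) ψ.hom ?_)
      (D.adjoint M N M (M.dualTwist χ) B hB (evB χ M) (isChiPairing_evB χ M) (𝟙 _) ψ.inv ?_)
      ?_ ?_ good
    · intro m n
      simpa using (hψ m n).symm
    · intro m f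
      have h1 : ψ.hom.hom (ψ.inv.hom f) = f := by simp
      have h2 := hψ m (ψ.inv.hom f)
      rw [h1] at h2
      simpa using h2
    · rw [coneCMap_id, Category.comp_id]
    · rw [← lcMap_comp, Iso.inv_hom_id, lcMap_id]
  · have hinj : Function.Injective (HlcMap 𝒰 ψ.inv 1).hom := by
      intro x y hxy
      rw [← hH 1 x, ← hH 1 y, hxy]
    exact Module.Finite.of_injective _ hinj
  · rw [ModuleCat.isZero_iff_subsingleton]
    have hz : Subsingleton (Hlc 𝒰 N 3) := ModuleCat.isZero_iff_subsingleton.1 zero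
    refine ⟨fun x y => ?_⟩
    rw [← hH 3 x, ← hH 3 y, hz.elim ((HlcMap 𝒰 ψ.inv 3).hom x) _]

end Fermat.Agent.GC.PT
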