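/-
GATE-C / C5 (E8) at the level-constant level, helper10.  For `L : LocalData 𝒰`, discrete
`M N P`, an equivariant `B : M × N → P` and a trace `tr` on `(coneC L P)³` killing coboundaries,
`cPairing L hB htr := CPairing.ofCup (coneCCupData L hB) tr htr : CPairing (coneC L M) (lcCochains 𝒰 N)`
satisfies
  `P.h₍ᵢ₊₁,₂₋ᵢ₎ (HlcCBdry L M i b) y = lamPi b (locRes L N (2 - i) y)`,
with `lamPi b c = τ ((b_v ∪ c_v)_v)`, `τ := locTr` the local part of the trace on `∏_v Hlc²(G_v, P)`.
-/
import Fermat.Agent.GC.PT.ConeE8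
import Fermat.Agent.GC.Prof.ConeCupLC

set_option autoImplicit false

open CategoryTheory

noncomputable section

namespace Fermat.Agent.GC.PT.ConeE8

open Fermat.Agent.GC.Prof Fermat.Agent.GC.Prof.Elt Fermat.Agent.GC.Prof.CupAbs
open Fermat.Agent.GC.Prof.Cone
open Fermat.Agent.GC.Prof.Cup (Equivariant)

universe u

variable {k : Type u} [Field k]

/-! ### Two abstract complements -/

section Abstract

variable {E E' : CochainComplex (ModuleCat.{u} k) ℕ} {θ : E ⟶ E'}
  {tr : (cone θ).X 3 →ₗ[k] k}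

/-- The functional induced by the trace on `H³` of the cone. -/
def trH (htr : ∀ e : (cone θ).X 2, tr (((cone θ).d 2 3).hom e) = 0) :
    (cone θ).homology 3 →ₗ[k] k :=
  descend (hMk (cone θ) 3) (hMk_surjective (cone θ) 3) (tr ∘ₗ (zSub (cone θ) 3).subtype) (by
    intro z hz
    obtain ⟨e, he⟩ := (hMk_eq_zero_iff_succ (cone θ) 2 z).1 hz
    show tr z.1 = 0
    rw [← he]
    exact htr e)

lemma trH_hMk (htr : ∀ e : (cone θ).X 2, tr (((cone θ).d 2 3).hom e) = 0)
    (z : zSub (cone θ) 3) : trH htr (hMk (cone θ) 3 z) = tr z.1 :=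
  descend_apply _ _ _ _ z

/-- On the image of the cone boundary the trace is its local part. -/
lemma trH_HToHc (htr : ∀ e : (cone θ).X 2, tr (((cone θ).d 2 3).hom e) = 0)
    (x : E'.homology 2) : trH htr (HToHc θ 2 x) = trShH htr x := by
  obtain ⟨z, rfl⟩ := hMk_surjective E' 2 x
  rw [HToHc_hMk, trShH_hMk]
  show trH htr (hMk (cone θ) 3 (zMk θ 3 0 z.1 _)) = _
  rw [trH_hMk]
  rfl

variable {ι : Type u} {Dw Bw Ew : ι → CochainComplex (ModuleCat.{u} k) ℕ}

/-- The cup product on the cohomology of product complexes is componentwise. -/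
lemma piHomologyEquiv_cupH (c : ∀ w, CupData (Dw w) (Bw w) (Ew w)) {i j n : ℕ} (h : i + j = n)
    (x : (piComplex Dw).homology i) (y : (piComplex Bw).homology j) (w : ι) :
    piHomologyEquiv Ew n ((piCupData c).cupH h x y) w =
      (c w).cupH h (piHomologyEquiv Dw i x w) (piHomologyEquiv Bw j y w) := by
  rw [piHomologyEquiv_apply, piHomologyEquiv_apply, piHomologyEquiv_apply]
  exact CupData.cupH_map (c := piCupData c) (c' := c w) (φ := piProj Dw w) (ψ := piProj Bw w)
    (θ := piProj Ew w) (fun _ _ _ _ _ _ => rfl) h x y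

end Abstract

/-! ### The level-constant statement -/

variable {G : Type u} [Group G] {𝒰 : LevelSystem G} (L : LocalData 𝒰)
variable {M N P : Rep.{u} k G} [IsDiscrete 𝒰 M] [IsDiscrete 𝒰 N] [IsDiscrete 𝒰 P]
variable {B : M →ₗ[k] N →ₗ[k] P} (hB : Equivariant M.ρ N.ρ P.ρ B)
variable {tr : (coneC L P).X 3 →ₗ[k] k}
  (htr : ∀ e : (coneC L P).X 2, tr (((coneC L P).d 2 3).hom e) = 0)

/-- The compact-support pairing `(E5)`. -/
def cPairing : CPairing (coneC L M) (lcCochains 𝒰 N) :=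
  CPairing.ofCup (coneCCupData L hB) tr htr

lemma cPairing_eq : cPairing L hB htr = CPairing.ofCup (coneCCupData L hB) tr htr := rfl

/-- The local part of the trace, as a functional on `∏_v Hlc²(G_v, P)`. -/
def locTr : (∀ v, Hlc (L.𝒰v v) (Rep.res (L.r v) P) 2) →ₗ[k] k :=
  (trShH (θ := resTot L P) htr) ∘ₗ (piHomologyEquiv (locC L P) 2).symm.toLinearMap

/-- `locTr` is the trace on the image of the cone boundary. -/
lemma trH_HlcCBdry (e : ∀ v, Hlc (L.𝒰v v) (Rep.res (L.r v) P) 2) :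
    trH (θ := resTot L P) htr (HlcCBdry L P 2 e) = locTr L htr e :=
  trH_HToHc htr _

/-- The sum of the local pairings `∏_v Hlcⁱ(G_v, M) × ∏_v Hlcʲ(G_v, N) → k`, `i + j = 2`. -/
def lamPi {i j : ℕ} (h : i + j = 2) :
    (∀ v, Hlc (L.𝒰v v) (Rep.res (L.r v) M) i) →ₗ[k]
      (∀ v, Hlc (L.𝒰v v) (Rep.res (L.r v) N) j) →ₗ[k] k :=
  (lam (θ := resTot L P) (locCupData L hB) htr h).compl₁₂
    (piHomologyEquiv (locC L M) i).symm.toLinearMap
    (piHomologyEquiv (locC L N) j).symm.toLinearMap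

lemma lam_pi_aux {i j : ℕ} (h : i + j = 2) (b' : ∀ w, (locC L M w).homology i)
    (c' : ∀ w, (locC L N w).homology j) :
    lam (θ := resTot L P) (locCupData L hB) htr h ((piHomologyEquiv (locC L M) i).symm b')
        ((piHomologyEquiv (locC L N) j).symm c') =
      trShH (θ := resTot L P) htr ((piHomologyEquiv (locC L P) 2).symm fun v =>
        (lcCupData (L.𝒰v v) (locB L B v) (equivariant_locB L hB v)).cupH h (b' v) (c' v)) := by
  unfold lam
  rw [LinearMap.compr₂_apply]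
  congr 1
  rw [LinearEquiv.eq_symm_apply]
  funext v
  unfold locCupData
  rw [piHomologyEquiv_cupH, LinearEquiv.apply_symm_apply, LinearEquiv.apply_symm_apply]

/-- `lamPi b c = locTr ((b_v ∪ c_v)_v)`. -/
theorem lamPi_apply {i j : ℕ} (h : i + j = 2) (b : ∀ v, Hlc (L.𝒰v v) (Rep.res (L.r v) M) i)
    (c : ∀ v, Hlc (L.𝒰v v) (Rep.res (L.r v) N) j) :
    lamPi L hB htr h b c =
      locTr L htr fun v =>
        HlcCup (L.𝒰v v) (locB L B v) (equivariant_locB L hB v) h (b v) (c v) :=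
  lam_pi_aux L hB htr h b c

lemma homologyMap_resTot_eq (n : ℕ) (y : (lcCochains 𝒰 N).homology n) :
    HomologicalComplex.homologyMap (resTot L N) n y =
      (piHomologyEquiv (locC L N) n).symm (resPi (resC L N) n y) := by
  rw [LinearEquiv.eq_symm_apply]
  funext v
  exact piHomologyEquiv_homologyMap_piLift (resC L N) n y v

/-- (E8), bidegree `(1, 2)`. -/
theorem h12_HlcCBdry (b : ∀ v, Hlc (L.𝒰v v) (Rep.res (L.r v) M) 0) (y : Hlc 𝒰 N 2) :
    (cPairing L hB htr).h12 (HlcCBdry L M 0 b) y =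
      lamPi L hB htr (show 0 + 2 = 2 from rfl) b (locRes L N 2 y) := by
  have h := h12_HToHc (lcCupData 𝒰 B hB) (locCupData L hB) (isMap_resTot L hB) tr htr
    ((piHomologyEquiv (locC L M) 0).symm b) y
  refine h.trans ?_
  exact congrArg (lam (θ := resTot L P) (locCupData L hB) htr (show 0 + 2 = 2 from rfl)
    ((piHomologyEquiv (locC L M) 0).symm b)) (homologyMap_resTot_eq L 2 y)

/-- (E8), bidegree `(2, 1)`. -/
theorem h21_HlcCBdry (b : ∀ v, Hlc (L.𝒰v v) (Rep.res (L.r v) M) 1) (y : Hlc 𝒰 N 1) :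
    (cPairing L hB htr).h21 (HlcCBdry L M 1 b) y =
      lamPi L hB htr (show 1 + 1 = 2 from rfl) b (locRes L N 1 y) := by
  have h := h21_HToHc (lcCupData 𝒰 B hB) (locCupData L hB) (isMap_resTot L hB) tr htr
    ((piHomologyEquiv (locC L M) 1).symm b) y
  refine h.trans ?_
  exact congrArg (lam (θ := resTot L P) (locCupData L hB) htr (show 1 + 1 = 2 from rfl)
    ((piHomologyEquiv (locC L M) 1).symm b)) (homologyMap_resTot_eq L 1 y)

/-- (E8), bidegree `(3, 0)`. -/
theorem h30_HlcCBdry (b : ∀ v, Hlc (L.𝒰v v) (Rep.res (L.r v) M) 2) (y : Hlc 𝒰 N 0) :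
    (cPairing L hB htr).h30 (HlcCBdry L M 2 b) y =
      lamPi L hB htr (show 2 + 0 = 2 from rfl) b (locRes L N 0 y) := by
  have h := h30_HToHc (lcCupData 𝒰 B hB) (locCupData L hB) (isMap_resTot L hB) tr htr
    ((piHomologyEquiv (locC L M) 2).symm b) y
  refine h.trans ?_
  exact congrArg (lam (θ := resTot L P) (locCupData L hB) htr (show 2 + 0 = 2 from rfl)
    ((piHomologyEquiv (locC L M) 2).symm b)) (homologyMap_resTot_eq L 0 y)

end Fermat.Agent.GC.PT.ConeE8
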