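/-
GATE-C / C5 leaf TRACE-EXT (helper59).

The C5 devissage (helper74, `GC/PT/Paired.lean`, (E5)) only needs a linear form
`tr : (coneC L T).X 3 →ₗ[k] k` killing coboundaries.  Arithmetic provides something smaller and
purely cohomological: a linear form `τ` on `∏_v Hlc²(G_v, T)` (sum of local invariants) which
vanishes on the image of the global `Hlc²(G, T)` (reciprocity).  This file turns the second into
the first:

* `exists_factor`             : `ker β ≤ ker τ ⟹ τ = f ∘ β` over a field (β : V → W, τ : V → k);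
* `exists_cochain_functional` : a linear form on `Hⁿ⁺¹(K)` is induced by a linear form on `Kⁿ⁺¹`
                                killing coboundaries;
* `exists_trace`              : for `L : LocalData 𝒰`, `T` discrete, `τ` with `τ ∘ locRes = 0`
                                there is `tr` on `(coneC L T).X (n+1)` with `tr ∘ d = 0` whose value
                                on any cocycle in the class `∂ e` (`∂ = HlcCBdry`) is `τ e`;
* `exists_trace_mk`           : the same on representatives: `tr (0, (b_v)_v) = τ ([b_v])_v`.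
Mathlib + `GC/Prof/ConeLC.lean` (helper10) only.
-/
import Fermat.Agent.GC.Prof.ConeLC

set_option autoImplicit false

open CategoryTheory

noncomputable section

namespace Fermat.Agent.GC.PT.TraceExt

open Fermat.Agent.GC.Prof Fermat.Agent.GC.Prof.Cone Fermat.Agent.GC.Prof.Elt

universe v u

section Abstract

variable {k : Type u} [Field k]

/-- Over a field, a linear form `τ` on `V` killing `ker β` factors through `β : V → W`. -/
theorem exists_factor {V W : Type*} [AddCommGroup V] [Module k V] [AddCommGroup W] [Module k W]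
    (β : V →ₗ[k] W) (τ : V →ₗ[k] k) (h : ∀ x, β x = 0 → τ x = 0) :
    ∃ f : W →ₗ[k] k, ∀ x, f (β x) = τ x := by
  have hker : LinearMap.ker β ≤ LinearMap.ker τ := fun x hx => h x hx
  let g : LinearMap.range β →ₗ[k] k :=
    ((LinearMap.ker β).liftQ τ hker).comp (β.quotKerEquivRange).symm.toLinearMap
  obtain ⟨f, hf⟩ := LinearMap.exists_extend g
  refine ⟨f, fun x => ?_⟩
  have h1 : f (β x) = g ⟨β x, LinearMap.mem_range_self β x⟩ := by
    rw [← hf]
    rfl
  have h2 : (β.quotKerEquivRange).symm ⟨β x, LinearMap.mem_range_self β x⟩ =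
      Submodule.Quotient.mk x := by
    rw [LinearEquiv.symm_apply_eq]
    rfl
  rw [h1]
  show ((LinearMap.ker β).liftQ τ hker) ((β.quotKerEquivRange).symm _) = τ x
  rw [h2]
  rfl

/-- A linear form on `Hⁿ⁺¹(K)` is induced by a linear form on `Kⁿ⁺¹` killing coboundaries. -/
theorem exists_cochain_functional (K : CochainComplex (ModuleCat.{v} k) ℕ) (n : ℕ)
    (f : K.homology (n + 1) →ₗ[k] k) :
    ∃ tr : K.X (n + 1) →ₗ[k] k,
      (∀ e : K.X n, tr ((K.d n (n + 1)).hom e) = 0) ∧
      ∀ z : zSub K (n + 1), tr z.1 = f (hMk K (n + 1) z) := by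
  obtain ⟨tr, htr⟩ := LinearMap.exists_extend (f.comp (hMk K (n + 1)))
  have hz : ∀ z : zSub K (n + 1), tr z.1 = f (hMk K (n + 1) z) := by
    intro z
    have := congrArg (fun φ => φ z) htr
    simpa using this
  refine ⟨tr, fun e => ?_, hz⟩
  have hmem : (K.d n (n + 1)).hom e ∈ zSub K (n + 1) := by
    rw [mem_zSub_iff]
    show K.d (n + 1) (n + 1 + 1) (K.d n (n + 1) e) = 0
    rw [← ModuleCat.comp_apply, K.d_comp_d]
    rfl
  have h0 : hMk K (n + 1) ⟨(K.d n (n + 1)).hom e, hmem⟩ = 0 :=
    (hMk_eq_zero_iff_succ K n _).2 ⟨e, rfl⟩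
  have := hz ⟨(K.d n (n + 1)).hom e, hmem⟩
  rw [h0, map_zero] at this
  exact this

end Abstract

section Concrete

variable {k G : Type u} [Field k] [Group G] {𝒰 : LevelSystem G} (L : LocalData 𝒰)
  (T : Rep.{u} k G) [IsDiscrete 𝒰 T]

/-- **TRACE-EXT.** A linear form `τ` on the product of the local `Hlcⁿ` which vanishes on the
image of the global `Hlcⁿ` ("reciprocity") is induced by a linear form `tr` on the degree `n+1`
cochains of the compact-support complex which kills coboundaries: for every cocycle `z` whose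
class is the boundary `∂ e` of a family of local classes, `tr z = τ e`. -/
theorem exists_trace (n : ℕ)
    (τ : (∀ v, Hlc (L.𝒰v v) (Rep.res (L.r v) T) n) →ₗ[k] k)
    (hτ : ∀ x : Hlc 𝒰 T n, τ (locRes L T n x) = 0) :
    ∃ tr : (coneC L T).X (n + 1) →ₗ[k] k,
      (∀ e : (coneC L T).X n, tr (((coneC L T).d n (n + 1)).hom e) = 0) ∧
      ∀ (z : zSub (coneC L T) (n + 1)) (e : ∀ v, Hlc (L.𝒰v v) (Rep.res (L.r v) T) n),
        hMk (coneC L T) (n + 1) z = HlcCBdry L T n e → tr z.1 = τ e := by
  obtain ⟨f, hf⟩ := exists_factor (HlcCBdry L T n) τ (fun e he => by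
    obtain ⟨x, rfl⟩ := (exact_locRes_HlcCBdry L T n e).1 he
    exact hτ x)
  obtain ⟨tr, h1, h2⟩ := exists_cochain_functional (coneC L T) n f
  refine ⟨tr, h1, fun z e hz => ?_⟩
  rw [h2 z, hz, hf]

/-- **TRACE-EXT on representatives**: `tr (0, (b_v)_v) = τ ([b_v])_v` for every family of local
cocycles `b_v`. -/
theorem exists_trace_mk (n : ℕ)
    (τ : (∀ v, Hlc (L.𝒰v v) (Rep.res (L.r v) T) n) →ₗ[k] k)
    (hτ : ∀ x : Hlc 𝒰 T n, τ (locRes L T n x) = 0) :
    ∃ tr : (coneC L T).X (n + 1) →ₗ[k] k,
      (∀ e : (coneC L T).X n, tr (((coneC L T).d n (n + 1)).hom e) = 0) ∧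
      ∀ b : ∀ v, zSub (locC L T v) n,
        tr (zMk (resTot L T) (n + 1) 0 (piZMk (locC L T) n b).1
          (isCocycle_zero_left (resTot L T) n _ (piZMk (locC L T) n b).2)).1 =
          τ (fun v => hMk (locC L T v) n (b v)) := by
  obtain ⟨tr, h1, h2⟩ := exists_trace L T n τ hτ
  refine ⟨tr, h1, fun b => ?_⟩
  apply h2
  exact (HToHcPi_hMk (resC L T) n b).symm

end Concrete

end Fermat.Agent.GC.PT.TraceExt
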