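/-
GATE-C / C5 (helper74): the CONCRETE instance of `ConePairingData` / `ConeBdryData`.

For `L : LocalData 𝒰`, a character `χ` with `k(χ) = chiRep χ` discrete, and a linear form
`τ` on `∏_v Hlc²(G_v, k(χ))` vanishing on the image of the global `Hlc²(G, k(χ))`
("reciprocity"), the cup/trace pairing `cPairing` on the compact-support cone (helper10), with
the trace produced by `TraceExt.exists_trace` (helper59), is a `ConePairingData L χ` with sign
`s = 1`, and the local pairings are `lamᵢ b c = τ ((b_v ∪ c_v)_v)`.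

The two cochain-level inputs (E6) naturality and (E7) SWAP are taken as the hypothesis
`CupFacts`; they are supplied by `ConePairing.lean` (helper1).
-/
import Fermat.Agent.GC.PT.BaseTop
import Fermat.Agent.GC.PT.ConeE8LC
import Fermat.Agent.GC.PT.TraceExt
import Fermat.Agent.GC.Prof.CoindDualCup

set_option autoImplicit false

open CategoryTheory Module

noncomputable section

namespace Fermat.Agent.GC.PT.MainInst

open Fermat.Agent.GC.Prof Fermat.Agent.GC.Prof.Elt Fermat.Agent.GC.Prof.Cone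
open Fermat.Agent.GC.PT.Triples Fermat.Agent.GC.PT.ConeE8
open Fermat.Agent.GC.Prof.Cup (Equivariant)

universe u

variable {k G : Type u} [Field k] [Group G] {𝒰 : LevelSystem G}

section ToChi

variable (χ : G →* kˣ) {M N : Rep.{u} k G}

/-- A `k`-valued bilinear form, viewed with values in `k(χ)` (same carrier). -/
def toChi (B : M →ₗ[k] N →ₗ[k] k) : M →ₗ[k] N →ₗ[k] chiRep χ := B

lemma toChi_apply (B : M →ₗ[k] N →ₗ[k] k) (m : M) (n : N) : toChi χ B m n = B m n := rfl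

lemma toChi_flip (B : M →ₗ[k] N →ₗ[k] k) : (toChi χ B).flip = toChi χ B.flip := rfl

variable {χ}

theorem equivariant_toChi {B : M →ₗ[k] N →ₗ[k] k} (hB : IsChiPairing χ B) :
    Equivariant M.ρ N.ρ (chiRep χ).ρ (toChi χ B) :=
  fun g m n => hB g m n

end ToChi

variable (L : LocalData 𝒰) (χ : G →* kˣ) [IsDiscrete 𝒰 (chiRep χ)]
variable {tr : (coneC L (chiRep χ)).X 3 →ₗ[k] k}
  (htr : ∀ e : (coneC L (chiRep χ)).X 2, tr (((coneC L (chiRep χ)).d 2 3).hom e) = 0)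

/-- The two cochain-level facts about the cup product on the cone: naturality (E6) and the
SWAP symmetry (E7, sign `+1`). -/
structure CupFacts : Prop where
  adjoint : ∀ (M N M₁ N₁ : Rep.{u} k G) [IsDiscrete 𝒰 M] [IsDiscrete 𝒰 N] [IsDiscrete 𝒰 M₁]
    [IsDiscrete 𝒰 N₁] (B : M →ₗ[k] N →ₗ[k] chiRep χ) (hB : Equivariant M.ρ N.ρ (chiRep χ).ρ B)
    (B₁ : M₁ →ₗ[k] N₁ →ₗ[k] chiRep χ) (hB₁ : Equivariant M₁.ρ N₁.ρ (chiRep χ).ρ B₁)
    (φ : M ⟶ M₁) (ψ : N₁ ⟶ N),
    (∀ (m : M) (n₁ : N₁), B₁ (φ.hom m) n₁ = B m (ψ.hom n₁)) →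
      Adjoint (cPairing L hB htr) (cPairing L hB₁ htr) (coneCMap L φ) (lcMap 𝒰 ψ)
  swap : ∀ (M N : Rep.{u} k G) [IsDiscrete 𝒰 M] [IsDiscrete 𝒰 N]
    (B : M →ₗ[k] N →ₗ[k] chiRep χ) (hB : Equivariant M.ρ N.ρ (chiRep χ).ρ B)
    (hBf : Equivariant N.ρ M.ρ (chiRep χ).ρ B.flip) (x : HlcC L M 2) (x' : HlcC L N 1),
    (cPairing L hB htr).h21 x ((HlcCToH L N 1).hom x') =
      (cPairing L hBf htr).h12 x' ((HlcCToH L M 2).hom x)

variable {L χ htr}

/-- The concrete `ConePairingData`. -/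
def conePairingData (F : CupFacts L χ htr) : ConePairingData L χ where
  pair M N _ _ B hB := cPairing L (equivariant_toChi hB) htr
  adjoint M N M₁ N₁ _ _ _ _ B hB B₁ hB₁ φ ψ h :=
    F.adjoint M N M₁ N₁ (toChi χ B) (equivariant_toChi hB) (toChi χ B₁) (equivariant_toChi hB₁)
      φ ψ h
  s := 1
  s_ne := one_ne_zero
  swap M N _ _ B hB x x' := by
    rw [one_mul]
    exact F.swap M N (toChi χ B) (equivariant_toChi hB) (equivariant_toChi hB.flip) x x'

lemma conePairingData_pair (F : CupFacts L χ htr) (M N : Rep.{u} k G) [IsDiscrete 𝒰 M]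
    [IsDiscrete 𝒰 N] (B : M →ₗ[k] N →ₗ[k] k) (hB : IsChiPairing χ B) :
    (conePairingData F).pair M N B hB = cPairing L (equivariant_toChi hB) htr := rfl

lemma conePairingData_s (F : CupFacts L χ htr) : (conePairingData F).s = 1 := rfl

/-- The concrete `ConeBdryData`: (E8) with `lamᵢ = lamPi`. -/
def coneBdryData (F : CupFacts L χ htr) : ConeBdryData (conePairingData F) where
  lam02 _ _ _ _ _ hB := lamPi L (equivariant_toChi hB) htr (show 0 + 2 = 2 from rfl)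
  lam11 _ _ _ _ _ hB := lamPi L (equivariant_toChi hB) htr (show 1 + 1 = 2 from rfl)
  lam20 _ _ _ _ _ hB := lamPi L (equivariant_toChi hB) htr (show 2 + 0 = 2 from rfl)
  e12 _ _ _ _ _ hB b y := h12_HlcCBdry L (equivariant_toChi hB) htr b y
  e21 _ _ _ _ _ hB b y := h21_HlcCBdry L (equivariant_toChi hB) htr b y
  e30 _ _ _ _ _ hB b y := h30_HlcCBdry L (equivariant_toChi hB) htr b y

/-- (instance search does not see through the abbreviation `chiRep`) -/
instance isDiscrete_res_chiRep (L : LocalData 𝒰) (χ : G →* kˣ) [IsDiscrete 𝒰 (chiRep χ)]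
    (v : L.ι) : IsDiscrete (L.𝒰v v) (Rep.res (L.r v) (chiRep χ)) :=
  L.isDiscrete_res v (chiRep χ)

/-- If `tr` comes from `TraceExt.exists_trace` for `τ`, its local part is `τ`. -/
theorem locTr_eq_of_trace
    (τ : (∀ v, Hlc (L.𝒰v v) (Rep.res (L.r v) (chiRep χ)) 2) →ₗ[k] k)
    (h2 : ∀ (z : zSub (coneC L (chiRep χ)) 3)
      (e : ∀ v, Hlc (L.𝒰v v) (Rep.res (L.r v) (chiRep χ)) 2),
      hMk (coneC L (chiRep χ)) 3 z = HlcCBdry L (chiRep χ) 2 e → tr z.1 = τ e) :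
    locTr L htr = τ := by
  ext e
  obtain ⟨z, hz⟩ := hMk_surjective (coneC L (chiRep χ)) 3 (HlcCBdry L (chiRep χ) 2 e)
  rw [← trH_HlcCBdry, ← hz]
  exact (trH_hMk htr z).trans (h2 z e hz)

/-- The local pairings of `coneBdryData` are `τ` of the componentwise local cup products. -/
theorem lamPi_eq_of_trace
    (τ : (∀ v, Hlc (L.𝒰v v) (Rep.res (L.r v) (chiRep χ)) 2) →ₗ[k] k)
    (h2 : ∀ (z : zSub (coneC L (chiRep χ)) 3)
      (e : ∀ v, Hlc (L.𝒰v v) (Rep.res (L.r v) (chiRep χ)) 2),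
      hMk (coneC L (chiRep χ)) 3 z = HlcCBdry L (chiRep χ) 2 e → tr z.1 = τ e)
    {M N : Rep.{u} k G} [IsDiscrete 𝒰 M] [IsDiscrete 𝒰 N] {B : M →ₗ[k] N →ₗ[k] chiRep χ}
    (hB : Equivariant M.ρ N.ρ (chiRep χ).ρ B) {i j : ℕ} (h : i + j = 2)
    (b : ∀ v, Hlc (L.𝒰v v) (Rep.res (L.r v) M) i)
    (c : ∀ v, Hlc (L.𝒰v v) (Rep.res (L.r v) N) j) :
    lamPi L hB htr h b c =
      τ fun v => HlcCup (L.𝒰v v) (locB L B v) (equivariant_locB L hB v) h (b v) (c v) := by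
  rw [lamPi_apply, locTr_eq_of_trace τ h2]

/-- **The concrete data**: for a "reciprocity" functional `τ` and the cup facts (E6), (E7) there
are `D : ConePairingData L χ` and `E : ConeBdryData D` whose local pairings are
`lamᵢ b c = τ ((b_v ∪ c_v)_v)`. -/
theorem exists_data
    (τ : (∀ v, Hlc (L.𝒰v v) (Rep.res (L.r v) (chiRep χ)) 2) →ₗ[k] k)
    (hτ : ∀ x : Hlc 𝒰 (chiRep χ) 2, τ (locRes L (chiRep χ) 2 x) = 0)
    (F : ∀ (tr : (coneC L (chiRep χ)).X 3 →ₗ[k] k)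
      (htr : ∀ e : (coneC L (chiRep χ)).X 2, tr (((coneC L (chiRep χ)).d 2 3).hom e) = 0),
      CupFacts L χ htr) :
    ∃ (D : ConePairingData L χ) (E : ConeBdryData D),
      (∀ (M N : Rep.{u} k G) [IsDiscrete 𝒰 M] [IsDiscrete 𝒰 N] (B : M →ₗ[k] N →ₗ[k] k)
        (hB : IsChiPairing χ B) (b : ∀ v, Hlc (L.𝒰v v) (Rep.res (L.r v) M) 0)
        (c : ∀ v, Hlc (L.𝒰v v) (Rep.res (L.r v) N) 2),
        E.lam02 M N B hB b c = τ fun v => HlcCup (L.𝒰v v) (locB L (toChi χ B) v)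
          (equivariant_locB L (equivariant_toChi hB) v) (show 0 + 2 = 2 from rfl) (b v) (c v)) ∧
      (∀ (M N : Rep.{u} k G) [IsDiscrete 𝒰 M] [IsDiscrete 𝒰 N] (B : M →ₗ[k] N →ₗ[k] k)
        (hB : IsChiPairing χ B) (b : ∀ v, Hlc (L.𝒰v v) (Rep.res (L.r v) M) 1)
        (c : ∀ v, Hlc (L.𝒰v v) (Rep.res (L.r v) N) 1),
        E.lam11 M N B hB b c = τ fun v => HlcCup (L.𝒰v v) (locB L (toChi χ B) v)
          (equivariant_locB L (equivariant_toChi hB) v) (show 1 + 1 = 2 from rfl) (b v) (c v)) ∧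
      (∀ (M N : Rep.{u} k G) [IsDiscrete 𝒰 M] [IsDiscrete 𝒰 N] (B : M →ₗ[k] N →ₗ[k] k)
        (hB : IsChiPairing χ B) (b : ∀ v, Hlc (L.𝒰v v) (Rep.res (L.r v) M) 2)
        (c : ∀ v, Hlc (L.𝒰v v) (Rep.res (L.r v) N) 0),
        E.lam20 M N B hB b c = τ fun v => HlcCup (L.𝒰v v) (locB L (toChi χ B) v)
          (equivariant_locB L (equivariant_toChi hB) v) (show 2 + 0 = 2 from rfl) (b v) (c v)) := by
  obtain ⟨tr, htr, h2⟩ := TraceExt.exists_trace L (chiRep χ) 2 τ hτ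
  refine ⟨conePairingData (F tr htr), coneBdryData (F tr htr), ?_, ?_, ?_⟩
  · intro M N _ _ B hB b c
    exact lamPi_eq_of_trace τ h2 (equivariant_toChi hB) _ b c
  · intro M N _ _ B hB b c
    exact lamPi_eq_of_trace τ h2 (equivariant_toChi hB) _ b c
  · intro M N _ _ B hB b c
    exact lamPi_eq_of_trace τ h2 (equivariant_toChi hB) _ b c

end Fermat.Agent.GC.PT.MainInst
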