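/-
GATE-C / C5 (helper59): DESCENT of `dim coker loc² ≤ 1` along an extension of degree prime to `p`.

Pure linear algebra (Mathlib only).  Situation: `loc : H → Λ` (localisation over the small field,
e.g. `ℚ`), `loc₁ : H₁ → Λ₁` (localisation over the big field, e.g. `ℚ(μ_p)`), restriction
`resΛ : Λ → Λ₁` and corestrictions `corΛ : Λ₁ → Λ`, `corH : H₁ → H` with
`corΛ ∘ resΛ = n` (`n ≠ 0` in `k`: the degree) and `loc ∘ corH = corΛ ∘ loc₁` (Mackey formula).
If `Λ₁ = range loc₁ + k·e₁` then `Λ = range loc + k·corΛ e₁`.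
* `exists_gen_of_descent`     : the statement above, element form;
* `finrank_le_of_exists_gen`  : `Λ = range loc + k·e ⟹ finrank Λ ≤ finrank (range loc) + 1`;
* `exists_gen_of_finrank_le`  : the converse (finite-dimensional);
* `finrank_le_of_descent`     : `finrank Λ₁ ≤ finrank (range loc₁) + 1 ⟹ finrank Λ ≤ finrank (range loc) + 1`.
-/
import Mathlib

set_option autoImplicit false

open Module

namespace Fermat.Agent.GC.PT.CokerDescent

variable {k : Type*} [Field k]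
variable {H Λ H₁ Λ₁ : Type*} [AddCommGroup H] [Module k H] [AddCommGroup Λ] [Module k Λ]
  [AddCommGroup H₁] [Module k H₁] [AddCommGroup Λ₁] [Module k Λ₁]

/-- Descent of "`coker loc` is generated by one element". -/
theorem exists_gen_of_descent (loc : H →ₗ[k] Λ) (loc₁ : H₁ →ₗ[k] Λ₁) (resΛ : Λ →ₗ[k] Λ₁)
    (corΛ : Λ₁ →ₗ[k] Λ) (corH : H₁ →ₗ[k] H) (n : k) (hn : n ≠ 0)
    (hcr : ∀ l, corΛ (resΛ l) = n • l) (hcomm : ∀ x, loc (corH x) = corΛ (loc₁ x))
    (h₁ : ∃ e₁ : Λ₁, ∀ m : Λ₁, ∃ (x : H₁) (c : k), m = loc₁ x + c • e₁) :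
    ∃ e : Λ, ∀ l : Λ, ∃ (x : H) (c : k), l = loc x + c • e := by
  obtain ⟨e₁, he₁⟩ := h₁
  refine ⟨corΛ e₁, fun l => ?_⟩
  obtain ⟨x, c, hxc⟩ := he₁ (resΛ l)
  refine ⟨n⁻¹ • corH x, n⁻¹ * c, ?_⟩
  have h1 : n • l = loc (corH x) + c • corΛ e₁ := by
    rw [← hcr, hxc, map_add, map_smul, hcomm]
  calc l = n⁻¹ • (n • l) := by rw [smul_smul, inv_mul_cancel₀ hn, one_smul]
    _ = loc (n⁻¹ • corH x) + (n⁻¹ * c) • corΛ e₁ := by
      rw [h1, smul_add, map_smul, smul_smul]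

/-- `Λ = range loc + k·e ⟹ dim Λ ≤ dim (range loc) + 1`. -/
theorem finrank_le_of_exists_gen [FiniteDimensional k Λ] (loc : H →ₗ[k] Λ)
    (h : ∃ e : Λ, ∀ l : Λ, ∃ (x : H) (c : k), l = loc x + c • e) :
    finrank k Λ ≤ finrank k (LinearMap.range loc) + 1 := by
  obtain ⟨e, he⟩ := h
  have htop : LinearMap.range loc ⊔ Submodule.span k {e} = ⊤ := by
    rw [eq_top_iff]
    intro l _
    obtain ⟨x, c, rfl⟩ := he l
    exact Submodule.add_mem_sup (LinearMap.mem_range_self loc x)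
      (Submodule.smul_mem _ c (Submodule.mem_span_singleton_self e))
  have h1 : finrank k (↥(LinearMap.range loc ⊔ Submodule.span k {e})) ≤
      finrank k (LinearMap.range loc) + finrank k (Submodule.span k ({e} : Set Λ)) :=
    Submodule.finrank_add_le_finrank_add_finrank _ _
  have h2 : finrank k (Submodule.span k ({e} : Set Λ)) ≤ 1 := by
    have := finrank_span_le_card (R := k) ({e} : Set Λ)
    simpa using this
  have h3 : finrank k (↥(LinearMap.range loc ⊔ Submodule.span k {e})) = finrank k Λ := by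
    rw [htop, finrank_top]
  omega

/-- Converse: `dim Λ ≤ dim (range loc) + 1 ⟹ Λ = range loc + k·e` for some `e`. -/
theorem exists_gen_of_finrank_le [FiniteDimensional k Λ] (loc : H →ₗ[k] Λ)
    (h : finrank k Λ ≤ finrank k (LinearMap.range loc) + 1) :
    ∃ e : Λ, ∀ l : Λ, ∃ (x : H) (c : k), l = loc x + c • e := by
  set R := LinearMap.range loc with hR
  have hq : finrank k (Λ ⧸ R) ≤ 1 := by
    have := Submodule.finrank_quotient_add_finrank R
    omega
  -- the quotient is spanned by one element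
  obtain ⟨v, hv⟩ : ∃ v : Λ ⧸ R, ∀ w : Λ ⧸ R, ∃ c : k, c • v = w :=
    finrank_le_one_iff.1 hq
  obtain ⟨e, rfl⟩ := Submodule.Quotient.mk_surjective R v
  refine ⟨e, fun l => ?_⟩
  obtain ⟨c, hc⟩ := hv (Submodule.Quotient.mk l)
  have hmem : l - c • e ∈ R := by
    rw [← Submodule.Quotient.mk_eq_zero R, Submodule.Quotient.mk_sub, Submodule.Quotient.mk_smul,
      hc, sub_self]
  obtain ⟨x, hx⟩ := hmem
  refine ⟨x, c, ?_⟩
  rw [hx]
  abel

/-- **Descent of `dim coker loc ≤ 1`** along restriction/corestriction of invertible degree. -/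
theorem finrank_le_of_descent [FiniteDimensional k Λ] [FiniteDimensional k Λ₁]
    (loc : H →ₗ[k] Λ) (loc₁ : H₁ →ₗ[k] Λ₁) (resΛ : Λ →ₗ[k] Λ₁)
    (corΛ : Λ₁ →ₗ[k] Λ) (corH : H₁ →ₗ[k] H) (n : k) (hn : n ≠ 0)
    (hcr : ∀ l, corΛ (resΛ l) = n • l) (hcomm : ∀ x, loc (corH x) = corΛ (loc₁ x))
    (h₁ : finrank k Λ₁ ≤ finrank k (LinearMap.range loc₁) + 1) :
    finrank k Λ ≤ finrank k (LinearMap.range loc) + 1 :=
  finrank_le_of_exists_gen loc
    (exists_gen_of_descent loc loc₁ resΛ corΛ corH n hn hcr hcomm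
      (exists_gen_of_finrank_le loc₁ h₁))

end Fermat.Agent.GC.PT.CokerDescent
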