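/-
GATE-C / C4+C5 (helper50): BASE-FILT.  Pure linear algebra over a field `k` (no complexes, no
groups): the FILTRATION ARGUMENT behind `BASE(K)` of the compact-support devissage, in hypothesis
form matching the cone long exact sequence (E4) and the boundary formula (E8) of board 1683.

* `inj12_of_cover` — the COVERING TRICK: injectivity of `h₁₂ : H¹_c(W_K) → H²(W_K*)ᵛ` from the
  analogous statement on the image of the boundary map at a bigger layer `L`, naturality (E6),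
  and injectivity of `H¹_c(W_K) → H¹_c(W_L)`.  No cocycle is computed.
* `inj12_on_range_of_b3`, `b3_ann_of_b3` — `(b3)` in annihilator form gives injectivity of `h₁₂`
  on the image of the boundary map.
* `h30_injective` — `(B-3)` from `H³ = 0`, (E8) and `(b3)`.
* `good_of_graded` — from injectivity of `h₁₂` on both sides `(M, N)`, `(N, M)`, perfect local
  pairings, (E4), (E8), SWAP and ONE numerical inequality `(C1)`, both `h₁₂` and both `h₂₁` are
  bijective.
-/
import Mathlib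

set_option autoImplicit false

open Module

namespace Fermat.Agent.GC.PT.BaseFilt

variable {k : Type*} [Field k]

/-! ### The covering trick -/

section Cover

variable {Hc1K H1K H2K' Hc1L H1L L0L H2L' : Type*}
  [AddCommGroup Hc1K] [Module k Hc1K] [AddCommGroup H1K] [Module k H1K]
  [AddCommGroup H2K'] [Module k H2K'] [AddCommGroup Hc1L] [Module k Hc1L]
  [AddCommGroup H1L] [Module k H1L] [AddCommGroup L0L] [Module k L0L]
  [AddCommGroup H2L'] [Module k H2L']

/-- COVERING TRICK.  `x ∈ H¹_c(W_K)` whose image in `H¹(W_K)` dies in `H¹(W_L)` and which pairs to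
zero with all of `H²(W_K*)` is zero, provided `H¹_c(W_K) → H¹_c(W_L)` is injective, the pairings
are adjoint for `(φ, ψ)`, and `h₁₂` at level `L` is injective on the image of the boundary map. -/
theorem inj12_of_cover
    (f1K : Hc1K →ₗ[k] H1K) (φc : Hc1K →ₗ[k] Hc1L) (hφc : Function.Injective φc)
    (φ1 : H1K →ₗ[k] H1L) (f1L : Hc1L →ₗ[k] H1L) (hnat : ∀ x, f1L (φc x) = φ1 (f1K x))
    (e0L : L0L →ₗ[k] Hc1L) (hex : Function.Exact e0L f1L)
    (ψ2 : H2L' →ₗ[k] H2K')
    (h12K : Hc1K →ₗ[k] H2K' →ₗ[k] k) (h12L : Hc1L →ₗ[k] H2L' →ₗ[k] k)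
    (hadj : ∀ x y', h12L (φc x) y' = h12K x (ψ2 y'))
    (hinjL : ∀ b, (∀ y', h12L (e0L b) y' = 0) → e0L b = 0)
    (x : Hc1K) (hx : φ1 (f1K x) = 0) (hx0 : ∀ y, h12K x y = 0) : x = 0 := by
  have h1 : f1L (φc x) = 0 := by rw [hnat, hx]
  obtain ⟨b, hb⟩ := (hex (φc x)).1 h1
  have h2 : e0L b = 0 := hinjL b fun y' => by rw [hb, hadj, hx0]
  apply hφc
  rw [← hb, h2, map_zero]

end Cover

/-! ### Annihilators for a bilinear form -/

section Ann

variable {X Y : Type*} [AddCommGroup X] [Module k X] [AddCommGroup Y] [Module k Y]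

/-- The left annihilator of `W' ≤ Y` under `β : X × Y → k`. -/
def annL (β : X →ₗ[k] Y →ₗ[k] k) (W' : Submodule k Y) : Submodule k X :=
  W'.dualAnnihilator.comap β

theorem mem_annL (β : X →ₗ[k] Y →ₗ[k] k) (W' : Submodule k Y) (x : X) :
    x ∈ annL β W' ↔ ∀ y ∈ W', β x y = 0 := by
  rw [annL, Submodule.mem_comap, Submodule.mem_dualAnnihilator]

theorem finrank_annL [FiniteDimensional k Y] (β : X →ₗ[k] Y →ₗ[k] k)
    (hβ : Function.Bijective β) (W' : Submodule k Y) :
    finrank k (annL β W') + finrank k W' = finrank k Y := by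
  have e : annL β W' ≃ₗ[k] W'.dualAnnihilator :=
    (LinearEquiv.ofBijective β hβ).ofSubmodule' W'.dualAnnihilator
  rw [e.finrank_eq, add_comm]
  exact Subspace.finrank_add_finrank_dualAnnihilator_eq W'

/-- Isotropy count: two mutually orthogonal subspaces for a left-nondegenerate form. -/
theorem finrank_add_le_of_orthogonal [FiniteDimensional k Y] (β : X →ₗ[k] Y →ₗ[k] k)
    (hβ : Function.Injective β) (W : Submodule k X) (W' : Submodule k Y)
    (h : ∀ x ∈ W, ∀ y ∈ W', β x y = 0) : finrank k W + finrank k W' ≤ finrank k Y := by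
  have hle : finrank k W ≤ finrank k W'.dualAnnihilator := by
    let g : W →ₗ[k] W'.dualAnnihilator :=
      (β.comp W.subtype).codRestrict W'.dualAnnihilator fun x => by
        rw [Submodule.mem_dualAnnihilator]
        intro y hy
        exact h x.1 x.2 y hy
    have hg : Function.Injective g := by
      intro a b hab
      apply Subtype.ext
      apply hβ
      exact congrArg Subtype.val hab
    exact LinearMap.finrank_le_finrank_of_injective hg
  have := Subspace.finrank_add_finrank_dualAnnihilator_eq W'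
  omega

end Ann

/-! ### `(b3)` and the boundary pieces -/

section Boundary

variable {H0 L0 Hc1 H2' L2' : Type*}
  [AddCommGroup H0] [Module k H0] [AddCommGroup L0] [Module k L0]
  [AddCommGroup Hc1] [Module k Hc1] [AddCommGroup H2'] [Module k H2']
  [AddCommGroup L2'] [Module k L2']

/-- `(b3)` in the form "`im(H²(N) → ⊕ H²_v(N))` contains the annihilator of `im(H⁰(M) → ⊕ H⁰_v(M))`"
implies the dual form "the annihilator of `im(H²(N) → ⊕ H²_v(N))` is contained in
`im(H⁰(M) → ⊕ H⁰_v(M))`". -/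
theorem b3_ann_of_b3 [FiniteDimensional k L0] (r0 : H0 →ₗ[k] L0) (l2' : H2' →ₗ[k] L2')
    (lam02 : L0 →ₗ[k] L2' →ₗ[k] k) (hlam : Function.Injective lam02)
    (hb3 : ∀ c : L2', (∀ m, lam02 (r0 m) c = 0) → c ∈ LinearMap.range l2')
    (b : L0) (hb : ∀ y, lam02 b (l2' y) = 0) : b ∈ LinearMap.range r0 := by
  by_contra hnot
  obtain ⟨θ, hθb, hθ⟩ := Submodule.exists_le_ker_of_notMem hnot
  obtain ⟨c, hc⟩ := (LinearMap.flip_surjective_iff₁ (B := lam02)).2 hlam θ
  have hc' : ∀ b', lam02 b' c = θ b' := fun b' => by rw [← hc]; rfl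
  obtain ⟨y, rfl⟩ := hb3 c fun m => by
    rw [hc']
    exact hθ ⟨m, rfl⟩
  exact hθb (by rw [← hc', hb])

/-- `h₁₂` is injective on the image of the boundary map `⊕ H⁰_v(M) → H¹_c(M)`, from (E8) and
`(b3)` in annihilator form. -/
theorem inj12_on_range_of_b3 (r0 : H0 →ₗ[k] L0) (e0 : L0 →ₗ[k] Hc1)
    (hex : Function.Exact r0 e0) (l2' : H2' →ₗ[k] L2')
    (h12 : Hc1 →ₗ[k] H2' →ₗ[k] k) (lam02 : L0 →ₗ[k] L2' →ₗ[k] k)
    (hE8 : ∀ b y, h12 (e0 b) y = lam02 b (l2' y))
    (hb3 : ∀ b, (∀ y, lam02 b (l2' y) = 0) → b ∈ LinearMap.range r0)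
    (b : L0) (hb : ∀ y, h12 (e0 b) y = 0) : e0 b = 0 := by
  obtain ⟨m, rfl⟩ := hb3 b fun y => by rw [← hE8, hb]
  exact (hex _).2 ⟨m, rfl⟩

end Boundary

section H30

variable {H2 L2 Hc3 H0' L0' : Type*}
  [AddCommGroup H2] [Module k H2] [AddCommGroup L2] [Module k L2]
  [AddCommGroup Hc3] [Module k Hc3] [AddCommGroup H0'] [Module k H0']
  [AddCommGroup L0'] [Module k L0']

/-- `(B-3)`: `h₃₀ : H³_c(M) → H⁰(N)ᵛ` is injective when `H³(M) = 0` (`e2` surjective), by (E8)
and `(b3)` for `M`. -/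
theorem h30_injective (l2 : H2 →ₗ[k] L2) (e2 : L2 →ₗ[k] Hc3) (hex : Function.Exact l2 e2)
    (he2 : Function.Surjective e2) (r0' : H0' →ₗ[k] L0')
    (h30 : Hc3 →ₗ[k] H0' →ₗ[k] k) (lam20 : L2 →ₗ[k] L0' →ₗ[k] k)
    (hE8 : ∀ b y, h30 (e2 b) y = lam20 b (r0' y))
    (hb3 : ∀ c : L2, (∀ m, lam20 c (r0' m) = 0) → c ∈ LinearMap.range l2) :
    Function.Injective h30 := by
  rw [injective_iff_map_eq_zero]
  intro x hx
  obtain ⟨b, rfl⟩ := he2 x
  obtain ⟨y, rfl⟩ := hb3 b fun m => by rw [← hE8, hx]; rfl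
  exact (hex _).2 ⟨y, rfl⟩

end H30

section CoverB3

variable {Hc1K H1K H2K' Hc1L H1L L0L H2L' : Type*}
  [AddCommGroup Hc1K] [Module k Hc1K] [AddCommGroup H1K] [Module k H1K]
  [AddCommGroup H2K'] [Module k H2K'] [AddCommGroup Hc1L] [Module k Hc1L]
  [AddCommGroup H1L] [Module k H1L] [AddCommGroup L0L] [Module k L0L]
  [AddCommGroup H2L'] [Module k H2L']

/-- The covering trick with `(b3)` at the bigger layer `L` plugged in: `hb3L` is `(b3)` for
`W_L*` in the form "`im(H²(W_L*) → ⊕ H²_v)` contains the annihilator of `im(H⁰(W_L) → ⊕ H⁰_v)`". -/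
theorem inj12_of_cover_b3 {H0L L2L' : Type*} [AddCommGroup H0L] [Module k H0L]
    [AddCommGroup L2L'] [Module k L2L'] [FiniteDimensional k L0L]
    (f1K : Hc1K →ₗ[k] H1K) (φc : Hc1K →ₗ[k] Hc1L) (hφc : Function.Injective φc)
    (φ1 : H1K →ₗ[k] H1L) (f1L : Hc1L →ₗ[k] H1L) (hnat : ∀ x, f1L (φc x) = φ1 (f1K x))
    (r0L : H0L →ₗ[k] L0L) (e0L : L0L →ₗ[k] Hc1L) (hexr : Function.Exact r0L e0L)
    (hex : Function.Exact e0L f1L) (l2L' : H2L' →ₗ[k] L2L')
    (ψ2 : H2L' →ₗ[k] H2K')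
    (h12K : Hc1K →ₗ[k] H2K' →ₗ[k] k) (h12L : Hc1L →ₗ[k] H2L' →ₗ[k] k)
    (hadj : ∀ x y', h12L (φc x) y' = h12K x (ψ2 y'))
    (lam02L : L0L →ₗ[k] L2L' →ₗ[k] k) (hlam : Function.Injective lam02L)
    (hE8 : ∀ b y, h12L (e0L b) y = lam02L b (l2L' y))
    (hb3L : ∀ c : L2L', (∀ m, lam02L (r0L m) c = 0) → c ∈ LinearMap.range l2L')
    (x : Hc1K) (hx : φ1 (f1K x) = 0) (hx0 : ∀ y, h12K x y = 0) : x = 0 :=
  inj12_of_cover f1K φc hφc φ1 f1L hnat e0L hex ψ2 h12K h12L hadj
    (fun b hb => inj12_on_range_of_b3 r0L e0L hexr l2L' h12L lam02L hE8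
      (fun b' hb' => b3_ann_of_b3 r0L l2L' lam02L hlam hb3L b' hb') b hb) x hx hx0

end CoverB3

/-! ### The graded pieces -/

section Sha

variable {L0 Hc1 H1 L1 H2' L2' : Type*}
  [AddCommGroup L0] [Module k L0] [AddCommGroup Hc1] [Module k Hc1]
  [AddCommGroup H1] [Module k H1] [AddCommGroup L1] [Module k L1]
  [AddCommGroup H2'] [Module k H2'] [AddCommGroup L2'] [Module k L2']

/-- If `h₁₂ : H¹_c(M) → H²(N)ᵛ` is injective then `dim Sha¹(M) ≤ dim Sha²(N)`. -/
theorem finrank_sha1_le_sha2 [FiniteDimensional k H2']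
    (e0 : L0 →ₗ[k] Hc1) (f1 : Hc1 →ₗ[k] H1) (l1 : H1 →ₗ[k] L1)
    (hex0 : Function.Exact e0 f1) (hex1 : Function.Exact f1 l1)
    (l2' : H2' →ₗ[k] L2') (h12 : Hc1 →ₗ[k] H2' →ₗ[k] k) (lam02 : L0 →ₗ[k] L2' →ₗ[k] k)
    (hE8 : ∀ b y, h12 (e0 b) y = lam02 b (l2' y))
    (hinj : Function.Injective h12) (hlam : Function.Surjective lam02) :
    finrank k (LinearMap.ker l1) ≤ finrank k (LinearMap.ker l2') := by
  -- `Φ : H¹_c(M) → (Sha²(N))ᵛ`
  let Φ : Hc1 →ₗ[k] Dual k (LinearMap.ker l2') := (LinearMap.ker l2').dualRestrict ∘ₗ h12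
  have hΦ : ∀ x (y : LinearMap.ker l2'), Φ x y = h12 x y.1 := fun _ _ => rfl
  have hker : LinearMap.ker Φ = LinearMap.ker f1 := by
    rw [LinearMap.exact_iff.1 hex0]
    ext x
    constructor
    · intro hx
      have hx' : h12 x ∈ (LinearMap.ker l2').dualAnnihilator := by
        rw [Submodule.mem_dualAnnihilator]
        intro y hy
        have := congrArg (fun g => g ⟨y, hy⟩) (LinearMap.mem_ker.1 hx)
        simpa [hΦ] using this
      rw [← LinearMap.range_dualMap_eq_dualAnnihilator_ker] at hx'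
      obtain ⟨θ, hθ⟩ := hx'
      obtain ⟨b, hb⟩ := hlam θ
      refine ⟨b, hinj ?_⟩
      apply LinearMap.ext
      intro y
      rw [hE8, hb, ← hθ]
      rfl
    · rintro ⟨b, rfl⟩
      rw [LinearMap.mem_ker]
      apply LinearMap.ext
      intro y
      rw [hΦ, hE8, LinearMap.mem_ker.1 y.2, map_zero]
      rfl
  have e : LinearMap.range f1 ≃ₗ[k] LinearMap.range Φ :=
    f1.quotKerEquivRange.symm ≪≫ₗ (Submodule.quotEquivOfEq _ _ hker.symm) ≪≫ₗ Φ.quotKerEquivRange
  rw [LinearMap.exact_iff.1 hex1, e.finrank_eq]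
  calc finrank k (LinearMap.range Φ) ≤ finrank k (Dual k (LinearMap.ker l2')) :=
        Submodule.finrank_le _
    _ = finrank k (LinearMap.ker l2') := Subspace.dual_finrank_eq

end Sha

section Middle

/-- If `A → B → C` is exact with `A` and `C` finite-dimensional then so is `B`. -/
theorem finite_of_exact' {A B C : Type*} [AddCommGroup A] [Module k A] [AddCommGroup B]
    [Module k B] [AddCommGroup C] [Module k C] [FiniteDimensional k A] [FiniteDimensional k C]
    (f : A →ₗ[k] B) (g : B →ₗ[k] C) (h : Function.Exact f g) : FiniteDimensional k B := by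
  have h' : Function.Exact f g.rangeRestrict := by
    intro x
    rw [← h x]
    constructor
    · intro hx
      exact congrArg Subtype.val hx
    · intro hx
      exact Subtype.ext hx
  exact Module.Finite.of_exact h' g.surjective_rangeRestrict

/-- The dimension of the middle term of an exact sequence `A → B → C`:
`dim B = dim(range f) + dim(range g)`. -/
theorem finrank_mid {A B C : Type*} [AddCommGroup A] [Module k A] [AddCommGroup B]
    [Module k B] [AddCommGroup C] [Module k C] [FiniteDimensional k B]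
    (f : A →ₗ[k] B) (g : B →ₗ[k] C) (h : Function.Exact f g) :
    finrank k B = finrank k (LinearMap.range f) + finrank k (LinearMap.range g) := by
  rw [← LinearMap.exact_iff.1 h, add_comm]
  exact (LinearMap.finrank_range_add_finrank_ker g).symm

end Middle

section B1

variable {H0 L0 Hc1 H1 L1 H2' L2' : Type*}
  [AddCommGroup H0] [Module k H0] [AddCommGroup L0] [Module k L0]
  [AddCommGroup Hc1] [Module k Hc1] [AddCommGroup H1] [Module k H1]
  [AddCommGroup L1] [Module k L1] [AddCommGroup H2'] [Module k H2']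
  [AddCommGroup L2'] [Module k L2']

/-- `(b1)`: an injective `h₁₂ : H¹_c(M) → H²(N)ᵛ` is bijective as soon as
`dim Sha²(N) ≤ dim Sha¹(M)`. -/
theorem bij12_of [FiniteDimensional k L0] [FiniteDimensional k H1] [FiniteDimensional k H2']
    (r0 : H0 →ₗ[k] L0) (e0 : L0 →ₗ[k] Hc1) (f1 : Hc1 →ₗ[k] H1) (l1 : H1 →ₗ[k] L1)
    (hexr : Function.Exact r0 e0) (hex0 : Function.Exact e0 f1) (hex1 : Function.Exact f1 l1)
    (l2' : H2' →ₗ[k] L2') (h12 : Hc1 →ₗ[k] H2' →ₗ[k] k) (lam02 : L0 →ₗ[k] L2' →ₗ[k] k)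
    (hE8 : ∀ b y, h12 (e0 b) y = lam02 b (l2' y))
    (hinj : Function.Injective h12) (hlam : Function.Bijective lam02)
    (hnum : finrank k (LinearMap.ker l2') ≤ finrank k (LinearMap.ker l1)) :
    Function.Bijective h12 := by
  have : FiniteDimensional k Hc1 := finite_of_exact' e0 f1 hex0
  have : FiniteDimensional k L2' := by
    have hfl := (LinearMap.flip_bijective_iff₁ (B := lam02)).2 hlam
    exact Module.Finite.of_injective lam02.flip hfl.1
  -- `dim H¹_c(M)`
  have d1 := finrank_mid e0 f1 hex0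
  rw [← LinearMap.exact_iff.1 hex1] at d1
  have d2 := LinearMap.finrank_range_add_finrank_ker e0
  rw [LinearMap.exact_iff.1 hexr] at d2
  -- `dim H²(N)`
  have d3 := LinearMap.finrank_range_add_finrank_ker l2'
  -- `range l2' ≤ ann (range r0)`
  have hfl : Function.Bijective lam02.flip := (LinearMap.flip_bijective_iff₁ (B := lam02)).2 hlam
  have hle : LinearMap.range l2' ≤ annL lam02.flip (LinearMap.range r0) := by
    rintro _ ⟨y, rfl⟩
    rw [mem_annL]
    rintro _ ⟨m, rfl⟩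
    show lam02 (r0 m) (l2' y) = 0
    rw [← hE8, (hexr _).2 ⟨m, rfl⟩, map_zero]
    rfl
  have d4 := finrank_annL lam02.flip hfl (LinearMap.range r0)
  have d5 := Submodule.finrank_mono hle
  have hle2 : finrank k H2' ≤ finrank k Hc1 := by omega
  have hge : finrank k Hc1 ≤ finrank k (H2' →ₗ[k] k) :=
    LinearMap.finrank_le_finrank_of_injective hinj
  have hdual : finrank k (H2' →ₗ[k] k) = finrank k H2' := Subspace.dual_finrank_eq
  exact ⟨hinj, (LinearMap.injective_iff_surjective_of_finrank_eq_finrank (by omega)).1 hinj⟩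

end B1

section B2

variable {H1 L1 Hc2 H2 L2 Hc1' H1' L1' : Type*}
  [AddCommGroup H1] [Module k H1] [AddCommGroup L1] [Module k L1]
  [AddCommGroup Hc2] [Module k Hc2] [AddCommGroup H2] [Module k H2]
  [AddCommGroup L2] [Module k L2] [AddCommGroup Hc1'] [Module k Hc1']
  [AddCommGroup H1'] [Module k H1'] [AddCommGroup L1'] [Module k L1']

/-- Isotropy of the global images in `⊕ H¹_v`: free from (E8) and `∂ ∘ res = 0`. -/
theorem isotropy (l1 : H1 →ₗ[k] L1) (e1 : L1 →ₗ[k] Hc2) (hex : Function.Exact l1 e1)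
    (l1' : H1' →ₗ[k] L1') (h21 : Hc2 →ₗ[k] H1' →ₗ[k] k) (lam11 : L1 →ₗ[k] L1' →ₗ[k] k)
    (hE8 : ∀ b y, h21 (e1 b) y = lam11 b (l1' y)) (z : H1) (y : H1') :
    lam11 (l1 z) (l1' y) = 0 := by
  rw [← hE8, (hex _).2 ⟨z, rfl⟩, map_zero]
  rfl

/-- `(b2)`: `h₂₁ : H²_c(M) → H¹(N)ᵛ` is bijective, given surjectivity of
`h₁₂' : H¹_c(N) → H²(M)ᵛ`, SWAP, (E8), the Lagrangian count and `dim Sha²(M) + a_N = dim H¹(N)`. -/
theorem bij21_of [FiniteDimensional k L1] [FiniteDimensional k L1'] [FiniteDimensional k H1']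
    [FiniteDimensional k H2]
    (l1 : H1 →ₗ[k] L1) (e1 : L1 →ₗ[k] Hc2) (f2 : Hc2 →ₗ[k] H2) (l2 : H2 →ₗ[k] L2)
    (hex1 : Function.Exact l1 e1) (hexe : Function.Exact e1 f2) (hex2 : Function.Exact f2 l2)
    (l1' : H1' →ₗ[k] L1') (f1' : Hc1' →ₗ[k] H1')
    (h21 : Hc2 →ₗ[k] H1' →ₗ[k] k) (lam11 : L1 →ₗ[k] L1' →ₗ[k] k)
    (hlam : Function.Bijective lam11)
    (hE8 : ∀ b y, h21 (e1 b) y = lam11 b (l1' y))
    (h12' : Hc1' →ₗ[k] H2 →ₗ[k] k) (hsurj : Function.Surjective h12')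
    (s : k) (hs : s ≠ 0) (swap : ∀ x x', h21 x (f1' x') = s * h12' x' (f2 x))
    (hlag : finrank k (LinearMap.range l1) + finrank k (LinearMap.range l1') = finrank k L1')
    (hnum : finrank k (LinearMap.ker l2) + finrank k (LinearMap.range l1') = finrank k H1') :
    Function.Bijective h21 := by
  have : FiniteDimensional k Hc2 := finite_of_exact' e1 f2 hexe
  -- Lagrangian: `ann (range l1') = range l1`
  have hiso : LinearMap.range l1 ≤ annL lam11 (LinearMap.range l1') := by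
    rintro _ ⟨z, rfl⟩
    rw [mem_annL]
    rintro _ ⟨y, rfl⟩
    exact isotropy l1 e1 hex1 l1' h21 lam11 hE8 z y
  have d1 := finrank_annL lam11 hlam (LinearMap.range l1')
  have hLag : LinearMap.range l1 = annL lam11 (LinearMap.range l1') :=
    Submodule.eq_of_le_of_finrank_eq hiso (by omega)
  have hinj : Function.Injective h21 := by
    rw [injective_iff_map_eq_zero]
    intro x hx
    have h0 : f2 x = 0 := by
      rw [← Module.forall_dual_apply_eq_zero_iff k]
      intro θ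
      obtain ⟨x', rfl⟩ := hsurj θ
      have h1 := swap x x'
      rw [hx] at h1
      have h2 : s * h12' x' (f2 x) = 0 := h1.symm
      exact (mul_eq_zero.1 h2).resolve_left hs
    obtain ⟨b, rfl⟩ := (hexe x).1 h0
    have hb : b ∈ annL lam11 (LinearMap.range l1') := by
      rw [mem_annL]
      rintro _ ⟨y, rfl⟩
      rw [← hE8, hx]
      rfl
    rw [← hLag] at hb
    exact (hex1 _).2 hb
  -- dimension count
  have d2 := finrank_mid e1 f2 hexe
  rw [← LinearMap.exact_iff.1 hex2] at d2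
  have d3 := LinearMap.finrank_range_add_finrank_ker e1
  rw [LinearMap.exact_iff.1 hex1] at d3
  have d4 : finrank k L1 = finrank k L1' := by
    rw [(LinearEquiv.ofBijective lam11 hlam).finrank_eq]
    exact Subspace.dual_finrank_eq
  have hdual : finrank k (H1' →ₗ[k] k) = finrank k H1' := Subspace.dual_finrank_eq
  exact ⟨hinj, (LinearMap.injective_iff_surjective_of_finrank_eq_finrank (by omega)).1 hinj⟩

end B2

/-! ### Assembly -/

section Assembly

variable {H0 L0 Hc1 H1 L1 Hc2 H2 L2 : Type*}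
  [AddCommGroup H0] [Module k H0] [AddCommGroup L0] [Module k L0]
  [AddCommGroup Hc1] [Module k Hc1] [AddCommGroup H1] [Module k H1]
  [AddCommGroup L1] [Module k L1] [AddCommGroup Hc2] [Module k Hc2]
  [AddCommGroup H2] [Module k H2] [AddCommGroup L2] [Module k L2]
variable {H0' L0' Hc1' H1' L1' Hc2' H2' L2' : Type*}
  [AddCommGroup H0'] [Module k H0'] [AddCommGroup L0'] [Module k L0']
  [AddCommGroup Hc1'] [Module k Hc1'] [AddCommGroup H1'] [Module k H1']
  [AddCommGroup L1'] [Module k L1'] [AddCommGroup Hc2'] [Module k Hc2']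
  [AddCommGroup H2'] [Module k H2'] [AddCommGroup L2'] [Module k L2']

/-- BASE-FILT.  Unprimed spaces: the module `M` (`H^i = Hⁱ(G,M)`, `L^i = ⊕_v Hⁱ(G_v,M)`,
`Hc^i = Hⁱ_c(M)`); primed spaces: the module `N = M*`.  Given the two cone sequences
`H⁰ → L⁰ → H¹_c → H¹ → L¹ → H²_c → H² → L²` (E4), the pairings `h₁₂, h₂₁` (for `(M,N)`) and
`h₁₂', h₂₁'` (for `(N,M)`), perfect local pairings, the boundary formulas (E8), SWAP (E7),
injectivity of `h₁₂` and `h₁₂'` (covering trick) and the single numerical inequality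
`(C1) : dim H¹(M) + dim H¹(N) ≥ dim ⊕_v H¹_v + dim Sha²(M) + dim Sha²(N)`,
all four of `h₁₂, h₂₁, h₁₂', h₂₁'` are bijective. -/
theorem good_of_graded
    [FiniteDimensional k L0] [FiniteDimensional k H1] [FiniteDimensional k L1]
    [FiniteDimensional k H2]
    [FiniteDimensional k L0'] [FiniteDimensional k H1'] [FiniteDimensional k L1']
    [FiniteDimensional k H2']
    -- the cone sequence of `M`
    (r0 : H0 →ₗ[k] L0) (e0 : L0 →ₗ[k] Hc1) (f1 : Hc1 →ₗ[k] H1) (l1 : H1 →ₗ[k] L1)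
    (e1 : L1 →ₗ[k] Hc2) (f2 : Hc2 →ₗ[k] H2) (l2 : H2 →ₗ[k] L2)
    (hexr : Function.Exact r0 e0) (hex0 : Function.Exact e0 f1) (hex1 : Function.Exact f1 l1)
    (hexl : Function.Exact l1 e1) (hexe : Function.Exact e1 f2) (hex2 : Function.Exact f2 l2)
    -- the cone sequence of `N`
    (r0' : H0' →ₗ[k] L0') (e0' : L0' →ₗ[k] Hc1') (f1' : Hc1' →ₗ[k] H1') (l1' : H1' →ₗ[k] L1')
    (e1' : L1' →ₗ[k] Hc2') (f2' : Hc2' →ₗ[k] H2') (l2' : H2' →ₗ[k] L2')
    (hexr' : Function.Exact r0' e0') (hex0' : Function.Exact e0' f1')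
    (hex1' : Function.Exact f1' l1') (hexl' : Function.Exact l1' e1')
    (hexe' : Function.Exact e1' f2') (hex2' : Function.Exact f2' l2')
    -- pairings for `(M, N)`
    (h12 : Hc1 →ₗ[k] H2' →ₗ[k] k) (h21 : Hc2 →ₗ[k] H1' →ₗ[k] k)
    (lam02 : L0 →ₗ[k] L2' →ₗ[k] k) (lam11 : L1 →ₗ[k] L1' →ₗ[k] k)
    (hlam02 : Function.Bijective lam02) (hlam11 : Function.Bijective lam11)
    (hE12 : ∀ b y, h12 (e0 b) y = lam02 b (l2' y))
    (hE21 : ∀ b y, h21 (e1 b) y = lam11 b (l1' y))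
    -- pairings for `(N, M)`
    (h12' : Hc1' →ₗ[k] H2 →ₗ[k] k) (h21' : Hc2' →ₗ[k] H1 →ₗ[k] k)
    (lam02' : L0' →ₗ[k] L2 →ₗ[k] k) (lam11' : L1' →ₗ[k] L1 →ₗ[k] k)
    (hlam02' : Function.Bijective lam02') (hlam11' : Function.Bijective lam11')
    (hE12' : ∀ b y, h12' (e0' b) y = lam02' b (l2 y))
    (hE21' : ∀ b y, h21' (e1' b) y = lam11' b (l1 y))
    -- injectivity of `h₁₂` (covering trick), SWAP, and the count
    (hinj : Function.Injective h12) (hinj' : Function.Injective h12')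
    (s : k) (hs : s ≠ 0) (swap : ∀ x x', h21 x (f1' x') = s * h12' x' (f2 x))
    (s' : k) (hs' : s' ≠ 0) (swap' : ∀ x x', h21' x (f1 x') = s' * h12 x' (f2' x))
    (hC1 : finrank k L1 + finrank k (LinearMap.ker l2) + finrank k (LinearMap.ker l2')
      ≤ finrank k H1 + finrank k H1') :
    (Function.Bijective h12 ∧ Function.Bijective h21) ∧
      (Function.Bijective h12' ∧ Function.Bijective h21') := by
  -- `sha1 ≤ sha2` on both sides
  have i1 := finrank_sha1_le_sha2 e0 f1 l1 hex0 hex1 l2' h12 lam02 hE12 hinj hlam02.2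
  have i2 := finrank_sha1_le_sha2 e0' f1' l1' hex0' hex1' l2 h12' lam02' hE12' hinj' hlam02'.2
  -- isotropy
  have i3 := finrank_add_le_of_orthogonal lam11 hlam11.1 (LinearMap.range l1)
    (LinearMap.range l1') (by
      rintro _ ⟨z, rfl⟩ _ ⟨y, rfl⟩
      exact isotropy l1 e1 hexl l1' h21 lam11 hE21 z y)
  -- rank-nullity
  have r1 := LinearMap.finrank_range_add_finrank_ker l1
  have r2 := LinearMap.finrank_range_add_finrank_ker l1'
  have d4 : finrank k L1 = finrank k L1' := by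
    rw [(LinearEquiv.ofBijective lam11 hlam11).finrank_eq]
    exact Subspace.dual_finrank_eq
  have b1 : Function.Bijective h12 :=
    bij12_of r0 e0 f1 l1 hexr hex0 hex1 l2' h12 lam02 hE12 hinj hlam02 (by omega)
  have b1' : Function.Bijective h12' :=
    bij12_of r0' e0' f1' l1' hexr' hex0' hex1' l2 h12' lam02' hE12' hinj' hlam02' (by omega)
  refine ⟨⟨b1, ?_⟩, ⟨b1', ?_⟩⟩
  · exact bij21_of l1 e1 f2 l2 hexl hexe hex2 l1' f1' h21 lam11 hlam11 hE21 h12' b1'.2 s hs swap
      (by omega) (by omega)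
  · exact bij21_of l1' e1' f2' l2' hexl' hexe' hex2' l1 f1 h21' lam11' hlam11' hE21' h12 b1.2 s' hs'
      swap' (by omega) (by omega)

end Assembly

/-! ### Consumer-facing form: Euler characteristic + `dim coker loc² ≤ 1` -/

section Coker

variable {H0 L0 Hc1 H2' L2' : Type*}
  [AddCommGroup H0] [Module k H0] [AddCommGroup L0] [Module k L0]
  [AddCommGroup Hc1] [Module k Hc1] [AddCommGroup H2'] [Module k H2']
  [AddCommGroup L2'] [Module k L2']

/-- The free inclusion `im(H²(N) → ⊕ H²_v(N)) ⊂ (im(H⁰(M) → ⊕ H⁰_v(M)))^⊥` from (E8). -/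
theorem range_le_annL_flip (r0 : H0 →ₗ[k] L0) (e0 : L0 →ₗ[k] Hc1) (hexr : Function.Exact r0 e0)
    (l2' : H2' →ₗ[k] L2') (h12 : Hc1 →ₗ[k] H2' →ₗ[k] k) (lam02 : L0 →ₗ[k] L2' →ₗ[k] k)
    (hE8 : ∀ b y, h12 (e0 b) y = lam02 b (l2' y)) :
    LinearMap.range l2' ≤ annL lam02.flip (LinearMap.range r0) := by
  rintro _ ⟨y, rfl⟩
  rw [mem_annL]
  rintro _ ⟨m, rfl⟩
  show lam02 (r0 m) (l2' y) = 0
  rw [← hE8, (hexr _).2 ⟨m, rfl⟩, map_zero]
  rfl

/-- `(b3)` in annihilator form from the count `dim coker(loc²_N) ≤ dim im(loc⁰_M)`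
(e.g. `dim coker ≤ 1` when `H⁰(M) = k` injects). -/
theorem b3_of_coker [FiniteDimensional k L0] (r0 : H0 →ₗ[k] L0) (e0 : L0 →ₗ[k] Hc1)
    (hexr : Function.Exact r0 e0) (l2' : H2' →ₗ[k] L2') (h12 : Hc1 →ₗ[k] H2' →ₗ[k] k)
    (lam02 : L0 →ₗ[k] L2' →ₗ[k] k) (hlam : Function.Bijective lam02)
    (hE8 : ∀ b y, h12 (e0 b) y = lam02 b (l2' y))
    (hnum : finrank k L2' ≤ finrank k (LinearMap.range l2') + finrank k (LinearMap.range r0))
    (c : L2') (hc : ∀ m, lam02 (r0 m) c = 0) : c ∈ LinearMap.range l2' := by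
  have hfl : Function.Bijective lam02.flip := (LinearMap.flip_bijective_iff₁ (B := lam02)).2 hlam
  have : FiniteDimensional k L2' := Module.Finite.of_injective lam02.flip hfl.1
  have hle := range_le_annL_flip r0 e0 hexr l2' h12 lam02 hE8
  have d1 := finrank_annL lam02.flip hfl (LinearMap.range r0)
  have d2 : finrank k L0 = finrank k L2' := by
    rw [(LinearEquiv.ofBijective lam02 hlam).finrank_eq]
    exact Subspace.dual_finrank_eq
  have heq : LinearMap.range l2' = annL lam02.flip (LinearMap.range r0) :=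
    Submodule.eq_of_le_of_finrank_le hle (by omega)
  rw [heq, mem_annL]
  rintro _ ⟨m, rfl⟩
  exact hc m

end Coker

section H30'

variable {H2 L2 Hc3 H0' L0' : Type*}
  [AddCommGroup H2] [Module k H2] [AddCommGroup L2] [Module k L2]
  [AddCommGroup Hc3] [Module k Hc3] [AddCommGroup H0'] [Module k H0']
  [AddCommGroup L0'] [Module k L0']

/-- `(B-3)` from `H³ = 0`, (E8) and the count `dim coker(loc²_M) ≤ dim im(loc⁰_N)`. -/
theorem h30_injective_of_coker [FiniteDimensional k L2] (l2 : H2 →ₗ[k] L2) (e2 : L2 →ₗ[k] Hc3)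
    (hex : Function.Exact l2 e2) (he2 : Function.Surjective e2) (r0' : H0' →ₗ[k] L0')
    (h30 : Hc3 →ₗ[k] H0' →ₗ[k] k) (lam20 : L2 →ₗ[k] L0' →ₗ[k] k)
    (hlam : Function.Bijective lam20)
    (hE8 : ∀ b y, h30 (e2 b) y = lam20 b (r0' y))
    (hnum : finrank k L2 ≤ finrank k (LinearMap.range l2) + finrank k (LinearMap.range r0')) :
    Function.Injective h30 := by
  have : FiniteDimensional k L0' := by
    have hfl := (LinearMap.flip_bijective_iff₁ (B := lam20)).2 hlam
    exact Module.Finite.of_injective lam20.flip hfl.1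
  refine h30_injective l2 e2 hex he2 r0' h30 lam20 hE8 fun c hc => ?_
  have hle : LinearMap.range l2 ≤ annL lam20 (LinearMap.range r0') := by
    rintro _ ⟨z, rfl⟩
    rw [mem_annL]
    rintro _ ⟨m, rfl⟩
    rw [← hE8, (hex _).2 ⟨z, rfl⟩, map_zero]
    rfl
  have d1 := finrank_annL lam20 hlam (LinearMap.range r0')
  have d2 : finrank k L2 = finrank k L0' := by
    rw [(LinearEquiv.ofBijective lam20 hlam).finrank_eq]
    exact Subspace.dual_finrank_eq
  have heq : LinearMap.range l2 = annL lam20 (LinearMap.range r0') :=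
    Submodule.eq_of_le_of_finrank_le hle (by omega)
  rw [heq, mem_annL]
  rintro _ ⟨m, rfl⟩
  exact hc m

end H30'

section Euler

variable {H0 L0 Hc1 H1 L1 Hc2 H2 L2 Hc3 : Type*}
  [AddCommGroup H0] [Module k H0] [AddCommGroup L0] [Module k L0]
  [AddCommGroup Hc1] [Module k Hc1] [AddCommGroup H1] [Module k H1]
  [AddCommGroup L1] [Module k L1] [AddCommGroup Hc2] [Module k Hc2]
  [AddCommGroup H2] [Module k H2] [AddCommGroup L2] [Module k L2]
  [AddCommGroup Hc3] [Module k Hc3]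
variable {H0' L0' Hc1' H1' L1' Hc2' H2' L2' Hc3' : Type*}
  [AddCommGroup H0'] [Module k H0'] [AddCommGroup L0'] [Module k L0']
  [AddCommGroup Hc1'] [Module k Hc1'] [AddCommGroup H1'] [Module k H1']
  [AddCommGroup L1'] [Module k L1'] [AddCommGroup Hc2'] [Module k Hc2']
  [AddCommGroup H2'] [Module k H2'] [AddCommGroup L2'] [Module k L2']
  [AddCommGroup Hc3'] [Module k Hc3']

/-- BASE-FILT, consumer-facing form (board 1813).  Unprimed: the module `M`; primed: `N = M*`.
Hypotheses: the two cone rows `H⁰ → L⁰ → H¹_c → H¹ → L¹ → H²_c → H² → L² → H³_c → 0` (E4, `H³ = 0`),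
`H⁰` one-dimensional with `loc⁰` injective, perfect local pairings `lam_i`, the boundary formulas
(E8), `dim coker loc² ≤ 1`, SWAP, the EULER identity, and injectivity of `h₁₂`, `h₁₂'`
(covering trick).  Conclusion: the duality property `Good` for `(M, N)` and for `(N, M)`. -/
theorem good_of_euler
    [FiniteDimensional k L0] [FiniteDimensional k H1] [FiniteDimensional k L1]
    [FiniteDimensional k H2] [FiniteDimensional k L2]
    [FiniteDimensional k L0'] [FiniteDimensional k H1'] [FiniteDimensional k L1']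
    [FiniteDimensional k H2'] [FiniteDimensional k L2']
    -- the cone row of `M`
    (r0 : H0 →ₗ[k] L0) (e0 : L0 →ₗ[k] Hc1) (f1 : Hc1 →ₗ[k] H1) (l1 : H1 →ₗ[k] L1)
    (e1 : L1 →ₗ[k] Hc2) (f2 : Hc2 →ₗ[k] H2) (l2 : H2 →ₗ[k] L2) (e2 : L2 →ₗ[k] Hc3)
    (hexr : Function.Exact r0 e0) (hex0 : Function.Exact e0 f1) (hex1 : Function.Exact f1 l1)
    (hexl : Function.Exact l1 e1) (hexe : Function.Exact e1 f2) (hex2 : Function.Exact f2 l2)
    (hex3 : Function.Exact l2 e2) (he2 : Function.Surjective e2)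
    -- the cone row of `N`
    (r0' : H0' →ₗ[k] L0') (e0' : L0' →ₗ[k] Hc1') (f1' : Hc1' →ₗ[k] H1') (l1' : H1' →ₗ[k] L1')
    (e1' : L1' →ₗ[k] Hc2') (f2' : Hc2' →ₗ[k] H2') (l2' : H2' →ₗ[k] L2') (e2' : L2' →ₗ[k] Hc3')
    (hexr' : Function.Exact r0' e0') (hex0' : Function.Exact e0' f1')
    (hex1' : Function.Exact f1' l1') (hexl' : Function.Exact l1' e1')
    (hexe' : Function.Exact e1' f2') (hex2' : Function.Exact f2' l2')
    (hex3' : Function.Exact l2' e2') (he2' : Function.Surjective e2')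
    -- `H⁰ = k`, `loc⁰` injective
    (hH0 : finrank k H0 = 1) (hr0 : Function.Injective r0)
    (hH0' : finrank k H0' = 1) (hr0' : Function.Injective r0')
    -- pairings for `(M, N)`
    (h12 : Hc1 →ₗ[k] H2' →ₗ[k] k) (h21 : Hc2 →ₗ[k] H1' →ₗ[k] k) (h30 : Hc3 →ₗ[k] H0' →ₗ[k] k)
    (lam02 : L0 →ₗ[k] L2' →ₗ[k] k) (lam11 : L1 →ₗ[k] L1' →ₗ[k] k) (lam20 : L2 →ₗ[k] L0' →ₗ[k] k)
    (hlam02 : Function.Bijective lam02) (hlam11 : Function.Bijective lam11)
    (hlam20 : Function.Bijective lam20)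
    (hE12 : ∀ b y, h12 (e0 b) y = lam02 b (l2' y))
    (hE21 : ∀ b y, h21 (e1 b) y = lam11 b (l1' y))
    (hE30 : ∀ b y, h30 (e2 b) y = lam20 b (r0' y))
    -- pairings for `(N, M)`
    (h12' : Hc1' →ₗ[k] H2 →ₗ[k] k) (h21' : Hc2' →ₗ[k] H1 →ₗ[k] k)
    (h30' : Hc3' →ₗ[k] H0 →ₗ[k] k)
    (lam02' : L0' →ₗ[k] L2 →ₗ[k] k) (lam11' : L1' →ₗ[k] L1 →ₗ[k] k)
    (lam20' : L2' →ₗ[k] L0 →ₗ[k] k)
    (hlam02' : Function.Bijective lam02') (hlam11' : Function.Bijective lam11')
    (hlam20' : Function.Bijective lam20')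
    (hE12' : ∀ b y, h12' (e0' b) y = lam02' b (l2 y))
    (hE21' : ∀ b y, h21' (e1' b) y = lam11' b (l1 y))
    (hE30' : ∀ b y, h30' (e2' b) y = lam20' b (r0 y))
    -- covering trick, SWAP, `dim coker loc² ≤ 1`, EULER
    (hinj : Function.Injective h12) (hinj' : Function.Injective h12')
    (s : k) (hs : s ≠ 0) (swap : ∀ x x', h21 x (f1' x') = s * h12' x' (f2 x))
    (s' : k) (hs' : s' ≠ 0) (swap' : ∀ x x', h21' x (f1 x') = s' * h12 x' (f2' x))
    (hcok : finrank k L2 ≤ finrank k (LinearMap.range l2) + 1)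
    (hcok' : finrank k L2' ≤ finrank k (LinearMap.range l2') + 1)
    (hEuler : finrank k H1 + finrank k H1' + finrank k L0 + finrank k L2
      = finrank k H0 + finrank k H2 + finrank k H0' + finrank k H2' + finrank k L1) :
    (Function.Bijective h12 ∧ Function.Bijective h21 ∧ Function.Injective h30) ∧
      (Function.Bijective h12' ∧ Function.Bijective h21' ∧ Function.Injective h30') := by
  have hrr : finrank k (LinearMap.range r0) = 1 := by
    rw [LinearMap.finrank_range_of_inj hr0, hH0]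
  have hrr' : finrank k (LinearMap.range r0') = 1 := by
    rw [LinearMap.finrank_range_of_inj hr0', hH0']
  have q1 := LinearMap.finrank_range_add_finrank_ker l2
  have q2 := LinearMap.finrank_range_add_finrank_ker l2'
  have d2 : finrank k L0 = finrank k L2' := by
    rw [(LinearEquiv.ofBijective lam02 hlam02).finrank_eq]
    exact Subspace.dual_finrank_eq
  have hC1 : finrank k L1 + finrank k (LinearMap.ker l2) + finrank k (LinearMap.ker l2')
      ≤ finrank k H1 + finrank k H1' := by omega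
  obtain ⟨⟨b12, b21⟩, ⟨b12', b21'⟩⟩ := good_of_graded r0 e0 f1 l1 e1 f2 l2 hexr hex0 hex1 hexl
    hexe hex2 r0' e0' f1' l1' e1' f2' l2' hexr' hex0' hex1' hexl' hexe' hex2' h12 h21 lam02 lam11
    hlam02 hlam11 hE12 hE21 h12' h21' lam02' lam11' hlam02' hlam11' hE12' hE21' hinj hinj'
    s hs swap s' hs' swap' hC1
  refine ⟨⟨b12, b21, ?_⟩, ⟨b12', b21', ?_⟩⟩
  · exact h30_injective_of_coker l2 e2 hex3 he2 r0' h30 lam20 hlam20 hE30 (by omega)
  · exact h30_injective_of_coker l2' e2' hex3' he2' r0 h30' lam20' hlam20' hE30' (by omega)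

end Euler

end Fermat.Agent.GC.PT.BaseFilt
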