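/-
GATE-C / C5 (helper7): step (T3) of the covering trick (board 1765 / 1813).

For an injective morphism `φ : M ⟶ M₁` of discrete representations the induced map on
compact-support cohomology `H¹_c(M) → H¹_c(M₁)` is injective (because `H⁰_c(M₁/M) = 0`).
This is the hypothesis `hφc` of helper50's `BaseFilt.inj12_of_cover`; with `φ = Kill.coindInclTriv`
it is the map `H¹_c(W_K) → H¹_c(W_L)`.
-/
import Fermat.Agent.GC.Prof.ConeLC
import Fermat.Agent.GC.Prof.LESNat

set_option autoImplicit false

open CategoryTheory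

noncomputable section

namespace Fermat.Agent.GC.PT.CoverInj

open Fermat.Agent.GC.Prof Fermat.Agent.GC.Prof.Cone

universe u

variable {k G : Type u} [CommRing k] [Group G] {𝒰 : LevelSystem G} (L : LocalData 𝒰)
  [Nonempty L.ι]

/-- For a short exact sequence `0 → X₁ → X₂ → X₃ → 0` of discrete representations,
`H¹_c(X₁) → H¹_c(X₂)` is injective. -/
theorem homologyMap_coneCMap_one_injective_of_shortExact (X : ShortComplex (Rep.{u} k G))
    [IsDiscrete 𝒰 X.X₁] [IsDiscrete 𝒰 X.X₂] [IsDiscrete 𝒰 X.X₃] (hX : X.ShortExact) :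
    Function.Injective (HomologicalComplex.homologyMap (coneCMap L X.f) 1).hom := by
  have hS := coneCSC_shortExact L hX
  have hex := (ShortComplex.ShortExact.moduleCat_exact_iff_function_exact _).1
    (hS.homology_exact₁ 0 1 rfl)
  have hsub : Subsingleton (HlcC L X.X₃ 0) := HlcC_zero_subsingleton L X.X₃
  rw [← LinearMap.ker_eq_bot, LinearMap.ker_eq_bot']
  intro x hx
  obtain ⟨y, hy⟩ := (hex x).1 hx
  have hy0 : y = 0 := Subsingleton.elim (α := HlcC L X.X₃ 0) y 0
  rw [← hy, hy0]
  exact map_zero _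

/-- Concrete criterion for short exactness in `Rep`. -/
theorem shortExact_of_concrete (S : ShortComplex (Rep.{u} k G))
    (hf : Function.Injective S.f.hom) (hg : Function.Surjective S.g.hom)
    (hex : ∀ x : S.X₂, S.g.hom x = 0 → ∃ y : S.X₁, S.f.hom y = x) : S.ShortExact where
  exact := (forget₂ (Rep.{u} k G) (ModuleCat.{u} k)).reflects_exact_of_faithful _ <|
    (ShortComplex.moduleCat_exact_iff _).2 fun x hx => hex x hx
  mono_f := (Rep.mono_iff_injective _).2 hf
  epi_g := (Rep.epi_iff_surjective _).2 hg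

variable {M M₁ : Rep.{u} k G} [IsDiscrete 𝒰 M] [IsDiscrete 𝒰 M₁]

/-- The range of a morphism of representations is a subrepresentation. -/
theorem range_le_comap (φ : M ⟶ M₁) (g : G) :
    LinearMap.range φ.hom.toLinearMap ≤ (LinearMap.range φ.hom.toLinearMap).comap (M₁.ρ g) := by
  rintro _ ⟨m, rfl⟩
  exact ⟨M.ρ g m, (Rep.hom_comm_apply φ g m)⟩

/-- **(T3)**  An injective morphism of discrete representations induces an injection on `H¹_c`. -/
theorem homologyMap_coneCMap_one_injective (φ : M ⟶ M₁) (hφ : Function.Injective φ.hom) :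
    Function.Injective (HomologicalComplex.homologyMap (coneCMap L φ) 1).hom := by
  let W : Submodule k M₁ := LinearMap.range φ.hom.toLinearMap
  have hW : ∀ g, W ≤ W.comap (M₁.ρ g) := range_le_comap φ
  have hzero : φ ≫ Rep.mkQ M₁ W hW = 0 := by
    ext m
    change (Submodule.mkQ W) (φ.hom m) = 0
    rw [Submodule.mkQ_apply, Submodule.Quotient.mk_eq_zero]
    exact ⟨m, rfl⟩
  let X : ShortComplex (Rep.{u} k G) := ShortComplex.mk φ (Rep.mkQ M₁ W hW) hzero
  have hX : X.ShortExact := by
    refine shortExact_of_concrete X hφ ?_ ?_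
    · intro y
      obtain ⟨m, rfl⟩ := Submodule.mkQ_surjective W y
      exact ⟨m, rfl⟩
    · intro m hm
      change (Submodule.mkQ W) m = 0 at hm
      rw [Submodule.mkQ_apply, Submodule.Quotient.mk_eq_zero] at hm
      obtain ⟨m', hm'⟩ := hm
      exact ⟨m', hm'⟩
  have : IsDiscrete 𝒰 X.X₁ := inferInstanceAs (IsDiscrete 𝒰 M)
  have : IsDiscrete 𝒰 X.X₂ := inferInstanceAs (IsDiscrete 𝒰 M₁)
  have : IsDiscrete 𝒰 X.X₃ := IsDiscrete.of_surjective (𝒰 := 𝒰) (Rep.mkQ M₁ W hW) (by
    intro y
    obtain ⟨m, rfl⟩ := Submodule.mkQ_surjective W y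
    exact ⟨m, rfl⟩)
  exact homologyMap_coneCMap_one_injective_of_shortExact L X hX

end Fermat.Agent.GC.PT.CoverInj
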