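/-
GATE-C / C5 KILL lemma (helper7), board 1813 (2): the (T1) input of the covering trick.

`(G, 𝒰)` a group with a level system, `H ≤ G` open, `N` a discrete `H`-representation.  Every class
`x ∈ Hlc¹(G, Coind_H^G N)` dies in `Hlc¹(G, Coind_{H'}^G Res N)` for some open `H' ≤ H`, under the
coefficient map `coindIncl : Coind_H^G N ⟶ Coind_{H'}^G Res N`, `f ↦ f` (an honest morphism of
`G`-representations).  No finiteness of `N` is needed.

Proof: a level-constant cocycle `c : G → Coind_H N` is the coboundary of the plain function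
`F x := c x 1`; `F (h x) = h • F x + c h 1`, and `c u = 0` for `u` in a level `U` of `c`, so
`F ∈ Coind_{H'} N` for `H' := H ⊓ U`.
-/
import Fermat.Agent.GC.Prof.CoindDisc
import Fermat.Agent.GC.Prof.LowMap

set_option autoImplicit false

open CategoryTheory groupCohomology

noncomputable section

namespace Fermat.Agent.GC.PT.Kill

open Fermat.Agent.GC.Prof

universe u

variable {k G : Type u} [CommRing k] [Group G] (𝒰 : LevelSystem G)

/-- The inclusion of an open subgroup into a bigger one is continuous for the induced level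
systems. -/
theorem isContHom_inclusion {H H' : Subgroup G} (hle : H' ≤ H) :
    IsContHom (𝒰.comap H'.subtype) (𝒰.comap H.subtype) (Subgroup.inclusion hle) := by
  rintro _ ⟨U, hU, rfl⟩
  exact ⟨U.comap H'.subtype, ⟨U, hU, rfl⟩, fun x hx => hx⟩

/-- Restriction to a smaller open subgroup preserves discreteness. -/
theorem isDiscrete_res_inclusion {H H' : Subgroup G} (hle : H' ≤ H) (N : Rep.{u} k H)
    [IsDiscrete (𝒰.comap H.subtype) N] :
    IsDiscrete (𝒰.comap H'.subtype) (Rep.res (Subgroup.inclusion hle) N) :=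
  IsDiscrete.res (isContHom_inclusion 𝒰 hle) N

variable {H H' : Subgroup G} (hle : H' ≤ H) (N : Rep.{u} k H)

/-- The underlying linear map of `coindIncl`: an `H`-equivariant function is `H'`-equivariant. -/
def coindInclLin :
    Representation.coindV H.subtype N.ρ →ₗ[k]
      Representation.coindV H'.subtype (Rep.res (Subgroup.inclusion hle) N).ρ where
  toFun f := ⟨f.1, fun h' g => f.2 (Subgroup.inclusion hle h') g⟩
  map_add' _ _ := rfl
  map_smul' _ _ := rfl

/-- The coefficient map `Coind_H^G N ⟶ Coind_{H'}^G Res N`, `f ↦ f`, for `H' ≤ H`. -/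
def coindIncl :
    Rep.coind H.subtype N ⟶ Rep.coind H'.subtype (Rep.res (Subgroup.inclusion hle) N) :=
  Rep.ofHom ⟨coindInclLin hle N, fun _ => rfl⟩

@[simp]
theorem coindIncl_hom_apply (f : Rep.coind H.subtype N) (g : G) :
    ((coindIncl hle N).hom f).1 g = f.1 g := rfl

theorem coindIncl_injective : Function.Injective (coindIncl hle N).hom := by
  intro f f' h
  apply Subtype.ext
  funext g
  exact congrArg (fun F => F.1 g) h

section Kill

variable {H : Subgroup G} (N : Rep.{u} k H)

/-- A `1`-cocycle with values in `Coind_H^G N` is the formal coboundary of `F x := c x 1`. -/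
theorem cocycle_apply_eq (c : G → Rep.coind H.subtype N)
    (hc : c ∈ cocycles₁ (Rep.coind H.subtype N)) (g x : G) :
    (c g).1 x = (c (x * g)).1 1 - (c x).1 1 := by
  have h := (mem_cocycles₁_iff c).1 hc x g
  have h1 : (c (x * g)).1 1 = ((Rep.coind H.subtype N).ρ x (c g)).1 1 + (c x).1 1 := by
    rw [h]; rfl
  have h2 : ((Rep.coind H.subtype N).ρ x (c g)).1 1 = (c g).1 x := by
    change (c g).1 (1 * x) = (c g).1 x
    rw [one_mul]
  rw [h1, h2, add_sub_cancel_right]

/-- Equivariance defect of `F x := c x 1`. -/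
theorem cocycle_apply_mul (c : G → Rep.coind H.subtype N)
    (hc : c ∈ cocycles₁ (Rep.coind H.subtype N)) (h : H) (x : G) :
    (c ((h : G) * x)).1 1 = N.ρ h ((c x).1 1) + (c (h : G)).1 1 := by
  have h0 := (mem_cocycles₁_iff c).1 hc (h : G) x
  have h1 : (c ((h : G) * x)).1 1 = ((Rep.coind H.subtype N).ρ (h : G) (c x)).1 1
      + (c (h : G)).1 1 := by
    rw [h0]; rfl
  have h2 : ((Rep.coind H.subtype N).ρ (h : G) (c x)).1 1 = (c x).1 (h : G) := by
    change (c x).1 (1 * (h : G)) = (c x).1 (h : G)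
    rw [one_mul]
  have h3 : (c x).1 (h : G) = N.ρ h ((c x).1 1) := by
    have := (c x).2 h 1
    simpa using this
  rw [h1, h2, h3]

/-- **KILL.**  Every class in `Hlc¹(G, Coind_H^G N)` dies in `Hlc¹(G, Coind_{H'}^G Res N)` for some
open `H' ≤ H` (in fact `H' = H ⊓ U` for a level `U` of a representing cocycle). -/
theorem exists_kill (hH : IsOpenSub 𝒰 H) [IsDiscrete 𝒰 (Rep.coind H.subtype N)]
    (x : Hlc 𝒰 (Rep.coind H.subtype N) 1) :
    ∃ (H' : Subgroup G) (hle : H' ≤ H), IsOpenSub 𝒰 H' ∧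
      ∀ [IsDiscrete 𝒰 (Rep.coind H'.subtype (Rep.res (Subgroup.inclusion hle) N))],
        HlcMap 𝒰 (coindIncl hle N) 1 x = 0 := by
  obtain ⟨z, rfl⟩ := Hlc1π_surjective 𝒰 (Rep.coind H.subtype N) x
  obtain ⟨hzc, U, hU, hUz⟩ := (mem_lcCocycles₁_iff 𝒰 _ z.1).1 z.2
  set c : G → Rep.coind H.subtype N := z.1 with hc
  -- `c` vanishes on `U`
  have hc1 : c 1 = 0 := cocycles₁_map_one (⟨c, hzc⟩ : cocycles₁ (Rep.coind H.subtype N))
  have hcU : ∀ u ∈ U, c u = 0 := by
    intro u hu
    have := hUz 1 u hu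
    rw [one_mul] at this
    rw [this, hc1]
  obtain ⟨V, hV, hVH⟩ := hH
  obtain ⟨W, hW, hWle⟩ := 𝒰.directed U hU V hV
  refine ⟨H ⊓ U, inf_le_left, ⟨W, hW, le_inf (hWle.trans (inf_le_right.trans hVH))
    (hWle.trans inf_le_left)⟩, ?_⟩
  intro _
  rw [HlcMap_Hlc1π, Hlc1π_eq_zero_iff]
  -- the primitive `F x := c x 1`, which is `H ⊓ U`-equivariant
  have hF : (fun x : G => (c x).1 1) ∈ Representation.coindV (H ⊓ U).subtype
      (Rep.res (Subgroup.inclusion (inf_le_left : H ⊓ U ≤ H)) N).ρ := by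
    intro h' x
    have h1 := cocycle_apply_mul N c hzc (Subgroup.inclusion (inf_le_left : H ⊓ U ≤ H) h') x
    have h2 : c ((Subgroup.inclusion (inf_le_left : H ⊓ U ≤ H) h' : H) : G) = 0 :=
      hcU _ h'.2.2
    rw [h2] at h1
    simpa using h1
  refine ⟨⟨fun x : G => (c x).1 1, hF⟩, ?_⟩
  funext g
  apply Subtype.ext
  funext x
  rw [d₀₁_hom_apply]
  change (c (x * g)).1 1 - (c x).1 1 = (c g).1 x
  exact (cocycle_apply_eq N c hzc g x).symm

end Kill

section Trivial

variable {H H' : Subgroup G} (V : Type u) [AddCommGroup V] [Module k V]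

/-- A trivial representation is discrete for any level system. -/
theorem isDiscrete_trivial {Γ : Type u} [Group Γ] (𝒱 : LevelSystem Γ) :
    IsDiscrete 𝒱 (Rep.trivial k Γ V) where
  exists_fix _ := by
    obtain ⟨U, hU⟩ := 𝒱.nonempty
    exact ⟨U, hU, fun _ _ => rfl⟩

/-- The permutation module `Coind_H^G V` (trivial action on `V`) of an open subgroup is
discrete. -/
theorem isDiscrete_coind_trivial (hH : IsOpenSub 𝒰 H) :
    IsDiscrete 𝒰 (Rep.coind H.subtype (Rep.trivial k H V)) :=
  haveI := isDiscrete_trivial (k := k) V (𝒰.comap H.subtype)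
  isDiscrete_coind hH (Rep.trivial k H V)

/-- The inclusion of permutation modules `Coind_H^G V ⟶ Coind_{H'}^G V` for `H' ≤ H`
(`Res` of a trivial representation is the trivial representation, definitionally). -/
def coindInclTriv (hle : H' ≤ H) :
    Rep.coind H.subtype (Rep.trivial k H V) ⟶ Rep.coind H'.subtype (Rep.trivial k H' V) :=
  coindIncl hle (Rep.trivial k H V)

@[simp]
theorem coindInclTriv_hom_apply (hle : H' ≤ H) (f : Rep.coind H.subtype (Rep.trivial k H V))
    (g : G) : ((coindInclTriv V hle).hom f).1 g = f.1 g := rfl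

theorem coindInclTriv_injective (hle : H' ≤ H) :
    Function.Injective (coindInclTriv (k := k) V hle).hom :=
  coindIncl_injective hle (Rep.trivial k H V)

/-- **KILL for permutation modules**: every class in `Hlc¹(G, Coind_H^G V)` dies in
`Hlc¹(G, Coind_{H'}^G V)` for some open `H' ≤ H`. -/
theorem exists_kill_trivial (hH : IsOpenSub 𝒰 H)
    [IsDiscrete 𝒰 (Rep.coind H.subtype (Rep.trivial k H V))]
    (x : Hlc 𝒰 (Rep.coind H.subtype (Rep.trivial k H V)) 1) :
    ∃ (H' : Subgroup G) (hle : H' ≤ H), IsOpenSub 𝒰 H' ∧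
      ∀ [IsDiscrete 𝒰 (Rep.coind H'.subtype (Rep.trivial k H' V))],
        HlcMap 𝒰 (coindInclTriv V hle) 1 x = 0 :=
  exists_kill 𝒰 (Rep.trivial k H V) hH x

end Trivial

end Fermat.Agent.GC.PT.Kill
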