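import Fermat.Agent.GC.PT.Paired
import Fermat.Agent.GC.Prof.CupAbs

/-!
# GATE-C / C5: from an abstract cup product and a trace to a `CPairing`

* `CPairing.ofCup c tr htr` : a `CupData A B E` together with a linear form `tr` on `E³` killing
  coboundaries gives a `CPairing A B`, `pᵢⱼ (a, b) = tr (a ∪ b)` (the compatibilities are the
  Leibniz rule).
* `Adjoint.ofCup` : naturality (E6) in abstract form.
* `CPairing.swap_homology` : the homology-level SWAP statement (E7) from its cocycle-level form.
-/

set_option autoImplicit false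

open CategoryTheory

noncomputable section

namespace Fermat.Agent.GC.PT

open Fermat.Agent.GC.Prof Fermat.Agent.GC.Prof.CupAbs

universe u

variable {k : Type u} [Field k]

section ofCup

variable {A B E : CochainComplex (ModuleCat.{u} k) ℕ}

/-- The degree `-3` pairing `pᵢⱼ (a, b) = tr (a ∪ b)` attached to a cup product with values in `E`
and a trace `tr : E³ → k` killing coboundaries. -/
def CPairing.ofCup (c : CupData A B E) (tr : E.X 3 →ₗ[k] k)
    (htr : ∀ e : E.X 2, tr ((E.d 2 3).hom e) = 0) : CPairing A B where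
  p12 := (c.cup 1 2 3 rfl).compr₂ tr
  p21 := (c.cup 2 1 3 rfl).compr₂ tr
  p30 := (c.cup 3 0 3 rfl).compr₂ tr
  compat0 := by
    intro a y hy
    have h := c.leibniz 0 2 2 rfl a y
    have hy' : (B.d 2 3).hom y = 0 := hy
    rw [hy', map_zero, smul_zero, add_zero] at h
    simp only [LinearMap.compr₂_apply]
    rw [← h]
    exact htr _
  compat1 := by
    intro a b
    have h := c.leibniz 1 1 2 rfl a b
    have h' := htr (c.cup 1 1 2 rfl a b)
    rw [h, map_add, map_smul] at h'
    simp only [LinearMap.compr₂_apply]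
    simp only [pow_one, neg_smul, one_smul] at h'
    linear_combination h'
  compat2 := by
    intro a b
    have h := c.leibniz 2 0 2 rfl a b
    have h' := htr (c.cup 2 0 2 rfl a b)
    rw [h, map_add, map_smul] at h'
    simp only [LinearMap.compr₂_apply]
    simp only [even_two, Even.neg_pow, one_pow, one_smul] at h'
    linear_combination h'

@[simp] theorem CPairing.ofCup_p12 (c : CupData A B E) (tr : E.X 3 →ₗ[k] k) (htr) (a : A.X 1)
    (b : B.X 2) : (CPairing.ofCup c tr htr).p12 a b = tr (c.cup 1 2 3 rfl a b) := rfl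

@[simp] theorem CPairing.ofCup_p21 (c : CupData A B E) (tr : E.X 3 →ₗ[k] k) (htr) (a : A.X 2)
    (b : B.X 1) : (CPairing.ofCup c tr htr).p21 a b = tr (c.cup 2 1 3 rfl a b) := rfl

@[simp] theorem CPairing.ofCup_p30 (c : CupData A B E) (tr : E.X 3 →ₗ[k] k) (htr) (a : A.X 3)
    (b : B.X 0) : (CPairing.ofCup c tr htr).p30 a b = tr (c.cup 3 0 3 rfl a b) := rfl

end ofCup

section naturality

variable {A B A₁ B₁ E : CochainComplex (ModuleCat.{u} k) ℕ}

/-- Naturality: if `f a ∪₁ b₁ = a ∪ g b₁` on cochains (same target `E`, same trace), then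
`(f, g)` is an adjoint pair for the induced pairings. -/
theorem Adjoint.ofCup (c : CupData A B E) (c₁ : CupData A₁ B₁ E) (tr : E.X 3 →ₗ[k] k)
    (htr : ∀ e : E.X 2, tr ((E.d 2 3).hom e) = 0) (f : A ⟶ A₁) (g : B₁ ⟶ B)
    (h : ∀ (i j n : ℕ) (hn : i + j = n) (a : A.X i) (b : B₁.X j),
      c₁.cup i j n hn ((f.f i).hom a) b = c.cup i j n hn a ((g.f j).hom b)) :
    Adjoint (CPairing.ofCup c tr htr) (CPairing.ofCup c₁ tr htr) f g where
  a12 a b := by
    have := h 1 2 3 rfl a b
    simp only [CPairing.ofCup_p12]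
    exact congrArg tr this
  a21 a b := by
    have := h 2 1 3 rfl a b
    simp only [CPairing.ofCup_p21]
    exact congrArg tr this
  a30 a b := by
    have := h 3 0 3 rfl a b
    simp only [CPairing.ofCup_p30]
    exact congrArg tr this

end naturality

section swap

variable {A B A' B' : CochainComplex (ModuleCat.{u} k) ℕ}

/-- **SWAP on homology (E7), abstract form.** If on cocycles
`p₂₁ x (f' x') = s * p'₁₂ x' (f x)` (`x ∈ Z²(A)`, `x' ∈ Z¹(A')`, `f : A ⟶ B'`, `f' : A' ⟶ B`),
then the same identity holds for the induced pairings on homology. -/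
theorem CPairing.swap_homology (P : CPairing A B) (P' : CPairing A' B') (f : A ⟶ B')
    (f' : A' ⟶ B) (s : k)
    (h : ∀ (x : Elt.zSub A 2) (x' : Elt.zSub A' 1),
      P.p21 x.1 ((f'.f 1).hom x'.1) = s * P'.p12 x'.1 ((f.f 2).hom x.1))
    (x : A.homology 2) (x' : A'.homology 1) :
    P.h21 x ((HomologicalComplex.homologyMap f' 1).hom x') =
      s * P'.h12 x' ((HomologicalComplex.homologyMap f 2).hom x) := by
  obtain ⟨x, rfl⟩ := Elt.hMk_surjective A 2 x
  obtain ⟨x', rfl⟩ := Elt.hMk_surjective A' 1 x'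
  rw [Elt.homologyMap_hMk, Elt.homologyMap_hMk, CPairing.h21_mk, CPairing.h12_mk]
  exact h x x'

end swap

end Fermat.Agent.GC.PT
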