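/-
GATE-C / C5 (helper50): BASE-INJ.  The covering trick (`BaseFilt.inj12_of_cover`) instantiated on
the concrete compact-support objects `coneC L M`, for ANY pair of cone pairings related by an
adjoint pair `(coneCMap L φ, lcMap 𝒰 ψ)` — in particular for `CPairing.ofCup (coneCCupData …)` and
for helper74's abstract `ConePairingData`.

* `cup_coneCMap_succ`, `adjoint_coneCMap` — naturality (E6) of the concrete cone pairing
  `conePair L hB tr htr := CPairing.ofCup (coneCCupData L hB) tr htr`.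
* `eq_zero_of_cover_pair` — the covering trick for an injective coefficient map `φ : M ⟶ M₁`.
* `ConePairingData.eq_zero_of_cover`, `ConePairingData.h12_injective_of_covers`.
* `ConeBdryData.bdry_injective` — `h₁₂` is injective on the image of the boundary map from (E8),
  local `H⁰ × H²` perfectness and `dim coker loc² ≤ dim im loc⁰`.
* `ConePairingData.h12_injective_coind` — with helper7's KILL lemma: injectivity of `h₁₂` for the
  permutation module `Coind_H^G k`, from the boundary statement at all smaller open `H' ≤ H`.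
-/
import Fermat.Agent.GC.Prof.ConeCupLC
import Fermat.Agent.GC.PT.PairingOfCup
import Fermat.Agent.GC.PT.BaseFilt
import Fermat.Agent.GC.PT.BaseTop
import Fermat.Agent.GC.PT.CoverInj
import Fermat.Agent.GC.PT.Kill

set_option autoImplicit false

open CategoryTheory Module

noncomputable section

namespace Fermat.Agent.GC.PT.BaseInj

open Fermat.Agent.GC.Prof Fermat.Agent.GC.Prof.Cone Fermat.Agent.GC.Prof.CupAbs
open Fermat.Agent.GC.Prof.Cup (Equivariant)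

universe u

variable {k G : Type u} [Field k] [Group G] {𝒰 : LevelSystem G} (L : LocalData 𝒰)

/-! ### naturality (E6) of the concrete cone pairing -/

section Adj

variable {M M₁ N N₁ P : Rep.{u} k G} [IsDiscrete 𝒰 M] [IsDiscrete 𝒰 M₁] [IsDiscrete 𝒰 N]
  [IsDiscrete 𝒰 N₁] [IsDiscrete 𝒰 P]
  {B : M →ₗ[k] N →ₗ[k] P} {B₁ : M₁ →ₗ[k] N₁ →ₗ[k] P}
  (hB : Equivariant M.ρ N.ρ P.ρ B) (hB₁ : Equivariant M₁.ρ N₁.ρ P.ρ B₁)
  (φ : M ⟶ M₁) (ψ : N₁ ⟶ N)

/-- Cochain-level adjointness of `coneCMap L φ` and `lcMap 𝒰 ψ` for the cone cup products, in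
positive degree of the first variable. -/
theorem cup_coneCMap_succ (hφψ : ∀ m n₁, B₁ (φ.hom m) n₁ = B m (ψ.hom n₁)) (i j n : ℕ)
    (h : i + 1 + j = n + 1) (x : (coneC L M).X (i + 1)) (y : lcSub 𝒰 N₁ j) :
    (coneCCupData L hB₁).cup (i + 1) j (n + 1) h ((coneCMap L φ).f (i + 1) x) y =
      (coneCCupData L hB).cup (i + 1) j (n + 1) h x (lcMapLin 𝒰 ψ j y) := by
  apply (coneCXEquivSucc L P n).injective
  rw [coneCCupData_cup_succ, coneCCupData_cup_succ, coneCMap_f_succ]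
  refine Prod.ext ?_ ?_
  · apply Subtype.ext
    funext g
    simp only [lcMapLin_coe, lcCup_coe, CupN.cupC, CupN.cupF, hφψ, Rep.hom_comm_apply]
  · funext v
    apply Subtype.ext
    funext g
    simp only [lcMapLin_coe, lcCup_coe, CupN.cupC, CupN.cupF, lcPullLin_coe]
    exact (hφψ _ _).trans (congrArg (B _) (Rep.hom_comm_apply ψ _ _))

variable (tr : (coneC L P).X 3 →ₗ[k] k)
  (htr : ∀ e : (coneC L P).X 2, tr (((coneC L P).d 2 3).hom e) = 0)

/-- The compact-support pairing of `B : M × N → P` and a trace on `(coneC L P)³` (E5). -/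
abbrev conePair : CPairing (coneC L M) (lcCochains 𝒰 N) :=
  CPairing.ofCup (coneCCupData L hB) tr htr

/-- (E6) naturality of the cone pairing in the coefficients. -/
theorem adjoint_coneCMap (hφψ : ∀ m n₁, B₁ (φ.hom m) n₁ = B m (ψ.hom n₁)) :
    Adjoint (conePair L hB tr htr) (conePair L hB₁ tr htr) (coneCMap L φ) (lcMap 𝒰 ψ) where
  a12 a b := congrArg tr (cup_coneCMap_succ L hB hB₁ φ ψ hφψ 0 2 2 rfl a b)
  a21 a b := congrArg tr (cup_coneCMap_succ L hB hB₁ φ ψ hφψ 1 1 2 rfl a b)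
  a30 a b := congrArg tr (cup_coneCMap_succ L hB hB₁ φ ψ hφψ 2 0 2 rfl a b)

end Adj

/-! ### the covering trick on the cone, for an adjoint pair of cone pairings -/

section Cover

variable {M M₁ N N₁ : Rep.{u} k G} [IsDiscrete 𝒰 M] [IsDiscrete 𝒰 M₁] [IsDiscrete 𝒰 N]
  [IsDiscrete 𝒰 N₁]

/-- `fst` is natural: `HlcCToH ∘ Hⁿ(coneCMap φ) = HlcMap φ ∘ HlcCToH`. -/
theorem HlcCToH_natural (φ : M ⟶ M₁) (n : ℕ) (x : HlcC L M n) :
    (HlcCToH L M₁ n).hom ((HomologicalComplex.homologyMap (coneCMap L φ) n).hom x) =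
      (HlcMap 𝒰 φ n).hom ((HlcCToH L M n).hom x) := by
  have h := congrArg (fun f => HomologicalComplex.homologyMap f n) (coneCMap_comp_coneFst L φ)
  simp only [HomologicalComplex.homologyMap_comp] at h
  exact congr($h x)

variable [Nonempty L.ι]

/-- **The covering trick on the cone.**  `φ : M ⟶ M₁` injective, `(coneCMap L φ, lcMap 𝒰 ψ)`
adjoint for the cone pairings `Pair`, `Pair₁`.  A class `x ∈ H¹_c(M)` whose image in `H¹(G, M)` dies
in `H¹(G, M₁)` and which pairs to zero with `H²(G, N)` vanishes, provided `Pair₁` is injective on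
the image of the boundary map `∏_v H⁰(G_v, M₁) → H¹_c(M₁)`. -/
theorem eq_zero_of_cover_pair (Pair : CPairing (coneC L M) (lcCochains 𝒰 N))
    (Pair₁ : CPairing (coneC L M₁) (lcCochains 𝒰 N₁)) (φ : M ⟶ M₁)
    (hφ : Function.Injective φ.hom) (ψ : N₁ ⟶ N)
    (hadj : Adjoint Pair Pair₁ (coneCMap L φ) (lcMap 𝒰 ψ))
    (hinjL : ∀ b, (∀ y₁, Pair₁.h12 (HlcCBdry L M₁ 0 b) y₁ = 0) → HlcCBdry L M₁ 0 b = 0)
    (x : HlcC L M 1) (hx : (HlcMap 𝒰 φ 1).hom ((HlcCToH L M 1).hom x) = 0)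
    (hx0 : ∀ y, Pair.h12 x y = 0) : x = 0 :=
  BaseFilt.inj12_of_cover (HlcCToH L M 1).hom
    (HomologicalComplex.homologyMap (coneCMap L φ) 1).hom
    (CoverInj.homologyMap_coneCMap_one_injective L φ hφ) (HlcMap 𝒰 φ 1).hom (HlcCToH L M₁ 1).hom
    (fun x => HlcCToH_natural L φ 1 x) (HlcCBdry L M₁ 0) (exact_HlcCBdry_HlcCToH L M₁ 0)
    (HlcMap 𝒰 ψ 2).hom Pair.h12 Pair₁.h12 (fun x y' => hadj.h12 x y') hinjL x hx hx0

end Cover

/-- The covering trick for the concrete pairing `CPairing.ofCup (coneCCupData L hB) tr htr`. -/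
theorem eq_zero_of_cover_ofCup [Nonempty L.ι] {M M₁ N N₁ P : Rep.{u} k G} [IsDiscrete 𝒰 M]
    [IsDiscrete 𝒰 M₁] [IsDiscrete 𝒰 N] [IsDiscrete 𝒰 N₁] [IsDiscrete 𝒰 P]
    {B : M →ₗ[k] N →ₗ[k] P} {B₁ : M₁ →ₗ[k] N₁ →ₗ[k] P}
    (hB : Equivariant M.ρ N.ρ P.ρ B) (hB₁ : Equivariant M₁.ρ N₁.ρ P.ρ B₁)
    (φ : M ⟶ M₁) (ψ : N₁ ⟶ N) (tr : (coneC L P).X 3 →ₗ[k] k)
    (htr : ∀ e : (coneC L P).X 2, tr (((coneC L P).d 2 3).hom e) = 0)
    (hφ : Function.Injective φ.hom) (hφψ : ∀ m n₁, B₁ (φ.hom m) n₁ = B m (ψ.hom n₁))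
    (hinjL : ∀ b, (∀ y₁, (conePair L hB₁ tr htr).h12 (HlcCBdry L M₁ 0 b) y₁ = 0) →
      HlcCBdry L M₁ 0 b = 0)
    (x : HlcC L M 1) (hx : (HlcMap 𝒰 φ 1).hom ((HlcCToH L M 1).hom x) = 0)
    (hx0 : ∀ y, (conePair L hB tr htr).h12 x y = 0) : x = 0 :=
  eq_zero_of_cover_pair L _ _ φ hφ ψ (adjoint_coneCMap L hB hB₁ φ ψ tr htr hφψ) hinjL x hx hx0

end Fermat.Agent.GC.PT.BaseInj

/-! ### the same for helper74's `ConePairingData` / `ConeBdryData` -/

namespace Fermat.Agent.GC.PT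

open Fermat.Agent.GC.Prof Fermat.Agent.GC.Prof.Cone Fermat.Agent.GC.PT.Triples

universe u

variable {k G : Type u} [Field k] [Group G] {𝒰 : LevelSystem G}
variable {L : LocalData 𝒰} {χ : G →* kˣ}

/-- **Covering trick** for a `ConePairingData`. -/
theorem ConePairingData.eq_zero_of_cover (D : ConePairingData L χ) [Nonempty L.ι]
    {M M₁ N N₁ : Rep.{u} k G} [IsDiscrete 𝒰 M] [IsDiscrete 𝒰 M₁] [IsDiscrete 𝒰 N]
    [IsDiscrete 𝒰 N₁] (B : M →ₗ[k] N →ₗ[k] k) (hB : IsChiPairing χ B)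
    (B₁ : M₁ →ₗ[k] N₁ →ₗ[k] k) (hB₁ : IsChiPairing χ B₁) (φ : M ⟶ M₁)
    (hφ : Function.Injective φ.hom) (ψ : N₁ ⟶ N)
    (hφψ : ∀ (m : M) (n₁ : N₁), B₁ (φ.hom m) n₁ = B m (ψ.hom n₁))
    (hinjL : ∀ b, (∀ y₁, (D.pair M₁ N₁ B₁ hB₁).h12 (HlcCBdry L M₁ 0 b) y₁ = 0) →
      HlcCBdry L M₁ 0 b = 0)
    (x : HlcC L M 1) (hx : (HlcMap 𝒰 φ 1).hom ((HlcCToH L M 1).hom x) = 0)
    (hx0 : ∀ y, (D.pair M N B hB).h12 x y = 0) : x = 0 :=
  BaseInj.eq_zero_of_cover_pair L _ _ φ hφ ψ (D.adjoint M N M₁ N₁ B hB B₁ hB₁ φ ψ hφψ) hinjL x hx hx0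

/-- **Injectivity of `h₁₂` from covers**: if every class `x ∈ H¹_c(M)` has an injective
coefficient map `φ : M ⟶ M₁` killing `fst x` in `H¹(G, M₁)` (KILL lemma), with an adjoint `ψ`, such
that the pairing of `M₁` is injective on the image of the boundary map, then
`h₁₂ : H¹_c(M) → H²(G, N)ᵛ` is injective. -/
theorem ConePairingData.h12_injective_of_covers (D : ConePairingData L χ) [Nonempty L.ι]
    {M N : Rep.{u} k G} [IsDiscrete 𝒰 M] [IsDiscrete 𝒰 N] (B : M →ₗ[k] N →ₗ[k] k)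
    (hB : IsChiPairing χ B)
    (hcov : ∀ x : HlcC L M 1, ∃ (M₁ N₁ : Rep.{u} k G) (_ : IsDiscrete 𝒰 M₁) (_ : IsDiscrete 𝒰 N₁)
      (B₁ : M₁ →ₗ[k] N₁ →ₗ[k] k) (hB₁ : IsChiPairing χ B₁) (φ : M ⟶ M₁) (ψ : N₁ ⟶ N),
      Function.Injective φ.hom ∧ (∀ (m : M) (n₁ : N₁), B₁ (φ.hom m) n₁ = B m (ψ.hom n₁)) ∧
      (HlcMap 𝒰 φ 1).hom ((HlcCToH L M 1).hom x) = 0 ∧
      ∀ b, (∀ y₁, (D.pair M₁ N₁ B₁ hB₁).h12 (HlcCBdry L M₁ 0 b) y₁ = 0) →
        HlcCBdry L M₁ 0 b = 0) :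
    Function.Injective (D.pair M N B hB).h12 := by
  rw [injective_iff_map_eq_zero]
  intro x hx
  obtain ⟨M₁, N₁, _, _, B₁, hB₁, φ, ψ, hφ, hφψ, hkill, hinjL⟩ := hcov x
  exact D.eq_zero_of_cover B hB B₁ hB₁ φ hφ ψ hφψ hinjL x hkill fun y => by rw [hx]; rfl

/-- `h₁₂` is injective on the image of the boundary map `∏_v H⁰(G_v, M) → H¹_c(M)`, from (E8),
injectivity of the local `H⁰ × H²` pairing and `(b3)` in the count form
`dim ∏_v H²(G_v, N) ≤ dim im(loc²_N) + dim im(loc⁰_M)`. -/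
theorem ConeBdryData.bdry_injective {D : ConePairingData L χ} (E : ConeBdryData D)
    (M N : Rep.{u} k G) [IsDiscrete 𝒰 M] [IsDiscrete 𝒰 N] (B : M →ₗ[k] N →ₗ[k] k)
    (hB : IsChiPairing χ B)
    [FiniteDimensional k (∀ v, Hlc (L.𝒰v v) (Rep.res (L.r v) M) 0)]
    (hlam : Function.Bijective (E.lam02 M N B hB))
    (hnum : finrank k (∀ v, Hlc (L.𝒰v v) (Rep.res (L.r v) N) 2) ≤
      finrank k (LinearMap.range (locRes L N 2)) + finrank k (LinearMap.range (locRes L M 0)))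
    (b : ∀ v, Hlc (L.𝒰v v) (Rep.res (L.r v) M) 0)
    (hb : ∀ y, (D.pair M N B hB).h12 (HlcCBdry L M 0 b) y = 0) : HlcCBdry L M 0 b = 0 :=
  BaseFilt.inj12_on_range_of_b3 (locRes L M 0) (HlcCBdry L M 0) (exact_locRes_HlcCBdry L M 0)
    (locRes L N 2) (D.pair M N B hB).h12 (E.lam02 M N B hB) (E.e12 M N B hB)
    (fun b' hb' => BaseFilt.b3_ann_of_b3 (locRes L M 0) (locRes L N 2) (E.lam02 M N B hB) hlam.1
      (fun c hc => BaseFilt.b3_of_coker (locRes L M 0) (HlcCBdry L M 0)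
        (exact_locRes_HlcCBdry L M 0) (locRes L N 2) (D.pair M N B hB).h12 (E.lam02 M N B hB) hlam
        (E.e12 M N B hB) hnum c hc) b' hb') b hb

/-- **Injectivity of `h₁₂` for a permutation module** `W = Coind_H^G V` (`H` open), via helper7's
KILL lemma: it suffices that for every open `H' ≤ H` the permutation module `W' = Coind_{H'}^G V`
carries a pairing `(W', N₁, B₁)` adjoint to `(W, N, B)` along the inclusion `W ↪ W'`, which is
injective on the image of the boundary map `∏_v H⁰(G_v, W') → H¹_c(W')`. -/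
theorem ConePairingData.h12_injective_coind (D : ConePairingData L χ) [Nonempty L.ι]
    (V : Type u) [AddCommGroup V] [Module k V] {H : Subgroup G} (hH : IsOpenSub 𝒰 H)
    [IsDiscrete 𝒰 (Rep.coind H.subtype (Rep.trivial k H V))]
    {N : Rep.{u} k G} [IsDiscrete 𝒰 N]
    (B : Rep.coind H.subtype (Rep.trivial k H V) →ₗ[k] N →ₗ[k] k) (hB : IsChiPairing χ B)
    (hcov : ∀ (H' : Subgroup G) (hle : H' ≤ H), IsOpenSub 𝒰 H' →
      ∀ [IsDiscrete 𝒰 (Rep.coind H'.subtype (Rep.trivial k H' V))],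
      ∃ (N₁ : Rep.{u} k G) (_ : IsDiscrete 𝒰 N₁)
        (B₁ : Rep.coind H'.subtype (Rep.trivial k H' V) →ₗ[k] N₁ →ₗ[k] k)
        (hB₁ : IsChiPairing χ B₁) (ψ : N₁ ⟶ N),
        (∀ (m : Rep.coind H.subtype (Rep.trivial k H V)) (n₁ : N₁),
          B₁ ((Kill.coindInclTriv V hle).hom m) n₁ = B m (ψ.hom n₁)) ∧
        ∀ b, (∀ y₁, (D.pair _ N₁ B₁ hB₁).h12 (HlcCBdry L _ 0 b) y₁ = 0) →
          HlcCBdry L (Rep.coind H'.subtype (Rep.trivial k H' V)) 0 b = 0) :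
    Function.Injective (D.pair _ N B hB).h12 := by
  refine D.h12_injective_of_covers B hB fun x => ?_
  obtain ⟨H', hle, hH', hkill⟩ :=
    Kill.exists_kill_trivial 𝒰 V hH ((HlcCToH L _ 1).hom x)
  have hdisc : IsDiscrete 𝒰 (Rep.coind H'.subtype (Rep.trivial k H' V)) :=
    Kill.isDiscrete_coind_trivial 𝒰 V hH'
  obtain ⟨N₁, hN₁, B₁, hB₁, ψ, hφψ, hinjL⟩ := hcov H' hle hH'
  refine ⟨_, N₁, hdisc, hN₁, B₁, hB₁, Kill.coindInclTriv V hle, ψ,
    Kill.coindInclTriv_injective V hle, hφψ, ?_, hinjL⟩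
  exact hkill

/-- The previous theorem for the canonical triple `(W, W*, ev)`, `W = Coind_H^G k`:
`α¹_c(W) = h₁₂ : H¹_c(W) → H²(G, W*)ᵛ` is injective as soon as, for every open `H' ≤ H`, the
pairing of `(W', W'*, ev)` (`W' = Coind_{H'}^G k`) is injective on the image of the boundary map. -/
theorem ConePairingData.h12_injective_coind_ev (D : ConePairingData L χ) [Nonempty L.ι]
    (hχ : ∃ U ∈ 𝒰.sets, ∀ g ∈ U, χ g = 1) {H : Subgroup G} (hH : IsOpenSub 𝒰 H)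
    [IsDiscrete 𝒰 (Rep.coind H.subtype (Rep.trivial k H k))]
    [IsDiscrete 𝒰 ((Rep.coind H.subtype (Rep.trivial k H k)).dualTwist χ)]
    (hbdry : ∀ (H' : Subgroup G), H' ≤ H → IsOpenSub 𝒰 H' →
      ∀ [IsDiscrete 𝒰 (Rep.coind H'.subtype (Rep.trivial k H' k))]
        [IsDiscrete 𝒰 ((Rep.coind H'.subtype (Rep.trivial k H' k)).dualTwist χ)],
      ∀ b, (∀ y₁, (D.pair _ _ (evB χ (Rep.coind H'.subtype (Rep.trivial k H' k)))
          (isChiPairing_evB χ _)).h12 (HlcCBdry L _ 0 b) y₁ = 0) →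
        HlcCBdry L (Rep.coind H'.subtype (Rep.trivial k H' k)) 0 b = 0) :
    Function.Injective (D.pair _ _ (evB χ (Rep.coind H.subtype (Rep.trivial k H k)))
      (isChiPairing_evB χ _)).h12 := by
  refine D.h12_injective_coind k hH _ _ fun H' hle hH' _ => ?_
  have : H'.FiniteIndex := hH'.finiteIndex
  have : FiniteDimensional k (Rep.coind H'.subtype (Rep.trivial k H' k)) :=
    RepDevissage.finiteDimensional_coind H' (Rep.trivial k H' k)
  have hd : IsDiscrete 𝒰 ((Rep.coind H'.subtype (Rep.trivial k H' k)).dualTwist χ) :=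
    isDiscrete_dualTwist 𝒰 χ hχ _
  exact ⟨_, hd, evB χ _, isChiPairing_evB χ _, dualTwistMap χ (Kill.coindInclTriv k hle),
    fun m f => rfl, hbdry H' hle hH'⟩

end Fermat.Agent.GC.PT
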