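/-
GATE-C / C5 (helper59): BASE-TOP, INEQUALITY form.

Variant of helper74's `ConeBdryData.good_of_inputs` (GC/PT/BaseTop.lean) in which the Euler
IDENTITY `hEuler` (which needs the exact value of `h²`, i.e. both halves of Hasse–Brauer–Noether
for the field `K`) is replaced by helper50's counting INEQUALITY `(C1)`
  `dim ∏_v H¹(G_v, M) + dim Sha²(M) + dim Sha²(N) ≤ dim H¹(G, M) + dim H¹(G, N)`,
an instance of `BaseFilt.good_of_graded` + `BaseFilt.h30_injective_of_coker`.
For `M = N = μ_p` over `K ∋ μ_p` the inequality `(C1)` reads `sha²(μ_p) ≤ dim H¹(G_{K,S}, O_S^×)[p]`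
and needs only the Kummer sequence, Dirichlet's unit theorem, finiteness of `H¹(G_{K,S}, O_S^×)`, the
Hasse principle (injectivity) for `H²(G_{K,S}, O_S^×)(p)` and the local numbers `h¹_w`.
-/
import Fermat.Agent.GC.PT.BaseTop

set_option autoImplicit false

open CategoryTheory Module

noncomputable section

namespace Fermat.Agent.GC.PT

open Fermat.Agent.GC.Prof Fermat.Agent.GC.Prof.Cone Fermat.Agent.GC.PT.Triples

universe u

variable {k G : Type u} [Field k] [Group G] {𝒰 : LevelSystem G}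
variable {L : LocalData 𝒰} {χ : G →* kˣ} {D : ConePairingData L χ}

/-- **BASE-TOP, inequality form**: the two `Good` properties for `(M, N, B)` and `(N, M, B.flip)`
from the cohomological inputs, with the counting inequality `(C1)` instead of the Euler identity. -/
theorem ConeBdryData.good_of_inputs_C1 (E : ConeBdryData D) (M N : Rep.{u} k G)
    [IsDiscrete 𝒰 M] [IsDiscrete 𝒰 N] (B : M →ₗ[k] N →ₗ[k] k) (hB : IsChiPairing χ B)
    -- finiteness
    [FiniteDimensional k (∀ v, Hlc (L.𝒰v v) (Rep.res (L.r v) M) 0)]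
    [FiniteDimensional k (Hlc 𝒰 M 1)]
    [FiniteDimensional k (∀ v, Hlc (L.𝒰v v) (Rep.res (L.r v) M) 1)]
    [FiniteDimensional k (Hlc 𝒰 M 2)]
    [FiniteDimensional k (∀ v, Hlc (L.𝒰v v) (Rep.res (L.r v) M) 2)]
    [FiniteDimensional k (∀ v, Hlc (L.𝒰v v) (Rep.res (L.r v) N) 0)]
    [FiniteDimensional k (Hlc 𝒰 N 1)]
    [FiniteDimensional k (∀ v, Hlc (L.𝒰v v) (Rep.res (L.r v) N) 1)]
    [FiniteDimensional k (Hlc 𝒰 N 2)]
    [FiniteDimensional k (∀ v, Hlc (L.𝒰v v) (Rep.res (L.r v) N) 2)]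
    -- `H³ = 0`
    (h3 : Limits.IsZero (Hlc 𝒰 M 3)) (h3' : Limits.IsZero (Hlc 𝒰 N 3))
    -- `H⁰ = k`, `loc⁰` injective
    (hH0 : finrank k (Hlc 𝒰 M 0) = 1) (hr0 : Function.Injective (locRes L M 0))
    (hH0' : finrank k (Hlc 𝒰 N 0) = 1) (hr0' : Function.Injective (locRes L N 0))
    -- local perfectness
    (hlam02 : Function.Bijective (E.lam02 M N B hB))
    (hlam11 : Function.Bijective (E.lam11 M N B hB))
    (hlam20 : Function.Bijective (E.lam20 M N B hB))
    (hlam02' : Function.Bijective (E.lam02 N M B.flip hB.flip))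
    (hlam11' : Function.Bijective (E.lam11 N M B.flip hB.flip))
    (hlam20' : Function.Bijective (E.lam20 N M B.flip hB.flip))
    -- covering trick
    (hinj : Function.Injective (D.pair M N B hB).h12)
    (hinj' : Function.Injective (D.pair N M B.flip hB.flip).h12)
    -- `dim coker loc² ≤ 1`
    (hcok : finrank k (∀ v, Hlc (L.𝒰v v) (Rep.res (L.r v) M) 2) ≤
      finrank k (LinearMap.range (locRes L M 2)) + 1)
    (hcok' : finrank k (∀ v, Hlc (L.𝒰v v) (Rep.res (L.r v) N) 2) ≤
      finrank k (LinearMap.range (locRes L N 2)) + 1)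
    -- the counting inequality (C1)
    (hC1 : finrank k (∀ v, Hlc (L.𝒰v v) (Rep.res (L.r v) M) 1) +
        finrank k (LinearMap.ker (locRes L M 2)) + finrank k (LinearMap.ker (locRes L N 2)) ≤
      finrank k (Hlc 𝒰 M 1) + finrank k (Hlc 𝒰 N 1)) :
    (D.pair M N B hB).Good ∧ (D.pair N M B.flip hB.flip).Good := by
  have hflip : (D.pair M N B.flip.flip hB.flip.flip) = D.pair M N B hB := rfl
  have hrange : ∀ (X : Rep.{u} k G) [IsDiscrete 𝒰 X], finrank k (Hlc 𝒰 X 0) = 1 →
      Function.Injective (locRes L X 0) → finrank k (LinearMap.range (locRes L X 0)) = 1 := by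
    intro X _ h1 hinjX
    rw [LinearMap.finrank_range_of_inj hinjX, h1]
  have hgr := BaseFilt.good_of_graded
    (locRes L M 0) (HlcCBdry L M 0) (HlcCToH L M 1).hom (locRes L M 1)
    (HlcCBdry L M 1) (HlcCToH L M 2).hom (locRes L M 2)
    (exact_locRes_HlcCBdry L M 0) (exact_HlcCBdry_HlcCToH L M 0) (exact_HlcCToH_locRes L M 1)
    (exact_locRes_HlcCBdry L M 1) (exact_HlcCBdry_HlcCToH L M 1) (exact_HlcCToH_locRes L M 2)
    (locRes L N 0) (HlcCBdry L N 0) (HlcCToH L N 1).hom (locRes L N 1)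
    (HlcCBdry L N 1) (HlcCToH L N 2).hom (locRes L N 2)
    (exact_locRes_HlcCBdry L N 0) (exact_HlcCBdry_HlcCToH L N 0) (exact_HlcCToH_locRes L N 1)
    (exact_locRes_HlcCBdry L N 1) (exact_HlcCBdry_HlcCToH L N 1) (exact_HlcCToH_locRes L N 2)
    (D.pair M N B hB).h12 (D.pair M N B hB).h21
    (E.lam02 M N B hB) (E.lam11 M N B hB) hlam02 hlam11
    (E.e12 M N B hB) (E.e21 M N B hB)
    (D.pair N M B.flip hB.flip).h12 (D.pair N M B.flip hB.flip).h21
    (E.lam02 N M B.flip hB.flip) (E.lam11 N M B.flip hB.flip) hlam02' hlam11'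
    (E.e12 N M B.flip hB.flip) (E.e21 N M B.flip hB.flip)
    hinj hinj'
    D.s D.s_ne (fun x x' => D.swap M N B hB x x')
    D.s D.s_ne (fun x x' => by
      have h := D.swap N M B.flip hB.flip x x'
      rw [hflip] at h
      exact h)
    hC1
  have h30 : Function.Injective (D.pair M N B hB).h30 :=
    BaseFilt.h30_injective_of_coker (locRes L M 2) (HlcCBdry L M 2)
      (exact_locRes_HlcCBdry L M 2) (surjective_HlcCBdry_two M h3) (locRes L N 0)
      (D.pair M N B hB).h30 (E.lam20 M N B hB) hlam20 (E.e30 M N B hB)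
      (by rw [hrange N hH0' hr0']; exact hcok)
  have h30' : Function.Injective (D.pair N M B.flip hB.flip).h30 :=
    BaseFilt.h30_injective_of_coker (locRes L N 2) (HlcCBdry L N 2)
      (exact_locRes_HlcCBdry L N 2) (surjective_HlcCBdry_two N h3') (locRes L M 0)
      (D.pair N M B.flip hB.flip).h30 (E.lam20 N M B.flip hB.flip) hlam20'
      (E.e30 N M B.flip hB.flip)
      (by rw [hrange M hH0 hr0]; exact hcok')
  exact ⟨⟨hgr.1.1, hgr.1.2, h30⟩, ⟨hgr.2.1, hgr.2.2, h30'⟩⟩

end Fermat.Agent.GC.PT
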