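/-
GATE-C / C5 (helper74): BASE-FINAL.

`base_of_inputs`: if for every open subgroup `H` with `χ|_H = 1` the permutation module
`W_H = coind_H^G(1)` comes with a symmetric `χ`-pairing `B_H : W_H × W_H → k` identifying `W_H`
with its twisted dual, and the cohomological inputs `BaseInputs` hold (finiteness, `H³ = 0`,
`H⁰ = k ↪ ∏_v H⁰`, local perfectness, `dim coker loc² ≤ 1`, the counting inequality (C1)),
then the duality property `D.Pr W_H` holds for every such `H`.  This is hypothesis `base` of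
`ConePairingData.sha_duality` (`Main.lean`).
-/
import Fermat.Agent.GC.PT.BaseTopC1
import Fermat.Agent.GC.PT.BaseInj

set_option autoImplicit false

open CategoryTheory Module

noncomputable section

namespace Fermat.Agent.GC.PT

open Fermat.Agent.GC.Prof Fermat.Agent.GC.Prof.Cone Fermat.Agent.GC.PT.Triples

universe u

variable {k G : Type u} [Field k] [Group G] {𝒰 : LevelSystem G}
variable {L : LocalData 𝒰} {χ : G →* kˣ} {D : ConePairingData L χ}

/-- The cohomological inputs of BASE for one coefficient module `W` (intended: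
`W = coind_H^G(1)`), in the symmetric form `(W, W, B)`. -/
structure BaseInputs (E : ConeBdryData D) (W : Rep.{u} k G) [IsDiscrete 𝒰 W] : Type u where
  /-- the symmetric `χ`-pairing on `W` -/
  B : W →ₗ[k] W →ₗ[k] k
  hB : IsChiPairing χ B
  symm : B.flip = B
  /-- `B` identifies `W` with its twisted dual -/
  ψ : W ≅ W.dualTwist χ
  hψ : ∀ (m n : W), evB χ W m (ψ.hom.hom n) = B m n
  fin_H1 : FiniteDimensional k (Hlc 𝒰 W 1)
  fin_L1 : FiniteDimensional k (∀ v, Hlc (L.𝒰v v) (Rep.res (L.r v) W) 1)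
  fin_H2 : FiniteDimensional k (Hlc 𝒰 W 2)
  fin_L2 : FiniteDimensional k (∀ v, Hlc (L.𝒰v v) (Rep.res (L.r v) W) 2)
  h3 : Limits.IsZero (Hlc 𝒰 W 3)
  hH0 : finrank k (Hlc 𝒰 W 0) = 1
  hr0 : Function.Injective (locRes L W 0)
  hlam02 : Function.Bijective (E.lam02 W W B hB)
  hlam11 : Function.Bijective (E.lam11 W W B hB)
  hlam20 : Function.Bijective (E.lam20 W W B hB)
  hcok : finrank k (∀ v, Hlc (L.𝒰v v) (Rep.res (L.r v) W) 2) ≤
    finrank k (LinearMap.range (locRes L W 2)) + 1
  hC1 : finrank k (∀ v, Hlc (L.𝒰v v) (Rep.res (L.r v) W) 1) +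
      2 * finrank k (LinearMap.ker (locRes L W 2)) ≤ 2 * finrank k (Hlc 𝒰 W 1)

namespace BaseInputs

variable {E : ConeBdryData D} {W : Rep.{u} k G} [IsDiscrete 𝒰 W]

/-- `∏_v H⁰(G_v, W)` is finite-dimensional for finite-dimensional `W`. -/
theorem finiteDimensional_L0 [Finite L.ι] (W : Rep.{u} k G) [IsDiscrete 𝒰 W]
    [FiniteDimensional k W] :
    FiniteDimensional k (∀ v, Hlc (L.𝒰v v) (Rep.res (L.r v) W) 0) := by
  have fv : ∀ v, FiniteDimensional k (Hlc (L.𝒰v v) (Rep.res (L.r v) W) 0) :=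
    fun v => @finiteDimensional_Hlc_zero k _ (L.Gv v) _ (L.𝒰v v) (Rep.res (L.r v) W)
      (inferInstanceAs (FiniteDimensional k W)) (L.isDiscrete_res v W)
  have : Fintype L.ι := Fintype.ofFinite L.ι
  exact Module.Finite.pi

/-- The adjunction between the canonical triple `(W, W*, ev)` and the symmetric triple
`(W, W, B)` along `(𝟙, ψ)`. -/
theorem h12_symm_eq [IsDiscrete 𝒰 (W.dualTwist χ)] (I : BaseInputs E W) (x : HlcC L W 1)
    (y : Hlc 𝒰 W 2) :
    (D.pair W W I.B I.hB).h12 x y =
      (D.pair W (W.dualTwist χ) (evB χ W) (isChiPairing_evB χ W)).h12 x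
        ((HlcMap 𝒰 I.ψ.hom 2).hom y) := by
  have adj := D.adjoint W (W.dualTwist χ) W W (evB χ W) (isChiPairing_evB χ W) I.B I.hB (𝟙 W)
    I.ψ.hom (fun m n => by simpa using (I.hψ m n).symm)
  have h := adj.h12 x y
  rw [coneCMap_id, HomologicalComplex.homologyMap_id] at h
  exact h

/-- The boundary-injectivity statement for the canonical triple `(W, W*, ev)`. -/
theorem bdry_injective_ev [Finite L.ι] [IsDiscrete 𝒰 (W.dualTwist χ)] [FiniteDimensional k W]
    (I : BaseInputs E W) (b : ∀ v, Hlc (L.𝒰v v) (Rep.res (L.r v) W) 0)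
    (hb : ∀ y₁, (D.pair W (W.dualTwist χ) (evB χ W) (isChiPairing_evB χ W)).h12
      (HlcCBdry L W 0 b) y₁ = 0) : HlcCBdry L W 0 b = 0 := by
  have := finiteDimensional_L0 (L := L) W
  have hrange : finrank k (LinearMap.range (locRes L W 0)) = 1 := by
    rw [LinearMap.finrank_range_of_inj I.hr0, I.hH0]
  refine E.bdry_injective W W I.B I.hB I.hlam02 ?_ b (fun y => ?_)
  · rw [hrange]
    exact I.hcok
  · rw [I.h12_symm_eq]
    exact hb _

/-- Injectivity of `h₁₂` passes from the canonical triple to the symmetric one. -/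
theorem injective_h12 [IsDiscrete 𝒰 (W.dualTwist χ)] (I : BaseInputs E W)
    (hev : Function.Injective
      (D.pair W (W.dualTwist χ) (evB χ W) (isChiPairing_evB χ W)).h12) :
    Function.Injective (D.pair W W I.B I.hB).h12 := by
  rw [injective_iff_map_eq_zero]
  intro x hx
  apply (injective_iff_map_eq_zero _).1 hev
  refine LinearMap.ext fun y' => ?_
  have hH : (HlcMap 𝒰 I.ψ.hom 2).hom ((HlcMap 𝒰 I.ψ.inv 2).hom y') = y' := by
    have h := congr($(HlcMap_comp 𝒰 I.ψ.inv I.ψ.hom 2) y')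
    rw [Iso.inv_hom_id, HlcMap_id] at h
    simpa using h.symm
  rw [← hH, ← I.h12_symm_eq, hx]
  rfl

/-- `D.Pr W` from the inputs and the injectivity of `h₁₂` for the canonical triple. -/
theorem pr_of_injective_ev [Finite L.ι] [IsDiscrete 𝒰 (W.dualTwist χ)] [FiniteDimensional k W]
    (I : BaseInputs E W)
    (hev : Function.Injective
      (D.pair W (W.dualTwist χ) (evB χ W) (isChiPairing_evB χ W)).h12) : D.Pr W := by
  have := finiteDimensional_L0 (L := L) W
  have := I.fin_H1
  have := I.fin_L1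
  have := I.fin_H2
  have := I.fin_L2
  have key : ∀ (B' : W →ₗ[k] W →ₗ[k] k) (hB' : IsChiPairing χ B'), B' = I.B →
      Function.Bijective (E.lam02 W W B' hB') ∧ Function.Bijective (E.lam11 W W B' hB') ∧
        Function.Bijective (E.lam20 W W B' hB') ∧
        Function.Injective (D.pair W W B' hB').h12 := by
    rintro B' hB' rfl
    exact ⟨I.hlam02, I.hlam11, I.hlam20, I.injective_h12 hev⟩
  obtain ⟨f02, f11, f20, finj⟩ := key I.B.flip I.hB.flip I.symm
  have hC1 := I.hC1
  have good := E.good_of_inputs_C1 W W I.B I.hB I.h3 I.h3 I.hH0 I.hr0 I.hH0 I.hr0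
    I.hlam02 I.hlam11 I.hlam20 f02 f11 f20 (I.injective_h12 hev) finj I.hcok I.hcok (by omega)
  exact D.pr_of_good_iso W W I.B I.hB I.ψ I.hψ good.1 I.fin_H1 I.h3

end BaseInputs

/-- **BASE** (hypothesis form): the duality property for all permutation modules
`coind_H^G(1)`, `H` open with `χ|_H = 1`, from the cohomological inputs at every such `H`. -/
theorem ConeBdryData.base_of_inputs (E : ConeBdryData D)
    (hχ : ∃ U ∈ 𝒰.sets, ∀ g ∈ U, χ g = 1) [Finite L.ι] [Nonempty L.ι]
    (inputs : ∀ (H : Subgroup G), IsOpenSub 𝒰 H → (∀ g ∈ H, χ g = 1) →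
      ∀ [IsDiscrete 𝒰 (Rep.coind H.subtype (Rep.trivial k H k))],
        BaseInputs E (Rep.coind H.subtype (Rep.trivial k H k)))
    (H : Subgroup G) (hH : ∃ V ∈ 𝒰.sets, V ≤ H) (hχH : ∀ g ∈ H, χ g = 1) :
    D.Pr (Rep.coind H.subtype (Rep.trivial k H k)) := by
  intro hd hdd
  have hfin : ∀ (H' : Subgroup G), IsOpenSub 𝒰 H' →
      FiniteDimensional k (Rep.coind H'.subtype (Rep.trivial k H' k)) := by
    intro H' hH'
    have : H'.FiniteIndex := hH'.finiteIndex
    exact RepDevissage.finiteDimensional_coind H' (Rep.trivial k H' k)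
  have := hfin H hH
  have hev := D.h12_injective_coind_ev hχ hH (fun H' hle hH' _ _ b hb => by
    have := hfin H' hH'
    exact (inputs H' hH' (fun g hg => hχH g (hle hg))).bdry_injective_ev b hb)
  exact (inputs H hH hχH).pr_of_injective_ev hev hd hdd

end Fermat.Agent.GC.PT
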