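/-
GATE-C / C5 (helper74): MAIN-FINAL — everything of C5 in one statement.

For a group `G` with level system `𝒰`, local data `L` (finitely many places, at least one), a
character `χ` trivial on a level, `k` of characteristic `p`:

* a "reciprocity" functional `τ` on `∏_v Hlc²(G_v, k(χ))` killing the image of `Hlc²(G, k(χ))`,
* the SWAP symmetry (E7) of the cup/trace pairing on the compact-support cone,
* the cohomological inputs `BaseInputs` for the permutation modules `coind_H^G(1)`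
  (`H` open, `χ|_H = 1`), the local pairings being `(b, c) ↦ τ ((b_v ∪ c_v)_v)`,

imply, for every finite-dimensional discrete `M`: `Sha²(M)` and `Sha¹(M*)` are finite-dimensional
of the same dimension.
-/
import Fermat.Agent.GC.PT.MainInst
import Fermat.Agent.GC.PT.BaseFinal

set_option autoImplicit false

open CategoryTheory Module

noncomputable section

namespace Fermat.Agent.GC.PT.MainInst

open Fermat.Agent.GC.Prof Fermat.Agent.GC.Prof.Elt Fermat.Agent.GC.Prof.Cone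
open Fermat.Agent.GC.PT.Triples Fermat.Agent.GC.PT.ConeE8
open Fermat.Agent.GC.Prof.Cup (Equivariant)

universe u

variable {k G : Type u} [Field k] [Group G] {𝒰 : LevelSystem G}
variable {L : LocalData 𝒰} {χ : G →* kˣ} [IsDiscrete 𝒰 (chiRep χ)]

/-- The SWAP symmetry (E7) of the cone pairing, for all traces: the only cochain-level input of
C5 that is not proved in this directory tree yet. -/
def SwapHyp (L : LocalData 𝒰) (χ : G →* kˣ) [IsDiscrete 𝒰 (chiRep χ)] : Prop :=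
  ∀ (tr : (coneC L (chiRep χ)).X 3 →ₗ[k] k)
    (htr : ∀ e : (coneC L (chiRep χ)).X 2, tr (((coneC L (chiRep χ)).d 2 3).hom e) = 0)
    (M N : Rep.{u} k G) [IsDiscrete 𝒰 M] [IsDiscrete 𝒰 N]
    (B : M →ₗ[k] N →ₗ[k] chiRep χ) (hB : Equivariant M.ρ N.ρ (chiRep χ).ρ B)
    (hBf : Equivariant N.ρ M.ρ (chiRep χ).ρ B.flip) (x : HlcC L M 2) (x' : HlcC L N 1),
    (cPairing L hB htr).h21 x ((HlcCToH L N 1).hom x') =
      (cPairing L hBf htr).h12 x' ((HlcCToH L M 2).hom x)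

/-- (E6) is proved (helper50, `BaseInj.adjoint_coneCMap`), so `CupFacts` reduces to SWAP. -/
theorem cupFacts_of_swap (hswap : SwapHyp L χ)
    (tr : (coneC L (chiRep χ)).X 3 →ₗ[k] k)
    (htr : ∀ e : (coneC L (chiRep χ)).X 2, tr (((coneC L (chiRep χ)).d 2 3).hom e) = 0) :
    CupFacts L χ htr where
  adjoint _ _ _ _ _ _ _ _ _ hB _ hB₁ φ ψ h := BaseInj.adjoint_coneCMap L hB hB₁ φ ψ tr htr h
  swap M N _ _ B hB hBf x x' := hswap tr htr M N B hB hBf x x'

/-- The shape of the local pairings of the data produced from `τ`. -/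
def LamFormulas (τ : (∀ v, Hlc (L.𝒰v v) (Rep.res (L.r v) (chiRep χ)) 2) →ₗ[k] k)
    {D : ConePairingData L χ} (E : ConeBdryData D) : Prop :=
  (∀ (M N : Rep.{u} k G) [IsDiscrete 𝒰 M] [IsDiscrete 𝒰 N] (B : M →ₗ[k] N →ₗ[k] k)
      (hB : IsChiPairing χ B) (b : ∀ v, Hlc (L.𝒰v v) (Rep.res (L.r v) M) 0)
      (c : ∀ v, Hlc (L.𝒰v v) (Rep.res (L.r v) N) 2),
      E.lam02 M N B hB b c = τ fun v => HlcCup (L.𝒰v v) (locB L (toChi χ B) v)
        (equivariant_locB L (equivariant_toChi hB) v) (show 0 + 2 = 2 from rfl) (b v) (c v)) ∧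
    (∀ (M N : Rep.{u} k G) [IsDiscrete 𝒰 M] [IsDiscrete 𝒰 N] (B : M →ₗ[k] N →ₗ[k] k)
      (hB : IsChiPairing χ B) (b : ∀ v, Hlc (L.𝒰v v) (Rep.res (L.r v) M) 1)
      (c : ∀ v, Hlc (L.𝒰v v) (Rep.res (L.r v) N) 1),
      E.lam11 M N B hB b c = τ fun v => HlcCup (L.𝒰v v) (locB L (toChi χ B) v)
        (equivariant_locB L (equivariant_toChi hB) v) (show 1 + 1 = 2 from rfl) (b v) (c v)) ∧
    (∀ (M N : Rep.{u} k G) [IsDiscrete 𝒰 M] [IsDiscrete 𝒰 N] (B : M →ₗ[k] N →ₗ[k] k)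
      (hB : IsChiPairing χ B) (b : ∀ v, Hlc (L.𝒰v v) (Rep.res (L.r v) M) 2)
      (c : ∀ v, Hlc (L.𝒰v v) (Rep.res (L.r v) N) 0),
      E.lam20 M N B hB b c = τ fun v => HlcCup (L.𝒰v v) (locB L (toChi χ B) v)
        (equivariant_locB L (equivariant_toChi hB) v) (show 2 + 0 = 2 from rfl) (b v) (c v))

/-- **C5, final form.** -/
theorem sha_duality_of_inputs (hχ : ∃ U ∈ 𝒰.sets, ∀ g ∈ U, χ g = 1)
    [Finite L.ι] [Nonempty L.ι] (p : ℕ) [Fact p.Prime] [CharP k p]
    (hswap : SwapHyp L χ)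
    (τ : (∀ v, Hlc (L.𝒰v v) (Rep.res (L.r v) (chiRep χ)) 2) →ₗ[k] k)
    (hτ : ∀ x : Hlc 𝒰 (chiRep χ) 2, τ (locRes L (chiRep χ) 2 x) = 0)
    (inputs : ∀ (D : ConePairingData L χ) (E : ConeBdryData D), LamFormulas τ E →
      ∀ (H : Subgroup G), IsOpenSub 𝒰 H → (∀ g ∈ H, χ g = 1) →
        ∀ [IsDiscrete 𝒰 (Rep.coind H.subtype (Rep.trivial k H k))],
          BaseInputs E (Rep.coind H.subtype (Rep.trivial k H k)))
    (M : Rep.{u} k G) [FiniteDimensional k M] [IsDiscrete 𝒰 M]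
    [IsDiscrete 𝒰 (M.dualTwist χ)] :
    FiniteDimensional k (LinearMap.ker (locRes L M 2)) ∧
      FiniteDimensional k (LinearMap.ker (locRes L (M.dualTwist χ) 1)) ∧
      finrank k (LinearMap.ker (locRes L M 2)) =
        finrank k (LinearMap.ker (locRes L (M.dualTwist χ) 1)) := by
  obtain ⟨D, E, h02, h11, h20⟩ := exists_data τ hτ (cupFacts_of_swap hswap)
  exact D.sha_duality hχ p
    (E.base_of_inputs hχ (inputs D E ⟨h02, h11, h20⟩)) M

end Fermat.Agent.GC.PT.MainInst
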