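import Fermat.Agent.GC.Prof.Cup

/-!
# GATE-C / C5 (E7) SWAP — cochain-level core

Plain-function identities replacing graded commutativity of the cup product in the one place the
Poitou–Tate devissage needs it (pairing `H²_c(M) × H¹(N)` against `H¹_c(N) × H²(M)`).

For an equivariant pairing `B : M × N → P`, a 2-cocycle `a : G × G → M` and a 1-cocycle
`a' : G → N`, put `T (g, h) = B (a (g, h)) (a' (g h))`.  Then

* `swap_global` : `a ∪ a' - a' ∪ a = d T` (cups `cup21 B` and `cup12 B.flip`);
* `swap_local` : for `β : G → M`, `n : N`, `z = dβ`, `α' = dn`: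
  `β ∪ α' - n ∪ z = T - d (β ∪ n)` with `T (g, h) = B (z (g, h)) (α' (g h))`.

In the cone convention `d (a, b) = (da, res a - db)` this says
`(a ∪ a' - a' ∪ a, (b_v ∪ res a' - b'_v ∪ res a)_v) = d (T, (b_v ∪ b'_v)_v)`.
-/

namespace Fermat.Agent.GC.PT.SwapCore

open Fermat.Agent.GC.Prof.Cup

variable {k G M N P : Type*} [CommRing k] [Group G]
  [AddCommGroup M] [Module k M] [AddCommGroup N] [Module k N] [AddCommGroup P] [Module k P]
  {ρM : Representation k G M} {ρN : Representation k G N} {ρP : Representation k G P}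
  {B : M →ₗ[k] N →ₗ[k] P}

/-- The swapping 2-cochain `T (g, h) = B (a (g, h)) (a' (g h))`. -/
def swapT (B : M →ₗ[k] N →ₗ[k] P) (a : G × G → M) (a' : G → N) : G × G → P :=
  fun p => B (a p) (a' (p.1 * p.2))

@[simp] lemma swapT_apply (a : G × G → M) (a' : G → N) (g h : G) :
    swapT B a a' (g, h) = B (a (g, h)) (a' (g * h)) := rfl

/-- `B.flip` is equivariant when `B` is. -/
lemma equivariant_flip (hB : Equivariant ρM ρN ρP B) : Equivariant ρN ρM ρP B.flip :=
  fun g n m => by simpa using hB g m n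

/-- **SWAP, global part.** For a 2-cocycle `a` and a 1-cocycle `a'`:
`a ∪ a' - a' ∪ a = d T`. -/
theorem swap_global (hB : Equivariant ρM ρN ρP B) {a : G × G → M} {a' : G → N}
    (ha : d2 ρM a = 0) (ha' : d1 ρN a' = 0) :
    cup21 B ρN a a' - cup12 B.flip ρM a' a = d2 ρP (swapT B a a') := by
  funext ⟨g, h, j⟩
  have h1 := congr_fun ha (g, h, j)
  have h2 := congr_fun ha' (g, h * j)
  have h3 := congr_fun ha' (g * h, j)
  simp only [d2_apply, d1_apply, Pi.zero_apply] at h1 h2 h3
  -- `g a'(hj) = a'(ghj) - a'(g)`, `gh a'(j) = a'(ghj) - a'(gh)`,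
  -- `g a(h,j) = a(gh,j) - a(g,hj) + a(g,h)`
  have e2 : ρN g (a' (h * j)) = a' (g * (h * j)) - a' g := by
    linear_combination (norm := abel) h2
  have e3 : ρN (g * h) (a' j) = a' (g * h * j) - a' (g * h) := by
    linear_combination (norm := abel) h3
  have e1 : ρM g (a (h, j)) = a (g * h, j) - a (g, h * j) + a (g, h) := by
    linear_combination (norm := abel) h1
  simp only [Pi.sub_apply, cup21_apply, cup12_apply, LinearMap.flip_apply, d2_apply, swapT_apply,
    ← hB g (a (h, j)) (a' (h * j)), e2, e3, e1, mul_assoc, map_sub, map_add, LinearMap.sub_apply,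
    LinearMap.add_apply]
  abel

/-- **SWAP, local part.** For `β : G → M` and `n : N`, with `z = dβ`, `α' = dn`:
`β ∪ α' - n ∪ z = T - d (β ∪ n)`, `T (g, h) = B (z (g, h)) (α' (g h))`. -/
theorem swap_local (hB : Equivariant ρM ρN ρP B) (β : G → M) (n : N) :
    cup11 B ρN β (d0 ρN n) - cup02 B.flip n (d1 ρM β) =
      swapT B (d1 ρM β) (d0 ρN n) - d1 ρP (cup10 B ρN β n) := by
  funext ⟨g, h⟩
  simp only [Pi.sub_apply, cup11_apply, cup02_apply, LinearMap.flip_apply, d0_apply, d1_apply,
    swapT_apply, cup10_apply, ← hB g (β h) (ρN h n), map_sub, map_add, map_mul,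
    Module.End.mul_apply, LinearMap.sub_apply, LinearMap.add_apply]
  abel

/-- The local identity in the form "difference = `res T - d c`" used for the cone differential
`d (T, c) = (dT, res T - dc)` with `c = β ∪ n`. -/
theorem swap_local' (hB : Equivariant ρM ρN ρP B) (β : G → M) (n : N) {z : G × G → M}
    {α' : G → N} (hz : z = d1 ρM β) (hα : α' = d0 ρN n) :
    cup11 B ρN β α' - cup02 B.flip n z = swapT B z α' - d1 ρP (cup10 B ρN β n) := by
  subst hz hα
  exact swap_local hB β n

end Fermat.Agent.GC.PT.SwapCore
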