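import Fermat.Agent.GC.Prof.ConeCupLC
import Fermat.Agent.GC.Prof.LowMap
import Fermat.Agent.GC.PT.PairingOfCup
import Fermat.Agent.GC.PT.SwapCore

/-!
# GATE-C / C5 (E5), (E6), (E7): the pairing on the compact-support complex (helper1)

For a level system `𝒰` on `G`, local data `L : LocalData 𝒰`, discrete representations `M N P`
and an equivariant pairing `B : M × N → P`:

* `conePairing L hB tr htr : CPairing (coneC L M) (lcCochains 𝒰 N)` (E5):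
  `pᵢⱼ (x, y) = tr (x ∪ y)` for helper10's `coneCCupData` and a trace `tr` on `(coneC L P)³`
  killing coboundaries;
* `conePairing_adjoint` (E6): naturality in `(M, N)` for adjoint coefficient maps;
* `conePairing_swap` (E7): the pairings `H²_c(M) × H¹(N)` and `H¹_c(N) × H²(M)` (the latter built
  from `B.flip`) agree after forgetting supports.
-/

set_option autoImplicit false

open CategoryTheory groupCohomology

noncomputable section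

namespace Fermat.Agent.GC.PT.ConePairing

open Fermat.Agent.GC.Prof Fermat.Agent.GC.Prof.Cone Fermat.Agent.GC.Prof.CupAbs
open Fermat.Agent.GC.Prof.Cup (Equivariant)
open Fermat.Agent.GC.PT

universe u

variable {k G : Type u} [Field k] [Group G] {𝒰 : LevelSystem G} (L : LocalData 𝒰)

/-! ### (E5) the pairing -/

section Def

variable {M N P : Rep.{u} k G} [IsDiscrete 𝒰 M] [IsDiscrete 𝒰 N] [IsDiscrete 𝒰 P]
  {B : M →ₗ[k] N →ₗ[k] P}

/-- **(E5)** The pairing `C_c(M) × C(N) → k`, `(x, y) ↦ tr (x ∪ y)`. -/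
def conePairing (hB : Equivariant M.ρ N.ρ P.ρ B) (tr : (coneC L P).X 3 →ₗ[k] k)
    (htr : ∀ e : (coneC L P).X 2, tr (((coneC L P).d 2 3).hom e) = 0) :
    CPairing (coneC L M) (lcCochains 𝒰 N) :=
  CPairing.ofCup (coneCCupData L hB) tr htr

lemma conePairing_p12 (hB : Equivariant M.ρ N.ρ P.ρ B) (tr : (coneC L P).X 3 →ₗ[k] k) (htr)
    (x : (coneC L M).X 1) (y : (lcCochains 𝒰 N).X 2) :
    (conePairing L hB tr htr).p12 x y = tr ((coneCCupData L hB).cup 1 2 3 rfl x y) := rfl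

lemma conePairing_p21 (hB : Equivariant M.ρ N.ρ P.ρ B) (tr : (coneC L P).X 3 →ₗ[k] k) (htr)
    (x : (coneC L M).X 2) (y : (lcCochains 𝒰 N).X 1) :
    (conePairing L hB tr htr).p21 x y = tr ((coneCCupData L hB).cup 2 1 3 rfl x y) := rfl

lemma conePairing_p30 (hB : Equivariant M.ρ N.ρ P.ρ B) (tr : (coneC L P).X 3 →ₗ[k] k) (htr)
    (x : (coneC L M).X 3) (y : (lcCochains 𝒰 N).X 0) :
    (conePairing L hB tr htr).p30 x y = tr ((coneCCupData L hB).cup 3 0 3 rfl x y) := rfl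

end Def

/-! ### (E6) naturality -/

section Adjoint

variable {M M₁ N N₁ P : Rep.{u} k G} [IsDiscrete 𝒰 M] [IsDiscrete 𝒰 M₁] [IsDiscrete 𝒰 N]
  [IsDiscrete 𝒰 N₁] [IsDiscrete 𝒰 P]
  {B : M →ₗ[k] N →ₗ[k] P} {B₁ : M₁ →ₗ[k] N₁ →ₗ[k] P}

omit [IsDiscrete 𝒰 M] [IsDiscrete 𝒰 M₁] [IsDiscrete 𝒰 P] in
/-- cochain-level adjunction for `lcCup`, global. -/
lemma lcCup_adjoint (φ : M ⟶ M₁) (ψ : N₁ ⟶ N)
    (h : ∀ m n₁, B₁ (φ.hom m) n₁ = B m (ψ.hom n₁)) {i j n : ℕ} (hn : i + j = n)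
    (a : lcSub 𝒰 M i) (b : lcSub 𝒰 N₁ j) :
    lcCup 𝒰 B₁ hn (lcMapLin 𝒰 φ i a) b = lcCup 𝒰 B hn a (lcMapLin 𝒰 ψ j b) := by
  apply Subtype.ext
  funext g
  simp only [lcMapLin_coe, lcCup_coe, CupN.cupC, CupN.cupF, h, Rep.hom_comm_apply]

/-- The cochain-level adjunction for the cup product on the compact-support complex. -/
theorem coneCCupData_adjoint (hB : Equivariant M.ρ N.ρ P.ρ B)
    (hB₁ : Equivariant M₁.ρ N₁.ρ P.ρ B₁) (φ : M ⟶ M₁) (ψ : N₁ ⟶ N)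
    (h : ∀ m n₁, B₁ (φ.hom m) n₁ = B m (ψ.hom n₁)) (i j n : ℕ) (hn : i + j = n)
    (x : (coneC L M).X i) (y : (lcCochains 𝒰 N₁).X j) :
    (coneCCupData L hB₁).cup i j n hn (((coneCMap L φ).f i).hom x) y =
      (coneCCupData L hB).cup i j n hn x (((lcMap 𝒰 ψ).f j).hom y) := by
  apply (coneXEquiv (resTot L P) n).injective
  show coneCupLin (lcCupData 𝒰 B₁ hB₁) (locCupData L hB₁) (resTot L N₁) i j n hn
      (coneMapLin (lcMap 𝒰 φ) (piMap (locMap L φ)) i (coneXEquiv (resTot L M) i x)) y =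
    coneCupLin (lcCupData 𝒰 B hB) (locCupData L hB) (resTot L N) i j n hn
      (coneXEquiv (resTot L M) i x) (((lcMap 𝒰 ψ).f j).hom y)
  generalize coneXEquiv (resTot L M) i x = z
  obtain ⟨a, b⟩ := z
  rw [coneMapLin_apply, coneCupLin_apply, coneCupLin_apply]
  refine Prod.ext ?_ ?_
  · exact lcCup_adjoint φ ψ h hn a y
  · cases i with
    | zero => rw [shCup_zero, shCup_zero]
    | succ i' =>
      cases n with
      | zero => omega
      | succ n' =>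
        change (piComplex (locC L M)).X i' at b
        show (locCupData L hB₁).cup i' j n' (by omega) ((piMap (locMap L φ)).f i' b)
            ((resTot L N₁).f j y) =
          (locCupData L hB).cup i' j n' (by omega) b ((resTot L N).f j ((lcMap 𝒰 ψ).f j y))
        apply (piXEquiv (locC L P) n').injective
        funext v
        show lcCup (L.𝒰v v) (locB L B₁ v) (by omega)
            (lcMapLin (L.𝒰v v) ((Rep.resFunctor (L.r v)).map φ) i' (piXEquiv (locC L M) i' b v))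
            (lcPullLin (L.cont v) (𝟙 (Rep.res (L.r v) N₁)) j y) =
          lcCup (L.𝒰v v) (locB L B v) (by omega) (piXEquiv (locC L M) i' b v)
            (lcPullLin (L.cont v) (𝟙 (Rep.res (L.r v) N)) j (lcMapLin 𝒰 ψ j y))
        apply Subtype.ext
        funext g
        generalize piXEquiv (locC L M) i' b v = bv
        show B₁ (φ.hom (bv.1 (CupN.seg (CupN.ext (g ∘ Fin.cast _)) 0 i')))
            (N₁.ρ (L.r v (CupN.pr (CupN.ext (g ∘ Fin.cast _)) 0 i'))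
              (y.1 (L.r v ∘ CupN.seg (CupN.ext (g ∘ Fin.cast _)) i' j))) =
          B (bv.1 (CupN.seg (CupN.ext (g ∘ Fin.cast _)) 0 i'))
            (N.ρ (L.r v (CupN.pr (CupN.ext (g ∘ Fin.cast _)) 0 i'))
              (ψ.hom (y.1 (L.r v ∘ CupN.seg (CupN.ext (g ∘ Fin.cast _)) i' j))))
        rw [h, Rep.hom_comm_apply]

/-- **(E6)** Naturality of `conePairing` in the coefficients: for `φ : M ⟶ M₁`, `ψ : N₁ ⟶ N` with
`B₁ (φ m) n₁ = B m (ψ n₁)`, the pair `(coneCMap L φ, lcMap 𝒰 ψ)` is adjoint. -/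
theorem conePairing_adjoint (hB : Equivariant M.ρ N.ρ P.ρ B)
    (hB₁ : Equivariant M₁.ρ N₁.ρ P.ρ B₁) (tr : (coneC L P).X 3 →ₗ[k] k)
    (htr : ∀ e : (coneC L P).X 2, tr (((coneC L P).d 2 3).hom e) = 0)
    (φ : M ⟶ M₁) (ψ : N₁ ⟶ N) (h : ∀ m n₁, B₁ (φ.hom m) n₁ = B m (ψ.hom n₁)) :
    Adjoint (conePairing L hB tr htr) (conePairing L hB₁ tr htr) (coneCMap L φ) (lcMap 𝒰 ψ) :=
  Adjoint.ofCup (coneCCupData L hB) (coneCCupData L hB₁) tr htr (coneCMap L φ) (lcMap 𝒰 ψ)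
    (coneCCupData_adjoint L hB hB₁ φ ψ h)

end Adjoint

/-! ### (E7) SWAP -/

/-! #### low-degree evaluation of the `Fin`-shaped cup product -/

section Eval

variable {k G M N P : Type*} [CommRing k] [Group G]
  [AddCommGroup M] [Module k M] [AddCommGroup N] [Module k N] [AddCommGroup P] [Module k P]
  (B : M →ₗ[k] N →ₗ[k] P) (ρN : Representation k G N)

lemma cupC21_apply (h : 2 + 1 = 3) (a : (Fin 2 → G) → M) (b : (Fin 1 → G) → N) (g0 g1 g2 : G) :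
    CupN.cupC B ρN h a b ![g0, g1, g2] = B (a ![g0, g1]) (ρN (g0 * g1) (b fun _ => g2)) := by
  have h1 : CupN.seg (CupN.ext (![g0, g1, g2] ∘ Fin.cast h)) 0 2 = ![g0, g1] := by
    funext t; fin_cases t <;> simp [CupN.seg, CupN.ext]
  have h2 : CupN.seg (CupN.ext (![g0, g1, g2] ∘ Fin.cast h)) 2 1 = fun _ => g2 := by
    funext t; fin_cases t; simp [CupN.seg, CupN.ext]
  have h3 : CupN.pr (CupN.ext (![g0, g1, g2] ∘ Fin.cast h)) 0 2 = g0 * g1 := by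
    simp [CupN.pr, CupN.ext]
  rw [CupN.cupC_apply]
  unfold CupN.cupF
  rw [h1, h2, h3]

lemma cupC12_apply (h : 1 + 2 = 3) (a : (Fin 1 → G) → M) (b : (Fin 2 → G) → N) (g0 g1 g2 : G) :
    CupN.cupC B ρN h a b ![g0, g1, g2] = B (a fun _ => g0) (ρN g0 (b ![g1, g2])) := by
  have h1 : CupN.seg (CupN.ext (![g0, g1, g2] ∘ Fin.cast h)) 0 1 = fun _ => g0 := by
    funext t; fin_cases t; simp [CupN.seg, CupN.ext]
  have h2 : CupN.seg (CupN.ext (![g0, g1, g2] ∘ Fin.cast h)) 1 2 = ![g1, g2] := by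
    funext t; fin_cases t <;> simp [CupN.seg, CupN.ext]
  have h3 : CupN.pr (CupN.ext (![g0, g1, g2] ∘ Fin.cast h)) 0 1 = g0 := by
    simp [CupN.pr, CupN.ext]
  rw [CupN.cupC_apply]
  unfold CupN.cupF
  rw [h1, h2, h3]

lemma cupC11_apply (h : 1 + 1 = 2) (a : (Fin 1 → G) → M) (b : (Fin 1 → G) → N) (g0 g1 : G) :
    CupN.cupC B ρN h a b ![g0, g1] = B (a fun _ => g0) (ρN g0 (b fun _ => g1)) := by
  have h1 : CupN.seg (CupN.ext (![g0, g1] ∘ Fin.cast h)) 0 1 = fun _ => g0 := by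
    funext t; fin_cases t; simp [CupN.seg, CupN.ext]
  have h2 : CupN.seg (CupN.ext (![g0, g1] ∘ Fin.cast h)) 1 1 = fun _ => g1 := by
    funext t; fin_cases t; simp [CupN.seg, CupN.ext]
  have h3 : CupN.pr (CupN.ext (![g0, g1] ∘ Fin.cast h)) 0 1 = g0 := by
    simp [CupN.pr, CupN.ext]
  rw [CupN.cupC_apply]
  unfold CupN.cupF
  rw [h1, h2, h3]

lemma cupC02_apply (h : 0 + 2 = 2) (a : (Fin 0 → G) → M) (b : (Fin 2 → G) → N) (g0 g1 : G) :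
    CupN.cupC B ρN h a b ![g0, g1] = B (a default) (b ![g0, g1]) := by
  have h1 : CupN.seg (CupN.ext (![g0, g1] ∘ Fin.cast h)) 0 0 = default := Subsingleton.elim _ _
  have h2 : CupN.seg (CupN.ext (![g0, g1] ∘ Fin.cast h)) 0 2 = ![g0, g1] := by
    funext t; fin_cases t <;> simp [CupN.seg, CupN.ext]
  have h3 : CupN.pr (CupN.ext (![g0, g1] ∘ Fin.cast h)) 0 0 = 1 := rfl
  rw [CupN.cupC_apply]
  unfold CupN.cupF
  rw [h1, h2, h3, map_one, Module.End.one_apply]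

lemma cupC10_apply (h : 1 + 0 = 1) (a : (Fin 1 → G) → M) (b : (Fin 0 → G) → N) (g0 : G) :
    CupN.cupC B ρN h a b (fun _ => g0) = B (a fun _ => g0) (ρN g0 (b default)) := by
  have h1 : CupN.seg (CupN.ext ((fun _ : Fin 1 => g0) ∘ Fin.cast h)) 0 1 = fun _ => g0 := by
    funext t; fin_cases t; simp [CupN.seg, CupN.ext]
  have h2 : CupN.seg (CupN.ext ((fun _ : Fin 1 => g0) ∘ Fin.cast h)) 1 0 = default :=
    Subsingleton.elim _ _
  have h3 : CupN.pr (CupN.ext ((fun _ : Fin 1 => g0) ∘ Fin.cast h)) 0 1 = g0 := by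
    simp [CupN.pr, CupN.ext]
  rw [CupN.cupC_apply]
  unfold CupN.cupF
  rw [h1, h2, h3]

end Eval

/-! #### the dictionary `lcCup` ↔ plain-function cups of `Cup.lean` -/

section Dict

variable {k G : Type u} [CommRing k] [Group G] (𝒰 : LevelSystem G)
variable {M N P : Rep.{u} k G} [IsDiscrete 𝒰 N] (B : M →ₗ[k] N →ₗ[k] P)

lemma lcEquiv₃_lcCup21 (h : 2 + 1 = 3) (a : lcSub 𝒰 M 2) (b : lcSub 𝒰 N 1) :
    (lcEquiv₃ 𝒰 P (lcCup 𝒰 B h a b) : G × G × G → P) =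
      Cup.cup21 B N.ρ (lcEquiv₂ 𝒰 M a : G × G → M) (lcEquiv₁ 𝒰 N b : G → N) := by
  funext ⟨g0, g1, g2⟩
  exact cupC21_apply B N.ρ h a.1 b.1 g0 g1 g2

lemma lcEquiv₃_lcCup12 (h : 1 + 2 = 3) (a : lcSub 𝒰 M 1) (b : lcSub 𝒰 N 2) :
    (lcEquiv₃ 𝒰 P (lcCup 𝒰 B h a b) : G × G × G → P) =
      Cup.cup12 B N.ρ (lcEquiv₁ 𝒰 M a : G → M) (lcEquiv₂ 𝒰 N b : G × G → N) := by
  funext ⟨g0, g1, g2⟩
  exact cupC12_apply B N.ρ h a.1 b.1 g0 g1 g2

lemma lcEquiv₂_lcCup11 (h : 1 + 1 = 2) (a : lcSub 𝒰 M 1) (b : lcSub 𝒰 N 1) :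
    (lcEquiv₂ 𝒰 P (lcCup 𝒰 B h a b) : G × G → P) =
      Cup.cup11 B N.ρ (lcEquiv₁ 𝒰 M a : G → M) (lcEquiv₁ 𝒰 N b : G → N) := by
  funext ⟨g0, g1⟩
  exact cupC11_apply B N.ρ h a.1 b.1 g0 g1

lemma lcEquiv₂_lcCup02 (h : 0 + 2 = 2) (a : lcSub 𝒰 M 0) (b : lcSub 𝒰 N 2) :
    (lcEquiv₂ 𝒰 P (lcCup 𝒰 B h a b) : G × G → P) =
      Cup.cup02 B (lcEquiv₀ 𝒰 M a) (lcEquiv₂ 𝒰 N b : G × G → N) := by
  funext ⟨g0, g1⟩
  exact cupC02_apply B N.ρ h a.1 b.1 g0 g1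

lemma lcEquiv₁_lcCup10 (h : 1 + 0 = 1) (a : lcSub 𝒰 M 1) (b : lcSub 𝒰 N 0) :
    (lcEquiv₁ 𝒰 P (lcCup 𝒰 B h a b) : G → P) =
      Cup.cup10 B N.ρ (lcEquiv₁ 𝒰 M a : G → M) (lcEquiv₀ 𝒰 N b) := by
  funext g0
  exact cupC10_apply B N.ρ h a.1 b.1 g0

omit [IsDiscrete 𝒰 N] in
lemma d₀₁_eq_d0 (m : M) : (d₀₁ M).hom m = Cup.d0 M.ρ m := rfl

omit [IsDiscrete 𝒰 N] in
lemma d₁₂_eq_d1 (f : G → M) : (d₁₂ M).hom f = Cup.d1 M.ρ f := rfl

omit [IsDiscrete 𝒰 N] in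
lemma d₂₃_eq_d2 (f : G × G → M) : (d₂₃ M).hom f = Cup.d2 M.ρ f := rfl

variable {𝒰}

omit [IsDiscrete 𝒰 N] in
/-- The swapping cochain of level-constant cochains is level-constant. -/
lemma isLC₂_swapT {a : G × G → M} {a' : G → N} (ha : IsLC₂ 𝒰 a) (ha' : IsLC₁ 𝒰 a') :
    IsLC₂ 𝒰 (SwapCore.swapT B a a') := by
  obtain ⟨U, hU, hUa⟩ := ha
  obtain ⟨U', hU', hUa'⟩ := ha'
  obtain ⟨W, hW, hWU, hWU', hn, -⟩ := 𝒰.exists_normal_le_inf hU hU'
  refine ⟨W, hW, fun g g' s s' hs hs' => ?_⟩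
  have e : g * s * (g' * s') = g * g' * ((g'⁻¹ * s * g') * s') := by group
  have hmem : (g'⁻¹ * s * g') * s' ∈ W := by
    refine W.mul_mem ?_ hs'
    have := hn.conj_mem s hs g'⁻¹
    simpa using this
  simp only [SwapCore.swapT_apply]
  rw [hUa g g' s s' (hWU hs) (hWU hs'), e, hUa' (g * g') _ (hWU' hmem)]

variable (𝒰)

/-- The swapping cochain `T (g, h) = B (a (g, h)) (a' (g h))` as a level-constant `2`-cochain. -/
def swapLC (a : lcSub 𝒰 M 2) (a' : lcSub 𝒰 N 1) : lcSub 𝒰 P 2 :=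
  (lcEquiv₂ 𝒰 P).symm ⟨SwapCore.swapT B (lcEquiv₂ 𝒰 M a : G × G → M) (lcEquiv₁ 𝒰 N a' : G → N),
    isLC₂_swapT B (lcEquiv₂ 𝒰 M a).2 (lcEquiv₁ 𝒰 N a').2⟩

omit [IsDiscrete 𝒰 N] in
lemma lcEquiv₂_swapLC (a : lcSub 𝒰 M 2) (a' : lcSub 𝒰 N 1) :
    (lcEquiv₂ 𝒰 P (swapLC 𝒰 B a a') : G × G → P) =
      SwapCore.swapT B (lcEquiv₂ 𝒰 M a : G × G → M) (lcEquiv₁ 𝒰 N a' : G → N) := by
  unfold swapLC
  rw [LinearEquiv.apply_symm_apply]

variable [IsDiscrete 𝒰 M] [IsDiscrete 𝒰 P] {B}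

/-- SWAP, global part, on level-constant cochains. -/
theorem swap_global_lc (hB : Equivariant M.ρ N.ρ P.ρ B) (a : lcSub 𝒰 M 2) (a' : lcSub 𝒰 N 1)
    (ha : lcD 𝒰 M 2 a = 0) (ha' : lcD 𝒰 N 1 a' = 0) :
    lcCup 𝒰 B (show 2 + 1 = 3 from rfl) a a' - lcCup 𝒰 B.flip (show 1 + 2 = 3 from rfl) a' a =
      lcD 𝒰 P 2 (swapLC 𝒰 B a a') := by
  apply (lcEquiv₃ 𝒰 P).injective
  apply Subtype.ext
  rw [map_sub, lcEquiv₃_lcD, lcEquiv₂_swapLC]
  show (lcEquiv₃ 𝒰 P (lcCup 𝒰 B _ a a') : G × G × G → P) -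
      (lcEquiv₃ 𝒰 P (lcCup 𝒰 B.flip _ a' a) : G × G × G → P) = _
  rw [lcEquiv₃_lcCup21, lcEquiv₃_lcCup12, d₂₃_eq_d2]
  refine SwapCore.swap_global hB ?_ ?_
  · exact (lcD_two_eq_zero_iff 𝒰 M a).1 ha
  · exact (lcD_one_eq_zero_iff 𝒰 N a').1 ha'

end Dict

section Swap

variable {M N P : Rep.{u} k G} [IsDiscrete 𝒰 M] [IsDiscrete 𝒰 N] [IsDiscrete 𝒰 P]
  {B : M →ₗ[k] N →ₗ[k] P}

/-- SWAP, local part at the place `v`, on level-constant cochains. -/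
theorem swap_local_lc (hB : Equivariant M.ρ N.ρ P.ρ B) (v : L.ι) (a : lcSub 𝒰 M 2)
    (a' : lcSub 𝒰 N 1) (b : lcSub (L.𝒰v v) (Rep.res (L.r v) M) 1)
    (b' : lcSub (L.𝒰v v) (Rep.res (L.r v) N) 0)
    (hb : lcPullLin (L.cont v) (𝟙 (Rep.res (L.r v) M)) 2 a =
      lcD (L.𝒰v v) (Rep.res (L.r v) M) 1 b)
    (hb' : lcPullLin (L.cont v) (𝟙 (Rep.res (L.r v) N)) 1 a' =
      lcD (L.𝒰v v) (Rep.res (L.r v) N) 0 b') :
    lcCup (L.𝒰v v) (locB L B v) (show 1 + 1 = 2 from rfl) b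
        (lcPullLin (L.cont v) (𝟙 (Rep.res (L.r v) N)) 1 a') -
      lcCup (L.𝒰v v) (locB L B.flip v) (show 0 + 2 = 2 from rfl) b'
        (lcPullLin (L.cont v) (𝟙 (Rep.res (L.r v) M)) 2 a) =
    lcPullLin (L.cont v) (𝟙 (Rep.res (L.r v) P)) 2 (swapLC 𝒰 B a a') -
      lcD (L.𝒰v v) (Rep.res (L.r v) P) 1
        (lcCup (L.𝒰v v) (locB L B v) (show 1 + 0 = 1 from rfl) b b') := by
  apply (lcEquiv₂ (L.𝒰v v) (Rep.res (L.r v) P)).injective
  apply Subtype.ext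
  rw [map_sub, map_sub, Submodule.coe_sub, Submodule.coe_sub, lcEquiv₂_lcD]
  rw [lcEquiv₂_lcCup11, lcEquiv₂_lcCup02, lcEquiv₁_lcCup10, d₁₂_eq_d1]
  have hz : (lcEquiv₂ (L.𝒰v v) (Rep.res (L.r v) M)
        (lcPullLin (L.cont v) (𝟙 (Rep.res (L.r v) M)) 2 a) : L.Gv v × L.Gv v → Rep.res (L.r v) M) =
      Cup.d1 (Rep.res (L.r v) M).ρ (lcEquiv₁ (L.𝒰v v) (Rep.res (L.r v) M) b : L.Gv v → _) := by
    rw [hb, lcEquiv₂_lcD, d₁₂_eq_d1]
  have hα : (lcEquiv₁ (L.𝒰v v) (Rep.res (L.r v) N)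
        (lcPullLin (L.cont v) (𝟙 (Rep.res (L.r v) N)) 1 a') : L.Gv v → Rep.res (L.r v) N) =
      Cup.d0 (Rep.res (L.r v) N).ρ (lcEquiv₀ (L.𝒰v v) (Rep.res (L.r v) N) b') := by
    rw [hb', lcEquiv₁_lcD, d₀₁_eq_d0]
  have hT : (lcEquiv₂ (L.𝒰v v) (Rep.res (L.r v) P) (lcPullLin (L.cont v)
        (𝟙 (Rep.res (L.r v) P)) 2 (swapLC 𝒰 B a a')) : L.Gv v × L.Gv v → Rep.res (L.r v) P) =
      SwapCore.swapT (locB L B v)
        (lcEquiv₂ (L.𝒰v v) (Rep.res (L.r v) M)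
          (lcPullLin (L.cont v) (𝟙 (Rep.res (L.r v) M)) 2 a) : L.Gv v × L.Gv v → _)
        (lcEquiv₁ (L.𝒰v v) (Rep.res (L.r v) N)
          (lcPullLin (L.cont v) (𝟙 (Rep.res (L.r v) N)) 1 a') : L.Gv v → _) := by
    funext ⟨g, h⟩
    rw [lcEquiv₂_lcPullLin, lcEquiv₂_swapLC, SwapCore.swapT_apply, SwapCore.swapT_apply,
      lcEquiv₂_lcPullLin, lcEquiv₁_lcPullLin, map_mul]
    rfl
  rw [hT]
  exact SwapCore.swap_local' (equivariant_locB L hB v) _ _ hz hα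

/-- **SWAP on cochains.** For a `2`-cocycle `x` of `C_c(M)` and a `1`-cocycle `x'` of `C_c(N)`,
`x ∪ fst x' - x' ∪' fst x` is a coboundary in `C_c(P)` (`∪'` built from `B.flip`). -/
theorem cup_swap_eq_d (hB : Equivariant M.ρ N.ρ P.ρ B) (x : (coneC L M).X 2)
    (hx : (coneC L M).d 2 3 x = 0) (x' : (coneC L N).X 1) (hx' : (coneC L N).d 1 2 x' = 0) :
    ∃ e : (coneC L P).X 2,
      (coneCCupData L hB).cup 2 1 3 rfl x ((coneFst L N).f 1 x') -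
        (coneCCupData L (SwapCore.equivariant_flip hB)).cup 1 2 3 rfl x' ((coneFst L M).f 2 x) =
      (coneC L P).d 2 3 e := by
  -- the components of `x` and `x'`
  have hdx := coneC_d_succ L M 1 x
  rw [hx, map_zero] at hdx
  have hdx' := coneC_d_succ L N 0 x'
  rw [hx', map_zero] at hdx'
  have ha : lcD 𝒰 M 2 (coneCXEquivSucc L M 1 x).1 = 0 := (congrArg Prod.fst hdx).symm
  have hb : ∀ v, lcPullLin (L.cont v) (𝟙 (Rep.res (L.r v) M)) 2 (coneCXEquivSucc L M 1 x).1 =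
      lcD (L.𝒰v v) (Rep.res (L.r v) M) 1 ((coneCXEquivSucc L M 1 x).2 v) := fun v =>
    sub_eq_zero.1 (congrFun (congrArg Prod.snd hdx) v).symm
  have ha' : lcD 𝒰 N 1 (coneCXEquivSucc L N 0 x').1 = 0 := (congrArg Prod.fst hdx').symm
  have hb' : ∀ v, lcPullLin (L.cont v) (𝟙 (Rep.res (L.r v) N)) 1 (coneCXEquivSucc L N 0 x').1 =
      lcD (L.𝒰v v) (Rep.res (L.r v) N) 0 ((coneCXEquivSucc L N 0 x').2 v) := fun v =>
    sub_eq_zero.1 (congrFun (congrArg Prod.snd hdx') v).symm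
  refine ⟨(coneCXEquivSucc L P 1).symm
    (swapLC 𝒰 B (coneCXEquivSucc L M 1 x).1 (coneCXEquivSucc L N 0 x').1,
      fun v => lcCup (L.𝒰v v) (locB L B v) (show 1 + 0 = 1 from rfl)
        ((coneCXEquivSucc L M 1 x).2 v) ((coneCXEquivSucc L N 0 x').2 v)), ?_⟩
  apply (coneCXEquivSucc L P 2).injective
  rw [map_sub]
  refine (congrArg₂ (fun p q => p - q) (coneCCupData_cup_succ L hB 1 1 2 rfl x _)
    (coneCCupData_cup_succ L (SwapCore.equivariant_flip hB) 0 2 2 rfl x' _)).trans ?_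
  refine Eq.trans ?_ (coneC_d_succ L P 1 _).symm
  rw [LinearEquiv.apply_symm_apply]
  refine Prod.ext ?_ ?_
  · exact swap_global_lc 𝒰 hB _ _ ha ha'
  · funext v
    exact swap_local_lc L hB v _ _ _ _ (hb v) (hb' v)

/-- (E7) on cocycles. -/
theorem conePairing_swap_cocycle (hB : Equivariant M.ρ N.ρ P.ρ B)
    (tr : (coneC L P).X 3 →ₗ[k] k)
    (htr : ∀ e : (coneC L P).X 2, tr (((coneC L P).d 2 3).hom e) = 0)
    (x : Elt.zSub (coneC L M) 2) (x' : Elt.zSub (coneC L N) 1) :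
    (conePairing L hB tr htr).p21 x.1 (((coneFst L N).f 1).hom x'.1) =
      (conePairing L (SwapCore.equivariant_flip hB) tr htr).p12 x'.1
        (((coneFst L M).f 2).hom x.1) := by
  obtain ⟨e, he⟩ := cup_swap_eq_d L hB x.1 ((Elt.mem_zSub_iff _ 2 x.1).1 x.2) x'.1
    ((Elt.mem_zSub_iff _ 1 x'.1).1 x'.2)
  rw [conePairing_p21, conePairing_p12, ← sub_eq_zero, ← map_sub]
  exact (congrArg tr he).trans (htr e)

/-- **(E7) SWAP.** The pairing `H²_c(M) × H¹(N) → k` (from `B`) and the pairing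
`H¹_c(N) × H²(M) → k` (from `B.flip`) agree after forgetting supports:
`⟨x, fst x'⟩ = ⟨x', fst x⟩'` for `x ∈ H²_c(M)`, `x' ∈ H¹_c(N)`. -/
theorem conePairing_swap (hB : Equivariant M.ρ N.ρ P.ρ B) (tr : (coneC L P).X 3 →ₗ[k] k)
    (htr : ∀ e : (coneC L P).X 2, tr (((coneC L P).d 2 3).hom e) = 0)
    (x : (coneC L M).homology 2) (x' : (coneC L N).homology 1) :
    (conePairing L hB tr htr).h21 x ((HomologicalComplex.homologyMap (coneFst L N) 1).hom x') =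
      (conePairing L (SwapCore.equivariant_flip hB) tr htr).h12 x'
        ((HomologicalComplex.homologyMap (coneFst L M) 2).hom x) := by
  have h := CPairing.swap_homology (conePairing L hB tr htr)
    (conePairing L (SwapCore.equivariant_flip hB) tr htr) (coneFst L M) (coneFst L N) 1
    (fun z z' => by rw [one_mul]; exact conePairing_swap_cocycle L hB tr htr z z') x x'
  rw [one_mul] at h
  exact h

end Swap

end Fermat.Agent.GC.PT.ConePairing
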