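import Fermat.Agent.GC.PT.MainInst
import Fermat.Agent.GC.PT.ConePairing

/-!
# GATE-C / C5: the cochain-level cup facts (E6), (E7) for `MainInst` (helper1)

`cupFacts L χ htr : MainInst.CupFacts L χ htr`, from `conePairing_adjoint` and `conePairing_swap`.
-/

set_option autoImplicit false

open CategoryTheory

noncomputable section

namespace Fermat.Agent.GC.PT.ConePairing

open Fermat.Agent.GC.Prof Fermat.Agent.GC.Prof.Cone
open Fermat.Agent.GC.PT.Triples
open Fermat.Agent.GC.Prof.Cup (Equivariant)

universe u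

variable {k G : Type u} [Field k] [Group G] {𝒰 : LevelSystem G}

/-- The cup facts (E6) naturality and (E7) SWAP for the compact-support pairing with values in
`k(χ)`, for any trace `tr` killing coboundaries. -/
theorem cupFacts (L : LocalData 𝒰) (χ : G →* kˣ) [IsDiscrete 𝒰 (chiRep χ)]
    {tr : (coneC L (chiRep χ)).X 3 →ₗ[k] k}
    (htr : ∀ e : (coneC L (chiRep χ)).X 2, tr (((coneC L (chiRep χ)).d 2 3).hom e) = 0) :
    MainInst.CupFacts L χ htr where
  adjoint _ _ _ _ _ _ _ _ _ hB _ hB₁ φ ψ h := conePairing_adjoint L hB hB₁ tr htr φ ψ h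
  swap _ _ _ _ _ hB _ x x' := conePairing_swap L hB tr htr x x'

end Fermat.Agent.GC.PT.ConePairing
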