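/-
GATE-C / (N-e) helper, helper3.  PURE LINEAR ALGEBRA: a family of local functionals `τ_v` with
(R) "reciprocity" `τ ∘ β = 0` and (I) "`τ_v` injective" EXISTS as soon as

* (N-a) the cokernel of the localisation map `β : W → ∏_v V_v` is at most one-dimensional, and
* (NC)  no class of the image of `β` is supported at a single place `v`
        (`Pi.single v x ∈ range β → x = 0`).

No explicit local invariant maps, no choice of generators, no coherence in towers is needed.
Mathlib only.
-/
import Mathlib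

set_option autoImplicit false

noncomputable section

namespace Fermat.Agent.GC.PT.TraceOfNC

variable {k : Type*} [Field k] {ι : Type*} [DecidableEq ι] {V : ι → Type*}
  [∀ v, AddCommGroup (V v)] [∀ v, Module k (V v)]

/-- **Submodule form.** `R ≤ ∏_v V_v` of codimension `≤ 1` (the quotient is spanned by one vector)
containing no nonzero vector supported at a single index: then there is a functional `τ` with
kernel containing `R` which is injective on every factor `V_v`. -/
theorem exists_functional_of_nc (R : Submodule k (∀ v, V v))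
    (hQ : ∃ v₀ : (∀ v, V v) ⧸ R, ∀ w : (∀ v, V v) ⧸ R, ∃ c : k, c • v₀ = w)
    (hNC : ∀ (v : ι) (x : V v), Pi.single v x ∈ R → x = 0) :
    ∃ τ : (∀ v, V v) →ₗ[k] k, (∀ r ∈ R, τ r = 0) ∧ (∀ y, τ y = 0 → y ∈ R) ∧
      ∀ v, Function.Injective fun x : V v => τ (Pi.single v x) := by
  obtain ⟨v₀, hv₀⟩ := hQ
  by_cases h0 : v₀ = 0
  · -- `R = ⊤`
    have htop : ∀ y : (∀ v, V v), y ∈ R := by
      intro y
      obtain ⟨c, hc⟩ := hv₀ (Submodule.Quotient.mk y)
      rw [h0, smul_zero] at hc
      exact (Submodule.Quotient.mk_eq_zero R).1 hc.symm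
    refine ⟨0, fun _ _ => rfl, fun y _ => htop y, fun v x y _ => ?_⟩
    rw [hNC v x (htop _), hNC v y (htop _)]
  · obtain ⟨φ, hφ⟩ : ∃ φ : Module.Dual k ((∀ v, V v) ⧸ R), φ v₀ ≠ 0 := by
      by_contra hcon
      push Not at hcon
      exact h0 ((Module.forall_dual_apply_eq_zero_iff k v₀).1 hcon)
    have hker : ∀ y, (φ.comp R.mkQ) y = 0 → y ∈ R := by
      intro y hy
      obtain ⟨c, hc⟩ := hv₀ (Submodule.Quotient.mk y)
      have h1 : φ (c • v₀) = 0 := by rw [hc]; exact hy
      rw [map_smul, smul_eq_mul, mul_eq_zero] at h1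
      rcases h1 with h1 | h1
      · rw [h1, zero_smul] at hc
        exact (Submodule.Quotient.mk_eq_zero R).1 hc.symm
      · exact absurd h1 hφ
    refine ⟨φ.comp R.mkQ, fun r hr => ?_, hker, fun v => ?_⟩
    · show φ (Submodule.Quotient.mk r) = 0
      rw [(Submodule.Quotient.mk_eq_zero R).2 hr, map_zero]
    · have hlin : ∀ x y : V v, (φ.comp R.mkQ) (Pi.single v (x - y)) =
          (φ.comp R.mkQ) (Pi.single v x) - (φ.comp R.mkQ) (Pi.single v y) := by
        intro x y
        rw [← map_sub]
        congr 1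
        exact Pi.single_sub v x y
      intro x y hxy
      have h1 : (φ.comp R.mkQ) (Pi.single v (x - y)) = 0 := by
        rw [hlin]
        exact sub_eq_zero.2 hxy
      exact sub_eq_zero.1 (hNC v _ (hker _ h1))

/-- **Range form** (the shape of `TraceExt.exists_trace`): `β : W → ∏_v V_v` ("localisation"). -/
theorem exists_tau_of_nc {W : Type*} [AddCommGroup W] [Module k W] (β : W →ₗ[k] ∀ v, V v)
    (hQ : ∃ v₀ : (∀ v, V v) ⧸ LinearMap.range β,
      ∀ w : (∀ v, V v) ⧸ LinearMap.range β, ∃ c : k, c • v₀ = w)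
    (hNC : ∀ (v : ι) (x : V v) (w : W), β w = Pi.single v x → x = 0) :
    ∃ τ : (∀ v, V v) →ₗ[k] k, (∀ w : W, τ (β w) = 0) ∧
      ∀ v, Function.Injective fun x : V v => τ (Pi.single v x) := by
  obtain ⟨τ, h1, -, h3⟩ := exists_functional_of_nc (LinearMap.range β) hQ
    (fun v x hx => by
      obtain ⟨w, hw⟩ := hx
      exact hNC v x w hw)
  exact ⟨τ, fun w => h1 _ (LinearMap.mem_range_self β w), h3⟩

/-- **Range form with `finrank`**: cokernel finite-dimensional of dimension `≤ 1`. -/
theorem exists_tau_of_nc_finrank {W : Type*} [AddCommGroup W] [Module k W]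
    (β : W →ₗ[k] ∀ v, V v) [FiniteDimensional k ((∀ v, V v) ⧸ LinearMap.range β)]
    (hQ : Module.finrank k ((∀ v, V v) ⧸ LinearMap.range β) ≤ 1)
    (hNC : ∀ (v : ι) (x : V v) (w : W), β w = Pi.single v x → x = 0) :
    ∃ τ : (∀ v, V v) →ₗ[k] k, (∀ w : W, τ (β w) = 0) ∧
      ∀ v, Function.Injective fun x : V v => τ (Pi.single v x) :=
  exists_tau_of_nc β (finrank_le_one_iff.1 hQ) hNC

end Fermat.Agent.GC.PT.TraceOfNC
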