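/-
GATE-C / C5 dualK (helper61): the LOCAL fields of helper19's `BaseInputsK` — `finLoc1`, `finLoc2`,
`dual02`, `dual11`, `dual20` — UNCONDITIONALLY for `k = 𝔽_p`, `χ = cycloChar p`, `ζ_p ∈ K`, and any
functional `τ` on `∏_{q ∈ S} Hlc²(G_{ℚ_q}, 𝔽_p(χ))` which is injective on every factor (I).

Inputs: local perfectness (helper61 `Local/Hilbert/PerfectLoc`), (COR-INJ) (helper21 `CorInjLoc`),
local numbers (helper41 `LocalNumPlaces`).
-/
import Mathlib
import Fermat.Agent.GC.PT.BaseInputsQ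
import Fermat.Agent.GC.Places.CorInjLoc
import Fermat.Agent.GC.Places.LocalNumPlaces
import Fermat.Agent.GC.Local.Hilbert.PerfectLoc

set_option autoImplicit false

open CategoryTheory Module

noncomputable section

namespace Fermat.Agent.GC.PT.DualKInst

open Fermat.Agent.GC.Prof Fermat.Agent.GC.Prof.Cone Fermat.Agent.GC.Places
open Fermat.Agent.GC.Local.KR Fermat.Agent.GC.C0 Fermat.Agent.GC.PT.LocDataQ
open Fermat.Agent.GC.PT.BaseInstQ Fermat.Agent.GC.PT.BaseInputsQ
open Fermat.Agent.GC.Prof.Cup (Equivariant)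
open Fermat.Agent.GC.Local.Hilbert ExtCitation Fermat.Agent.GC.Places.LocalNum

local notation "Qb" => AlgebraicClosure ℚ

attribute [local instance] fact_prime

variable (S : Finset Nat.Primes) (K : IntermediateField ℚ Qb) [FiniteDimensional ℚ K]
  (p : ℕ) [Fact p.Prime]
  [hI : InstDisc S K (trivK (ZMod p) K)] [hC : ChiDisc S K (cycloChar p)]
  (hχK : ∀ s : K.fixingSubgroup, cycloChar p (s : GQ) = 1)
  {ζ : Qb} (hζ : IsPrimitiveRoot ζ p) (hζK : ζ ∈ K)
  (τ : (∀ v, Hlc ((locDataQ S).𝒰v v)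
    (Rep.res ((locDataQ S).r v) (chiRep (cycloChar p))) 2) →ₗ[ZMod p] ZMod p)
  (hIτ : ∀ v, Function.Injective fun y => τ (Pi.single v y))

/-- The local groups of `K` have finite index in `G_{ℚ_q}`. -/
local instance finiteIndex_locGroup' (q : ℕ) [Fact q.Prime] (s : GQ) :
    (locGroup q K s).FiniteIndex :=
  (isOpenSub_locGroup q K s).finiteIndex

/-! Instance search does not see through `InstDisc` for the concrete module `trivK k K`
(see `BaseInputsQ.lean`); restate the instances. -/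

local instance instA : IsDiscrete (levelK S K) (trivK (ZMod p) K) := hI.dA

local instance instWq (q : ↥S) : IsDiscrete (levelQ ((q : Nat.Primes) : ℕ))
    (resCoind ((q : Nat.Primes) : ℕ) K (trivK (ZMod p) K)) := hI.dWq q

local instance instLoc (q : ↥S) (s : GQ) : IsDiscrete (levelLoc ((q : Nat.Primes) : ℕ) K s)
    (locCoeff ((q : Nat.Primes) : ℕ) K (trivK (ZMod p) K) s) := hI.dLoc q s

local instance instLoc' (q : ↥S) (s : GQ) :
    IsDiscrete ((levelQ ((q : Nat.Primes) : ℕ)).comap (locGroup ((q : Nat.Primes) : ℕ) K s).subtype)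
      (locCoeff ((q : Nat.Primes) : ℕ) K (trivK (ZMod p) K) s) := hI.dLoc' q s

local instance instFac (q : ↥S) (s : GQ) : IsDiscrete (levelQ ((q : Nat.Primes) : ℕ))
    (locFactor ((q : Nat.Primes) : ℕ) K (trivK (ZMod p) K) s) := hI.dFac q s

include hIτ in
theorem tauAt_injective (q : ↥S) : Function.Injective (tauAt S K (cycloChar p) τ q) :=
  hIτ q

include hIτ in
/-- `τ_w = τ_q ∘ cor_w` is injective. -/
theorem tauAt_comp_cor_injective (q : ↥S) (s : GQ) :
    Function.Injective (tauAt S K (cycloChar p) τ q ∘ₗ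
      (HlcCor (chiQ ((q : Nat.Primes) : ℕ) (cycloChar p))
        (isOpenSub_locGroup ((q : Nat.Primes) : ℕ) K s) 2).hom) := by
  exact (tauAt_injective S K p τ hIτ q).comp
    (CorInjLoc.HlcCor_two_locGroup_injective p ((q : Nat.Primes) : ℕ) K s)

include hζ hζK in
omit hC in
/-- `finLoc` of `BaseInputsK`. -/
theorem finLoc_of (q : ↥S) (w : placeIdx ((q : Nat.Primes) : ℕ) K) (i : ℕ) (hi : i ≤ 2) :
    FiniteDimensional (ZMod p) (HlcKw S K (trivK (ZMod p) K) q w i) :=
  haveI : IsDiscrete (levelLoc ((q : Nat.Primes) : ℕ) K (placeRep ((q : Nat.Primes) : ℕ) K w))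
      (locCoeff ((q : Nat.Primes) : ℕ) K (trivK (ZMod p) K)
        (placeRep ((q : Nat.Primes) : ℕ) K w)) := hI.dLoc q _
  finiteDimensional_Hlc_loc ((q : Nat.Primes) : ℕ) K p _ hζ hζK
    (locCoeff ((q : Nat.Primes) : ℕ) K (trivK (ZMod p) K) (placeRep ((q : Nat.Primes) : ℕ) K w))
    (fun _ _ => rfl) (AddEquiv.refl _) i hi

include hζ hζK hχK in
/-- `Hlc²(G_{K_w}, 𝔽_p(χ))` is a line. -/
theorem finrank_Hlc_chiW_two (q : ↥S) (s : GQ) :
    finrank (ZMod p) (Hlc (levelLoc ((q : Nat.Primes) : ℕ) K s)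
      (chiW ((q : Nat.Primes) : ℕ) K (cycloChar p) s) 2) = 1 :=
  finrank_Hlc_loc_two ((q : Nat.Primes) : ℕ) K p s hζ hζK
    (chiW ((q : Nat.Primes) : ℕ) K (cycloChar p) s)
    (res_chiRep_trivial (r := localGaloisToGlobal ((q : Nat.Primes) : ℕ)) K.fixingSubgroup
      (cycloChar p) hχK s⁻¹ (locGroup ((q : Nat.Primes) : ℕ) K s)
      (locHom ((q : Nat.Primes) : ℕ) K s) (locHom_mul_inv ((q : Nat.Primes) : ℕ) K s))
    (AddEquiv.refl _)

include hζ hζK hIτ hχK in
/-- **`dual11` of `BaseInputsK`.** -/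
theorem dual11_of (q : ↥S) (w : placeIdx ((q : Nat.Primes) : ℕ) K) :
    Function.Bijective (QK ((q : Nat.Primes) : ℕ) K (cycloChar p) hχK w
      (show 1 + 1 = 2 from rfl) (tauAt S K (cycloChar p) τ q)) := by
  have : IsDiscrete (levelLoc ((q : Nat.Primes) : ℕ) K (placeRep ((q : Nat.Primes) : ℕ) K w))
      (locCoeff ((q : Nat.Primes) : ℕ) K (trivK (ZMod p) K)
        (placeRep ((q : Nat.Primes) : ℕ) K w)) := hI.dLoc q _
  have : FiniteDimensional (ZMod p) (Hlc (levelLoc ((q : Nat.Primes) : ℕ) K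
      (placeRep ((q : Nat.Primes) : ℕ) K w))
      (Rep.res (locHom ((q : Nat.Primes) : ℕ) K (placeRep ((q : Nat.Primes) : ℕ) K w))
        (Rep.trivial (ZMod p) K.fixingSubgroup (ZMod p))) 1) :=
    finLoc_of S K p hζ hζK q w 1 (by norm_num)
  exact bijective_loc_one_one ((q : Nat.Primes) : ℕ) K (placeRep ((q : Nat.Primes) : ℕ) K w)
    (cycloChar p) hχK
    (isPrimitiveRoot_locRoot ((q : Nat.Primes) : ℕ) K p _ hζ hζK)
    (tauAt S K (cycloChar p) τ q ∘ₗ
      (HlcCor (chiQ ((q : Nat.Primes) : ℕ) (cycloChar p))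
        (isOpenSub_locGroup ((q : Nat.Primes) : ℕ) K (placeRep ((q : Nat.Primes) : ℕ) K w)) 2).hom)
    (tauAt_comp_cor_injective S K p τ hIτ q _) rfl

omit [FiniteDimensional ℚ K] hI hC in
/-- an injective functional on a line is bijective. -/
theorem bijective_of_injective_of_finrank_one {k V : Type*} [Field k] [AddCommGroup V]
    [Module k V] (f : V →ₗ[k] k) (hf : Function.Injective f) (h1 : finrank k V = 1) :
    Function.Bijective f := by
  haveI : FiniteDimensional k V := Module.finite_of_finrank_pos (by rw [h1]; exact one_pos)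
  refine ⟨hf, ?_⟩
  rw [← LinearMap.injective_iff_surjective_of_finrank_eq_finrank (by rw [h1, Module.finrank_self])]
  exact hf

include hζ hζK hIτ hχK in
/-- `τ_w = τ_q ∘ cor_w` is bijective. -/
theorem tauAt_comp_cor_bijective (q : ↥S) (s : GQ) :
    Function.Bijective (tauAt S K (cycloChar p) τ q ∘ₗ
      (HlcCor (chiQ ((q : Nat.Primes) : ℕ) (cycloChar p))
        (isOpenSub_locGroup ((q : Nat.Primes) : ℕ) K s) 2).hom) :=
  bijective_of_injective_of_finrank_one _ (tauAt_comp_cor_injective S K p τ hIτ q s)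
    (finrank_Hlc_chiW_two S K p hχK hζ hζK q s)

include hζ hζK hIτ hχK in
/-- **`dual02` of `BaseInputsK`.** -/
theorem dual02_of (q : ↥S) (w : placeIdx ((q : Nat.Primes) : ℕ) K) :
    Function.Bijective (QK ((q : Nat.Primes) : ℕ) K (cycloChar p) hχK w
      (show 0 + 2 = 2 from rfl) (tauAt S K (cycloChar p) τ q)) :=
  bijective_loc_zero_two ((q : Nat.Primes) : ℕ) K (placeRep ((q : Nat.Primes) : ℕ) K w)
    (cycloChar p) hχK
    (tauAt S K (cycloChar p) τ q ∘ₗ
      (HlcCor (chiQ ((q : Nat.Primes) : ℕ) (cycloChar p))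
        (isOpenSub_locGroup ((q : Nat.Primes) : ℕ) K (placeRep ((q : Nat.Primes) : ℕ) K w)) 2).hom)
    (tauAt_comp_cor_bijective S K p hχK hζ hζK τ hIτ q _) rfl

include hζ hζK hIτ hχK in
/-- **`dual20` of `BaseInputsK`.** -/
theorem dual20_of (q : ↥S) (w : placeIdx ((q : Nat.Primes) : ℕ) K) :
    Function.Bijective (QK ((q : Nat.Primes) : ℕ) K (cycloChar p) hχK w
      (show 2 + 0 = 2 from rfl) (tauAt S K (cycloChar p) τ q)) :=
  bijective_loc_two_zero ((q : Nat.Primes) : ℕ) K (placeRep ((q : Nat.Primes) : ℕ) K w)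
    (cycloChar p) hχK
    (tauAt S K (cycloChar p) τ q ∘ₗ
      (HlcCor (chiQ ((q : Nat.Primes) : ℕ) (cycloChar p))
        (isOpenSub_locGroup ((q : Nat.Primes) : ℕ) K (placeRep ((q : Nat.Primes) : ℕ) K w)) 2).hom)
    (tauAt_comp_cor_bijective S K p hχK hζ hζK τ hIτ q _) rfl

include hζ hζK hIτ in
/-- **`BaseInputsK` from its GLOBAL fields only**: the local fields `finLoc1`, `finLoc2`, `dual02`,
`dual11`, `dual20` are theorems. -/
theorem baseInputsK_of_global
    (fin1 : FiniteDimensional (ZMod p) (Hlc (levelK S K) (trivK (ZMod p) K) 1))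
    (fin2 : FiniteDimensional (ZMod p) (Hlc (levelK S K) (trivK (ZMod p) K) 2))
    (h3 : Limits.IsZero (Hlc (levelK S K) (trivK (ZMod p) K) 3))
    (cokK : finrank (ZMod p) (LocKw S K (trivK (ZMod p) K) 2) ≤
      finrank (ZMod p) (LinearMap.range (locK S K (trivK (ZMod p) K) 2)) + 1)
    (c1K : finrank (ZMod p) (LocKw S K (trivK (ZMod p) K) 1) +
        2 * finrank (ZMod p) (LinearMap.ker (locK S K (trivK (ZMod p) K) 2)) ≤
      2 * finrank (ZMod p) (Hlc (levelK S K) (trivK (ZMod p) K) 1)) :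
    BaseInputsK S K (cycloChar p) hχK τ where
  fin1 := fin1
  fin2 := fin2
  h3 := h3
  finLoc1 q w := finLoc_of S K p hζ hζK q w 1 (by norm_num)
  finLoc2 q w := finLoc_of S K p hζ hζK q w 2 le_rfl
  dual02 := dual02_of S K p hχK hζ hζK τ hIτ
  dual11 := dual11_of S K p hχK hζ hζK τ hIτ
  dual20 := dual20_of S K p hχK hζ hζK τ hIτ
  cokK := cokK
  c1K := c1K

end Fermat.Agent.GC.PT.DualKInst
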