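/-
GATE-C / C5 (helper7): BASE for trivial coefficients as PURE LINEAR ALGEBRA (X7 + the abstract
half of X5 of board 1705).  Mathlib only; no groups, no complexes: spaces, linear maps, pairings.

Think of `M`, `N` finite modules in duality, `Hⁱ = Hⁱ(G,M)`, `Lⁱ = ⊕_v Hⁱ(G_v,M)`,
`Hcⁱ = Hⁱ_c(M)` (cone), and primed letters for `N`.

M-side piece of the cone long exact sequence, and the N-side piece:
```
          L1 --∂1--> Hc2 --f2--> H2 --r2--> L2 --∂2--> Hc3 --> 0
 H0' --r0'--> L0' --∂0'--> Hc1' --f1'--> H1' --r1'--> L1'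
```
Pairings `λ11 : L1 × L1' → k`, `λ20 : L2 × L0' → k` (local duality),
`β21 : Hc2 × H1' → k`, `β30 : Hc3 × H0' → k` (global, for `(M,N)`),
`β12' : Hc1' × H2 → k` (global, for `(N,M)`), adjoint to the maps up to fixed nonzero scalars
`s1 … s4` (so that no sign convention has to be matched).

* `exact_dualMap` : the dual of an exact pair over a field is exact.
* `base_step` : local duality + `β12'` perfect on the right ⟹ `β21` surjective, `β30` injective.
* `euler_count` : alternating `finrank` sum of a 9-term exact sequence, as an identity in `ℕ`.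
* `base_good` : with one Euler-characteristic inequality, `β21` is bijective and `β30` injective.
-/
import Mathlib

set_option autoImplicit false

namespace Fermat.Agent.GC.PT.BaseAbs

open Module

variable {k : Type*} [Field k]

section Dual

variable {X Y Z : Type*} [AddCommGroup X] [Module k X] [AddCommGroup Y] [Module k Y]
  [AddCommGroup Z] [Module k Z]

/-- Over a field, dualising an exact pair gives an exact pair. -/
theorem exact_dualMap (f : X →ₗ[k] Y) (g : Y →ₗ[k] Z) (h : Function.Exact f g) :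
    Function.Exact g.dualMap f.dualMap := by
  rw [LinearMap.exact_iff] at h ⊢
  rw [LinearMap.ker_dualMap_eq_dualAnnihilator_range,
    LinearMap.range_dualMap_eq_dualAnnihilator_ker, h]

theorem smul_surjective {c : k} (hc : c ≠ 0) (f : X →ₗ[k] Y) (hf : Function.Surjective f) :
    Function.Surjective (c • f) := by
  intro y
  obtain ⟨x, hx⟩ := hf (c⁻¹ • y)
  refine ⟨x, ?_⟩
  rw [LinearMap.smul_apply, hx, smul_smul, mul_inv_cancel₀ hc, one_smul]

theorem smul_injective {c : k} (hc : c ≠ 0) (f : X →ₗ[k] Y) (hf : Function.Injective f) :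
    Function.Injective (c • f) := by
  intro x x' h
  rw [LinearMap.smul_apply, LinearMap.smul_apply] at h
  exact hf (smul_right_injective Y hc h)

/-- A pairing that is injective on the left with finite-dimensional left factor is surjective
on the right: `Y → Xᵛ` is onto. -/
theorem flip_surjective_of_injective [FiniteDimensional k X] (β : X →ₗ[k] Y →ₗ[k] k)
    (hβ : Function.Injective β) : Function.Surjective β.flip :=
  LinearMap.flip_surjective_iff₁.2 hβ

end Dual

section Step

variable {L1 Hc2 H2 L2 Hc3 : Type*}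
  [AddCommGroup L1] [Module k L1] [AddCommGroup Hc2] [Module k Hc2]
  [AddCommGroup H2] [Module k H2] [AddCommGroup L2] [Module k L2]
  [AddCommGroup Hc3] [Module k Hc3]
variable {H0' L0' Hc1' H1' L1' : Type*}
  [AddCommGroup H0'] [Module k H0'] [AddCommGroup L0'] [Module k L0']
  [AddCommGroup Hc1'] [Module k Hc1'] [AddCommGroup H1'] [Module k H1']
  [AddCommGroup L1'] [Module k L1']

/-- **BASE step.**  Two four-lemmas against the dual of the `N`-row: if the local pairings are
perfect in the needed directions and `H2 → Hc1'ᵛ` is onto, then `Hc2 → H1'ᵛ` is onto and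
`Hc3 → H0'ᵛ` is injective. -/
theorem base_step
    (d1 : L1 →ₗ[k] Hc2) (f2 : Hc2 →ₗ[k] H2) (r2 : H2 →ₗ[k] L2) (d2 : L2 →ₗ[k] Hc3)
    (r0' : H0' →ₗ[k] L0') (d0' : L0' →ₗ[k] Hc1') (f1' : Hc1' →ₗ[k] H1') (r1' : H1' →ₗ[k] L1')
    (ex_H2 : Function.Exact f2 r2) (ex_L2 : Function.Exact r2 d2)
    (surj_d2 : Function.Surjective d2)
    (ex_L0' : Function.Exact r0' d0') (ex_Hc1' : Function.Exact d0' f1')
    (ex_H1' : Function.Exact f1' r1')
    (lam11 : L1 →ₗ[k] L1' →ₗ[k] k) (beta21 : Hc2 →ₗ[k] H1' →ₗ[k] k)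
    (beta12' : Hc1' →ₗ[k] H2 →ₗ[k] k) (lam20 : L2 →ₗ[k] L0' →ₗ[k] k)
    (beta30 : Hc3 →ₗ[k] H0' →ₗ[k] k)
    (s1 s2 s3 s4 : k) (hs1 : s1 ≠ 0) (hs2 : s2 ≠ 0) (hs3 : s3 ≠ 0) (hs4 : s4 ≠ 0)
    (sq1 : ∀ l y', beta21 (d1 l) y' = s1 * lam11 l (r1' y'))
    (sq2 : ∀ z x', beta12' x' (f2 z) = s2 * beta21 z (f1' x'))
    (sq3 : ∀ h l0', lam20 (r2 h) l0' = s3 * beta12' (d0' l0') h)
    (sq4 : ∀ l y0', beta30 (d2 l) y0' = s4 * lam20 l (r0' y0'))
    (hlam11 : Function.Surjective lam11) (hbeta12' : Function.Surjective beta12'.flip)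
    (hlam20 : Function.Injective lam20) :
    Function.Surjective beta21 ∧ Function.Injective beta30 := by
  -- the vertical maps into the dual row, rescaled so that all squares commute
  let V1 : L1 →ₗ[k] Dual k L1' := s1 • lam11
  let V2 : Hc2 →ₗ[k] Dual k H1' := beta21
  let V3 : H2 →ₗ[k] Dual k Hc1' := s2⁻¹ • beta12'.flip
  let V4 : L2 →ₗ[k] Dual k L0' := (s2⁻¹ * s3⁻¹) • lam20
  let V5 : Hc3 →ₗ[k] Dual k H0' := (s2⁻¹ * s3⁻¹ * s4⁻¹) • beta30
  have hV1 : Function.Surjective V1 := smul_surjective hs1 _ hlam11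
  have hV3 : Function.Surjective V3 := smul_surjective (inv_ne_zero hs2) _ hbeta12'
  have hV4 : Function.Injective V4 :=
    smul_injective (mul_ne_zero (inv_ne_zero hs2) (inv_ne_zero hs3)) _ hlam20
  have c1 : r1'.dualMap.comp V1 = V2.comp d1 := by
    ext l y'
    simp only [V1, V2, LinearMap.comp_apply, LinearMap.dualMap_apply, LinearMap.smul_apply,
      smul_eq_mul]
    exact (sq1 l y').symm
  have c2 : f1'.dualMap.comp V2 = V3.comp f2 := by
    ext z x'
    simp only [V2, V3, LinearMap.comp_apply, LinearMap.dualMap_apply, LinearMap.smul_apply,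
      LinearMap.flip_apply, smul_eq_mul]
    rw [sq2, ← mul_assoc, inv_mul_cancel₀ hs2, one_mul]
  have c3 : d0'.dualMap.comp V3 = V4.comp r2 := by
    ext h l0'
    simp only [V3, V4, LinearMap.comp_apply, LinearMap.dualMap_apply, LinearMap.smul_apply,
      LinearMap.flip_apply, smul_eq_mul]
    rw [sq3, mul_assoc, ← mul_assoc s3⁻¹, inv_mul_cancel₀ hs3, one_mul]
  have c4 : r0'.dualMap.comp V4 = V5.comp d2 := by
    ext l y0'
    simp only [V4, V5, LinearMap.comp_apply, LinearMap.dualMap_apply, LinearMap.smul_apply,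
      smul_eq_mul]
    rw [sq4, mul_assoc (s2⁻¹ * s3⁻¹), ← mul_assoc s4⁻¹, inv_mul_cancel₀ hs4, one_mul]
  have hV2 : Function.Surjective V2 :=
    LinearMap.surjective_of_surjective_of_surjective_of_injective d1 f2 r2
      r1'.dualMap f1'.dualMap d0'.dualMap V1 V2 V3 V4 c1 c2 c3 ex_H2
      (exact_dualMap f1' r1' ex_H1') (exact_dualMap d0' f1' ex_Hc1') hV1 hV3 hV4
  have hV5 : Function.Injective V5 :=
    LinearMap.injective_of_surjective_of_injective_of_right_exact r2 d2
      d0'.dualMap r0'.dualMap V3 V4 V5 c3 c4 ex_L2 (exact_dualMap r0' d0' ex_L0') hV3 hV4 surj_d2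
  refine ⟨hV2, ?_⟩
  intro x x' hxx'
  apply hV5
  simp only [V5, LinearMap.smul_apply]
  rw [hxx']

end Step

section Count

variable {X Y Z : Type*} [AddCommGroup X] [Module k X] [AddCommGroup Y] [Module k Y]
  [AddCommGroup Z] [Module k Z]

/-- Rank–nullity at an exact spot: `dim Y = rank f + rank g`. -/
theorem finrank_eq_of_exact [FiniteDimensional k Y] (f : X →ₗ[k] Y) (g : Y →ₗ[k] Z)
    (h : Function.Exact f g) :
    finrank k Y = finrank k (LinearMap.range f) + finrank k (LinearMap.range g) := by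
  have h1 := LinearMap.finrank_range_add_finrank_ker g
  rw [(LinearMap.exact_iff.1 h)] at h1
  omega

theorem finrank_eq_of_injective (f : X →ₗ[k] Y) (hf : Function.Injective f) :
    finrank k X = finrank k (LinearMap.range f) :=
  (LinearEquiv.ofInjective f hf).finrank_eq

theorem finrank_eq_of_surjective (f : X →ₗ[k] Y) (hf : Function.Surjective f) :
    finrank k Y = finrank k (LinearMap.range f) := by
  rw [LinearMap.range_eq_top.2 hf, finrank_top]

variable {V0 V1 V2 V3 V4 V5 V6 V7 V8 : Type*}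
  [AddCommGroup V0] [Module k V0] [AddCommGroup V1] [Module k V1] [AddCommGroup V2] [Module k V2]
  [AddCommGroup V3] [Module k V3] [AddCommGroup V4] [Module k V4] [AddCommGroup V5] [Module k V5]
  [AddCommGroup V6] [Module k V6] [AddCommGroup V7] [Module k V7] [AddCommGroup V8] [Module k V8]

/-- **Euler count.**  For an exact sequence `0 → V0 → V1 → ⋯ → V8 → 0` of finite-dimensional
spaces the alternating sum of the dimensions vanishes (stated in `ℕ`, without subtraction).
In the application `V0..V8 = H0, L0, Hc1, H1, L1, Hc2, H2, L2, Hc3`. -/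
theorem euler_count
    [FiniteDimensional k V1] [FiniteDimensional k V2] [FiniteDimensional k V3]
    [FiniteDimensional k V4] [FiniteDimensional k V5] [FiniteDimensional k V6]
    [FiniteDimensional k V7]
    (g0 : V0 →ₗ[k] V1) (g1 : V1 →ₗ[k] V2) (g2 : V2 →ₗ[k] V3) (g3 : V3 →ₗ[k] V4)
    (g4 : V4 →ₗ[k] V5) (g5 : V5 →ₗ[k] V6) (g6 : V6 →ₗ[k] V7) (g7 : V7 →ₗ[k] V8)
    (h0 : Function.Injective g0) (e1 : Function.Exact g0 g1) (e2 : Function.Exact g1 g2)
    (e3 : Function.Exact g2 g3) (e4 : Function.Exact g3 g4) (e5 : Function.Exact g4 g5)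
    (e6 : Function.Exact g5 g6) (e7 : Function.Exact g6 g7) (h8 : Function.Surjective g7) :
    finrank k V0 + finrank k V2 + finrank k V4 + finrank k V6 + finrank k V8
      = finrank k V1 + finrank k V3 + finrank k V5 + finrank k V7 := by
  have a0 := finrank_eq_of_injective g0 h0
  have a1 := finrank_eq_of_exact g0 g1 e1
  have a2 := finrank_eq_of_exact g1 g2 e2
  have a3 := finrank_eq_of_exact g2 g3 e3
  have a4 := finrank_eq_of_exact g3 g4 e4
  have a5 := finrank_eq_of_exact g4 g5 e5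
  have a6 := finrank_eq_of_exact g5 g6 e6
  have a7 := finrank_eq_of_exact g6 g7 e7
  have a8 := finrank_eq_of_surjective g7 h8
  omega

/-- A surjection onto a dual of dimension at least that of the source is bijective. -/
theorem bijective_of_surjective_of_finrank_le [FiniteDimensional k X] [FiniteDimensional k Y]
    (β : X →ₗ[k] Y →ₗ[k] k) (hβ : Function.Surjective β) (h : finrank k X ≤ finrank k Y) :
    Function.Bijective β := by
  have h1 : finrank k (Dual k Y) ≤ finrank k X := LinearMap.finrank_le_finrank_of_surjective hβ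
  rw [Subspace.dual_finrank_eq] at h1
  have h2 : finrank k X = finrank k (Dual k Y) := by
    rw [Subspace.dual_finrank_eq]
    exact le_antisymm h h1
  exact ⟨(LinearMap.injective_iff_surjective_of_finrank_eq_finrank h2).2 hβ, hβ⟩

/-- An injection into a dual bounds the dimension. -/
theorem finrank_le_of_injective_pairing [FiniteDimensional k Y]
    (β : X →ₗ[k] Y →ₗ[k] k) (hβ : Function.Injective β) : finrank k X ≤ finrank k Y := by
  have h1 := LinearMap.finrank_le_finrank_of_injective hβ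
  rwa [Subspace.dual_finrank_eq] at h1

/-- A perfect pairing gives equal dimensions. -/
theorem finrank_eq_of_bijective_pairing [FiniteDimensional k Y]
    (β : X →ₗ[k] Y →ₗ[k] k) (hβ : Function.Bijective β) : finrank k X = finrank k Y := by
  have h1 := (LinearEquiv.ofBijective β hβ).finrank_eq
  rwa [Subspace.dual_finrank_eq] at h1

end Count

section Good

variable {H0 L0 Hc1 H1 L1 Hc2 H2 L2 Hc3 : Type*}
  [AddCommGroup H0] [Module k H0] [AddCommGroup L0] [Module k L0]
  [AddCommGroup Hc1] [Module k Hc1] [AddCommGroup H1] [Module k H1]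
  [AddCommGroup L1] [Module k L1] [AddCommGroup Hc2] [Module k Hc2]
  [AddCommGroup H2] [Module k H2] [AddCommGroup L2] [Module k L2]
  [AddCommGroup Hc3] [Module k Hc3]
variable {H0' L0' Hc1' H1' L1' H2' : Type*}
  [AddCommGroup H0'] [Module k H0'] [AddCommGroup L0'] [Module k L0']
  [AddCommGroup Hc1'] [Module k Hc1'] [AddCommGroup H1'] [Module k H1']
  [AddCommGroup L1'] [Module k L1'] [AddCommGroup H2'] [Module k H2']

/-- **BASE, abstract form.**  The full `M`-side cone sequence
`0 → H0 → L0 → Hc1 → H1 → L1 → Hc2 → H2 → L2 → Hc3 → 0` (the final `0` is `H³(G,M) = 0`),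
the `N`-side piece `H0' → L0' → Hc1' → H1' → L1'`, local duality (`lam11` onto, `lam20`
injective), `(b1)` in both orders (`beta12 : Hc1 × H2'` perfect on the left, `beta12' : Hc1' × H2`
onto on the right), the four adjunction identities up to nonzero scalars, and ONE
Euler-characteristic inequality
`h⁰ + h²' + l¹ + h² + h⁰' ≤ l⁰ + h¹ + h¹' + l²`
(i.e. `χ(G,M) + χ(G,N) ≤ Σ_v χ(G_v,M)`), imply that `beta21 : Hc2 → H1'ᵛ` is bijective and
`beta30 : Hc3 → H0'ᵛ` is injective. -/
theorem base_good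
    [FiniteDimensional k L0] [FiniteDimensional k Hc1] [FiniteDimensional k H1]
    [FiniteDimensional k L1] [FiniteDimensional k Hc2] [FiniteDimensional k H2]
    [FiniteDimensional k L2] [FiniteDimensional k H0'] [FiniteDimensional k H1']
    [FiniteDimensional k H2']
    (r0 : H0 →ₗ[k] L0) (d0 : L0 →ₗ[k] Hc1) (f1 : Hc1 →ₗ[k] H1) (r1 : H1 →ₗ[k] L1)
    (d1 : L1 →ₗ[k] Hc2) (f2 : Hc2 →ₗ[k] H2) (r2 : H2 →ₗ[k] L2) (d2 : L2 →ₗ[k] Hc3)
    (inj_r0 : Function.Injective r0) (ex_L0 : Function.Exact r0 d0)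
    (ex_Hc1 : Function.Exact d0 f1) (ex_H1 : Function.Exact f1 r1) (ex_L1 : Function.Exact r1 d1)
    (ex_Hc2 : Function.Exact d1 f2) (ex_H2 : Function.Exact f2 r2) (ex_L2 : Function.Exact r2 d2)
    (surj_d2 : Function.Surjective d2)
    (r0' : H0' →ₗ[k] L0') (d0' : L0' →ₗ[k] Hc1') (f1' : Hc1' →ₗ[k] H1') (r1' : H1' →ₗ[k] L1')
    (ex_L0' : Function.Exact r0' d0') (ex_Hc1' : Function.Exact d0' f1')
    (ex_H1' : Function.Exact f1' r1')
    (lam11 : L1 →ₗ[k] L1' →ₗ[k] k) (beta21 : Hc2 →ₗ[k] H1' →ₗ[k] k)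
    (beta12' : Hc1' →ₗ[k] H2 →ₗ[k] k) (lam20 : L2 →ₗ[k] L0' →ₗ[k] k)
    (beta30 : Hc3 →ₗ[k] H0' →ₗ[k] k) (beta12 : Hc1 →ₗ[k] H2' →ₗ[k] k)
    (s1 s2 s3 s4 : k) (hs1 : s1 ≠ 0) (hs2 : s2 ≠ 0) (hs3 : s3 ≠ 0) (hs4 : s4 ≠ 0)
    (sq1 : ∀ l y', beta21 (d1 l) y' = s1 * lam11 l (r1' y'))
    (sq2 : ∀ z x', beta12' x' (f2 z) = s2 * beta21 z (f1' x'))
    (sq3 : ∀ h l0', lam20 (r2 h) l0' = s3 * beta12' (d0' l0') h)
    (sq4 : ∀ l y0', beta30 (d2 l) y0' = s4 * lam20 l (r0' y0'))
    (hlam11 : Function.Surjective lam11) (hbeta12' : Function.Surjective beta12'.flip)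
    (hlam20 : Function.Injective lam20) (hbeta12 : Function.Injective beta12)
    (euler : finrank k H0 + finrank k H2' + finrank k L1 + finrank k H2 + finrank k H0'
      ≤ finrank k L0 + finrank k H1 + finrank k H1' + finrank k L2) :
    Function.Bijective beta21 ∧ Function.Injective beta30 := by
  obtain ⟨hsurj, hinj⟩ := base_step d1 f2 r2 d2 r0' d0' f1' r1' ex_H2 ex_L2 surj_d2 ex_L0'
    ex_Hc1' ex_H1' lam11 beta21 beta12' lam20 beta30 s1 s2 s3 s4 hs1 hs2 hs3 hs4 sq1 sq2 sq3 sq4
    hlam11 hbeta12' hlam20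
  refine ⟨?_, hinj⟩
  have hc3 : finrank k Hc3 ≤ finrank k H0' := finrank_le_of_injective_pairing beta30 hinj
  have hc1 : finrank k Hc1 ≤ finrank k H2' := finrank_le_of_injective_pairing beta12 hbeta12
  have hcount := euler_count r0 d0 f1 r1 d1 f2 r2 d2 inj_r0 ex_L0 ex_Hc1 ex_H1 ex_L1 ex_Hc2
    ex_H2 ex_L2 surj_d2
  exact bijective_of_surjective_of_finrank_le beta21 hsurj (by omega)

end Good

end Fermat.Agent.GC.PT.BaseAbs
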