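/-
GATE-C / C5 BASE-ALG + X7 (helper21).  Mathlib only.  No groups, no representations.

The model-free linear algebra of the BASE step of the compact-support devissage:

* `injective_of_graded`, `surjective_of_graded`, `bijective_of_graded` : perfectness of a pairing
  `A × B → k` from perfectness on the graded pieces of two compatible two-step filtrations
  (`(b1)` from pieces (i) and (ii));
* `bijective_quotient_annihilator` : for a perfect pairing `L0 × L2 → k`, `D ≤ L0` and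
  `E = D^⊥ ≤ L2`, the induced pairing `(L0 ⧸ D) × E → k` is perfect (piece (i));
* `four_lemma_surjective`, `four_lemma_injective` : the four lemmas in `Function.Exact` form,
  squares commuting up to scalars (`α²_c` surjective);
* `euler_char_partial`, `euler_char_nine` : Euler characteristic of exact sequences of
  finite-dimensional spaces;
* `bijective_of_surjective_of_finrank_eq`, `finrank_Hc2_eq`, `bijective_of_count` : X7, the count
  that turns surjectivity of `α²_c` into bijectivity.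
-/
import Mathlib

set_option autoImplicit false

namespace Fermat.Agent.GC.PT.BaseAlg

open Module Function

variable {k : Type*} [Field k]

/-! ### (BA1) graded pieces -/

section Graded

variable {A' A A'' B' B B'' : Type*}
  [AddCommGroup A'] [Module k A'] [AddCommGroup A] [Module k A] [AddCommGroup A''] [Module k A'']
  [AddCommGroup B'] [Module k B'] [AddCommGroup B] [Module k B] [AddCommGroup B''] [Module k B'']

/-- Left non-degeneracy from the graded pieces. -/
theorem injective_of_graded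
    (i : A' →ₗ[k] A) (π : A →ₗ[k] A'') (hiπ : Exact i π)
    (j : B' →ₗ[k] B) (q : B →ₗ[k] B'') (hq : Surjective q)
    (β : A →ₗ[k] B →ₗ[k] k) (β' : A' →ₗ[k] B'' →ₗ[k] k) (β'' : A'' →ₗ[k] B' →ₗ[k] k)
    (h' : ∀ a' b, β (i a') b = β' a' (q b)) (h'' : ∀ a b', β a (j b') = β'' (π a) b')
    (hβ' : Injective β') (hβ'' : Injective β'') : Injective β := by
  rw [injective_iff_map_eq_zero]
  intro a ha
  have h1 : β'' (π a) = 0 := by
    apply LinearMap.ext
    intro b'
    rw [← h'', ha]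
    rfl
  have h2 : π a = 0 := (injective_iff_map_eq_zero β'').1 hβ'' _ h1
  obtain ⟨a', rfl⟩ := (hiπ a).1 h2
  have h3 : β' a' = 0 := by
    apply LinearMap.ext
    intro b''
    obtain ⟨b, rfl⟩ := hq b''
    rw [← h', ha]
    rfl
  rw [(injective_iff_map_eq_zero β').1 hβ' _ h3, map_zero]

/-- Descend a functional along a surjection killing its kernel. -/
theorem exists_descend (q : B →ₗ[k] B'') (hq : Surjective q) (ψ : B →ₗ[k] k)
    (h : ∀ b, q b = 0 → ψ b = 0) : ∃ ψ' : B'' →ₗ[k] k, ∀ b, ψ' (q b) = ψ b := by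
  refine ⟨((LinearMap.ker q).liftQ ψ (fun x hx => h x hx)).comp
    (q.quotKerEquivOfSurjective hq).symm.toLinearMap, fun b => ?_⟩
  have : (q.quotKerEquivOfSurjective hq).symm (q b) = Submodule.Quotient.mk b := by
    rw [LinearEquiv.symm_apply_eq]
    rfl
  rw [LinearMap.comp_apply, LinearEquiv.coe_coe, this]
  rfl

/-- Surjectivity onto the dual from the graded pieces. -/
theorem surjective_of_graded
    (i : A' →ₗ[k] A) (π : A →ₗ[k] A'') (hπ : Surjective π)
    (j : B' →ₗ[k] B) (q : B →ₗ[k] B'') (hjq : Exact j q) (hq : Surjective q)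
    (β : A →ₗ[k] B →ₗ[k] k) (β' : A' →ₗ[k] B'' →ₗ[k] k) (β'' : A'' →ₗ[k] B' →ₗ[k] k)
    (h' : ∀ a' b, β (i a') b = β' a' (q b)) (h'' : ∀ a b', β a (j b') = β'' (π a) b')
    (hβ' : Surjective β') (hβ'' : Surjective β'') : Surjective β := by
  intro φ
  obtain ⟨a'', ha''⟩ := hβ'' (φ.comp j)
  obtain ⟨a, rfl⟩ := hπ a''
  have hker : ∀ b, q b = 0 → (φ - β a) b = 0 := by
    intro b hb
    obtain ⟨b', rfl⟩ := (hjq b).1 hb
    rw [LinearMap.sub_apply, h'', ha'']
    simp
  obtain ⟨ψ', hψ'⟩ := exists_descend q hq (φ - β a) hker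
  obtain ⟨a', ha'⟩ := hβ' ψ'
  refine ⟨a + i a', ?_⟩
  apply LinearMap.ext
  intro b
  rw [map_add, LinearMap.add_apply, h', ha', hψ', LinearMap.sub_apply]
  abel

/-- **Graded pieces.** Perfectness of `β : A × B → k` from perfectness of `β' : A' × B'' → k` and
`β'' : A'' × B' → k`, where `A' → A → A''` and `B' → B → B''` are short exact and `β` induces
`β'`, `β''`. -/
theorem bijective_of_graded
    (i : A' →ₗ[k] A) (π : A →ₗ[k] A'') (hiπ : Exact i π) (hπ : Surjective π)
    (j : B' →ₗ[k] B) (q : B →ₗ[k] B'') (hjq : Exact j q) (hq : Surjective q)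
    (β : A →ₗ[k] B →ₗ[k] k) (β' : A' →ₗ[k] B'' →ₗ[k] k) (β'' : A'' →ₗ[k] B' →ₗ[k] k)
    (h' : ∀ a' b, β (i a') b = β' a' (q b)) (h'' : ∀ a b', β a (j b') = β'' (π a) b')
    (hβ' : Bijective β') (hβ'' : Bijective β'') : Bijective β :=
  ⟨injective_of_graded i π hiπ j q hq β β' β'' h' h'' hβ'.1 hβ''.1,
    surjective_of_graded i π hπ j q hjq hq β β' β'' h' h'' hβ'.2 hβ''.2⟩

end Graded

/-! ### (BA2) quotient / annihilator -/

section Annihilator

variable {L0 L2 : Type*} [AddCommGroup L0] [Module k L0] [AddCommGroup L2] [Module k L2]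

/-- The pairing induced on `(L0 ⧸ D) × E` when `E` is orthogonal to `D`. -/
def quotPairing (γ : L0 →ₗ[k] L2 →ₗ[k] k) (D : Submodule k L0) (E : Submodule k L2)
    (hE : ∀ d ∈ D, ∀ y ∈ E, γ d y = 0) : (L0 ⧸ D) →ₗ[k] E →ₗ[k] k :=
  D.liftQ ((LinearMap.lcomp k k E.subtype).comp γ) (by
    intro d hd
    rw [LinearMap.mem_ker]
    apply LinearMap.ext
    intro y
    exact hE d hd y.1 y.2)

@[simp]
theorem quotPairing_mk (γ : L0 →ₗ[k] L2 →ₗ[k] k) (D : Submodule k L0) (E : Submodule k L2)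
    (hE : ∀ d ∈ D, ∀ y ∈ E, γ d y = 0) (x : L0) (y : E) :
    quotPairing γ D E hE (Submodule.Quotient.mk x) y = γ x y.1 := rfl

/-- **Piece (i).** For a perfect pairing `γ : L0 × L2 → k` of finite-dimensional spaces, a subspace
`D ≤ L0` and its orthogonal `E = D^⊥ ≤ L2`, the induced pairing `(L0 ⧸ D) × E → k` is perfect. -/
theorem bijective_quotient_annihilator [FiniteDimensional k L2]
    (γ : L0 →ₗ[k] L2 →ₗ[k] k) (hγ : Bijective γ) (D : Submodule k L0) (E : Submodule k L2)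
    (hE : ∀ y, y ∈ E ↔ ∀ d ∈ D, γ d y = 0) :
    Bijective (quotPairing γ D E (fun d hd y hy => (hE y).1 hy d hd)) := by
  have hflip : Bijective γ.flip := LinearMap.flip_bijective_iff₂.2 hγ
  constructor
  · rw [injective_iff_map_eq_zero]
    intro x hx
    induction x using Submodule.Quotient.induction_on with
    | H x =>
      rw [Submodule.Quotient.mk_eq_zero]
      by_contra hxD
      obtain ⟨f, hfx, hDf⟩ := Submodule.exists_le_ker_of_notMem hxD
      obtain ⟨y, hy⟩ := hflip.2 f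
      have hyE : y ∈ E := by
        rw [hE]
        intro d hd
        have : γ.flip y d = f d := by rw [hy]
        rw [LinearMap.flip_apply] at this
        rw [this]
        exact hDf hd
      have h1 : quotPairing γ D E (fun d hd y hy => (hE y).1 hy d hd)
          (Submodule.Quotient.mk x) ⟨y, hyE⟩ = 0 := by rw [hx]; rfl
      rw [quotPairing_mk] at h1
      apply hfx
      rw [← hy, LinearMap.flip_apply]
      exact h1
  · intro φ
    obtain ⟨φ', hφ'⟩ := LinearMap.exists_extend φ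
    obtain ⟨x, hx⟩ := hγ.2 φ'
    refine ⟨Submodule.Quotient.mk x, ?_⟩
    apply LinearMap.ext
    intro y
    rw [quotPairing_mk, hx, ← hφ']
    rfl

end Annihilator

/-! ### (BA3) four lemmas, squares commuting up to nonzero scalars -/

section Four

variable {A1 B1 C1 D1 E1 A2 B2 C2 D2 E2 : Type*}
  [AddCommGroup A1] [Module k A1] [AddCommGroup B1] [Module k B1] [AddCommGroup C1] [Module k C1]
  [AddCommGroup D1] [Module k D1] [AddCommGroup E1] [Module k E1]
  [AddCommGroup A2] [Module k A2] [AddCommGroup B2] [Module k B2] [AddCommGroup C2] [Module k C2]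
  [AddCommGroup D2] [Module k D2] [AddCommGroup E2] [Module k E2]

/-- Four lemma, epi version: rows `B1 → C1 → D1 → E1`, `B2 → C2 → D2 → E2`; `b`, `d` surjective,
`e` injective ⟹ `c` surjective.  Squares commute up to the nonzero scalars `s₁ s₂ s₃`. -/
theorem four_lemma_surjective
    (f1 : B1 →ₗ[k] C1) (g1 : C1 →ₗ[k] D1) (h1 : D1 →ₗ[k] E1)
    (f2 : B2 →ₗ[k] C2) (g2 : C2 →ₗ[k] D2) (h2 : D2 →ₗ[k] E2)
    (b : B1 →ₗ[k] B2) (c : C1 →ₗ[k] C2) (d : D1 →ₗ[k] D2) (e : E1 →ₗ[k] E2)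
    (hgh1 : Exact g1 h1) (hfg2 : Exact f2 g2) (hgh2 : ∀ y, h2 (g2 y) = 0)
    (s₁ s₂ s₃ : k) (hs₁ : s₁ ≠ 0) (hs₂ : s₂ ≠ 0)
    (sq₁ : ∀ x, c (f1 x) = s₁ • f2 (b x)) (sq₂ : ∀ x, d (g1 x) = s₂ • g2 (c x))
    (sq₃ : ∀ x, e (h1 x) = s₃ • h2 (d x))
    (hb : Surjective b) (hd : Surjective d) (he : Injective e) : Surjective c := by
  intro y
  obtain ⟨x, hx⟩ := hd (s₂ • g2 y)
  have hx0 : h1 x = 0 := by
    apply he
    rw [sq₃, hx, map_smul, hgh2, smul_zero, smul_zero, map_zero]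
  obtain ⟨z, rfl⟩ := (hgh1 x).1 hx0
  have h3 : g2 (y - c z) = 0 := by
    have := sq₂ z
    rw [hx] at this
    have h4 : g2 y = g2 (c z) := smul_right_injective _ hs₂ this
    rw [map_sub, h4, sub_self]
  obtain ⟨w, hw⟩ := (hfg2 _).1 h3
  obtain ⟨v, rfl⟩ := hb w
  refine ⟨z + s₁⁻¹ • f1 v, ?_⟩
  rw [map_add, map_smul, sq₁, smul_smul, inv_mul_cancel₀ hs₁, one_smul, hw]
  abel

/-- Four lemma, mono version: rows `A1 → B1 → C1 → D1`, `A2 → B2 → C2 → D2`; `a` surjective,
`b`, `d` injective ⟹ `c` injective.  Squares commute up to the nonzero scalars `s₀ s₁ s₂`. -/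
theorem four_lemma_injective
    (e1 : A1 →ₗ[k] B1) (f1 : B1 →ₗ[k] C1) (g1 : C1 →ₗ[k] D1)
    (e2 : A2 →ₗ[k] B2) (f2 : B2 →ₗ[k] C2) (g2 : C2 →ₗ[k] D2)
    (a : A1 →ₗ[k] A2) (b : B1 →ₗ[k] B2) (c : C1 →ₗ[k] C2) (d : D1 →ₗ[k] D2)
    (hfg1 : Exact f1 g1) (hef2 : Exact e2 f2) (hef1 : ∀ x, f1 (e1 x) = 0)
    (s₀ s₁ s₂ : k) (hs₀ : s₀ ≠ 0) (hs₁ : s₁ ≠ 0)
    (sq₀ : ∀ x, b (e1 x) = s₀ • e2 (a x)) (sq₁ : ∀ x, c (f1 x) = s₁ • f2 (b x))
    (sq₂ : ∀ x, d (g1 x) = s₂ • g2 (c x))
    (ha : Surjective a) (hb : Injective b) (hd : Injective d) : Injective c := by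
  rw [injective_iff_map_eq_zero]
  intro x hx
  have h1 : g1 x = 0 := by
    apply hd
    rw [sq₂, hx, map_zero, smul_zero, map_zero]
  obtain ⟨y, rfl⟩ := (hfg1 x).1 h1
  have h2 : f2 (b y) = 0 := by
    have := sq₁ y
    rw [hx] at this
    exact (smul_eq_zero.1 this.symm).resolve_left hs₁
  obtain ⟨w, hw⟩ := (hef2 _).1 h2
  obtain ⟨v, rfl⟩ := ha w
  have h3 : b y = b (s₀⁻¹ • e1 v) := by
    rw [map_smul, sq₀, smul_smul, inv_mul_cancel₀ hs₀, one_smul, hw]
  rw [hb h3, map_smul, hef1, smul_zero]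

end Four

/-! ### (BA4) Euler characteristic -/

section Euler

/-- Rank of the middle term of an exact pair. -/
theorem finrank_eq_of_exact {X Y Z : Type*} [AddCommGroup X] [Module k X] [AddCommGroup Y]
    [Module k Y] [AddCommGroup Z] [Module k Z] [FiniteDimensional k Y]
    (f : X →ₗ[k] Y) (g : Y →ₗ[k] Z) (h : Exact f g) :
    finrank k Y = finrank k (LinearMap.range f) + finrank k (LinearMap.range g) := by
  have h1 := LinearMap.finrank_range_add_finrank_ker g
  rw [(LinearMap.exact_iff.1 h)] at h1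
  omega

theorem finrank_eq_of_injective {X Y : Type*} [AddCommGroup X] [Module k X] [AddCommGroup Y]
    [Module k Y] (f : X →ₗ[k] Y) (h : Injective f) :
    finrank k X = finrank k (LinearMap.range f) :=
  (LinearMap.finrank_range_of_inj h).symm

theorem finrank_eq_of_surjective {X Y : Type*} [AddCommGroup X] [Module k X] [AddCommGroup Y]
    [Module k Y] (f : X →ₗ[k] Y) (h : Surjective f) :
    finrank k Y = finrank k (LinearMap.range f) := by
  rw [LinearMap.range_eq_top.2 h, finrank_top]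

/-- Euler characteristic of a (left-bounded) exact sequence `0 → V 0 → V 1 → V 2 → ⋯`: the
alternating sum of the first `n + 1` dimensions is `± rank (f n)`. -/
theorem euler_char_partial (V : ℕ → Type*) [∀ i, AddCommGroup (V i)] [∀ i, Module k (V i)]
    [∀ i, FiniteDimensional k (V i)] (f : ∀ i, V i →ₗ[k] V (i + 1)) (h0 : Injective (f 0))
    (hex : ∀ i, Exact (f i) (f (i + 1))) (n : ℕ) :
    ∑ i ∈ Finset.range (n + 1), (-1 : ℤ) ^ i * (finrank k (V i) : ℤ) =
      (-1) ^ n * (finrank k (LinearMap.range (f n)) : ℤ) := by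
  induction n with
  | zero => simp [finrank_eq_of_injective (f 0) h0]
  | succ n ih =>
    rw [Finset.sum_range_succ, ih, finrank_eq_of_exact (f n) (f (n + 1)) (hex n)]
    push_cast
    ring

variable {V0 V1 V2 V3 V4 V5 V6 V7 V8 : Type*}
  [AddCommGroup V0] [Module k V0] [AddCommGroup V1] [Module k V1] [AddCommGroup V2] [Module k V2]
  [AddCommGroup V3] [Module k V3] [AddCommGroup V4] [Module k V4] [AddCommGroup V5] [Module k V5]
  [AddCommGroup V6] [Module k V6] [AddCommGroup V7] [Module k V7] [AddCommGroup V8] [Module k V8]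

/-- Euler characteristic of a nine-term exact sequence `0 → V0 → V1 → ⋯ → V8 → 0`
(`0 → H⁰ → ⊕H⁰_v → H¹_c → H¹ → ⊕H¹_v → H²_c → H² → ⊕H²_v → H³_c → 0`). -/
theorem euler_char_nine
    [FiniteDimensional k V1] [FiniteDimensional k V2] [FiniteDimensional k V3]
    [FiniteDimensional k V4] [FiniteDimensional k V5] [FiniteDimensional k V6]
    [FiniteDimensional k V7]
    (f0 : V0 →ₗ[k] V1) (f1 : V1 →ₗ[k] V2) (f2 : V2 →ₗ[k] V3) (f3 : V3 →ₗ[k] V4)
    (f4 : V4 →ₗ[k] V5) (f5 : V5 →ₗ[k] V6) (f6 : V6 →ₗ[k] V7) (f7 : V7 →ₗ[k] V8)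
    (h0 : Injective f0) (e1 : Exact f0 f1) (e2 : Exact f1 f2) (e3 : Exact f2 f3)
    (e4 : Exact f3 f4) (e5 : Exact f4 f5) (e6 : Exact f5 f6) (e7 : Exact f6 f7)
    (h8 : Surjective f7) :
    (finrank k V0 : ℤ) - finrank k V1 + finrank k V2 - finrank k V3 + finrank k V4
      - finrank k V5 + finrank k V6 - finrank k V7 + finrank k V8 = 0 := by
  have a0 := finrank_eq_of_injective f0 h0
  have a1 := finrank_eq_of_exact f0 f1 e1
  have a2 := finrank_eq_of_exact f1 f2 e2
  have a3 := finrank_eq_of_exact f2 f3 e3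
  have a4 := finrank_eq_of_exact f3 f4 e4
  have a5 := finrank_eq_of_exact f4 f5 e5
  have a6 := finrank_eq_of_exact f5 f6 e6
  have a7 := finrank_eq_of_exact f6 f7 e7
  have a8 := finrank_eq_of_surjective f7 h8
  omega

end Euler

/-! ### (BA5) X7: the count -/

section Count

/-- A surjection onto the dual of a space of the same finite dimension is bijective. -/
theorem bijective_of_surjective_of_finrank_eq {X Y : Type*} [AddCommGroup X] [Module k X]
    [AddCommGroup Y] [Module k Y] [FiniteDimensional k X] [FiniteDimensional k Y]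
    (c : X →ₗ[k] Y →ₗ[k] k) (hc : Surjective c) (h : finrank k X = finrank k Y) :
    Bijective c := by
  have h' : finrank k X = finrank k (Module.Dual k Y) := by rw [Subspace.dual_finrank_eq, h]
  exact ⟨(LinearMap.injective_iff_surjective_of_finrank_eq_finrank (f := c) h').2 hc, hc⟩

/-- An injection into the dual of a space of the same finite dimension is bijective. -/
theorem bijective_of_injective_of_finrank_eq {X Y : Type*} [AddCommGroup X] [Module k X]
    [AddCommGroup Y] [Module k Y] [FiniteDimensional k X] [FiniteDimensional k Y]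
    (c : X →ₗ[k] Y →ₗ[k] k) (hc : Injective c) (h : finrank k X = finrank k Y) :
    Bijective c := by
  have h' : finrank k X = finrank k (Module.Dual k Y) := by rw [Subspace.dual_finrank_eq, h]
  exact ⟨hc, (LinearMap.injective_iff_surjective_of_finrank_eq_finrank (f := c) h').1 hc⟩

variable {H0 L0 Hc1 H1 L1 Hc2 H2 L2 Hc3 : Type*}
  [AddCommGroup H0] [Module k H0] [AddCommGroup L0] [Module k L0] [AddCommGroup Hc1]
  [Module k Hc1] [AddCommGroup H1] [Module k H1] [AddCommGroup L1] [Module k L1]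
  [AddCommGroup Hc2] [Module k Hc2] [AddCommGroup H2] [Module k H2] [AddCommGroup L2]
  [Module k L2] [AddCommGroup Hc3] [Module k Hc3]

/-- **X7, the count.** From the exact sequence
`0 → H⁰ → ⊕H⁰_v → H¹_c → H¹ → ⊕H¹_v → H²_c → H² → ⊕H²_v → H³_c → 0` (all for `M`), the equalities
`dim H¹_c(M) = dim H²(N)` (from `(b1)`), `dim H³_c(M) = dim H⁰(N)` and the global Euler–Poincaré
identity `h⁰(M) - h¹(M) + h²(M) + h⁰(N) - h¹(N) + h²(N) = Σ_v (h⁰_v - h¹_v + h²_v)(M)`,
one gets `dim H²_c(M) = dim H¹(N)`. -/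
theorem finrank_Hc2_eq
    [FiniteDimensional k L0] [FiniteDimensional k Hc1] [FiniteDimensional k H1]
    [FiniteDimensional k L1] [FiniteDimensional k Hc2] [FiniteDimensional k H2]
    [FiniteDimensional k L2]
    (f0 : H0 →ₗ[k] L0) (f1 : L0 →ₗ[k] Hc1) (f2 : Hc1 →ₗ[k] H1) (f3 : H1 →ₗ[k] L1)
    (f4 : L1 →ₗ[k] Hc2) (f5 : Hc2 →ₗ[k] H2) (f6 : H2 →ₗ[k] L2) (f7 : L2 →ₗ[k] Hc3)
    (h0 : Injective f0) (e1 : Exact f0 f1) (e2 : Exact f1 f2) (e3 : Exact f2 f3)
    (e4 : Exact f3 f4) (e5 : Exact f4 f5) (e6 : Exact f5 f6) (e7 : Exact f6 f7)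
    (h8 : Surjective f7)
    (h0N h1N h2N : ℕ) (hc1 : finrank k Hc1 = h2N) (hc3 : finrank k Hc3 = h0N)
    (EP : (finrank k H0 : ℤ) - finrank k H1 + finrank k H2 + h0N - h1N + h2N =
      (finrank k L0 : ℤ) - finrank k L1 + finrank k L2) :
    finrank k Hc2 = h1N := by
  have h := euler_char_nine f0 f1 f2 f3 f4 f5 f6 f7 h0 e1 e2 e3 e4 e5 e6 e7 h8
  rw [hc1, hc3] at h
  omega

/-- **X7.** `α²_c : H²_c(M) → H¹(N)ᵛ` surjective (four lemma) + the count ⟹ bijective. -/
theorem bijective_of_count {H1N : Type*} [AddCommGroup H1N] [Module k H1N]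
    [FiniteDimensional k H1N]
    [FiniteDimensional k L0] [FiniteDimensional k Hc1] [FiniteDimensional k H1]
    [FiniteDimensional k L1] [FiniteDimensional k Hc2] [FiniteDimensional k H2]
    [FiniteDimensional k L2]
    (f0 : H0 →ₗ[k] L0) (f1 : L0 →ₗ[k] Hc1) (f2 : Hc1 →ₗ[k] H1) (f3 : H1 →ₗ[k] L1)
    (f4 : L1 →ₗ[k] Hc2) (f5 : Hc2 →ₗ[k] H2) (f6 : H2 →ₗ[k] L2) (f7 : L2 →ₗ[k] Hc3)
    (h0 : Injective f0) (e1 : Exact f0 f1) (e2 : Exact f1 f2) (e3 : Exact f2 f3)
    (e4 : Exact f3 f4) (e5 : Exact f4 f5) (e6 : Exact f5 f6) (e7 : Exact f6 f7)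
    (h8 : Surjective f7)
    (h0N h2N : ℕ) (hc1 : finrank k Hc1 = h2N) (hc3 : finrank k Hc3 = h0N)
    (EP : (finrank k H0 : ℤ) - finrank k H1 + finrank k H2 + h0N - finrank k H1N + h2N =
      (finrank k L0 : ℤ) - finrank k L1 + finrank k L2)
    (c : Hc2 →ₗ[k] H1N →ₗ[k] k) (hc : Surjective c) : Bijective c :=
  bijective_of_surjective_of_finrank_eq c hc
    (finrank_Hc2_eq f0 f1 f2 f3 f4 f5 f6 f7 h0 e1 e2 e3 e4 e5 e6 e7 h8 h0N (finrank k H1N) h2N
      hc1 hc3 EP)

end Count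

end Fermat.Agent.GC.PT.BaseAlg
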