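/-
GATE-C / C5 (helper50): BASE-INJ, flipped side.  Injectivity of
`h₁₂' : H¹_c(W*) → H²(G, W)ᵛ` for `W = Coind_H^G k`, `χ|_H = 1`, by the covering trick applied to
`W* ≅ W` (helper5's `coindTrivDualIso`): covers of `W*` are the `W'*`, `W' = Coind_{H'}^G k`, through
`W* ≅ W ↪ W' ≅ W'*`; the adjoint map `W' → W` is the transpose under biduality (`ddIso`).
-/
import Fermat.Agent.GC.PT.BaseInj
import Fermat.Agent.GC.Prof.CoindTrivDual

set_option autoImplicit false

open CategoryTheory Module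

noncomputable section

namespace Fermat.Agent.GC.PT

open Fermat.Agent.GC.Prof Fermat.Agent.GC.Prof.Cone Fermat.Agent.GC.PT.Triples

universe u

variable {k G : Type u} [Field k] [Group G] {𝒰 : LevelSystem G}
variable {L : LocalData 𝒰} {χ : G →* kˣ}

section Transpose

variable {M M₁ : Rep.{u} k G} [FiniteDimensional k M] [FiniteDimensional k M₁]

/-- The transpose `M₁ ⟶ M` of a morphism `φ : M* ⟶ M₁*` under biduality. -/
def transposeOfDual (φ : M.dualTwist χ ⟶ M₁.dualTwist χ) : M₁ ⟶ M :=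
  (ddIso χ M₁).hom ≫ Triples.dualTwistMap χ φ ≫ (ddIso χ M).inv

theorem transposeOfDual_apply (φ : M.dualTwist χ ⟶ M₁.dualTwist χ) (m₁ : M₁)
    (n : M.dualTwist χ) :
    evB χ M ((transposeOfDual φ).hom m₁) n = evB χ M₁ m₁ (φ.hom n) := by
  have h1 : (ddIso χ M).hom.hom ((transposeOfDual φ).hom m₁) =
      (Triples.dualTwistMap χ φ).hom ((ddIso χ M₁).hom.hom m₁) := by
    have h := congrArg (fun f => f.hom m₁)
      (show transposeOfDual φ ≫ (ddIso χ M).hom = (ddIso χ M₁).hom ≫ Triples.dualTwistMap χ φ by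
        simp [transposeOfDual])
    simpa using h
  rw [← evB_ddIso χ M ((transposeOfDual φ).hom m₁) n, h1]
  rfl

end Transpose

/-- **Injectivity of `h₁₂` on the flipped side** `(W*, W, ev.flip)`, `W = Coind_H^G k`, `χ|_H = 1`:
`α¹_c(W*) : H¹_c(W*) → H²(G, W)ᵛ` is injective as soon as, for every open `H' ≤ H`, the pairing of
`(W'*, W', ev.flip)` (`W' = Coind_{H'}^G k`) is injective on the image of the boundary map
`∏_v H⁰(G_v, W'*) → H¹_c(W'*)`. -/
theorem ConePairingData.h12_injective_coind_ev_flip (D : ConePairingData L χ) [Nonempty L.ι]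
    (hχ : ∃ U ∈ 𝒰.sets, ∀ g ∈ U, χ g = 1) {H : Subgroup G} (hH : IsOpenSub 𝒰 H)
    (hχH : ∀ s : H, χ (s : G) = 1)
    [IsDiscrete 𝒰 (Rep.coind H.subtype (Rep.trivial k H k))]
    [IsDiscrete 𝒰 ((Rep.coind H.subtype (Rep.trivial k H k)).dualTwist χ)]
    (hbdry : ∀ (H' : Subgroup G), H' ≤ H → IsOpenSub 𝒰 H' →
      ∀ [IsDiscrete 𝒰 (Rep.coind H'.subtype (Rep.trivial k H' k))]
        [IsDiscrete 𝒰 ((Rep.coind H'.subtype (Rep.trivial k H' k)).dualTwist χ)],
      ∀ b, (∀ y₁, (D.pair _ _ (evB χ (Rep.coind H'.subtype (Rep.trivial k H' k))).flip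
          (isChiPairing_evB χ _).flip).h12 (HlcCBdry L _ 0 b) y₁ = 0) →
        HlcCBdry L ((Rep.coind H'.subtype (Rep.trivial k H' k)).dualTwist χ) 0 b = 0) :
    Function.Injective (D.pair _ _ (evB χ (Rep.coind H.subtype (Rep.trivial k H k))).flip
      (isChiPairing_evB χ _).flip).h12 := by
  have : H.FiniteIndex := hH.finiteIndex
  have : FiniteDimensional k (Rep.coind H.subtype (Rep.trivial k H k)) :=
    RepDevissage.finiteDimensional_coind H (Rep.trivial k H k)
  refine D.h12_injective_of_covers _ _ fun x => ?_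
  -- transport the class to `W` and kill it in some `W'`
  let θ := coindTrivDualIso H χ hχH
  obtain ⟨H', hle, hH', hkill⟩ := Kill.exists_kill_trivial 𝒰 k hH
    ((HlcMap 𝒰 θ.inv 1).hom ((HlcCToH L _ 1).hom x))
  have : H'.FiniteIndex := hH'.finiteIndex
  have : FiniteDimensional k (Rep.coind H'.subtype (Rep.trivial k H' k)) :=
    RepDevissage.finiteDimensional_coind H' (Rep.trivial k H' k)
  have hdisc : IsDiscrete 𝒰 (Rep.coind H'.subtype (Rep.trivial k H' k)) :=
    Kill.isDiscrete_coind_trivial 𝒰 k hH'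
  have hd : IsDiscrete 𝒰 ((Rep.coind H'.subtype (Rep.trivial k H' k)).dualTwist χ) :=
    isDiscrete_dualTwist 𝒰 χ hχ _
  let θ' := coindTrivDualIso H' χ (fun s => hχH ⟨(s : G), hle s.2⟩)
  let φ : (Rep.coind H.subtype (Rep.trivial k H k)).dualTwist χ ⟶
      (Rep.coind H'.subtype (Rep.trivial k H' k)).dualTwist χ :=
    θ.inv ≫ Kill.coindInclTriv k hle ≫ θ'.hom
  have hφinj : Function.Injective φ.hom := by
    have : Mono (Kill.coindInclTriv (k := k) k hle) :=
      (Rep.mono_iff_injective _).2 (Kill.coindInclTriv_injective k hle)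
    exact (Rep.mono_iff_injective φ).1 inferInstance
  refine ⟨_, _, hd, hdisc, (evB χ _).flip, (isChiPairing_evB χ _).flip, φ, transposeOfDual φ,
    hφinj, fun n m₁ => (transposeOfDual_apply φ m₁ n).symm, ?_, hbdry H' hle hH'⟩
  -- `φ` kills the class
  have h1 : HlcMap 𝒰 φ 1 = HlcMap 𝒰 θ.inv 1 ≫ HlcMap 𝒰 (Kill.coindInclTriv k hle) 1 ≫
      HlcMap 𝒰 θ'.hom 1 := by
    rw [← HlcMap_comp, ← HlcMap_comp]
  rw [h1]
  have h2 : (HlcMap 𝒰 (Kill.coindInclTriv k hle) 1).hom
      ((HlcMap 𝒰 θ.inv 1).hom ((HlcCToH L _ 1).hom x)) = 0 := hkill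
  simp only [ModuleCat.hom_comp, LinearMap.comp_apply]
  rw [h2, map_zero]

end Fermat.Agent.GC.PT
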