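/-
GATE-C / C5 (helper10): the instance of helper74's `ConeBdryData` (abstract (E8)) for ANY
`D : ConePairingData L χ` whose pairings are presented as cup/trace pairings
`cPairing L hB' htr = CPairing.ofCup (coneCCupData L hB') tr htr` with values in a fixed
coefficient module `P` (`= k(χ)`), in terms of `ConeE8.lamPi`; plus the `τ`-form of the local
pairings when `tr` comes from `TraceExt.exists_trace`.
-/
import Fermat.Agent.GC.PT.BaseTop
import Fermat.Agent.GC.PT.ConeE8Sum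

set_option autoImplicit false

open CategoryTheory

noncomputable section

namespace Fermat.Agent.GC.PT

open Fermat.Agent.GC.Prof Fermat.Agent.GC.Prof.Elt Fermat.Agent.GC.Prof.CupAbs
open Fermat.Agent.GC.Prof.Cone Fermat.Agent.GC.PT.ConeE8
open Fermat.Agent.GC.Prof.Cup (Equivariant)

universe u

variable {k G : Type u} [Field k] [Group G] {𝒰 : LevelSystem G}
variable {L : LocalData 𝒰} {χ : G →* kˣ}

/-- A presentation of the abstract pairings `D.pair M N B hB` as cup/trace pairings with values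
in one coefficient module `P` (in practice `P = k(χ)` and `toP B = B`). -/
structure ConeCupPres (D : ConePairingData L χ) where
  /-- the target of the cup product -/
  P : Rep.{u} k G
  [discP : IsDiscrete 𝒰 P]
  /-- a `χ`-pairing, seen with values in `P` -/
  toP : ∀ (M N : Rep.{u} k G) (B : M →ₗ[k] N →ₗ[k] k), IsChiPairing χ B → (M →ₗ[k] N →ₗ[k] P)
  equiv : ∀ (M N : Rep.{u} k G) (B : M →ₗ[k] N →ₗ[k] k) (hB : IsChiPairing χ B),
    Equivariant M.ρ N.ρ P.ρ (toP M N B hB)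
  /-- the trace -/
  tr : (coneC L P).X 3 →ₗ[k] k
  htr : ∀ e : (coneC L P).X 2, tr (((coneC L P).d 2 3).hom e) = 0
  pair_eq : ∀ (M N : Rep.{u} k G) [IsDiscrete 𝒰 M] [IsDiscrete 𝒰 N] (B : M →ₗ[k] N →ₗ[k] k)
    (hB : IsChiPairing χ B),
    D.pair M N B hB = cPairing L (equiv M N B hB) htr

attribute [instance] ConeCupPres.discP

namespace ConeCupPres

variable {D : ConePairingData L χ} (C : ConeCupPres D)

/-- The local pairings of a presentation, `(b, c) ↦ locTr ((b_v ∪ c_v)_v)`. -/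
def lamP (M N : Rep.{u} k G) [IsDiscrete 𝒰 M] [IsDiscrete 𝒰 N] (B : M →ₗ[k] N →ₗ[k] k)
    (hB : IsChiPairing χ B) {i j : ℕ} (h : i + j = 2) :
    (∀ v, Hlc (L.𝒰v v) (Rep.res (L.r v) M) i) →ₗ[k]
      (∀ v, Hlc (L.𝒰v v) (Rep.res (L.r v) N) j) →ₗ[k] k :=
  lamPi L (C.equiv M N B hB) C.htr h

/-- The local part of the trace of a presentation. -/
def locTrP : (∀ v, Hlc (L.𝒰v v) (Rep.res (L.r v) C.P) 2) →ₗ[k] k :=
  locTr L C.htr

theorem lamP_apply (M N : Rep.{u} k G) [IsDiscrete 𝒰 M] [IsDiscrete 𝒰 N]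
    (B : M →ₗ[k] N →ₗ[k] k) (hB : IsChiPairing χ B) {i j : ℕ} (h : i + j = 2)
    (b : ∀ v, Hlc (L.𝒰v v) (Rep.res (L.r v) M) i)
    (c : ∀ v, Hlc (L.𝒰v v) (Rep.res (L.r v) N) j) :
    C.lamP M N B hB h b c =
      C.locTrP fun v =>
              HlcCup (L.𝒰v v) (locB L (C.toP M N B hB) v) (equivariant_locB L (C.equiv M N B hB) v) h
          (b v) (c v) := by
  exact lamPi_apply L (C.equiv M N B hB) C.htr h b c

/-- If the trace is a `TraceExt` trace for `τ`, the local part of the trace is `τ`. -/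
theorem locTrP_eq_of_trace (τ : (∀ v, Hlc (L.𝒰v v) (Rep.res (L.r v) C.P) 2) →ₗ[k] k)
    (h : ∀ (z : zSub (coneC L C.P) 3) (e : ∀ v, Hlc (L.𝒰v v) (Rep.res (L.r v) C.P) 2),
      hMk (coneC L C.P) 3 z = HlcCBdry L C.P 2 e → C.tr z.1 = τ e) :
    C.locTrP = τ := by
  exact locTr_eq_of_trace L C.htr τ h

/-- The local pairings in `τ`-form, for a `TraceExt` trace. -/
theorem lamP_apply_of_trace (τ : (∀ v, Hlc (L.𝒰v v) (Rep.res (L.r v) C.P) 2) →ₗ[k] k)
    (hτ : ∀ (z : zSub (coneC L C.P) 3) (e : ∀ v, Hlc (L.𝒰v v) (Rep.res (L.r v) C.P) 2),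
      hMk (coneC L C.P) 3 z = HlcCBdry L C.P 2 e → C.tr z.1 = τ e)
    (M N : Rep.{u} k G) [IsDiscrete 𝒰 M] [IsDiscrete 𝒰 N]
    (B : M →ₗ[k] N →ₗ[k] k) (hB : IsChiPairing χ B) {i j : ℕ} (h : i + j = 2)
    (b : ∀ v, Hlc (L.𝒰v v) (Rep.res (L.r v) M) i)
    (c : ∀ v, Hlc (L.𝒰v v) (Rep.res (L.r v) N) j) :
    C.lamP M N B hB h b c =
      τ fun v =>
        HlcCup (L.𝒰v v) (locB L (C.toP M N B hB) v) (equivariant_locB L (C.equiv M N B hB) v) h
          (b v) (c v) := by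
  rw [lamP_apply, locTrP_eq_of_trace C τ hτ]

/-- Finitely many places: the local pairing is the sum of its components. -/
theorem lamP_eq_sum [Fintype L.ι] [DecidableEq L.ι]
    (M N : Rep.{u} k G) [IsDiscrete 𝒰 M] [IsDiscrete 𝒰 N]
    (B : M →ₗ[k] N →ₗ[k] k) (hB : IsChiPairing χ B) {i j : ℕ} (h : i + j = 2)
    (b : ∀ v, Hlc (L.𝒰v v) (Rep.res (L.r v) M) i)
    (c : ∀ v, Hlc (L.𝒰v v) (Rep.res (L.r v) N) j) :
    C.lamP M N B hB h b c =
      ∑ v, locTrAt L C.htr v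
        (HlcCup (L.𝒰v v) (locB L (C.toP M N B hB) v) (equivariant_locB L (C.equiv M N B hB) v) h
          (b v) (c v)) :=
  lamPi_eq_sum L (C.equiv M N B hB) C.htr h b c

/-- **(E8) instance**: the `ConeBdryData` of a presented `ConePairingData`. -/
def bdryData : ConeBdryData D where
  lam02 M N _ _ B hB := C.lamP M N B hB (show 0 + 2 = 2 from rfl)
  lam11 M N _ _ B hB := C.lamP M N B hB (show 1 + 1 = 2 from rfl)
  lam20 M N _ _ B hB := C.lamP M N B hB (show 2 + 0 = 2 from rfl)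
  e12 M N _ _ B hB b y := by
    rw [C.pair_eq M N B hB]
    exact h12_HlcCBdry L (C.equiv M N B hB) C.htr b y
  e21 M N _ _ B hB b y := by
    rw [C.pair_eq M N B hB]
    exact h21_HlcCBdry L (C.equiv M N B hB) C.htr b y
  e30 M N _ _ B hB b y := by
    rw [C.pair_eq M N B hB]
    exact h30_HlcCBdry L (C.equiv M N B hB) C.htr b y

@[simp] theorem bdryData_lam02 (M N : Rep.{u} k G) [IsDiscrete 𝒰 M] [IsDiscrete 𝒰 N]
    (B : M →ₗ[k] N →ₗ[k] k) (hB : IsChiPairing χ B) :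
    C.bdryData.lam02 M N B hB = C.lamP M N B hB (show 0 + 2 = 2 from rfl) := rfl

@[simp] theorem bdryData_lam11 (M N : Rep.{u} k G) [IsDiscrete 𝒰 M] [IsDiscrete 𝒰 N]
    (B : M →ₗ[k] N →ₗ[k] k) (hB : IsChiPairing χ B) :
    C.bdryData.lam11 M N B hB = C.lamP M N B hB (show 1 + 1 = 2 from rfl) := rfl

@[simp] theorem bdryData_lam20 (M N : Rep.{u} k G) [IsDiscrete 𝒰 M] [IsDiscrete 𝒰 N]
    (B : M →ₗ[k] N →ₗ[k] k) (hB : IsChiPairing χ B) :
    C.bdryData.lam20 M N B hB = C.lamP M N B hB (show 2 + 0 = 2 from rfl) := rfl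

end ConeCupPres

end Fermat.Agent.GC.PT

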