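/-
GATE-C / C5 (E8), helper10: the cone-boundary formula for the pairing built from a cup product on
the shifted cone.  Abstract part: for `P = CPairing.ofCup (coneCupData c c' hm) tr htr` on
`(cone φ, B)` one has
  `P.h₍ᵢ₊₁,₂₋ᵢ₎ (∂ b) y = lam b (ψ_* y)`,   `∂ = HToHc φ i`, `i = 0, 1, 2`,
where `lam : Hⁱ(D) × H²⁻ⁱ(B') → k` is induced by `b, z ↦ tr (0, b ∪ z)`.
-/
import Fermat.Agent.GC.PT.PairingOfCup
import Fermat.Agent.GC.Prof.ConeCup

set_option autoImplicit false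

open CategoryTheory

noncomputable section

namespace Fermat.Agent.GC.PT.ConeE8

open Fermat.Agent.GC.Prof Fermat.Agent.GC.Prof.Elt Fermat.Agent.GC.Prof.CupAbs
open Fermat.Agent.GC.Prof.Cone

universe u

variable {k : Type u} [Field k]
variable {C D B B' E E' : CochainComplex (ModuleCat.{u} k) ℕ}
variable {φ : C ⟶ D} {ψ : B ⟶ B'} {θ : E ⟶ E'}

section Trace

variable (tr : (cone θ).X 3 →ₗ[k] k)

/-- The "local" part of a trace on the cone: `e' ↦ tr (0, e')`. -/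
def trSh : E'.X 2 →ₗ[k] k :=
  tr ∘ₗ (coneXEquiv θ 3).symm.toLinearMap ∘ₗ LinearMap.inr k (E.X 3) (shX E' 3)

lemma trSh_apply (e' : E'.X 2) : trSh tr e' = tr ((coneXEquiv θ 3).symm (0, e')) := rfl

variable {tr}

/-- The local trace kills coboundaries. -/
lemma trSh_d (htr : ∀ e : (cone θ).X 2, tr (((cone θ).d 2 3).hom e) = 0) (e' : E'.X 1) :
    trSh tr (E'.d 1 2 e') = 0 := by
  have h := htr ((coneXEquiv θ 2).symm (0, e'))
  have h2 : ((cone θ).d 2 3).hom ((coneXEquiv θ 2).symm (0, e')) =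
      (coneXEquiv θ 3).symm (0, -(E'.d 1 2 e')) := by
    apply (coneXEquiv θ 3).injective
    have := coneXEquiv_d θ 2 ((coneXEquiv θ 2).symm (0, e'))
    rw [LinearEquiv.apply_symm_apply, coneDLin_apply] at this
    refine this.trans ?_
    rw [LinearEquiv.apply_symm_apply, map_zero, map_zero, zero_add]
    rfl
  rw [h2] at h
  rw [trSh_apply]
  have h3 : (coneXEquiv θ 3).symm ((0 : E.X 3), -(E'.d 1 2 e')) =
      -(coneXEquiv θ 3).symm ((0 : E.X 3), (E'.d 1 2 e' : E'.X 2)) := by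
    apply (coneXEquiv θ 3).injective
    rw [map_neg, LinearEquiv.apply_symm_apply, LinearEquiv.apply_symm_apply]
    exact Prod.ext neg_zero.symm rfl
  rw [h3, map_neg, neg_eq_zero] at h
  exact h

/-- The local trace on `H²(E')`. -/
def trShH (htr : ∀ e : (cone θ).X 2, tr (((cone θ).d 2 3).hom e) = 0) :
    E'.homology 2 →ₗ[k] k :=
  descend (hMk E' 2) (hMk_surjective E' 2) (trSh tr ∘ₗ (zSub E' 2).subtype) (by
    intro z hz
    obtain ⟨e', he'⟩ := (hMk_eq_zero_iff_succ E' 1 z).1 hz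
    show trSh tr z.1 = 0
    rw [← he']
    exact trSh_d htr e')

lemma trShH_hMk (htr : ∀ e : (cone θ).X 2, tr (((cone θ).d 2 3).hom e) = 0) (z : zSub E' 2) :
    trShH htr (hMk E' 2 z) = trSh tr z.1 :=
  descend_apply _ _ _ _ z

/-- The local pairing `Hⁱ(D) × Hʲ(B') → k`, `i + j = 2`: `([b], [z]) ↦ tr (0, b ∪ z)`. -/
def lam (c' : CupData D B' E')
    (htr : ∀ e : (cone θ).X 2, tr (((cone θ).d 2 3).hom e) = 0) {i j : ℕ} (h : i + j = 2) :
    D.homology i →ₗ[k] B'.homology j →ₗ[k] k :=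
  (c'.cupH h).compr₂ (trShH htr)

lemma lam_hMk (c' : CupData D B' E')
    (htr : ∀ e : (cone θ).X 2, tr (((cone θ).d 2 3).hom e) = 0) {i j : ℕ} (h : i + j = 2)
    (b : zSub D i) (z : zSub B' j) :
    lam c' htr h (hMk D i b) (hMk B' j z) = trSh tr (c'.cup i j 2 h b.1 z.1) := by
  unfold lam
  rw [LinearMap.compr₂_apply, CupData.cupH_hMk, trShH_hMk]
  rfl

end Trace

section E8

variable (c : CupData C B E) (c' : CupData D B' E') (hm : CupData.IsMap c c' φ ψ θ)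
  (tr : (cone θ).X 3 →ₗ[k] k) (htr : ∀ e : (cone θ).X 2, tr (((cone θ).d 2 3).hom e) = 0)

/-- The cochain-level formula: `tr ((0, b) ∪ y) = trSh (b ∪ ψ y)`. -/
lemma tr_cup_bdry (i j : ℕ) (h : i + 1 + j = 3) (b : D.X i) (y : B.X j) :
    tr ((coneCupData c c' hm).cup (i + 1) j 3 h ((coneXEquiv φ (i + 1)).symm (0, b)) y) =
      trSh tr (c'.cup i j 2 (by omega) b (ψ.f j y)) := by
  rw [coneCupData_cup_succ c c' hm i j 2 h 0 b y, trSh_apply, map_zero, LinearMap.zero_apply]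

/-- (E8) in bidegree `(1, 2)`: `h₁₂ (∂ b) y = lam b (ψ_* y)`, `b ∈ H⁰(D)`. -/
theorem h12_HToHc (b : D.homology 0) (y : B.homology 2) :
    (CPairing.ofCup (coneCupData c c' hm) tr htr).h12 (HToHc φ 0 b) y =
      lam c' htr (show 0 + 2 = 2 from rfl) b (HomologicalComplex.homologyMap ψ 2 y) := by
  obtain ⟨b, rfl⟩ := hMk_surjective D 0 b
  obtain ⟨y, rfl⟩ := hMk_surjective B 2 y
  rw [HToHc_hMk, homologyMap_hMk, lam_hMk]
  show (CPairing.ofCup (coneCupData c c' hm) tr htr).h12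
    (hMk (cone φ) 1 (zMk φ 1 0 b.1 _)) (hMk B 2 y) = _
  rw [CPairing.h12_mk, CPairing.ofCup_p12]
  exact tr_cup_bdry c c' hm tr 0 2 rfl b.1 y.1

/-- (E8) in bidegree `(2, 1)`: `h₂₁ (∂ b) y = lam b (ψ_* y)`, `b ∈ H¹(D)`. -/
theorem h21_HToHc (b : D.homology 1) (y : B.homology 1) :
    (CPairing.ofCup (coneCupData c c' hm) tr htr).h21 (HToHc φ 1 b) y =
      lam c' htr (show 1 + 1 = 2 from rfl) b (HomologicalComplex.homologyMap ψ 1 y) := by
  obtain ⟨b, rfl⟩ := hMk_surjective D 1 b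
  obtain ⟨y, rfl⟩ := hMk_surjective B 1 y
  rw [HToHc_hMk, homologyMap_hMk, lam_hMk]
  show (CPairing.ofCup (coneCupData c c' hm) tr htr).h21
    (hMk (cone φ) 2 (zMk φ 2 0 b.1 _)) (hMk B 1 y) = _
  rw [CPairing.h21_mk, CPairing.ofCup_p21]
  exact tr_cup_bdry c c' hm tr 1 1 rfl b.1 y.1

/-- (E8) in bidegree `(3, 0)`: `h₃₀ (∂ b) y = lam b (ψ_* y)`, `b ∈ H²(D)`. -/
theorem h30_HToHc (b : D.homology 2) (y : B.homology 0) :
    (CPairing.ofCup (coneCupData c c' hm) tr htr).h30 (HToHc φ 2 b) y =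
      lam c' htr (show 2 + 0 = 2 from rfl) b (HomologicalComplex.homologyMap ψ 0 y) := by
  obtain ⟨b, rfl⟩ := hMk_surjective D 2 b
  obtain ⟨y, rfl⟩ := hMk_surjective B 0 y
  rw [HToHc_hMk, homologyMap_hMk, lam_hMk]
  show (CPairing.ofCup (coneCupData c c' hm) tr htr).h30
    (hMk (cone φ) 3 (zMk φ 3 0 b.1 _)) (hMk B 0 y) = _
  rw [CPairing.h30_mk, CPairing.ofCup_p30]
  exact tr_cup_bdry c c' hm tr 2 0 rfl b.1 y.1

end E8

end Fermat.Agent.GC.PT.ConeE8
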