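/-
GATE-C / C5 (E8) complements, helper10: (1) for a trace produced by helper59's `TraceExt`
(`tr z = τ e` whenever `[z] = ∂ e`) the local trace `locTr` IS `τ`, hence
`h₍ᵢ₊₁,₂₋ᵢ₎ (∂ b) y = τ ((b_v ∪ res_v y)_v)`; (2) for finitely many places `locTr` and `lamPi`
are sums of their components.
-/
import Fermat.Agent.GC.PT.ConeE8LC

set_option autoImplicit false

open CategoryTheory

noncomputable section

namespace Fermat.Agent.GC.PT.ConeE8

open Fermat.Agent.GC.Prof Fermat.Agent.GC.Prof.Elt Fermat.Agent.GC.Prof.CupAbs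
open Fermat.Agent.GC.Prof.Cone
open Fermat.Agent.GC.Prof.Cup (Equivariant)

universe u

variable {k : Type u} [Field k]
variable {G : Type u} [Group G] {𝒰 : LevelSystem G} (L : LocalData 𝒰)
variable {M N P : Rep.{u} k G} [IsDiscrete 𝒰 M] [IsDiscrete 𝒰 N] [IsDiscrete 𝒰 P]
variable {B : M →ₗ[k] N →ₗ[k] P} (hB : Equivariant M.ρ N.ρ P.ρ B)
variable {tr : (coneC L P).X 3 →ₗ[k] k}
  (htr : ∀ e : (coneC L P).X 2, tr (((coneC L P).d 2 3).hom e) = 0)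

/-- If `tr z = τ e` whenever `[z] = ∂ e` (the output shape of `TraceExt.exists_trace`), then the
local part of the trace is `τ`. -/
theorem locTr_eq_of_trace (τ : (∀ v, Hlc (L.𝒰v v) (Rep.res (L.r v) P) 2) →ₗ[k] k)
    (h : ∀ (z : zSub (coneC L P) 3) (e : ∀ v, Hlc (L.𝒰v v) (Rep.res (L.r v) P) 2),
      hMk (coneC L P) 3 z = HlcCBdry L P 2 e → tr z.1 = τ e) :
    locTr L htr = τ := by
  apply LinearMap.ext
  intro e
  rw [← trH_HlcCBdry L htr e]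
  obtain ⟨z, hz⟩ := hMk_surjective (coneC L P) 3 (HlcCBdry L P 2 e)
  have h1 : trH (θ := resTot L P) htr (HlcCBdry L P 2 e) = tr z.1 := by
    rw [← hz]
    exact trH_hMk (θ := resTot L P) htr z
  rw [h1]
  exact h z e hz

/-- (E8) for a `TraceExt` trace: `h₁₂ (∂ b) y = τ ((b_v ∪ res_v y)_v)`. -/
theorem h12_HlcCBdry_of_trace (τ : (∀ v, Hlc (L.𝒰v v) (Rep.res (L.r v) P) 2) →ₗ[k] k)
    (h : ∀ (z : zSub (coneC L P) 3) (e : ∀ v, Hlc (L.𝒰v v) (Rep.res (L.r v) P) 2),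
      hMk (coneC L P) 3 z = HlcCBdry L P 2 e → tr z.1 = τ e)
    (b : ∀ v, Hlc (L.𝒰v v) (Rep.res (L.r v) M) 0) (y : Hlc 𝒰 N 2) :
    (cPairing L hB htr).h12 (HlcCBdry L M 0 b) y =
      τ fun v => HlcCup (L.𝒰v v) (locB L B v) (equivariant_locB L hB v)
        (show 0 + 2 = 2 from rfl) (b v) (locRes L N 2 y v) := by
  rw [h12_HlcCBdry, lamPi_apply, locTr_eq_of_trace L htr τ h]

/-- (E8) for a `TraceExt` trace: `h₂₁ (∂ b) y = τ ((b_v ∪ res_v y)_v)`. -/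
theorem h21_HlcCBdry_of_trace (τ : (∀ v, Hlc (L.𝒰v v) (Rep.res (L.r v) P) 2) →ₗ[k] k)
    (h : ∀ (z : zSub (coneC L P) 3) (e : ∀ v, Hlc (L.𝒰v v) (Rep.res (L.r v) P) 2),
      hMk (coneC L P) 3 z = HlcCBdry L P 2 e → tr z.1 = τ e)
    (b : ∀ v, Hlc (L.𝒰v v) (Rep.res (L.r v) M) 1) (y : Hlc 𝒰 N 1) :
    (cPairing L hB htr).h21 (HlcCBdry L M 1 b) y =
      τ fun v => HlcCup (L.𝒰v v) (locB L B v) (equivariant_locB L hB v)
        (show 1 + 1 = 2 from rfl) (b v) (locRes L N 1 y v) := by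
  rw [h21_HlcCBdry, lamPi_apply, locTr_eq_of_trace L htr τ h]

/-- (E8) for a `TraceExt` trace: `h₃₀ (∂ b) y = τ ((b_v ∪ res_v y)_v)`. -/
theorem h30_HlcCBdry_of_trace (τ : (∀ v, Hlc (L.𝒰v v) (Rep.res (L.r v) P) 2) →ₗ[k] k)
    (h : ∀ (z : zSub (coneC L P) 3) (e : ∀ v, Hlc (L.𝒰v v) (Rep.res (L.r v) P) 2),
      hMk (coneC L P) 3 z = HlcCBdry L P 2 e → tr z.1 = τ e)
    (b : ∀ v, Hlc (L.𝒰v v) (Rep.res (L.r v) M) 2) (y : Hlc 𝒰 N 0) :
    (cPairing L hB htr).h30 (HlcCBdry L M 2 b) y =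
      τ fun v => HlcCup (L.𝒰v v) (locB L B v) (equivariant_locB L hB v)
        (show 2 + 0 = 2 from rfl) (b v) (locRes L N 0 y v) := by
  rw [h30_HlcCBdry, lamPi_apply, locTr_eq_of_trace L htr τ h]

/-! ### Finitely many places: sums of local components -/

section Sum

variable [Fintype L.ι] [DecidableEq L.ι]

/-- The component of the local trace at the place `v`. -/
def locTrAt (v : L.ι) : Hlc (L.𝒰v v) (Rep.res (L.r v) P) 2 →ₗ[k] k :=
  locTr L htr ∘ₗ LinearMap.single k (fun v => Hlc (L.𝒰v v) (Rep.res (L.r v) P) 2) v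

theorem locTr_eq_sum (e : ∀ v, Hlc (L.𝒰v v) (Rep.res (L.r v) P) 2) :
    locTr L htr e = ∑ v, locTrAt L htr v (e v) := by
  conv_lhs => rw [← Finset.univ_sum_single e]
  rw [map_sum]
  rfl

theorem lamPi_eq_sum {i j : ℕ} (h : i + j = 2) (b : ∀ v, Hlc (L.𝒰v v) (Rep.res (L.r v) M) i)
    (c : ∀ v, Hlc (L.𝒰v v) (Rep.res (L.r v) N) j) :
    lamPi L hB htr h b c =
      ∑ v, locTrAt L htr v
        (HlcCup (L.𝒰v v) (locB L B v) (equivariant_locB L hB v) h (b v) (c v)) := by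
  rw [lamPi_apply, locTr_eq_sum]

end Sum

end Fermat.Agent.GC.PT.ConeE8
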