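/-
GATE-C / C5 BASE-TRANSFER (helper19), part (T2a): the FIVE LEMMA for mapping cones.

For a commutative square of cochain maps `φ ≫ β = α ≫ φ'` the induced map on the cohomology of the
(shifted) cones `HcMap α β h (n+1) : Hcⁿ⁺¹(φ) ⟶ Hcⁿ⁺¹(φ')` is bijective as soon as
`Hⁿ(α)` is surjective, `Hⁿ(β)` bijective, `Hⁿ⁺¹(α)` bijective and `Hⁿ⁺¹(β)` injective.
Intended use: `α` = global Shapiro on level-constant cochains, `β` = product of the local
Mackey–Shapiro maps, so that `Hc(G_ℚ, coind_H^G W) ≅ Hc(G_K, W)`.
Mathlib + `GC/Prof/ConeMap.lean` only.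
-/
import Fermat.Agent.GC.Prof.ConeMap

set_option autoImplicit false

open CategoryTheory

noncomputable section

namespace Fermat.Agent.GC.PT.ConeFive

open Fermat.Agent.GC.Prof Fermat.Agent.GC.Prof.Cone

universe v u

variable {k : Type u} [CommRing k]
variable {C D C' D' : CochainComplex (ModuleCat.{v} k) ℕ} {φ : C ⟶ D} {φ' : C' ⟶ D'}

/-- naturality of `Hⁿ(φ)` with respect to a commutative square -/
theorem homologyMap_square (α : C ⟶ C') (β : D ⟶ D') (h : φ ≫ β = α ≫ φ') (n : ℕ) :
    (HomologicalComplex.homologyMap φ' n).hom.comp (HomologicalComplex.homologyMap α n).hom =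
      (HomologicalComplex.homologyMap β n).hom.comp (HomologicalComplex.homologyMap φ n).hom := by
  have h1 : HomologicalComplex.homologyMap α n ≫ HomologicalComplex.homologyMap φ' n =
      HomologicalComplex.homologyMap φ n ≫ HomologicalComplex.homologyMap β n := by
    rw [← HomologicalComplex.homologyMap_comp, ← HomologicalComplex.homologyMap_comp, h]
  exact congrArg ModuleCat.Hom.hom h1

/-- (T2a) the five lemma for cones, in degree `n + 1` -/
theorem HcMap_bijective_succ (α : C ⟶ C') (β : D ⟶ D') (h : φ ≫ β = α ≫ φ') (n : ℕ)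
    (hα : Function.Surjective (HomologicalComplex.homologyMap α n).hom)
    (hβ : Function.Bijective (HomologicalComplex.homologyMap β n).hom)
    (hα' : Function.Bijective (HomologicalComplex.homologyMap α (n + 1)).hom)
    (hβ' : Function.Injective (HomologicalComplex.homologyMap β (n + 1)).hom) :
    Function.Bijective (HcMap α β h (n + 1)).hom := by
  refine LinearMap.bijective_of_surjective_of_bijective_of_bijective_of_injective
    (HomologicalComplex.homologyMap φ n).hom (HToHc φ n).hom (HcToH φ (n + 1)).hom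
    (HomologicalComplex.homologyMap φ (n + 1)).hom
    (HomologicalComplex.homologyMap φ' n).hom (HToHc φ' n).hom (HcToH φ' (n + 1)).hom
    (HomologicalComplex.homologyMap φ' (n + 1)).hom
    (HomologicalComplex.homologyMap α n).hom (HomologicalComplex.homologyMap β n).hom
    (HcMap α β h (n + 1)).hom (HomologicalComplex.homologyMap α (n + 1)).hom
    (HomologicalComplex.homologyMap β (n + 1)).hom
    (homologyMap_square α β h n) ?_ ?_ (homologyMap_square α β h (n + 1))
    (exact_map_HToHc φ n) (exact_HToHc_HcToH φ n) (exact_HcToH_map φ (n + 1))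
    (exact_map_HToHc φ' n) (exact_HToHc_HcToH φ' n) (exact_HcToH_map φ' (n + 1))
    hα hβ hα' hβ'
  · exact congrArg ModuleCat.Hom.hom (homologyMap_comp_HToHc α β h n)
  · exact congrArg ModuleCat.Hom.hom (HcMap_comp_HcToH α β h (n + 1))

/-- injectivity half (only needs `Hⁿ(α)` surjective, `Hⁿ(β)` injective, `Hⁿ⁺¹(α)` injective) -/
theorem HcMap_injective_succ (α : C ⟶ C') (β : D ⟶ D') (h : φ ≫ β = α ≫ φ') (n : ℕ)
    (hα : Function.Surjective (HomologicalComplex.homologyMap α n).hom)
    (hβ : Function.Injective (HomologicalComplex.homologyMap β n).hom)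
    (hα' : Function.Injective (HomologicalComplex.homologyMap α (n + 1)).hom) :
    Function.Injective (HcMap α β h (n + 1)).hom := by
  refine LinearMap.injective_of_surjective_of_injective_of_injective
    (HomologicalComplex.homologyMap φ n).hom (HToHc φ n).hom (HcToH φ (n + 1)).hom
    (HomologicalComplex.homologyMap φ' n).hom (HToHc φ' n).hom (HcToH φ' (n + 1)).hom
    (HomologicalComplex.homologyMap α n).hom (HomologicalComplex.homologyMap β n).hom
    (HcMap α β h (n + 1)).hom (HomologicalComplex.homologyMap α (n + 1)).hom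
    (homologyMap_square α β h n) ?_ ?_
    (exact_map_HToHc φ n) (exact_HToHc_HcToH φ n) (exact_map_HToHc φ' n) hα hβ hα'
  · exact congrArg ModuleCat.Hom.hom (homologyMap_comp_HToHc α β h n)
  · exact congrArg ModuleCat.Hom.hom (HcMap_comp_HcToH α β h (n + 1))

/-- surjectivity half (needs `Hⁿ(β)` surjective, `Hⁿ⁺¹(α)` surjective, `Hⁿ⁺¹(β)` injective) -/
theorem HcMap_surjective_succ (α : C ⟶ C') (β : D ⟶ D') (h : φ ≫ β = α ≫ φ') (n : ℕ)
    (hβ : Function.Surjective (HomologicalComplex.homologyMap β n).hom)
    (hα' : Function.Surjective (HomologicalComplex.homologyMap α (n + 1)).hom)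
    (hβ' : Function.Injective (HomologicalComplex.homologyMap β (n + 1)).hom) :
    Function.Surjective (HcMap α β h (n + 1)).hom := by
  refine LinearMap.surjective_of_surjective_of_surjective_of_injective
    (HToHc φ n).hom (HcToH φ (n + 1)).hom (HomologicalComplex.homologyMap φ (n + 1)).hom
    (HToHc φ' n).hom (HcToH φ' (n + 1)).hom (HomologicalComplex.homologyMap φ' (n + 1)).hom
    (HomologicalComplex.homologyMap β n).hom
    (HcMap α β h (n + 1)).hom (HomologicalComplex.homologyMap α (n + 1)).hom
    (HomologicalComplex.homologyMap β (n + 1)).hom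
    ?_ ?_ (homologyMap_square α β h (n + 1))
    (exact_HcToH_map φ (n + 1)) (exact_HToHc_HcToH φ' n) (exact_HcToH_map φ' (n + 1))
    hβ hα' hβ'
  · exact congrArg ModuleCat.Hom.hom (homologyMap_comp_HToHc α β h n)
  · exact congrArg ModuleCat.Hom.hom (HcMap_comp_HcToH α β h (n + 1))

end Fermat.Agent.GC.PT.ConeFive
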