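import Fermat.Agent.GC.PT.MainFinal
import Fermat.Agent.GC.PT.ConePairing

/-!
# GATE-C / C5: `SwapHyp` is a theorem (helper1)

`swapHyp L χ : MainInst.SwapHyp L χ` from `conePairing_swap` (E7), and the resulting
hypothesis-free form `sha_duality_of_inputs'` of helper74's `MainInst.sha_duality_of_inputs`.
-/

set_option autoImplicit false

open CategoryTheory Module

noncomputable section

namespace Fermat.Agent.GC.PT.ConePairing

open Fermat.Agent.GC.Prof Fermat.Agent.GC.Prof.Cone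
open Fermat.Agent.GC.PT.Triples Fermat.Agent.GC.PT.MainInst
open Fermat.Agent.GC.Prof.Cup (Equivariant)

universe u

variable {k G : Type u} [Field k] [Group G] {𝒰 : LevelSystem G}

/-- The SWAP symmetry (E7) of the cone pairing, for all traces. -/
theorem swapHyp (L : LocalData 𝒰) (χ : G →* kˣ) [IsDiscrete 𝒰 (chiRep χ)] :
    MainInst.SwapHyp L χ :=
  fun tr htr _ _ _ _ _ hB _ x x' => conePairing_swap L hB tr htr x x'

variable {L : LocalData 𝒰} {χ : G →* kˣ} [IsDiscrete 𝒰 (chiRep χ)]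

/-- **C5, final form, without the SWAP hypothesis.** -/
theorem sha_duality_of_inputs' (hχ : ∃ U ∈ 𝒰.sets, ∀ g ∈ U, χ g = 1)
    [Finite L.ι] [Nonempty L.ι] (p : ℕ) [Fact p.Prime] [CharP k p]
    (τ : (∀ v, Hlc (L.𝒰v v) (Rep.res (L.r v) (chiRep χ)) 2) →ₗ[k] k)
    (hτ : ∀ x : Hlc 𝒰 (chiRep χ) 2, τ (locRes L (chiRep χ) 2 x) = 0)
    (inputs : ∀ (D : ConePairingData L χ) (E : ConeBdryData D), LamFormulas τ E →
      ∀ (H : Subgroup G), IsOpenSub 𝒰 H → (∀ g ∈ H, χ g = 1) →
        ∀ [IsDiscrete 𝒰 (Rep.coind H.subtype (Rep.trivial k H k))],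
          BaseInputs E (Rep.coind H.subtype (Rep.trivial k H k)))
    (M : Rep.{u} k G) [FiniteDimensional k M] [IsDiscrete 𝒰 M]
    [IsDiscrete 𝒰 (M.dualTwist χ)] :
    FiniteDimensional k (LinearMap.ker (locRes L M 2)) ∧
      FiniteDimensional k (LinearMap.ker (locRes L (M.dualTwist χ) 1)) ∧
      finrank k (LinearMap.ker (locRes L M 2)) =
        finrank k (LinearMap.ker (locRes L (M.dualTwist χ) 1)) :=
  sha_duality_of_inputs hχ p (swapHyp L χ) τ hτ inputs M

end Fermat.Agent.GC.PT.ConePairing
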