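/-
GATE-C / C5 (helper50): `(N-a)` PASSES TO RETRACTS — `(N-a)_ℚ` from `(N-a)_{ℚ(μ_p)}` with NO
Mackey formula.

The bound `dim coker (loc^n : Hlcⁿ(G, M) → ∏_v Hlcⁿ(G_v, M)) ≤ c` is inherited by retracts of the
coefficient module: if `i : M ⟶ M₁`, `r : M₁ ⟶ M`, `i ≫ r = 𝟙`, then `coker loc_M` is a retract of
`coker loc_{M₁}` (naturality of `locRes` in the coefficients, helper10 `locRes_HlcMap`).

Application: `M = k(χ)`, `M₁ = coind_P res_P k(χ)` for an open `P` of index prime to `p`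
(`P = G_{ℚ(μ_p)}`, index `p - 1`): `i = coindUnit`, `r = (index)⁻¹ • coindTrace` (helper52's
`GC/Tate/Cor.lean`, the same retraction as in `RepDevissage.rep_devissage`).  Together with
helper69's `TotalLoc.finrank_le_range_locRes_add` this gives `(N-a)_ℚ` for `k(χ)` directly from
`(N-a)_K` for `A = res k(χ)` over `K = ℚ(μ_p)` — the res/cor Mackey formula on `Hlc`, the index
sum `∑_{w ∣ q} [K_w : ℚ_q] = [K : ℚ]` and `cor ∘ res = index` are NOT needed.
-/
import Fermat.Agent.GC.Prof.ConeLCNat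
import Fermat.Agent.GC.Tate.Cor

set_option autoImplicit false

open CategoryTheory Module

noncomputable section

namespace Fermat.Agent.GC.PT.NaRetract

open Fermat.Agent.GC.Prof Fermat.Agent.GC.Prof.Cone

/-! ### Linear algebra: cokernel bounds pass to retracts of arrows -/

section LA

variable {k : Type*} [Field k] {H H₁ Λ Λ₁ : Type*}
  [AddCommGroup H] [Module k H] [AddCommGroup H₁] [Module k H₁]
  [AddCommGroup Λ] [Module k Λ] [AddCommGroup Λ₁] [Module k Λ₁]

/-- If the arrow `loc : H → Λ` is a retract of the arrow `loc₁ : H₁ → Λ₁`, a bound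
`dim Λ₁ ≤ dim range loc₁ + c` on the cokernel of `loc₁` is inherited by `loc`. -/
theorem finrank_le_range_add_of_retract (loc : H →ₗ[k] Λ) (loc₁ : H₁ →ₗ[k] Λ₁)
    (iH : H →ₗ[k] H₁) (rH : H₁ →ₗ[k] H) (iΛ : Λ →ₗ[k] Λ₁) (rΛ : Λ₁ →ₗ[k] Λ)
    (hi : ∀ x, iΛ (loc x) = loc₁ (iH x)) (hr : ∀ x, rΛ (loc₁ x) = loc (rH x))
    (hri : ∀ l, rΛ (iΛ l) = l) [FiniteDimensional k Λ₁] (c : ℕ)
    (h₁ : finrank k Λ₁ ≤ finrank k (LinearMap.range loc₁) + c) :
    finrank k Λ ≤ finrank k (LinearMap.range loc) + c := by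
  have hinjΛ : Function.Injective iΛ := Function.LeftInverse.injective hri
  have : FiniteDimensional k Λ := FiniteDimensional.of_injective iΛ hinjΛ
  have hle : LinearMap.range loc ≤ (LinearMap.range loc₁).comap iΛ := by
    rintro _ ⟨x, rfl⟩
    exact ⟨iH x, (hi x).symm⟩
  have hle' : LinearMap.range loc₁ ≤ (LinearMap.range loc).comap rΛ := by
    rintro _ ⟨x, rfl⟩
    exact ⟨rH x, (hr x).symm⟩
  have hinj : Function.Injective ((LinearMap.range loc).mapQ (LinearMap.range loc₁) iΛ hle) := by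
    apply Function.LeftInverse.injective
      (g := (LinearMap.range loc₁).mapQ (LinearMap.range loc) rΛ hle')
    intro y
    obtain ⟨l, rfl⟩ := Submodule.Quotient.mk_surjective _ y
    rw [Submodule.mapQ_apply, Submodule.mapQ_apply, hri]
  have h2 := LinearMap.finrank_le_finrank_of_injective hinj
  have h3 := Submodule.finrank_quotient_add_finrank (LinearMap.range loc)
  have h4 := Submodule.finrank_quotient_add_finrank (LinearMap.range loc₁)
  omega

end LA

/-! ### `(N-a)` for a retract of the coefficient module -/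

section Loc

universe u

variable {k G : Type u} [Field k] [Group G] {𝒰 : LevelSystem G} (L : LocalData 𝒰)
variable {M M₁ : Rep.{u} k G} [IsDiscrete 𝒰 M] [IsDiscrete 𝒰 M₁]

/-- The map induced by a morphism of coefficients on the product of the local cohomologies. -/
def locMapPi (φ : M ⟶ M₁) (n : ℕ) :
    (∀ v, Hlc (L.𝒰v v) (Rep.res (L.r v) M) n) →ₗ[k]
      ∀ v, Hlc (L.𝒰v v) (Rep.res (L.r v) M₁) n :=
  LinearMap.pi fun v =>
    (HlcMap (L.𝒰v v) ((Rep.resFunctor (L.r v)).map φ) n).hom ∘ₗ LinearMap.proj v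

lemma locMapPi_apply (φ : M ⟶ M₁) (n : ℕ) (b : ∀ v, Hlc (L.𝒰v v) (Rep.res (L.r v) M) n)
    (v : L.ι) :
    locMapPi L φ n b v = HlcMap (L.𝒰v v) ((Rep.resFunctor (L.r v)).map φ) n (b v) := rfl

/-- Naturality of the total localisation. -/
theorem locMapPi_locRes (φ : M ⟶ M₁) (n : ℕ) (x : Hlc 𝒰 M n) :
    locMapPi L φ n (locRes L M n x) = locRes L M₁ n (HlcMap 𝒰 φ n x) := by
  funext v
  rw [locMapPi_apply, locRes_HlcMap]

/-- **`(N-a)` passes to retracts**: the bound `dim ∏_v Hlcⁿ(G_v, ·) ≤ dim range locⁿ + c`. -/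
theorem finrank_le_range_locRes_add_of_retract (i : M ⟶ M₁) (r : M₁ ⟶ M) (hir : i ≫ r = 𝟙 M)
    (n c : ℕ) [FiniteDimensional k (∀ v, Hlc (L.𝒰v v) (Rep.res (L.r v) M₁) n)]
    (h₁ : finrank k (∀ v, Hlc (L.𝒰v v) (Rep.res (L.r v) M₁) n) ≤
      finrank k (LinearMap.range (locRes L M₁ n)) + c) :
    finrank k (∀ v, Hlc (L.𝒰v v) (Rep.res (L.r v) M) n) ≤
      finrank k (LinearMap.range (locRes L M n)) + c := by
  refine finrank_le_range_add_of_retract (locRes L M n) (locRes L M₁ n)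
    (HlcMap 𝒰 i n).hom (HlcMap 𝒰 r n).hom (locMapPi L i n) (locMapPi L r n)
    (fun x => locMapPi_locRes L i n x) (fun x => locMapPi_locRes L r n x) ?_ c h₁
  intro b
  funext v
  rw [locMapPi_apply, locMapPi_apply]
  have h : (Rep.resFunctor (L.r v)).map i ≫ (Rep.resFunctor (L.r v)).map r =
      𝟙 (Rep.res (L.r v) M) := by
    rw [← Functor.map_comp, hir]
    exact (Rep.resFunctor (L.r v)).map_id M
  have h2 := HlcMap_comp (L.𝒰v v) ((Rep.resFunctor (L.r v)).map i)
    ((Rep.resFunctor (L.r v)).map r) n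
  rw [h, HlcMap_id] at h2
  exact (congr($h2 (b v))).symm

/-- **"No class supported at one place" passes to retracts** (same naturality). -/
theorem single_eq_zero_of_retract [DecidableEq L.ι] (i : M ⟶ M₁) (r : M₁ ⟶ M)
    (hir : i ≫ r = 𝟙 M) (n : ℕ)
    (h₁ : ∀ (v : L.ι) (x : Hlc 𝒰 M₁ n) (y : Hlc (L.𝒰v v) (Rep.res (L.r v) M₁) n),
      locRes L M₁ n x = Pi.single v y → y = 0)
    (v : L.ι) (x : Hlc 𝒰 M n) (y : Hlc (L.𝒰v v) (Rep.res (L.r v) M) n)
    (hx : locRes L M n x = Pi.single v y) : y = 0 := by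
  have h2 : locRes L M₁ n (HlcMap 𝒰 i n x) =
      Pi.single v (HlcMap (L.𝒰v v) ((Rep.resFunctor (L.r v)).map i) n y) := by
    rw [← locMapPi_locRes, hx]
    funext w
    rw [locMapPi_apply]
    by_cases hw : w = v
    · subst hw
      rw [Pi.single_eq_same, Pi.single_eq_same]
    · rw [Pi.single_eq_of_ne hw, Pi.single_eq_of_ne hw, map_zero]
  have h3 := h₁ v _ _ h2
  have h : (Rep.resFunctor (L.r v)).map i ≫ (Rep.resFunctor (L.r v)).map r =
      𝟙 (Rep.res (L.r v) M) := by
    rw [← Functor.map_comp, hir]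
    exact (Rep.resFunctor (L.r v)).map_id M
  have h4 := HlcMap_comp (L.𝒰v v) ((Rep.resFunctor (L.r v)).map i)
    ((Rep.resFunctor (L.r v)).map r) n
  rw [h, HlcMap_id] at h4
  have h5 := congr($h4 y)
  rw [ModuleCat.comp_apply, h3, map_zero] at h5
  exact h5

end Loc

/-! ### The retraction `M → coind_P res_P M → M` for an open `P` of index invertible in `k` -/

section Coind

universe u

open Fermat.Agent.GC.Tate

variable {k G : Type u} [Field k] [Group G] {𝒰 : LevelSystem G} (L : LocalData 𝒰)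
variable (P : Subgroup G) [P.FiniteIndex] (M : Rep.{u} k G) [IsDiscrete 𝒰 M]

lemma coindUnit_comp_inv_smul_coindTrace (hP : (P.index : k) ≠ 0) :
    coindUnit P M ≫ ((P.index : k)⁻¹ • coindTrace P M) = 𝟙 M := by
  rw [Linear.comp_smul, coindUnit_comp_coindTrace, smul_smul, inv_mul_cancel₀ hP, one_smul]

omit [P.FiniteIndex] [IsDiscrete 𝒰 M] in
/-- (instance search does not see through `Rep.res` of a `Rep.coind`) -/
theorem isDiscrete_res_coind_res [IsDiscrete 𝒰 (Rep.coind P.subtype (Rep.res P.subtype M))]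
    (v : L.ι) :
    IsDiscrete (L.𝒰v v) (Rep.res (L.r v) (Rep.coind P.subtype (Rep.res P.subtype M))) :=
  L.isDiscrete_res v _

attribute [local instance] isDiscrete_res_coind_res

/-- **`(N-a)` descends from `coind_P res_P M` to `M`** when `[G : P]` is invertible in `k`. -/
theorem finrank_le_range_locRes_add_of_coind
    [IsDiscrete 𝒰 (Rep.coind P.subtype (Rep.res P.subtype M))] (hP : (P.index : k) ≠ 0) (n c : ℕ)
    [FiniteDimensional k (∀ v, Hlc (L.𝒰v v)
      (Rep.res (L.r v) (Rep.coind P.subtype (Rep.res P.subtype M))) n)]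
    (h₁ : finrank k (∀ v, Hlc (L.𝒰v v)
        (Rep.res (L.r v) (Rep.coind P.subtype (Rep.res P.subtype M))) n) ≤
      finrank k (LinearMap.range
        (locRes L (Rep.coind P.subtype (Rep.res P.subtype M)) n)) + c) :
    finrank k (∀ v, Hlc (L.𝒰v v) (Rep.res (L.r v) M) n) ≤
      finrank k (LinearMap.range (locRes L M n)) + c :=
  finrank_le_range_locRes_add_of_retract L (coindUnit P M) ((P.index : k)⁻¹ • coindTrace P M)
    (coindUnit_comp_inv_smul_coindTrace P M hP) n c h₁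

end Coind

end Fermat.Agent.GC.PT.NaRetract
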