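/-
GATE-C / C5 (helper50): `(N-a)_ℚ` for ANY discrete coefficient module `T` of `(G_ℚ, levelS S)`
from `(N-a)_K` for `A = res_{G_K} T` over ONE finite `K/ℚ` unramified outside `S` whose degree is
invertible in `k` — by the retraction `T → coind_{G_K} res T → T` (`NaRetract.lean`) and helper69's
total localisation square (`Places/TotalLoc.lean`).  No res/cor Mackey formula on `Hlc`.

For `k = ZMod p`, `T = chiRep (cycloChar p)`, `K = ℚ(μ_p)` (degree `p - 1`) this is `(N-a)_ℚ` of
helper59's RULING 6 from `(N-a)_{ℚ(μ_p)}` (KUMMER-BRIDGE).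
-/
import Fermat.Agent.GC.PT.NaRetract
import Fermat.Agent.GC.Places.TotalLoc

set_option autoImplicit false

open CategoryTheory Module IntermediateField

noncomputable section

namespace Fermat.Agent.GC.PT.NaRetract

open Fermat.Agent.GC.Prof Fermat.Agent.GC.Prof.Cone Fermat.Agent.GC.Places
open Fermat.Agent.GC.PT.LocDataQ Fermat.Agent.GC.C0

local notation "Qb" => AlgebraicClosure ℚ
local notation "GQ" => (AlgebraicClosure ℚ ≃ₐ[ℚ] AlgebraicClosure ℚ)

attribute [local instance] fact_prime isDiscrete_res_coind_res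

variable (S : Finset Nat.Primes) (K : IntermediateField ℚ Qb) [FiniteDimensional ℚ K]
  (hK : K.IsUnramifiedOutside S)
variable {k : Type} [Field k] (T : Rep k GQ) [IsDiscrete (levelS S) T]

omit [FiniteDimensional ℚ K] in
/-- The restriction of a discrete `G_ℚ`-module to `G_K` is discrete for `levelK S K`. -/
theorem isDiscrete_res_levelK :
    IsDiscrete (levelK S K) (Rep.res K.fixingSubgroup.subtype T) :=
  IsDiscrete.res (isContHom_subtype_levelK S K) T

include hK in
/-- **`(N-a)_ℚ` from `(N-a)_K`** (degree `n`, defect `c`): if `[K : ℚ]` is invertible in `k`, the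
cokernel bound for the total localisation over the places of `K` above `S`, coefficients
`A = res_{G_K} T`, implies the cokernel bound for `locRes (locDataQ S) T n`. -/
theorem finrank_le_range_locRes_add_of_K
    [IsDiscrete (levelK S K) (Rep.res K.fixingSubgroup.subtype T)]
    (hdeg : ((finrank ℚ K : ℕ) : k) ≠ 0) (n c : ℕ)
    [FiniteDimensional k (∀ q : ↥S, ∀ w : placeIdx (q.1 : ℕ) K,
      HlcW S K (Rep.res K.fixingSubgroup.subtype T) (q.1 : ℕ) (placeRep (q.1 : ℕ) K w) n)]
    (h : finrank k (∀ q : ↥S, ∀ w : placeIdx (q.1 : ℕ) K,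
        HlcW S K (Rep.res K.fixingSubgroup.subtype T) (q.1 : ℕ) (placeRep (q.1 : ℕ) K w) n) ≤
      finrank k (LinearMap.range
        (locResK S K (Rep.res K.fixingSubgroup.subtype T) n)) + c) :
    finrank k (∀ v, Hlc ((locDataQ S).𝒰v v) (Rep.res ((locDataQ S).r v) T) n) ≤
      finrank k (LinearMap.range (locRes (locDataQ S) T n)) + c := by
  have hgal : IsGalois ℚ Qb := by
    have : IsAlgClosure ℚ Qb := ⟨inferInstance, AlgebraicClosure.isAlgebraic ℚ⟩
    infer_instance
  have : K.fixingSubgroup.FiniteIndex := by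
    refine ⟨?_⟩
    rw [← IntermediateField.finrank_eq_fixingSubgroup_index]
    exact Module.finrank_pos.ne'
  have hidx : ((K.fixingSubgroup.index : ℕ) : k) ≠ 0 := by
    rw [← IntermediateField.finrank_eq_fixingSubgroup_index]
    exact hdeg
  have := isDiscrete_coind_levelS S K (Rep.res K.fixingSubgroup.subtype T) hK
  have h₁ := Places.finrank_le_range_locRes_add S K hK (Rep.res K.fixingSubgroup.subtype T) n c h
  have : FiniteDimensional k (∀ v, Hlc ((locDataQ S).𝒰v v)
      (Rep.res ((locDataQ S).r v)
        (Rep.coind K.fixingSubgroup.subtype (Rep.res K.fixingSubgroup.subtype T))) n) :=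
    (mackeyS S K hK (Rep.res K.fixingSubgroup.subtype T) n).symm.finiteDimensional
  exact finrank_le_range_locRes_add_of_coind (locDataQ S) K.fixingSubgroup T hidx n c h₁

end Fermat.Agent.GC.PT.NaRetract
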