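/-
GATE-C / C5-BASE linear-algebra kit (helper15).  Pure linear algebra over a field, Mathlib only,
everything in `Function.Exact` / elementwise form so that it plugs into helper10's cone long exact
sequence (`GC/Prof/Cone.lean`) and helper74's induced pairings (`GC/PT/Paired.lean`).

* `finrank_eq_of_exact`, `euler_char_ten` : Euler characteristic of an exact sequence (X7 count).
* `leftInj_of_ladder`, `leftSurj_of_ladder` : the two four-lemmas for a ladder of PAIRINGS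
  (adjointness up to nonzero scalars = signs), i.e. the five lemma for `αⁱ : Xᵢ → Yᵢᵛ`.
* `leftInj_of_filtration`, `leftSurj_of_filtration`, `bijective_of_filtration` : a pairing which is
  perfect on the graded pieces of a two-step filtration is perfect.
* `bijective_of_flip_injective_of_finrank_le` : the counting step.
-/
import Mathlib

set_option autoImplicit false

open Module

noncomputable section

namespace Fermat.Agent.GC.PT.PairLA

variable {k : Type*} [Field k]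

/-! ### Euler characteristic -/

section Euler

variable {U V W : Type*} [AddCommGroup U] [Module k U] [AddCommGroup V] [Module k V]
  [AddCommGroup W] [Module k W]

/-- For an exact pair `U → V → W` with `V` finite-dimensional, `dim V = rk f + rk g`. -/
theorem finrank_eq_of_exact [FiniteDimensional k V] (f : U →ₗ[k] V) (g : V →ₗ[k] W)
    (h : Function.Exact f g) :
    finrank k V = finrank k (LinearMap.range f) + finrank k (LinearMap.range g) := by
  have h1 := LinearMap.finrank_range_add_finrank_ker g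
  rw [(LinearMap.exact_iff).1 h] at h1
  omega

theorem finrank_range_of_injective (f : U →ₗ[k] V) (hf : Function.Injective f) :
    finrank k (LinearMap.range f) = finrank k U :=
  LinearMap.finrank_range_of_inj hf

theorem finrank_range_of_surjective (f : U →ₗ[k] V) (hf : Function.Surjective f) :
    finrank k (LinearMap.range f) = finrank k V := by
  rw [LinearMap.range_eq_top.2 hf, finrank_top]

end Euler

section Ten

variable {V0 V1 V2 V3 V4 V5 V6 V7 V8 V9 : Type*}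
  [AddCommGroup V0] [Module k V0] [AddCommGroup V1] [Module k V1]
  [AddCommGroup V2] [Module k V2] [AddCommGroup V3] [Module k V3]
  [AddCommGroup V4] [Module k V4] [AddCommGroup V5] [Module k V5]
  [AddCommGroup V6] [Module k V6] [AddCommGroup V7] [Module k V7]
  [AddCommGroup V8] [Module k V8] [AddCommGroup V9] [Module k V9]
  [FiniteDimensional k V1] [FiniteDimensional k V2]
  [FiniteDimensional k V3] [FiniteDimensional k V4] [FiniteDimensional k V5]
  [FiniteDimensional k V6] [FiniteDimensional k V7] [FiniteDimensional k V8]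

/-- Euler characteristic of a ten-term exact sequence
`0 → V0 → V1 → ⋯ → V9 → 0` (the shape of the compact-support long exact sequence
`0 → H⁰_c → H⁰ → ⊕H⁰_v → H¹_c → H¹ → ⊕H¹_v → H²_c → H² → ⊕H²_v → H³_c → 0`). -/
theorem euler_char_ten
    (d0 : V0 →ₗ[k] V1) (d1 : V1 →ₗ[k] V2) (d2 : V2 →ₗ[k] V3) (d3 : V3 →ₗ[k] V4)
    (d4 : V4 →ₗ[k] V5) (d5 : V5 →ₗ[k] V6) (d6 : V6 →ₗ[k] V7) (d7 : V7 →ₗ[k] V8)
    (d8 : V8 →ₗ[k] V9)
    (h0 : Function.Injective d0)
    (e1 : Function.Exact d0 d1) (e2 : Function.Exact d1 d2) (e3 : Function.Exact d2 d3)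
    (e4 : Function.Exact d3 d4) (e5 : Function.Exact d4 d5) (e6 : Function.Exact d5 d6)
    (e7 : Function.Exact d6 d7) (e8 : Function.Exact d7 d8)
    (h9 : Function.Surjective d8) :
    finrank k V0 + finrank k V2 + finrank k V4 + finrank k V6 + finrank k V8 =
      finrank k V1 + finrank k V3 + finrank k V5 + finrank k V7 + finrank k V9 := by
  have r0 := finrank_range_of_injective d0 h0
  have r8 := finrank_range_of_surjective d8 h9
  have s1 := finrank_eq_of_exact d0 d1 e1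
  have s2 := finrank_eq_of_exact d1 d2 e2
  have s3 := finrank_eq_of_exact d2 d3 e3
  have s4 := finrank_eq_of_exact d3 d4 e4
  have s5 := finrank_eq_of_exact d4 d5 e5
  have s6 := finrank_eq_of_exact d5 d6 e6
  have s7 := finrank_eq_of_exact d6 d7 e7
  have s8 := finrank_eq_of_exact d7 d8 e8
  omega

end Ten

/-! ### Pairings: left-injectivity and left-surjectivity -/

section Pairings

/-- A functional vanishing on the kernel of a linear map factors through it (over a field). -/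
theorem exists_dual_comp_of_ker_le {Y Z : Type*} [AddCommGroup Y] [Module k Y]
    [AddCommGroup Z] [Module k Z] (b : Y →ₗ[k] Z) (ψ : Module.Dual k Y)
    (h : ∀ y, b y = 0 → ψ y = 0) : ∃ φ : Module.Dual k Z, ∀ y, φ (b y) = ψ y := by
  -- `ψ` descends to the range of `b`, then extend to `Z`.
  have hker : LinearMap.ker b ≤ LinearMap.ker ψ := fun y hy => h y hy
  let ψ' : (Y ⧸ LinearMap.ker b) →ₗ[k] k := (LinearMap.ker b).liftQ ψ hker
  let e : (Y ⧸ LinearMap.ker b) ≃ₗ[k] LinearMap.range b := b.quotKerEquivRange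
  let φ0 : LinearMap.range b →ₗ[k] k := ψ'.comp e.symm.toLinearMap
  obtain ⟨φ, hφ⟩ := LinearMap.exists_extend φ0
  refine ⟨φ, fun y => ?_⟩
  have h1 : φ (b y) = φ0 ⟨b y, LinearMap.mem_range_self b y⟩ := by
    rw [← hφ]
    rfl
  rw [h1]
  have h2 : e.symm ⟨b y, LinearMap.mem_range_self b y⟩ = Submodule.Quotient.mk y := by
    rw [LinearEquiv.symm_apply_eq]
    rfl
  change ψ' (e.symm ⟨b y, LinearMap.mem_range_self b y⟩) = ψ y
  rw [h2]
  rfl

variable {X1 X2 X3 X4 Y1 Y2 Y3 Y4 : Type*}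
  [AddCommGroup X1] [Module k X1] [AddCommGroup X2] [Module k X2]
  [AddCommGroup X3] [Module k X3] [AddCommGroup X4] [Module k X4]
  [AddCommGroup Y1] [Module k Y1] [AddCommGroup Y2] [Module k Y2]
  [AddCommGroup Y3] [Module k Y3] [AddCommGroup Y4] [Module k Y4]

/-- FOUR LEMMA (mono) for a ladder of pairings.  Top row `X1 → X2 → X3 → X4`, bottom row
`Y4 → Y3 → Y2 → Y1` (so that the duals `Y1ᵛ → Y2ᵛ → Y3ᵛ → Y4ᵛ` run parallel to the top row),
pairings `βᵢ : Xᵢ × Yᵢ → k` adjoint up to nonzero scalars.  If `β₁` is left-surjective and `β₂`,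
`β₄` are left-injective then `β₃` is left-injective. -/
theorem leftInj_of_ladder
    (a1 : X1 →ₗ[k] X2) (a2 : X2 →ₗ[k] X3) (a3 : X3 →ₗ[k] X4)
    (b3 : Y4 →ₗ[k] Y3) (b2 : Y3 →ₗ[k] Y2) (b1 : Y2 →ₗ[k] Y1)
    (β1 : X1 →ₗ[k] Y1 →ₗ[k] k) (β2 : X2 →ₗ[k] Y2 →ₗ[k] k)
    (β3 : X3 →ₗ[k] Y3 →ₗ[k] k) (β4 : X4 →ₗ[k] Y4 →ₗ[k] k)
    (s1 s2 s3 : k) (hs1 : s1 ≠ 0) (hs2 : s2 ≠ 0)
    (adj1 : ∀ x y, β2 (a1 x) y = s1 * β1 x (b1 y))
    (adj2 : ∀ x y, β3 (a2 x) y = s2 * β2 x (b2 y))
    (adj3 : ∀ x y, β4 (a3 x) y = s3 * β3 x (b3 y))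
    (hzero : ∀ x, a2 (a1 x) = 0) (hexX : Function.Exact a2 a3) (hexY : Function.Exact b2 b1)
    (h1 : Function.Surjective β1) (h2 : Function.Injective β2) (h4 : Function.Injective β4) :
    Function.Injective β3 := by
  rw [← LinearMap.ker_eq_bot, LinearMap.ker_eq_bot']
  intro x3 hx3
  -- `a3 x3 = 0`
  have h43 : a3 x3 = 0 := by
    apply h4
    apply LinearMap.ext
    intro y
    rw [adj3, hx3]
    simp
  obtain ⟨x2, rfl⟩ := (hexX x3).1 h43
  -- `β2 x2` kills `ker b1 = range b2`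
  have hkill : ∀ y, b1 y = 0 → β2 x2 y = 0 := by
    intro y hy
    obtain ⟨y3, rfl⟩ := (hexY y).1 hy
    have := adj2 x2 y3
    rw [hx3] at this
    have h0 : s2 * β2 x2 (b2 y3) = 0 := by simpa using this.symm
    exact (mul_eq_zero.1 h0).resolve_left hs2
  obtain ⟨φ, hφ⟩ := exists_dual_comp_of_ker_le b1 (β2 x2) hkill
  obtain ⟨x1, hx1⟩ := h1 (s1⁻¹ • φ)
  have : a1 x1 = x2 := by
    apply h2
    apply LinearMap.ext
    intro y
    rw [adj1, hx1, LinearMap.smul_apply, smul_eq_mul, ← mul_assoc, mul_inv_cancel₀ hs1, one_mul,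
      hφ]
  rw [← this, hzero]

/-- FOUR LEMMA (epi) for a ladder of pairings.  Top row `X1 → X2 → X3 → X4`, bottom row
`Y4 → Y3 → Y2 → Y1`.  If `β₁`, `β₃` are left-surjective and `β₄` is left-injective then `β₂` is
left-surjective. -/
theorem leftSurj_of_ladder
    (a1 : X1 →ₗ[k] X2) (a2 : X2 →ₗ[k] X3) (a3 : X3 →ₗ[k] X4)
    (b3 : Y4 →ₗ[k] Y3) (b2 : Y3 →ₗ[k] Y2) (b1 : Y2 →ₗ[k] Y1)
    (β1 : X1 →ₗ[k] Y1 →ₗ[k] k) (β2 : X2 →ₗ[k] Y2 →ₗ[k] k)
    (β3 : X3 →ₗ[k] Y3 →ₗ[k] k) (β4 : X4 →ₗ[k] Y4 →ₗ[k] k)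
    (s1 s2 s3 : k) (hs1 : s1 ≠ 0)
    (adj1 : ∀ x y, β2 (a1 x) y = s1 * β1 x (b1 y))
    (adj2 : ∀ x y, β3 (a2 x) y = s2 * β2 x (b2 y))
    (adj3 : ∀ x y, β4 (a3 x) y = s3 * β3 x (b3 y))
    (hzeroY : ∀ y, b2 (b3 y) = 0) (hexX : Function.Exact a2 a3) (hexY : Function.Exact b2 b1)
    (h1 : Function.Surjective β1) (h3 : Function.Surjective β3) (h4 : Function.Injective β4) :
    Function.Surjective β2 := by
  intro ψ
  -- pull `ψ` back to `Y3` and realise it by `x3`
  obtain ⟨x3, hx3⟩ := h3 (ψ.comp b2)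
  -- `a3 x3 = 0`
  have h43 : a3 x3 = 0 := by
    apply h4
    apply LinearMap.ext
    intro y
    rw [adj3, hx3, LinearMap.comp_apply, hzeroY]
    simp
  obtain ⟨x2, rfl⟩ := (hexX x3).1 h43
  -- `s2 • β2 x2 - ψ` kills `range b2 = ker b1`
  have hkill : ∀ y, b1 y = 0 → (s2 • β2 x2 - ψ) y = 0 := by
    intro y hy
    obtain ⟨y3, rfl⟩ := (hexY y).1 hy
    have := adj2 x2 y3
    rw [hx3, LinearMap.comp_apply] at this
    rw [LinearMap.sub_apply, LinearMap.smul_apply, smul_eq_mul, ← this, sub_self]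
  obtain ⟨φ, hφ⟩ := exists_dual_comp_of_ker_le b1 (s2 • β2 x2 - ψ) hkill
  obtain ⟨x1, hx1⟩ := h1 (s1⁻¹ • φ)
  refine ⟨s2 • x2 - a1 x1, ?_⟩
  apply LinearMap.ext
  intro y
  rw [map_sub, map_smul, LinearMap.sub_apply, LinearMap.smul_apply, adj1, hx1,
    LinearMap.smul_apply, smul_eq_mul, smul_eq_mul, ← mul_assoc, mul_inv_cancel₀ hs1, one_mul, hφ,
    LinearMap.sub_apply, LinearMap.smul_apply, smul_eq_mul]
  ring

end Pairings

section Five

variable {X1 X2 X3 X4 X5 Y1 Y2 Y3 Y4 Y5 : Type*}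
  [AddCommGroup X1] [Module k X1] [AddCommGroup X2] [Module k X2]
  [AddCommGroup X3] [Module k X3] [AddCommGroup X4] [Module k X4]
  [AddCommGroup X5] [Module k X5]
  [AddCommGroup Y1] [Module k Y1] [AddCommGroup Y2] [Module k Y2]
  [AddCommGroup Y3] [Module k Y3] [AddCommGroup Y4] [Module k Y4]
  [AddCommGroup Y5] [Module k Y5]

/-- FIVE LEMMA for a ladder of pairings.  Top row `X1 → X2 → X3 → X4 → X5`, bottom row
`Y5 → Y4 → Y3 → Y2 → Y1`, pairings `βᵢ : Xᵢ × Yᵢ → k` adjoint up to nonzero scalars.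
If `β₁` is left-surjective, `β₂`, `β₄` are left-bijective and `β₅` is left-injective, then `β₃` is
left-bijective. -/
theorem bijective_of_ladder
    (a1 : X1 →ₗ[k] X2) (a2 : X2 →ₗ[k] X3) (a3 : X3 →ₗ[k] X4) (a4 : X4 →ₗ[k] X5)
    (b4 : Y5 →ₗ[k] Y4) (b3 : Y4 →ₗ[k] Y3) (b2 : Y3 →ₗ[k] Y2) (b1 : Y2 →ₗ[k] Y1)
    (β1 : X1 →ₗ[k] Y1 →ₗ[k] k) (β2 : X2 →ₗ[k] Y2 →ₗ[k] k)
    (β3 : X3 →ₗ[k] Y3 →ₗ[k] k) (β4 : X4 →ₗ[k] Y4 →ₗ[k] k) (β5 : X5 →ₗ[k] Y5 →ₗ[k] k)
    (s1 s2 s3 s4 : k) (hs1 : s1 ≠ 0) (hs2 : s2 ≠ 0)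
    (adj1 : ∀ x y, β2 (a1 x) y = s1 * β1 x (b1 y))
    (adj2 : ∀ x y, β3 (a2 x) y = s2 * β2 x (b2 y))
    (adj3 : ∀ x y, β4 (a3 x) y = s3 * β3 x (b3 y))
    (adj4 : ∀ x y, β5 (a4 x) y = s4 * β4 x (b4 y))
    (hzeroX : ∀ x, a2 (a1 x) = 0) (hexX3 : Function.Exact a2 a3) (hexX4 : Function.Exact a3 a4)
    (hzeroY : ∀ y, b3 (b4 y) = 0) (hexY3 : Function.Exact b3 b2) (hexY2 : Function.Exact b2 b1)
    (h1 : Function.Surjective β1) (h2 : Function.Bijective β2) (h4 : Function.Bijective β4)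
    (h5 : Function.Injective β5) : Function.Bijective β3 :=
  ⟨leftInj_of_ladder a1 a2 a3 b3 b2 b1 β1 β2 β3 β4 s1 s2 s3 hs1 hs2 adj1 adj2 adj3 hzeroX hexX3
      hexY2 h1 h2.1 h4.1,
    leftSurj_of_ladder a2 a3 a4 b4 b3 b2 β2 β3 β4 β5 s2 s3 s4 hs2 adj2 adj3 adj4 hzeroY hexX4
      hexY3 h2.2 h4.2 h5⟩

end Five

/-! ### Two-step filtrations -/

section Filtration

variable {X' X X'' Y' Y Y'' : Type*}
  [AddCommGroup X'] [Module k X'] [AddCommGroup X] [Module k X] [AddCommGroup X''] [Module k X'']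
  [AddCommGroup Y'] [Module k Y'] [AddCommGroup Y] [Module k Y] [AddCommGroup Y''] [Module k Y'']

/-- `X' → X → X''` exact, `Y → Y''` onto; `β'` on `X' × Y''` and `β''` on `X'' × Y'` the graded
pieces of `β` on `X × Y`.  Left-injectivity passes from the graded pieces to `β`. -/
theorem leftInj_of_filtration
    (i : X' →ₗ[k] X) (p : X →ₗ[k] X'') (j : Y' →ₗ[k] Y) (q : Y →ₗ[k] Y'')
    (β' : X' →ₗ[k] Y'' →ₗ[k] k) (β : X →ₗ[k] Y →ₗ[k] k) (β'' : X'' →ₗ[k] Y' →ₗ[k] k)
    (adj' : ∀ x y, β (i x) y = β' x (q y)) (adj'' : ∀ x y, β'' (p x) y = β x (j y))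
    (hexX : Function.Exact i p) (hq : Function.Surjective q)
    (h' : Function.Injective β') (h'' : Function.Injective β'') : Function.Injective β := by
  rw [← LinearMap.ker_eq_bot, LinearMap.ker_eq_bot']
  intro x hx
  have hp : p x = 0 := by
    apply h''
    apply LinearMap.ext
    intro y
    rw [adj'', hx]
    simp
  obtain ⟨x', rfl⟩ := (hexX x).1 hp
  have : x' = 0 := by
    apply h'
    apply LinearMap.ext
    intro y
    obtain ⟨y0, rfl⟩ := hq y
    rw [← adj', hx]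
    simp
  rw [this, map_zero]

/-- `X → X''` onto, `Y' → Y → Y''` exact.  Left-surjectivity passes from the graded pieces to
`β`. -/
theorem leftSurj_of_filtration
    (i : X' →ₗ[k] X) (p : X →ₗ[k] X'') (j : Y' →ₗ[k] Y) (q : Y →ₗ[k] Y'')
    (β' : X' →ₗ[k] Y'' →ₗ[k] k) (β : X →ₗ[k] Y →ₗ[k] k) (β'' : X'' →ₗ[k] Y' →ₗ[k] k)
    (adj' : ∀ x y, β (i x) y = β' x (q y)) (adj'' : ∀ x y, β'' (p x) y = β x (j y))
    (hp : Function.Surjective p) (hexY : Function.Exact j q)
    (h' : Function.Surjective β') (h'' : Function.Surjective β'') : Function.Surjective β := by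
  intro ψ
  obtain ⟨x'', hx''⟩ := h'' (ψ.comp j)
  obtain ⟨x0, rfl⟩ := hp x''
  have hkill : ∀ y, q y = 0 → (ψ - β x0) y = 0 := by
    intro y hy
    obtain ⟨y', rfl⟩ := (hexY y).1 hy
    rw [LinearMap.sub_apply, ← adj'', hx'', LinearMap.comp_apply, sub_self]
  obtain ⟨φ, hφ⟩ := exists_dual_comp_of_ker_le q (ψ - β x0) hkill
  obtain ⟨x', hx'⟩ := h' φ
  refine ⟨x0 + i x', ?_⟩
  apply LinearMap.ext
  intro y
  rw [map_add, LinearMap.add_apply, adj', hx', hφ, LinearMap.sub_apply]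
  ring

/-- A pairing which is perfect on the graded pieces of a two-step filtration is perfect. -/
theorem bijective_of_filtration
    (i : X' →ₗ[k] X) (p : X →ₗ[k] X'') (j : Y' →ₗ[k] Y) (q : Y →ₗ[k] Y'')
    (β' : X' →ₗ[k] Y'' →ₗ[k] k) (β : X →ₗ[k] Y →ₗ[k] k) (β'' : X'' →ₗ[k] Y' →ₗ[k] k)
    (adj' : ∀ x y, β (i x) y = β' x (q y)) (adj'' : ∀ x y, β'' (p x) y = β x (j y))
    (hexX : Function.Exact i p) (hp : Function.Surjective p)
    (hexY : Function.Exact j q) (hq : Function.Surjective q)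
    (h' : Function.Bijective β') (h'' : Function.Bijective β'') : Function.Bijective β :=
  ⟨leftInj_of_filtration i p j q β' β β'' adj' adj'' hexX hq h'.1 h''.1,
    leftSurj_of_filtration i p j q β' β β'' adj' adj'' hp hexY h'.2 h''.2⟩

end Filtration

/-! ### The counting step -/

section Count

variable {X Y : Type*} [AddCommGroup X] [Module k X] [AddCommGroup Y] [Module k Y]

/-- An injective map into the dual with `dim Y ≤ dim X` is bijective. -/
theorem bijective_of_injective_of_finrank_le [FiniteDimensional k X] [FiniteDimensional k Y]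
    (β : X →ₗ[k] Y →ₗ[k] k) (h : Function.Injective β) (hle : finrank k Y ≤ finrank k X) :
    Function.Bijective β := by
  refine ⟨h, ?_⟩
  have h1 : finrank k X ≤ finrank k (Module.Dual k Y) := LinearMap.finrank_le_finrank_of_injective h
  rw [Subspace.dual_finrank_eq] at h1
  have h2 : finrank k X = finrank k (Module.Dual k Y) := by
    rw [Subspace.dual_finrank_eq]
    omega
  exact (LinearMap.injective_iff_surjective_of_finrank_eq_finrank h2).1 h

/-- Right-nondegenerate + `dim X ≤ dim Y` ⟹ perfect (on the left, hence on both sides). -/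
theorem bijective_of_flip_injective_of_finrank_le [FiniteDimensional k X] [FiniteDimensional k Y]
    (β : X →ₗ[k] Y →ₗ[k] k) (h : Function.Injective β.flip) (hle : finrank k X ≤ finrank k Y) :
    Function.Bijective β := by
  have hb := bijective_of_injective_of_finrank_le β.flip h hle
  exact (LinearMap.flip_bijective_iff₁ (B := β)).1 hb

end Count

end Fermat.Agent.GC.PT.PairLA
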