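/-
GATE-C / C5 (helper74, sub-lead): SIGNATURE FILE for the open C5 leaves.  Statements only
(`sorry`); NEVER import this file from a proof.  Each leaf is proved in its own file under
`Fermat/Agent/GC/PT/` with the statement copied verbatim (other namespace suffix).
-/
import Fermat.Agent.GC.Prof.Res
import Fermat.Agent.GC.PT.Paired
import Fermat.Prelude.Def_GroupCohomology_Selmer

set_option autoImplicit false

open CategoryTheory Module

noncomputable section

namespace Fermat.Agent.GC.PT.Skeleton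

open Fermat.Agent.GC.Prof

universe u

/-! ### (PT-C) REP-DEVISSAGE: finite discrete `k[G]`-modules in characteristic `p` are generated,
under extensions and retracts, by the permutation modules `coind_H^G(1)`, `H` open, `χ|_H = 1`. -/

section RepDevissage

variable {k G : Type u} [Field k] [Group G] (𝒰 : LevelSystem G)

/-- `coind_H^G` of a finite-dimensional module is finite-dimensional when `H` has finite index. -/
theorem finiteDimensional_coind (H : Subgroup G) [H.FiniteIndex] (W : Rep.{u} k H)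
    [FiniteDimensional k W] : FiniteDimensional k (Rep.coind H.subtype W) := sorry

/-- `coind_H^G W` is `𝒰`-discrete when `H` contains a member of `𝒰` and `W` is fixed pointwise by
a member of `𝒰` contained in `H`. -/
theorem isDiscrete_coind (H : Subgroup G) (W : Rep.{u} k H)
    (hW : ∃ V ∈ 𝒰.sets, V ≤ H ∧ ∀ (v : H), (v : G) ∈ V → W.ρ v = LinearMap.id) :
    IsDiscrete 𝒰 (Rep.coind H.subtype W) := sorry

theorem rep_devissage (p : ℕ) [Fact p.Prime] [CharP k p] (χ : G →* kˣ)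
    (hχ : ∃ U ∈ 𝒰.sets, ∀ g ∈ U, χ g = 1)
    (Pr : Rep.{u} k G → Prop)
    (retr : ∀ (M M₁ : Rep.{u} k G) [FiniteDimensional k M] [FiniteDimensional k M₁]
      [IsDiscrete 𝒰 M] [IsDiscrete 𝒰 M₁] (i : M ⟶ M₁) (r : M₁ ⟶ M), i ≫ r = 𝟙 M → Pr M₁ → Pr M)
    (ext : ∀ (X : ShortComplex (Rep.{u} k G)) [FiniteDimensional k X.X₁]
      [FiniteDimensional k X.X₂] [FiniteDimensional k X.X₃]
      [IsDiscrete 𝒰 X.X₁] [IsDiscrete 𝒰 X.X₂] [IsDiscrete 𝒰 X.X₃],
      X.ShortExact → Pr X.X₁ → Pr X.X₃ → Pr X.X₂)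
    (base : ∀ (H : Subgroup G), (∃ V ∈ 𝒰.sets, V ≤ H) → (∀ g ∈ H, χ g = 1) →
      Pr (Rep.coind H.subtype (Rep.trivial k H k)))
    (M : Rep.{u} k G) [FiniteDimensional k M] [IsDiscrete 𝒰 M] : Pr M := sorry

end RepDevissage

/-! ### (PT-D) FINAL: the rank identity from two perfect compact-support pairings + SWAP. -/

section Final

variable {k : Type*} [Field k]
variable {Hc2M H2M L2M Hc1N H1N L1N L0N : Type*}
  [AddCommGroup Hc2M] [Module k Hc2M] [AddCommGroup H2M] [Module k H2M]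
  [AddCommGroup L2M] [Module k L2M] [AddCommGroup Hc1N] [Module k Hc1N]
  [AddCommGroup H1N] [Module k H1N] [AddCommGroup L1N] [Module k L1N]
  [AddCommGroup L0N] [Module k L0N]

/-- `f₂ : H²_c(M) → H²(M)`, `ℓ₂ : H²(M) → ⊕_v H²(G_v,M)`; `e₀ : ⊕_v H⁰(G_v,N) → H¹_c(N)`,
`f₁ : H¹_c(N) → H¹(N)`, `ℓ₁ : H¹(N) → ⊕_v H¹(G_v,N)`; `B₁ = α²_c(M,N)`, `B₂ = α¹_c(N,M)`.
Conclusion: `Sha²(M) = ker ℓ₂` and `Sha¹(N) = ker ℓ₁` are finite-dimensional of the same rank. -/
theorem finrank_ker_eq_of_duality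
    (f₂ : Hc2M →ₗ[k] H2M) (ℓ₂ : H2M →ₗ[k] L2M) (hex₂ : Function.Exact f₂ ℓ₂)
    (e₀ : L0N →ₗ[k] Hc1N) (f₁ : Hc1N →ₗ[k] H1N) (ℓ₁ : H1N →ₗ[k] L1N)
    (hex₀ : Function.Exact e₀ f₁) (hex₁ : Function.Exact f₁ ℓ₁)
    [FiniteDimensional k L0N] [FiniteDimensional k H1N]
    (B₁ : Hc2M →ₗ[k] H1N →ₗ[k] k) (hB₁ : Function.Bijective B₁)
    (B₂ : Hc1N →ₗ[k] H2M →ₗ[k] k) (hB₂ : Function.Bijective B₂)
    (s : k) (hs : s ≠ 0) (swap : ∀ x x', B₁ x (f₁ x') = s * B₂ x' (f₂ x)) :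
    FiniteDimensional k (LinearMap.ker ℓ₂) ∧ FiniteDimensional k (LinearMap.ker ℓ₁) ∧
      finrank k (LinearMap.ker ℓ₂) = finrank k (LinearMap.ker ℓ₁) := sorry

end Final

/-! ### (PT-F) TRIPLES: functoriality / exactness / biduality of `M ↦ M.dualTwist χ`. -/

section Triples

variable {k G : Type u} [Field k] [Group G] (𝒰 : LevelSystem G) (χ : G →* kˣ)

/-- The transpose `φ* : M₁* → M*` of `φ : M → M₁`. -/
def dualTwistMap {M M₁ : Rep.{u} k G} (φ : M ⟶ M₁) : M₁.dualTwist χ ⟶ M.dualTwist χ := sorry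

theorem dualTwistMap_apply {M M₁ : Rep.{u} k G} (φ : M ⟶ M₁) (f : M₁.dualTwist χ) (m : M) :
    ((dualTwistMap χ φ).hom f : Module.Dual k M) m = (f : Module.Dual k M₁) (φ.hom m) := sorry

theorem dualTwistMap_id (M : Rep.{u} k G) : dualTwistMap χ (𝟙 M) = 𝟙 _ := sorry

theorem dualTwistMap_comp {M M₁ M₂ : Rep.{u} k G} (φ : M ⟶ M₁) (ψ : M₁ ⟶ M₂) :
    dualTwistMap χ (φ ≫ ψ) = dualTwistMap χ ψ ≫ dualTwistMap χ φ := sorry

/-- `M ↦ M*` is exact (over a field). -/
theorem dualTwist_shortExact (X : ShortComplex (Rep.{u} k G)) (hX : X.ShortExact) :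
    (ShortComplex.mk (dualTwistMap χ X.g) (dualTwistMap χ X.f)
      (by rw [← dualTwistMap_comp, X.zero]; sorry)).ShortExact := sorry

/-- `M*` is discrete if `M` is finite-dimensional discrete and `χ` is trivial on a level. -/
theorem isDiscrete_dualTwist (hχ : ∃ U ∈ 𝒰.sets, ∀ g ∈ U, χ g = 1) (M : Rep.{u} k G)
    [FiniteDimensional k M] [IsDiscrete 𝒰 M] : IsDiscrete 𝒰 (M.dualTwist χ) := sorry

/-- The evaluation pairing `M × M* → k(χ)`. -/
def evB (M : Rep.{u} k G) : M →ₗ[k] (M.dualTwist χ) →ₗ[k] k :=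
  (LinearMap.id : Module.Dual k M →ₗ[k] Module.Dual k M).flip

theorem evB_equivariant (M : Rep.{u} k G) (g : G) (m : M) (f : M.dualTwist χ) :
    evB χ M (M.ρ g m) ((M.dualTwist χ).ρ g f) = (χ g : k) * evB χ M m f := sorry

/-- Biduality `M ≅ M**` for finite-dimensional `M`, compatible with evaluation. -/
def ddIso (M : Rep.{u} k G) [FiniteDimensional k M] :
    M ≅ (M.dualTwist χ).dualTwist χ := sorry

theorem evB_ddIso (M : Rep.{u} k G) [FiniteDimensional k M] (m : M) (f : M.dualTwist χ) :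
    evB χ (M.dualTwist χ) f ((ddIso χ M).hom.hom m) = evB χ M m f := sorry

end Triples

end Fermat.Agent.GC.PT.Skeleton
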