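/-
GATE-C / C5 BASE-TRANSFER (helper19), part (T1): the abstract transfer lemma for paired complexes.

If `s : A ⟶ A'` and `t : B ⟶ B'` are cochain maps inducing bijections on homology in the degrees
seen by a `CPairing` (`1,2,3` for `A`, `0,1,2` for `B`) and the induced pairings on homology
correspond, then `P.Good ↔ P'.Good`.  The correspondence on homology follows from the corresponding
identity on COCYCLES (`hij_of_cocycles`).

Intended use: `A = coneC L_ℚ (coind_H^G W)`, `A' = coneC L_K W`, `s` = Shapiro (restriction to `H`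
followed by evaluation), `B = lcCochains (coind W')`, `B' = lcCochains W'`.
Mathlib + `GC/PT/Paired.lean` only.
-/
import Fermat.Agent.GC.PT.Paired

set_option autoImplicit false

open CategoryTheory

noncomputable section

namespace Fermat.Agent.GC.PT.Transfer

open Fermat.Agent.GC.Prof Fermat.Agent.GC.PT

universe u

section LinearAlgebra

variable {k : Type*} [Field k]
variable {X X' Y Y' : Type*} [AddCommGroup X] [Module k X] [AddCommGroup X'] [Module k X']
  [AddCommGroup Y] [Module k Y] [AddCommGroup Y'] [Module k Y']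

/-- transport of left-injectivity of a bilinear form (direction `β' → β`) -/
theorem injective_of_injective' (β : X →ₗ[k] Y →ₗ[k] k) (β' : X' →ₗ[k] Y' →ₗ[k] k)
    (s : X →ₗ[k] X') (t : Y →ₗ[k] Y') (hs : Function.Injective s) (ht : Function.Surjective t)
    (h : ∀ x y, β' (s x) (t y) = β x y) (h' : Function.Injective β') : Function.Injective β := by
  intro x₁ x₂ hx
  apply hs
  apply h'
  apply LinearMap.ext
  intro y'
  obtain ⟨y, rfl⟩ := ht y'
  rw [h, h, hx]

/-- transport of left-injectivity of a bilinear form (direction `β → β'`) -/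
theorem injective'_of_injective (β : X →ₗ[k] Y →ₗ[k] k) (β' : X' →ₗ[k] Y' →ₗ[k] k)
    (s : X →ₗ[k] X') (t : Y →ₗ[k] Y') (hs : Function.Surjective s)
    (h : ∀ x y, β' (s x) (t y) = β x y) (hβ : Function.Injective β) : Function.Injective β' := by
  intro x₁' x₂' hx
  obtain ⟨x₁, rfl⟩ := hs x₁'
  obtain ⟨x₂, rfl⟩ := hs x₂'
  congr 1
  apply hβ
  apply LinearMap.ext
  intro y
  rw [← h, ← h, hx]

/-- transport of left-surjectivity of a bilinear form (direction `β' → β`) -/
theorem surjective_of_surjective' (β : X →ₗ[k] Y →ₗ[k] k) (β' : X' →ₗ[k] Y' →ₗ[k] k)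
    (s : X →ₗ[k] X') (t : Y →ₗ[k] Y') (hs : Function.Surjective s) (ht : Function.Bijective t)
    (h : ∀ x y, β' (s x) (t y) = β x y) (h' : Function.Surjective β') : Function.Surjective β := by
  intro φ
  let e : Y ≃ₗ[k] Y' := LinearEquiv.ofBijective t ht
  obtain ⟨x', hx'⟩ := h' (φ.comp e.symm.toLinearMap)
  obtain ⟨x, rfl⟩ := hs x'
  refine ⟨x, ?_⟩
  apply LinearMap.ext
  intro y
  rw [← h, hx']
  change φ (e.symm (e y)) = φ y
  rw [LinearEquiv.symm_apply_apply]

/-- transport of left-surjectivity of a bilinear form (direction `β → β'`) -/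
theorem surjective'_of_surjective (β : X →ₗ[k] Y →ₗ[k] k) (β' : X' →ₗ[k] Y' →ₗ[k] k)
    (s : X →ₗ[k] X') (t : Y →ₗ[k] Y') (ht : Function.Surjective t)
    (h : ∀ x y, β' (s x) (t y) = β x y) (hβ : Function.Surjective β) : Function.Surjective β' := by
  intro φ'
  obtain ⟨x, hx⟩ := hβ (φ'.comp t)
  refine ⟨s x, ?_⟩
  apply LinearMap.ext
  intro y'
  obtain ⟨y, rfl⟩ := ht y'
  rw [h, hx]
  rfl

/-- two bilinear forms corresponding under bijections are simultaneously left-bijective -/
theorem bijective_iff (β : X →ₗ[k] Y →ₗ[k] k) (β' : X' →ₗ[k] Y' →ₗ[k] k)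
    (s : X →ₗ[k] X') (t : Y →ₗ[k] Y') (hs : Function.Bijective s) (ht : Function.Bijective t)
    (h : ∀ x y, β' (s x) (t y) = β x y) : Function.Bijective β ↔ Function.Bijective β' :=
  ⟨fun hβ => ⟨injective'_of_injective β β' s t hs.2 h hβ.1,
      surjective'_of_surjective β β' s t ht.2 h hβ.2⟩,
    fun hβ' => ⟨injective_of_injective' β β' s t hs.1 ht.2 h hβ'.1,
      surjective_of_surjective' β β' s t hs.2 ht h hβ'.2⟩⟩

/-- two bilinear forms corresponding under bijections are simultaneously left-injective -/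
theorem injective_iff (β : X →ₗ[k] Y →ₗ[k] k) (β' : X' →ₗ[k] Y' →ₗ[k] k)
    (s : X →ₗ[k] X') (t : Y →ₗ[k] Y') (hs : Function.Bijective s) (ht : Function.Surjective t)
    (h : ∀ x y, β' (s x) (t y) = β x y) : Function.Injective β ↔ Function.Injective β' :=
  ⟨fun hβ => injective'_of_injective β β' s t hs.2 h hβ,
    fun hβ' => injective_of_injective' β β' s t hs.1 ht h hβ'⟩

end LinearAlgebra

variable {k : Type u} [Field k]
variable {A B A' B' : CochainComplex (ModuleCat.{u} k) ℕ}

/-- the pairings `h₁₂` correspond as soon as the cochain-level pairings correspond on cocycles -/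
theorem h12_of_cocycles (P : CPairing A B) (P' : CPairing A' B') (s : A ⟶ A') (t : B ⟶ B')
    (h : ∀ (a : A.X 1) (b : B.X 2), A.d 1 2 a = 0 → B.d 2 3 b = 0 →
      P'.p12 (s.f 1 a) (t.f 2 b) = P.p12 a b)
    (x : A.homology 1) (y : B.homology 2) :
    P'.h12 ((HomologicalComplex.homologyMap s 1).hom x)
      ((HomologicalComplex.homologyMap t 2).hom y) = P.h12 x y := by
  obtain ⟨x, rfl⟩ := Elt.hMk_surjective A 1 x
  obtain ⟨y, rfl⟩ := Elt.hMk_surjective B 2 y
  have hx := Elt.homologyMap_hMk s 1 x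
  have hy := Elt.homologyMap_hMk t 2 y
  rw [hx, hy, CPairing.h12_mk, CPairing.h12_mk, Elt.zMap_coe, Elt.zMap_coe]
  exact h x.1 y.1 ((Elt.mem_zSub_iff A 1 x.1).1 x.2) ((Elt.mem_zSub_iff B 2 y.1).1 y.2)

/-- the pairings `h₂₁` correspond as soon as the cochain-level pairings correspond on cocycles -/
theorem h21_of_cocycles (P : CPairing A B) (P' : CPairing A' B') (s : A ⟶ A') (t : B ⟶ B')
    (h : ∀ (a : A.X 2) (b : B.X 1), A.d 2 3 a = 0 → B.d 1 2 b = 0 →
      P'.p21 (s.f 2 a) (t.f 1 b) = P.p21 a b)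
    (x : A.homology 2) (y : B.homology 1) :
    P'.h21 ((HomologicalComplex.homologyMap s 2).hom x)
      ((HomologicalComplex.homologyMap t 1).hom y) = P.h21 x y := by
  obtain ⟨x, rfl⟩ := Elt.hMk_surjective A 2 x
  obtain ⟨y, rfl⟩ := Elt.hMk_surjective B 1 y
  have hx := Elt.homologyMap_hMk s 2 x
  have hy := Elt.homologyMap_hMk t 1 y
  rw [hx, hy, CPairing.h21_mk, CPairing.h21_mk, Elt.zMap_coe, Elt.zMap_coe]
  exact h x.1 y.1 ((Elt.mem_zSub_iff A 2 x.1).1 x.2) ((Elt.mem_zSub_iff B 1 y.1).1 y.2)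

/-- the pairings `h₃₀` correspond as soon as the cochain-level pairings correspond on cocycles -/
theorem h30_of_cocycles (P : CPairing A B) (P' : CPairing A' B') (s : A ⟶ A') (t : B ⟶ B')
    (h : ∀ (a : A.X 3) (b : B.X 0), A.d 3 4 a = 0 → B.d 0 1 b = 0 →
      P'.p30 (s.f 3 a) (t.f 0 b) = P.p30 a b)
    (x : A.homology 3) (y : B.homology 0) :
    P'.h30 ((HomologicalComplex.homologyMap s 3).hom x)
      ((HomologicalComplex.homologyMap t 0).hom y) = P.h30 x y := by
  obtain ⟨x, rfl⟩ := Elt.hMk_surjective A 3 x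
  obtain ⟨y, rfl⟩ := Elt.hMk_surjective B 0 y
  have hx := Elt.homologyMap_hMk s 3 x
  have hy := Elt.homologyMap_hMk t 0 y
  rw [hx, hy, CPairing.h30_mk, CPairing.h30_mk, Elt.zMap_coe, Elt.zMap_coe]
  exact h x.1 y.1 ((Elt.mem_zSub_iff A 3 x.1).1 x.2) ((Elt.mem_zSub_iff B 0 y.1).1 y.2)

/-- (T1) TRANSFER: if `s`, `t` are bijective on homology in the relevant degrees and the pairings on
homology correspond, then the duality property transfers in both directions. -/
theorem good_iff (P : CPairing A B) (P' : CPairing A' B') (s : A ⟶ A') (t : B ⟶ B')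
    (hs1 : Function.Bijective (HomologicalComplex.homologyMap s 1).hom)
    (hs2 : Function.Bijective (HomologicalComplex.homologyMap s 2).hom)
    (hs3 : Function.Bijective (HomologicalComplex.homologyMap s 3).hom)
    (ht0 : Function.Surjective (HomologicalComplex.homologyMap t 0).hom)
    (ht1 : Function.Bijective (HomologicalComplex.homologyMap t 1).hom)
    (ht2 : Function.Bijective (HomologicalComplex.homologyMap t 2).hom)
    (h12 : ∀ x y, P'.h12 ((HomologicalComplex.homologyMap s 1).hom x)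
      ((HomologicalComplex.homologyMap t 2).hom y) = P.h12 x y)
    (h21 : ∀ x y, P'.h21 ((HomologicalComplex.homologyMap s 2).hom x)
      ((HomologicalComplex.homologyMap t 1).hom y) = P.h21 x y)
    (h30 : ∀ x y, P'.h30 ((HomologicalComplex.homologyMap s 3).hom x)
      ((HomologicalComplex.homologyMap t 0).hom y) = P.h30 x y) :
    P.Good ↔ P'.Good := by
  unfold CPairing.Good
  rw [bijective_iff P.h12 P'.h12 _ _ hs1 ht2 h12, bijective_iff P.h21 P'.h21 _ _ hs2 ht1 h21,
    injective_iff P.h30 P'.h30 _ _ hs3 ht0 h30]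

/-- (T1), cochain form: the correspondence of the pairings is only needed on cocycles. -/
theorem good_iff_of_cocycles (P : CPairing A B) (P' : CPairing A' B') (s : A ⟶ A') (t : B ⟶ B')
    (hs1 : Function.Bijective (HomologicalComplex.homologyMap s 1).hom)
    (hs2 : Function.Bijective (HomologicalComplex.homologyMap s 2).hom)
    (hs3 : Function.Bijective (HomologicalComplex.homologyMap s 3).hom)
    (ht0 : Function.Surjective (HomologicalComplex.homologyMap t 0).hom)
    (ht1 : Function.Bijective (HomologicalComplex.homologyMap t 1).hom)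
    (ht2 : Function.Bijective (HomologicalComplex.homologyMap t 2).hom)
    (h12 : ∀ (a : A.X 1) (b : B.X 2), A.d 1 2 a = 0 → B.d 2 3 b = 0 →
      P'.p12 (s.f 1 a) (t.f 2 b) = P.p12 a b)
    (h21 : ∀ (a : A.X 2) (b : B.X 1), A.d 2 3 a = 0 → B.d 1 2 b = 0 →
      P'.p21 (s.f 2 a) (t.f 1 b) = P.p21 a b)
    (h30 : ∀ (a : A.X 3) (b : B.X 0), A.d 3 4 a = 0 → B.d 0 1 b = 0 →
      P'.p30 (s.f 3 a) (t.f 0 b) = P.p30 a b) :
    P.Good ↔ P'.Good :=
  good_iff P P' s t hs1 hs2 hs3 ht0 ht1 ht2 (h12_of_cocycles P P' s t h12)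
    (h21_of_cocycles P P' s t h21) (h30_of_cocycles P P' s t h30)

end Fermat.Agent.GC.PT.Transfer
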