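/-
GATE-C / C5-X Step 2 (helper7): the unipotent devissage, as an induction principle.  Mathlib only.

`G` a group, `U ⊴ G` with `G ⧸ U` a finite `p`-group.  Every finite-dimensional `𝔽_p[G]`-module `M`
on which `U` acts trivially has a nonzero `G`-fixed vector, hence sits in a short exact sequence
`0 → 𝔽_p → M → M'' → 0` of representations with `dim M'' = dim M - 1` (and `U` still acts
trivially on `M''`).  Consequently a predicate on `Rep 𝔽_p G` that holds for the zero modules, for
the trivial module `𝔽_p`, and is closed under extensions holds for all such `M`.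

* `exists_fixed_ne_zero` : the fixed vector.
* `exists_shortExact_trivial` : the short exact sequence (the sub-object is LITERALLY
  `Rep.trivial (ZMod p) G L` for any chosen model `e : ZMod p ≃ₗ L` of the line; no iso needed).
* `unipotent_induction` : the induction principle (universe-polymorphic, line `L`).
* `unipotent_induction₀` : the same in universe `0` with the line `ZMod p` itself.
-/
import Mathlib

set_option autoImplicit false

namespace Fermat.Agent.GC.PT.Unipotent

open CategoryTheory Module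

universe w v

variable {p : ℕ} [Fact p.Prime] {G : Type v} [Group G]

/-- Concrete criterion: a short complex of representations is short exact as soon as `f` is
injective, `g` is surjective and `ker g ⊆ im f`. -/
theorem shortExact_of_concrete {k : Type*} [CommRing k]
    (S : ShortComplex (Rep.{w} k G)) (hf : Function.Injective S.f.hom)
    (hg : Function.Surjective S.g.hom)
    (hex : ∀ x : S.X₂, S.g.hom x = 0 → ∃ y : S.X₁, S.f.hom y = x) : S.ShortExact where
  exact := (forget₂ (Rep.{w} k G) (ModuleCat.{w} k)).reflects_exact_of_faithful _ <|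
    (ShortComplex.moduleCat_exact_iff _).2 fun x hx => hex x hx
  mono_f := (Rep.mono_iff_injective _).2 hf
  epi_g := (Rep.epi_iff_surjective _).2 hg

/-- A group acting through a finite `p`-group quotient on a nonzero finite-dimensional
`𝔽_p`-vector space has a nonzero fixed vector. -/
theorem exists_fixed_ne_zero (M : Rep.{w} (ZMod p) G) [Module.Finite (ZMod p) M] [Nontrivial M]
    (U : Subgroup G) [U.Normal] [Finite (G ⧸ U)] (hpG : IsPGroup p (G ⧸ U))
    (hU : ∀ u ∈ U, M.ρ u = 1) :
    ∃ v : M, v ≠ 0 ∧ ∀ g : G, M.ρ g v = v := by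
  classical
  let ρ' : G ⧸ U →* Module.End (ZMod p) M := QuotientGroup.lift U M.ρ (fun u hu => hU u hu)
  let _ : MulAction (G ⧸ U) M := MulAction.compHom M ρ'
  have hsmul : ∀ (q : G ⧸ U) (m : M), q • m = ρ' q m := fun _ _ => rfl
  have : Finite M := Module.finite_of_finite (ZMod p)
  have h1 := hpG.card_modEq_card_fixedPoints M
  have hp : p.Prime := Fact.out
  have hcard : p ∣ Nat.card M := by
    have h2 : Nat.card M = Nat.card (ZMod p) ^ finrank (ZMod p) M := Module.natCard_eq_pow_finrank
    rw [h2, Nat.card_zmod]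
    exact dvd_pow_self p (Module.finrank_pos.ne')
  have hfix : p ∣ Nat.card (MulAction.fixedPoints (G ⧸ U) M) :=
    (Nat.modEq_zero_iff_dvd.1 (h1.symm.trans (Nat.modEq_zero_iff_dvd.2 hcard)))
  have h0 : (0 : M) ∈ MulAction.fixedPoints (G ⧸ U) M := fun q => by rw [hsmul, map_zero]
  have : Nonempty (MulAction.fixedPoints (G ⧸ U) M) := ⟨⟨0, h0⟩⟩
  have hpos : 0 < Nat.card (MulAction.fixedPoints (G ⧸ U) M) := Nat.card_pos
  have hlt : 1 < Nat.card (MulAction.fixedPoints (G ⧸ U) M) :=
    lt_of_lt_of_le hp.one_lt (Nat.le_of_dvd hpos hfix)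
  have : Nontrivial (MulAction.fixedPoints (G ⧸ U) M) := Finite.one_lt_card_iff_nontrivial.1 hlt
  obtain ⟨⟨v, hv⟩, hne⟩ := exists_ne (⟨0, h0⟩ : MulAction.fixedPoints (G ⧸ U) M)
  refine ⟨v, fun h => hne (Subtype.ext h), fun g => ?_⟩
  have := hv (g : G ⧸ U)
  rw [hsmul] at this
  exact this

/-- The line spanned by a fixed vector is a subrepresentation. -/
theorem span_le_comap (M : Rep.{w} (ZMod p) G) (v : M) (hv : ∀ g : G, M.ρ g v = v) (g : G) :
    Submodule.span (ZMod p) {v} ≤ (Submodule.span (ZMod p) {v}).comap (M.ρ g) := by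
  intro x hx
  obtain ⟨c, rfl⟩ := Submodule.mem_span_singleton.1 hx
  rw [Submodule.mem_comap, map_smul, hv g]
  exact Submodule.smul_mem _ _ (Submodule.mem_span_singleton_self v)

/-- The morphism `𝔽_p ⟶ M`, `c ↦ c • v`, attached to a fixed vector `v` (the line is modelled on
any `L` with a chosen linear equivalence `e : ZMod p ≃ₗ L`). -/
noncomputable def lineHom {L : Type w} [AddCommGroup L] [Module (ZMod p) L]
    (e : ZMod p ≃ₗ[ZMod p] L) (M : Rep.{w} (ZMod p) G) (v : M) (hv : ∀ g : G, M.ρ g v = v) :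
    Rep.trivial (ZMod p) G L ⟶ M :=
  Rep.ofHom ⟨(LinearMap.toSpanSingleton (ZMod p) M v).comp e.symm.toLinearMap, fun g => by
    ext x
    simp [hv g]⟩

theorem lineHom_apply {L : Type w} [AddCommGroup L] [Module (ZMod p) L]
    (e : ZMod p ≃ₗ[ZMod p] L) (M : Rep.{w} (ZMod p) G) (v : M) (hv : ∀ g : G, M.ρ g v = v)
    (x : L) : (lineHom e M v hv).hom x = e.symm x • v := rfl

/-- **The unipotent short exact sequence.**  `M` nonzero, finite-dimensional, `U` acts trivially,
`G ⧸ U` a finite `p`-group: there is a short exact sequence `0 → 𝔽_p → M → M'' → 0` in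
`Rep (ZMod p) G` whose sub-object is literally `Rep.trivial (ZMod p) G L`, with
`finrank M'' + 1 = finrank M`, `M''` finite-dimensional and `U` acting trivially on `M''`. -/
theorem exists_shortExact_trivial {L : Type w} [AddCommGroup L] [Module (ZMod p) L]
    (e : ZMod p ≃ₗ[ZMod p] L)
    (M : Rep.{w} (ZMod p) G) [Module.Finite (ZMod p) M] [Nontrivial M]
    (U : Subgroup G) [U.Normal] [Finite (G ⧸ U)] (hpG : IsPGroup p (G ⧸ U))
    (hU : ∀ u ∈ U, M.ρ u = 1) :
    ∃ (M'' : Rep.{w} (ZMod p) G) (f : Rep.trivial (ZMod p) G L ⟶ M) (g : M ⟶ M'')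
      (hfg : f ≫ g = 0),
      (ShortComplex.mk f g hfg).ShortExact ∧ Module.Finite (ZMod p) M'' ∧
        finrank (ZMod p) M'' + 1 = finrank (ZMod p) M ∧ (∀ u ∈ U, M''.ρ u = 1) := by
  obtain ⟨v, hv0, hv⟩ := exists_fixed_ne_zero M U hpG hU
  let W : Submodule (ZMod p) M := Submodule.span (ZMod p) {v}
  have hW : ∀ g, W ≤ W.comap (M.ρ g) := span_le_comap M v hv
  have hfg : lineHom e M v hv ≫ Rep.mkQ M W hW = 0 := by
    ext x
    change (Submodule.mkQ W) (e.symm x • v) = 0
    rw [Submodule.mkQ_apply, Submodule.Quotient.mk_eq_zero]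
    exact Submodule.smul_mem _ _ (Submodule.mem_span_singleton_self v)
  refine ⟨Rep.quotient M W hW, lineHom e M v hv, Rep.mkQ M W hW, hfg, ?_, ?_, ?_, ?_⟩
  · refine shortExact_of_concrete _ ?_ ?_ ?_
    · intro x y hxy
      change e.symm x • v = e.symm y • v at hxy
      have h1 : (e.symm x - e.symm y) • v = 0 := by rw [sub_smul, hxy, sub_self]
      rcases smul_eq_zero.1 h1 with h2 | h2
      · exact e.symm.injective (sub_eq_zero.1 h2)
      · exact absurd h2 hv0
    · intro y
      obtain ⟨m, rfl⟩ := Submodule.mkQ_surjective W y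
      exact ⟨m, rfl⟩
    · intro m hm
      change (Submodule.mkQ W) m = 0 at hm
      rw [Submodule.mkQ_apply, Submodule.Quotient.mk_eq_zero] at hm
      obtain ⟨c, rfl⟩ := Submodule.mem_span_singleton.1 hm
      refine ⟨e c, ?_⟩
      change e.symm (e c) • v = c • v
      rw [LinearEquiv.symm_apply_apply]
  · change Module.Finite (ZMod p) (M ⧸ W)
    infer_instance
  · change finrank (ZMod p) (M ⧸ W) + 1 = finrank (ZMod p) M
    have h1 := Submodule.finrank_quotient_add_finrank W
    have h2 : finrank (ZMod p) W = 1 := finrank_span_singleton hv0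
    rw [h2] at h1
    exact h1
  · intro u hu
    change (M.ρ.quotient W hW) u = 1
    ext x
    simp [hU u hu]

/-- **Unipotent induction** (C5-X Step 2).  A predicate on `Rep (ZMod p) G` that holds for zero
modules and for the trivial line, and passes to the middle term of short exact sequences of
finite-dimensional modules killed by `U`, holds for every finite-dimensional module killed by `U`,
provided `G ⧸ U` is a finite `p`-group. -/
theorem unipotent_induction {L : Type w} [AddCommGroup L] [Module (ZMod p) L]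
    (e : ZMod p ≃ₗ[ZMod p] L)
    (U : Subgroup G) [U.Normal] [Finite (G ⧸ U)] (hpG : IsPGroup p (G ⧸ U))
    (P : Rep.{w} (ZMod p) G → Prop)
    (hzero : ∀ M : Rep.{w} (ZMod p) G, Subsingleton M → P M)
    (htriv : P (Rep.trivial (ZMod p) G L))
    (hext : ∀ X : ShortComplex (Rep.{w} (ZMod p) G), X.ShortExact →
      Module.Finite (ZMod p) X.X₁ → Module.Finite (ZMod p) X.X₂ → Module.Finite (ZMod p) X.X₃ →
      (∀ u ∈ U, X.X₁.ρ u = 1) → (∀ u ∈ U, X.X₂.ρ u = 1) → (∀ u ∈ U, X.X₃.ρ u = 1) →
      P X.X₁ → P X.X₃ → P X.X₂)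
    (M : Rep.{w} (ZMod p) G) [Module.Finite (ZMod p) M] (hU : ∀ u ∈ U, M.ρ u = 1) : P M := by
  suffices H : ∀ (n : ℕ) (M : Rep.{w} (ZMod p) G), Module.Finite (ZMod p) M →
      (∀ u ∈ U, M.ρ u = 1) → finrank (ZMod p) M = n → P M from
    H _ M inferInstance hU rfl
  intro n
  induction n with
  | zero =>
    intro M hfin _ hn
    exact hzero M (Module.finrank_zero_iff.1 hn)
  | succ n ih =>
    intro M hfin hU hn
    have : Nontrivial M := Module.nontrivial_of_finrank_pos (R := ZMod p) (by omega)
    obtain ⟨M'', f, g, hfg, hex, hfin'', hrank, hU''⟩ := exists_shortExact_trivial e M U hpG hU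
    have hLfin : Module.Finite (ZMod p) L := Module.Finite.equiv e
    refine hext (ShortComplex.mk f g hfg) hex hLfin hfin hfin'' (fun u _ => rfl) hU hU'' htriv ?_
    exact ih M'' hfin'' hU'' (by omega)

/-- Universe-`0` form of `unipotent_induction` with the line `ZMod p` itself. -/
theorem unipotent_induction₀
    (U : Subgroup G) [U.Normal] [Finite (G ⧸ U)] (hpG : IsPGroup p (G ⧸ U))
    (P : Rep.{0} (ZMod p) G → Prop)
    (hzero : ∀ M : Rep.{0} (ZMod p) G, Subsingleton M → P M)
    (htriv : P (Rep.trivial (ZMod p) G (ZMod p)))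
    (hext : ∀ X : ShortComplex (Rep.{0} (ZMod p) G), X.ShortExact →
      Module.Finite (ZMod p) X.X₁ → Module.Finite (ZMod p) X.X₂ → Module.Finite (ZMod p) X.X₃ →
      (∀ u ∈ U, X.X₁.ρ u = 1) → (∀ u ∈ U, X.X₂.ρ u = 1) → (∀ u ∈ U, X.X₃.ρ u = 1) →
      P X.X₁ → P X.X₃ → P X.X₂)
    (M : Rep.{0} (ZMod p) G) [Module.Finite (ZMod p) M] (hU : ∀ u ∈ U, M.ρ u = 1) : P M :=
  unipotent_induction (LinearEquiv.refl (ZMod p) (ZMod p)) U hpG P hzero htriv hext M hU

end Fermat.Agent.GC.PT.Unipotent
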